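import Mathlib
import Fermat.Prelude.Def_ModularCurve_ReductionModL
import Fermat.Prelude.Def_ModularCurve_HeckeModule
import Fermat.Prelude.Def_AlgebraicCurve_Repartitions

/-!
# Team JRED: interface (definitions only)

`K = ℚ̄`, `F = F_N = modularFunctionFieldBar N`, `A` a valuation ring of `ℚ̄` above `ℓ ∤ N`,
`π : A →+* k` surjective onto a field (in the end `k = ResidueField A`; keep `k` abstract in all
proofs, instance search on `ResidueField A` is very slow), `F' = F̄_N = modularFunctionFieldFullC k N`.
-/

set_option autoImplicit false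

noncomputable section

open AlgebraicCurve ModularCurve IsLocalRing IntermediateField

namespace Fermat.Agent.JRED

section Abstract

variable {K k : Type*} [Field K] [Field k]

/-- A Deuring constant reduction of the function field `F / K` to `F' / k`, above the valuation
ring `A` of `K` with residue map `π : A → k`. `O` is the (Gauss) valuation ring of `F`. -/
structure ConstRed (A : ValuationSubring K) (π : A →+* k) (F F' : Type*) [Field F] [Field F']
    [Algebra K F] [Algebra k F'] where
  O : ValuationSubring F
  res : O →+* F'
  res_surjective : Function.Surjective res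
  algebraMap_mem : ∀ a : A, algebraMap K F a ∈ O
  res_algebraMap : ∀ a : A, res ⟨algebraMap K F a, algebraMap_mem a⟩ = algebraMap k F' (π a)
  /-- same value group -/
  exists_unit : ∀ f : F, f ≠ 0 → ∃ c : K, c ≠ 0 ∧ ∃ h : algebraMap K F c * f ∈ O,
    res ⟨algebraMap K F c * f, h⟩ ≠ 0
  /-- finite dimensional subspaces have orthonormal bases -/
  exists_basis : ∀ V : Submodule K F, Module.Finite K V →
    ∃ b : Fin (Module.finrank K V) → F, (∀ i, b i ∈ V) ∧
      ∃ h : ∀ i, b i ∈ O, LinearIndependent k fun i => res ⟨b i, h i⟩

variable {A : ValuationSubring K} {π : A →+* k} {F F' : Type*} [Field F] [Field F']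
    [Algebra K F] [Algebra k F']

/-- The place map `r` is compatible with divisors of functions that are units for the
Gauss valuation. -/
def ConstRed.IsPlaceMap (C : ConstRed A π F F') (r : Place K F → Place k F') : Prop :=
  ∀ f : C.O, C.res f ≠ 0 → ∀ D : Divisor K F, (∀ P, D P = P.ord (f : F)) →
    ∀ Q, Finsupp.mapDomain r D Q = Q.ord (C.res f)

end Abstract

section Modular

variable (N : ℕ) {A : ValuationSubring (AlgebraicClosure ℚ)} {k : Type} [Field k] (π : A →+* k)

/-- `j` as an element of `F_N`. -/
def jBar (N : ℕ) : modularFunctionFieldBar N :=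
  ⟨coeffEmb (AlgebraicClosure ℚ) jq,
    coeffEmb_mem_laurentBaseChange _ (by simpa [qExpand_one_apply] using jqd_mem_full N (one_dvd N))⟩

/-- `j mod ℓ` as an element of `F̄_N`. -/
def jRed (k : Type*) [Field k] (N : ℕ) : modularFunctionFieldFullC k N :=
  ⟨jqModC k, jqModC_mem_full k N⟩

/-- (J1) `[F_N : ℚ̄(j)] ≤ [F̄_N : k(j)]`, the former finite (in fact both equal `ψ(N)`). -/
def DegreeInput (N : ℕ) (k : Type) [Field k] : Prop :=
  FiniteDimensional (AlgebraicClosure ℚ)⟮jBar N⟯ (modularFunctionFieldBar N) ∧
    Module.finrank (AlgebraicClosure ℚ)⟮jBar N⟯ (modularFunctionFieldBar N) ≤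
      Module.finrank k⟮jRed k N⟯ (modularFunctionFieldFullC k N)

/-- The concrete constant reduction of `X₀(N)`, compatible with `q`-expansions. -/
structure ModularConstRed where
  C : ConstRed A π (modularFunctionFieldBar N) (modularFunctionFieldFullC k N)
  /-- `C.O` = quotients of `A`-integral Laurent series whose denominator is nonzero mod `m_A`. -/
  mem_O_iff : ∀ f : modularFunctionFieldBar N, f ∈ C.O ↔ ∃ a b : LaurentSeries A,
    coeffMap π b ≠ 0 ∧
      (f : LaurentSeries (AlgebraicClosure ℚ)) * coeffMap A.subtype b = coeffMap A.subtype a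
  /-- the residue map is reduction of `q`-expansions -/
  res_eq : ∀ (f : C.O) (a b : LaurentSeries A), coeffMap π b ≠ 0 →
    ((f : modularFunctionFieldBar N) : LaurentSeries (AlgebraicClosure ℚ)) *
      coeffMap A.subtype b = coeffMap A.subtype a →
    (C.res f : LaurentSeries k) * coeffMap π b = coeffMap π a

/-- (J2) good reduction of `X₀(N)` at `A`, in genus form. -/
def GoodReduction (N : ℕ) (k : Type) [Field k] : Prop :=
  genusFF (AlgebraicClosure ℚ) (modularFunctionFieldBar N) =
    genusFF k (modularFunctionFieldFullC k N)

end Modular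

end Fermat.Agent.JRED
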