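import Mathlib
import Fermat.Agent.JRED.Interface
import Fermat.Agent.RR.Corollaries

/-!
# Agreement lemma and the reduction map on divisor classes

* `agreement`: an additive map `d : Div F → ℤ` that kills the divisors of a set of functions
  containing a constant multiple of every function and is bounded below on places, vanishes on
  divisors of degree `0`.
* `redHom`: the map `Pic⁰ F → Div F' / principal` attached to a place map `r`.
* `smul_agree`, `hecke_agree`: semilinear automorphisms and correspondences commute with `r_*` on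
  divisors of degree zero as soon as they do on divisors of functions.
-/

set_option autoImplicit false
set_option linter.unusedSectionVars false

noncomputable section

open AlgebraicCurve Fermat.Agent.RR

namespace Fermat.Agent.JRED.ESAbstract

variable {K F : Type*} [Field K] [Field F] [Algebra K F]

section Agreement

variable [IsAlgClosed K] [FunctionField K F]

/-- An additive function on divisors, bounded below on places, is bounded below on effective
divisors by its degree. -/
theorem bound_of_effective (d : Divisor K F →+ ℤ) {M : ℤ}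
    (hM : ∀ P : Place K F, -M ≤ d (Finsupp.single P 1)) {D : Divisor K F} (hD : 0 ≤ D) :
    -M * Divisor.degree D ≤ d D := by
  have h1 : d D = D.sum fun P n => n * d (Finsupp.single P 1) := by
    conv_lhs => rw [← Finsupp.sum_single D]
    rw [Finsupp.sum, map_sum, Finsupp.sum]
    refine Finset.sum_congr rfl fun P _ => ?_
    rw [show Finsupp.single P (D P) = (D P) • Finsupp.single P (1 : ℤ) by
      rw [Finsupp.smul_single, smul_eq_mul, mul_one], map_zsmul, smul_eq_mul]
  rw [h1, degree_eq_sum, Finsupp.sum, Finsupp.sum, Finset.mul_sum]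
  refine Finset.sum_le_sum fun P _ => ?_
  have h2 : 0 ≤ D P := hD P
  nlinarith [mul_le_mul_of_nonneg_left (hM P) h2]

/-- **Agreement lemma.** -/
theorem agreement (d : Divisor K F →+ ℤ) {M : ℤ}
    (hM : ∀ P : Place K F, -M ≤ d (Finsupp.single P 1))
    (hprin : ∀ f : F, f ≠ 0 → d (divOf f) = 0)
    {D : Divisor K F} (hD : Divisor.degree D = 0) : d D = 0 := by
  obtain ⟨P₀⟩ := exists_place (K := K) (F := F)
  obtain ⟨g, hg⟩ : ∃ g : ℤ, g = ((genusFF K F : ℕ) : ℤ) := ⟨_, rfl⟩
  -- lower bound for all multiples
  have key : ∀ n : ℤ, -M * g - d (Finsupp.single P₀ g) ≤ n * d D := by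
    intro n
    have h1 : (genusFF K F : ℤ) ≤ Divisor.degree (n • D + Finsupp.single P₀ g) := by
      rw [map_add, map_zsmul, hD, smul_zero, zero_add, degree_single_one, hg]
    obtain ⟨f, hf, h2⟩ := exists_effective h1
    have h3 := bound_of_effective d hM h2
    rw [map_add, map_add, map_add, map_add, hprin f hf, add_zero, degree_divOf, add_zero,
      map_zsmul, map_zsmul, hD, smul_zero, zero_add, degree_single_one, smul_eq_mul] at h3
    linarith
  by_contra hne
  set C : ℤ := -M * g - d (Finsupp.single P₀ g) with hC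
  rcases lt_or_gt_of_ne hne with h | h
  · have h1 := key (|C| + 1)
    have h2 : -|C| ≤ C := neg_abs_le C
    have h3 : 0 ≤ |C| := abs_nonneg C
    nlinarith
  · have h1 := key (-(|C| + 1))
    have h2 : -|C| ≤ C := neg_abs_le C
    have h3 : 0 ≤ |C| := abs_nonneg C
    nlinarith

end Agreement

section Reduction

variable {k F' : Type*} [Field k] [Field F'] [Algebra k F']
variable {A : ValuationSubring K} {π : A →+* k}

/-- Every function is, up to a constant, a unit for the Gauss valuation. -/
theorem exists_unit_ord (C : ConstRed A π F F') {f : F} (hf : f ≠ 0) :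
    ∃ h : C.O, C.res h ≠ 0 ∧ ∀ P : Place K F, P.ord (h : F) = P.ord f := by
  obtain ⟨c, hc, h, hres⟩ := C.exists_unit f hf
  refine ⟨⟨_, h⟩, hres, fun P => ?_⟩
  show P.ord (algebraMap K F c * f) = _
  rw [P.ord_mul (by simpa using hc) hf, Fermat.Agent.RR.ord_algebraMap, zero_add]

theorem mapDomain_single_one (r : Place K F → Place k F') (P : Place K F) :
    Finsupp.mapDomain r (Finsupp.single P (1 : ℤ)) = Finsupp.single (r P) 1 :=
  Finsupp.mapDomain_single

/-- `r_*` sends principal divisors to principal divisors. -/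
theorem mapDomain_mem_principal (C : ConstRed A π F F') {r : Place K F → Place k F'}
    (hr : C.IsPlaceMap r) {D : Divisor K F} (hD : D ∈ Divisor.principal (K := K) (F := F)) :
    Finsupp.mapDomain r D ∈ Divisor.principal (K := k) (F := F') := by
  obtain ⟨f, hf, hD⟩ := hD
  obtain ⟨h, hres, hord⟩ := exists_unit_ord C hf
  exact ⟨C.res h, hres, hr h hres D fun P => by rw [hD, hord]⟩

/-- The map `Pic⁰ F → Div F' / principal` induced by the place map `r`. -/
def redHom (C : ConstRed A π F F') (r : Place K F → Place k F') (hr : C.IsPlaceMap r) :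
    Pic0 K F →+ (Divisor k F' ⧸ Divisor.principal (K := k) (F := F')) :=
  QuotientAddGroup.lift _
    ((QuotientAddGroup.mk' (Divisor.principal (K := k) (F := F'))).comp
      ((Finsupp.mapDomain.addMonoidHom r).comp (Divisor.degZero (K := K) (F := F)).subtype)) (by
    rintro ⟨D, hD0⟩ hD
    rw [AddSubgroup.mem_addSubgroupOf] at hD
    exact (QuotientAddGroup.eq_zero_iff _).mpr (mapDomain_mem_principal C hr hD))

theorem redHom_mk (C : ConstRed A π F F') (r : Place K F → Place k F') (hr : C.IsPlaceMap r)
    (D : Divisor.degZero (K := K) (F := F)) :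
    redHom C r hr (Pic0.mk D) =
      QuotientAddGroup.mk (Finsupp.mapDomain r (D : Divisor K F)) := rfl

theorem redHom_mk_eq_zero_iff (C : ConstRed A π F F') (r : Place K F → Place k F')
    (hr : C.IsPlaceMap r) (D : Divisor.degZero (K := K) (F := F)) :
    redHom C r hr (Pic0.mk D) = 0 ↔
      Finsupp.mapDomain r (D : Divisor K F) ∈ Divisor.principal (K := k) (F := F') := by
  rw [redHom_mk]
  exact QuotientAddGroup.eq_zero_iff _

variable [IsAlgClosed K] [FunctionField K F]

/-- **Agreement on degree zero divisors**, vector version: an additive map `S : Div F → Div F'`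
that kills the divisors of the functions `f ∈ C.O` with `res f ≠ 0` and is bounded below on places
vanishes on divisors of degree zero. -/
theorem agreement_div (C : ConstRed A π F F') (S : Divisor K F →+ Divisor k F') {M : ℤ}
    (hM : ∀ (P : Place K F) (Q : Place k F'), -M ≤ S (Finsupp.single P 1) Q)
    (hS : ∀ f : C.O, C.res f ≠ 0 → ∀ D : Divisor K F, (∀ P, D P = P.ord (f : F)) → S D = 0)
    {D : Divisor K F} (hD : Divisor.degree D = 0) : S D = 0 := by
  ext Q
  refine agreement ((Finsupp.applyAddHom Q).comp S) (fun P => hM P Q) ?_ hD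
  intro f hf
  obtain ⟨h, hres, hord⟩ := exists_unit_ord C hf
  show S (divOf f) Q = 0
  rw [hS h hres _ fun P => by rw [divOf_apply, hord]]
  rfl

/-- **Semilinear automorphisms commute with `r_*`** on divisors of degree zero. -/
theorem smul_agree (C : ConstRed A π F F') {r : Place K F → Place k F'} (hr : C.IsPlaceMap r)
    (g : SemilinearAut K F) (g' : SemilinearAut k F')
    (hg : ∀ f : C.O, ∃ h : g • (f : F) ∈ C.O, C.res ⟨g • (f : F), h⟩ = g' • C.res f)
    {D : Divisor K F} (hD : Divisor.degree D = 0) :
    Finsupp.mapDomain r (g • D) = g' • Finsupp.mapDomain r D := by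
  let S : Divisor K F →+ Divisor k F' :=
    (Finsupp.mapDomain.addMonoidHom r).comp (DistribSMul.toAddMonoidHom (Divisor K F) g) -
      (DistribSMul.toAddMonoidHom (Divisor k F') g').comp (Finsupp.mapDomain.addMonoidHom r)
  have hSapp : ∀ D, S D = Finsupp.mapDomain r (g • D) - g' • Finsupp.mapDomain r D := fun D => rfl
  rw [← sub_eq_zero, ← hSapp]
  classical
  refine agreement_div (M := 1) C S ?_ ?_ hD
  · intro P Q
    rw [hSapp, SemilinearAut.smul_single, mapDomain_single_one, mapDomain_single_one,
      SemilinearAut.smul_single, Finsupp.sub_apply, Finsupp.single_apply, Finsupp.single_apply]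
    split_ifs <;> norm_num
  · intro f hf D hD
    obtain ⟨hO, hres⟩ := hg f
    rw [hSapp, sub_eq_zero]
    have hne : C.res ⟨g • (f : F), hO⟩ ≠ 0 := by
      rw [hres]
      intro h0
      apply hf
      rw [SemilinearAut.smul_def] at h0
      exact (map_eq_zero_iff _ (SemilinearAut.toRingAut g').injective).mp h0
    ext Q
    rw [hr ⟨g • (f : F), hO⟩ hne (g • D) ?_ Q, hres, SemilinearAut.divisor_smul_apply,
      hr f hf D hD]
    · have h := SemilinearAut.ord_smul g' (g'⁻¹ • Q) (C.res f)
      rw [smul_inv_smul] at h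
      exact h
    · intro P
      rw [SemilinearAut.divisor_smul_apply, hD]
      have h := SemilinearAut.ord_smul g (g⁻¹ • P) (f : F)
      rw [smul_inv_smul] at h
      exact h.symm

/-- **Correspondences commute with `r_*`** on divisors of degree zero. -/
theorem corr_agree (C : ConstRed A π F F') {r : Place K F → Place k F'}
    (T : Divisor K F →+ Divisor K F) (hT : ∀ P : Place K F, 0 ≤ T (Finsupp.single P 1))
    (T' : Divisor k F' →+ Divisor k F') {M : ℤ}
    (hT' : ∀ (P : Place K F) (Q : Place k F'), T' (Finsupp.single (r P) 1) Q ≤ M)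
    (H : ∀ f : C.O, C.res f ≠ 0 → ∀ D : Divisor K F, (∀ P, D P = P.ord (f : F)) →
      Finsupp.mapDomain r (T D) = T' (Finsupp.mapDomain r D))
    {D : Divisor K F} (hD : Divisor.degree D = 0) :
    Finsupp.mapDomain r (T D) = T' (Finsupp.mapDomain r D) := by
  let S : Divisor K F →+ Divisor k F' :=
    (Finsupp.mapDomain.addMonoidHom r).comp T - T'.comp (Finsupp.mapDomain.addMonoidHom r)
  have hSapp : ∀ D, S D = Finsupp.mapDomain r (T D) - T' (Finsupp.mapDomain r D) := fun D => rfl
  rw [← sub_eq_zero, ← hSapp]
  classical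
  refine agreement_div (M := M) C S ?_ ?_ hD
  · intro P Q
    rw [hSapp, mapDomain_single_one, Finsupp.sub_apply]
    have h1 := hT' P Q
    have h2 : 0 ≤ Finsupp.mapDomain r (T (Finsupp.single P 1)) Q := by
      rw [Finsupp.mapDomain, Finsupp.sum, Finsupp.finsetSum_apply]
      refine Finset.sum_nonneg fun P' _ => ?_
      have h3 : 0 ≤ T (Finsupp.single P 1) P' := hT P P'
      rw [Finsupp.single_apply]
      split_ifs
      · exact h3
      · exact le_rfl
    linarith
  · intro f hf D hD
    rw [hSapp, H f hf D hD, sub_self]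

/-- The divisor map `φ + ℓ φ⁻¹` attached to a semilinear automorphism. -/
def eichlerShimuraDiv (g' : SemilinearAut k F') (ℓ : ℕ) : Divisor k F' →+ Divisor k F' :=
  DistribSMul.toAddMonoidHom (Divisor k F') g' +
    ℓ • DistribSMul.toAddMonoidHom (Divisor k F') g'⁻¹

omit [IsAlgClosed K] [FunctionField K F] in
theorem eichlerShimuraDiv_apply (g' : SemilinearAut k F') (ℓ : ℕ) (D : Divisor k F') :
    eichlerShimuraDiv g' ℓ D = g' • D + ℓ • (g'⁻¹ • D) := rfl

omit [IsAlgClosed K] [FunctionField K F] in
theorem eichlerShimuraDiv_single_le (g' : SemilinearAut k F') (ℓ : ℕ) (P Q : Place k F') :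
    eichlerShimuraDiv g' ℓ (Finsupp.single P 1) Q ≤ 1 + ℓ := by
  classical
  rw [eichlerShimuraDiv_apply, SemilinearAut.smul_single, SemilinearAut.smul_single,
    Finsupp.add_apply, Finsupp.smul_apply, Finsupp.single_apply, Finsupp.single_apply]
  have : (0 : ℤ) ≤ ℓ := Int.natCast_nonneg ℓ
  split_ifs <;> simp <;> linarith

/-- **Abstract Eichler–Shimura congruence** on divisors of degree zero, from the identity
`r_* T (div f) = (φ + ℓ φ⁻¹) (div (res f))` for functions. -/
theorem hecke_agree (C : ConstRed A π F F') {r : Place K F → Place k F'} (hr : C.IsPlaceMap r)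
    (T : Divisor K F →+ Divisor K F) (hT : ∀ P : Place K F, 0 ≤ T (Finsupp.single P 1))
    (g' : SemilinearAut k F') (ℓ : ℕ)
    (H : ∀ f : C.O, C.res f ≠ 0 → ∃ h : C.O, C.res h ≠ 0 ∧
      (∀ D : Divisor K F, (∀ P, D P = P.ord (f : F)) → ∀ P, T D P = P.ord (h : F)) ∧
      ∀ Q : Place k F', Q.ord (C.res h) =
        Q.ord (g' • C.res f) + ℓ * Q.ord (g'⁻¹ • C.res f))
    {D : Divisor K F} (hD : Divisor.degree D = 0) :
    Finsupp.mapDomain r (T D) =
      g' • Finsupp.mapDomain r D + ℓ • (g'⁻¹ • Finsupp.mapDomain r D) := by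
  rw [← eichlerShimuraDiv_apply]
  refine corr_agree (M := 1 + ℓ) C T hT (eichlerShimuraDiv g' ℓ)
    (fun P Q => eichlerShimuraDiv_single_le g' ℓ (r P) Q) ?_ hD
  intro f hf D hD
  obtain ⟨h, hres, hTD, hord⟩ := H f hf
  ext Q
  rw [hr h hres (T D) (hTD D hD) Q, hord, eichlerShimuraDiv_apply, Finsupp.add_apply,
    Finsupp.smul_apply, SemilinearAut.divisor_smul_apply, SemilinearAut.divisor_smul_apply,
    hr f hf D hD, hr f hf D hD, nsmul_eq_mul, inv_inv]
  have h1 := SemilinearAut.ord_smul g' (g'⁻¹ • Q) (C.res f)
  have h2 := SemilinearAut.ord_smul g'⁻¹ (g' • Q) (C.res f)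
  rw [smul_inv_smul] at h1
  rw [inv_smul_smul] at h2
  rw [h1, h2]

end Reduction

end Fermat.Agent.JRED.ESAbstract
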