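import Mathlib
import Fermat.Prelude.Def_ModularCurve_X0ModL
import Fermat.Prelude.Def_AlgebraicCurve_BaseChangeGalois

/-!
# Semilinear automorphisms of `F̄_N = modularFunctionFieldFullC k N`

A ring automorphism `τ` of `k` acts on `F̄_N ⊆ k((q))` coefficientwise (the generators
`j(q^d)` have coefficients in the prime ring).
-/

set_option autoImplicit false

noncomputable section

open AlgebraicCurve ModularCurve

namespace Fermat.Agent.JRED.ESSemi

section General

variable {k k' : Type*} [Field k] [Field k'] (N : ℕ)

/-- Coefficient maps preserve the modular function fields. -/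
theorem coeffMap_mem (τ : k →+* k') {x : LaurentSeries k}
    (hx : x ∈ modularFunctionFieldFullC k N) :
    coeffMap τ x ∈ modularFunctionFieldFullC k' N := by
  have hx' : x ∈ Subfield.closure
      (Set.range (algebraMap k (LaurentSeries k)) ∪ divisorExpansionsC k N) := hx
  clear hx
  induction hx' using Subfield.closure_induction with
  | mem y hy =>
      rcases hy with ⟨a, rfl⟩ | ⟨d, hd, hdN, rfl⟩
      · rw [algebraMap_laurentSeries_eq_single, coeffMap_single,
          ← algebraMap_laurentSeries_eq_single]
        exact (modularFunctionFieldFullC k' N).algebraMap_mem _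
      · rw [coeffMap_qExpand, coeffMap_jqModC]
        exact jqModCd_mem_full k' N hdN
  | one => simp
  | add x y _ _ hx hy => simpa using add_mem hx hy
  | neg x _ hx => simpa using neg_mem hx
  | inv x _ hx => simpa using inv_mem hx
  | mul x y _ _ hx hy => simpa using mul_mem hx hy

end General

variable {k : Type*} [Field k] (N : ℕ)

/-- The action of a ring automorphism of `k` on `F̄_N`. -/
def coeffRingAut (τ : k ≃+* k) :
    modularFunctionFieldFullC k N ≃+* modularFunctionFieldFullC k N where
  toFun x := ⟨coeffMap (τ : k →+* k) (x : LaurentSeries k), coeffMap_mem N _ x.2⟩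
  invFun x := ⟨coeffMap (τ.symm : k →+* k) (x : LaurentSeries k), coeffMap_mem N _ x.2⟩
  left_inv x := Subtype.ext <| by
    show coeffMap (τ.symm : k →+* k) (coeffMap (τ : k →+* k) (x : LaurentSeries k)) = x
    rw [coeffMap_coeffMap,
      coeffMap_congr (g := RingHom.id k) (RingHom.ext fun a => τ.symm_apply_apply a)
        (x : LaurentSeries k), coeffMap_id]
  right_inv x := Subtype.ext <| by
    show coeffMap (τ : k →+* k) (coeffMap (τ.symm : k →+* k) (x : LaurentSeries k)) = x
    rw [coeffMap_coeffMap,
      coeffMap_congr (g := RingHom.id k) (RingHom.ext fun a => τ.apply_symm_apply a)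
        (x : LaurentSeries k), coeffMap_id]
  map_mul' x y :=
    Subtype.ext (map_mul (coeffMap (τ : k →+* k)) (x : LaurentSeries k) (y : LaurentSeries k))
  map_add' x y :=
    Subtype.ext (map_add (coeffMap (τ : k →+* k)) (x : LaurentSeries k) (y : LaurentSeries k))

@[simp]
theorem coe_coeffRingAut (τ : k ≃+* k) (x : modularFunctionFieldFullC k N) :
    (coeffRingAut N τ x : LaurentSeries k) = coeffMap (τ : k →+* k) (x : LaurentSeries k) := rfl

@[simp]
theorem coe_coeffRingAut_symm (τ : k ≃+* k) (x : modularFunctionFieldFullC k N) :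
    ((coeffRingAut N τ).symm x : LaurentSeries k)
      = coeffMap (τ.symm : k →+* k) (x : LaurentSeries k) := rfl

theorem coeffRingAut_algebraMap (τ : k ≃+* k) (a : k) :
    coeffRingAut N τ (algebraMap k (modularFunctionFieldFullC k N) a)
      = algebraMap k (modularFunctionFieldFullC k N) (τ a) :=
  Subtype.ext (coeffMap_algebraMap (τ : k →+* k) a)

/-- The coefficientwise action of `Aut k` on `F̄_N` by semilinear automorphisms. -/
def coeffSemi : (k ≃+* k) →* SemilinearAut k (modularFunctionFieldFullC k N) where
  toFun τ := ⟨(coeffRingAut N τ, τ), fun a => coeffRingAut_algebraMap N τ a⟩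
  map_one' := by
    refine Subtype.ext (Prod.ext (RingEquiv.ext fun x => Subtype.ext ?_) rfl)
    show coeffMap ((1 : k ≃+* k) : k →+* k) (x : LaurentSeries k) = (x : LaurentSeries k)
    rw [show ((1 : k ≃+* k) : k →+* k) = RingHom.id k from RingHom.ext fun _ => rfl,
      coeffMap_id]
  map_mul' σ τ := by
    refine Subtype.ext (Prod.ext (RingEquiv.ext fun x => Subtype.ext ?_) rfl)
    show coeffMap ((σ * τ : k ≃+* k) : k →+* k) (x : LaurentSeries k)
      = coeffMap (σ : k →+* k) (coeffMap (τ : k →+* k) (x : LaurentSeries k))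
    rw [coeffMap_coeffMap]
    exact coeffMap_congr (RingHom.ext fun _ => rfl) _

@[simp]
theorem toRingAut_coeffSemi (τ : k ≃+* k) :
    SemilinearAut.toRingAut (coeffSemi N τ) = coeffRingAut N τ := rfl

theorem coe_coeffSemi_smul (τ : k ≃+* k) (x : modularFunctionFieldFullC k N) :
    ((coeffSemi N τ • x : modularFunctionFieldFullC k N) : LaurentSeries k)
      = coeffMap (τ : k →+* k) (x : LaurentSeries k) := rfl

theorem coe_coeffSemi_inv_smul (τ : k ≃+* k) (x : modularFunctionFieldFullC k N) :
    (((coeffSemi N τ)⁻¹ • x : modularFunctionFieldFullC k N) : LaurentSeries k)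
      = coeffMap (τ.symm : k →+* k) (x : LaurentSeries k) := rfl

/-- Two elements of `Aut k` which agree act in the same way. -/
theorem coeffSemi_eq_one {τ : k ≃+* k} (h : ∀ a, τ a = a) : coeffSemi N τ = 1 := by
  have : τ = 1 := RingEquiv.ext h
  rw [this, map_one]

end Fermat.Agent.JRED.ESSemi
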