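import Fermat.Agent.JRED.TorsionInj
import Fermat.Agent.JRED.Interface
import Fermat.Agent.RR.Duality

set_option autoImplicit false

/-!
# Torsion injectivity for Deuring constant reductions of equal genus
-/

noncomputable section

open AlgebraicCurve WithZero Fermat.FF IntermediateField

namespace Fermat.Agent.JRED

section FunctionFieldLemmas

variable {K F : Type*} [Field K] [Field F] [Algebra K F]

theorem isFF1_of_functionField [RR.FunctionField K F] : IsFF1 K F :=
  ⟨RR.FunctionField.exists_finite⟩

variable [IsAlgClosed K] [RR.FunctionField K F]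

theorem infinite_place : Infinite (Place K F) := by
  classical
  by_contra hinf
  rw [not_infinite_iff_finite] at hinf
  have := Fintype.ofFinite (Place K F)
  choose t ht using fun v : Place K F => RR.exists_ord_eq_one v
  obtain ⟨f, hf⟩ := RR.weak_approximation (Finset.univ : Finset (Place K F)) t 2
  have hord : ∀ v : Place K F, v.ord f = 1 := by
    intro v
    have h1 := hf v (Finset.mem_univ v)
    have ht0 : t v ≠ 0 := ne_zero_of_ord_ne_zero v (by rw [ht]; norm_num)
    rcases h1 with h1 | h1
    · rw [sub_eq_zero.mp h1, ht]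
    · by_cases h2 : f - t v = 0
      · rw [sub_eq_zero.mp h2, ht]
      · have h3 : f = t v + (f - t v) := by ring
        rw [h3, ord_add_of_lt v ht0 h2 (by rw [ht]; omega), ht]
  obtain ⟨v⟩ := RR.FunctionField.nonempty_place (K := K) (F := F)
  have h1 := RR.degree_divOf (K := K) f
  rw [RR.degree_eq_sum] at h1
  have h2 : (RR.divOf (K := K) f).sum (fun _ n => n) = Fintype.card (Place K F) := by
    rw [Finsupp.sum]
    have : (RR.divOf (K := K) f).support = Finset.univ := by
      ext w
      simp [hord]
    rw [this]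
    simp [hord]
  rw [h2] at h1
  have : 0 < Fintype.card (Place K F) := Fintype.card_pos_iff.mpr ⟨v⟩
  omega

/-- The reduced divisor of a finite set of places. -/
def sumPlaces (T : Finset (Place K F)) : Divisor K F := ∑ Q ∈ T, Finsupp.single Q (1 : ℤ)

omit [IsAlgClosed K] [RR.FunctionField K F] in
theorem sumPlaces_apply [DecidableEq (Place K F)] (T : Finset (Place K F)) (Q : Place K F) :
    sumPlaces T Q = if Q ∈ T then 1 else 0 := by
  rw [sumPlaces, Finsupp.finsetSum_apply]
  simp only [Finsupp.single_apply]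
  rw [Finset.sum_ite_eq' T Q (fun _ => (1 : ℤ))]

theorem degree_sumPlaces (T : Finset (Place K F)) : Divisor.degree (sumPlaces T) = T.card := by
  rw [sumPlaces, map_sum]
  simp [RR.deg_eq_one]

omit [IsAlgClosed K] [RR.FunctionField K F] in
theorem sumPlaces_nonneg (T : Finset (Place K F)) : 0 ≤ sumPlaces T := by
  classical
  intro Q
  rw [sumPlaces_apply]
  simp only [Finsupp.coe_zero, Pi.zero_apply]
  split_ifs <;> norm_num

theorem finrank_add_ge [DecidableEq (Place K F)] (T : Finset (Place K F)) (D₀ : Divisor K F)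
    (h : ∀ Q, Q ∉ T → ¬ riemannRochSpace (D₀ + Finsupp.single Q 1) ≤ riemannRochSpace D₀)
    (T' : Finset (Place K F)) (hT' : Disjoint T T') :
    Module.finrank K (riemannRochSpace D₀) + T'.card ≤
      Module.finrank K (riemannRochSpace (D₀ + sumPlaces T')) := by
  induction T' using Finset.induction_on with
  | empty =>
    rw [show sumPlaces (∅ : Finset (Place K F)) = 0 from rfl, add_zero, Finset.card_empty, add_zero]
  | insert Q T' hQ ih =>
    rw [Finset.disjoint_insert_right] at hT'
    have ih' := ih hT'.2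
    rw [Finset.card_insert_of_notMem hQ]
    have hins : sumPlaces (insert Q T') = Finsupp.single Q 1 + sumPlaces T' := by
      rw [sumPlaces, Finset.sum_insert hQ]; rfl
    have hlt : riemannRochSpace (D₀ + sumPlaces T') < riemannRochSpace (D₀ + sumPlaces (insert Q T')) := by
      refine lt_of_le_of_ne (RR.riemannRochSpace_mono ?_) ?_
      · rw [hins]
        intro P
        simp only [Finsupp.add_apply]
        have : 0 ≤ (Finsupp.single Q 1 : Divisor K F) P := by
          rw [Finsupp.single_apply]; split_ifs <;> norm_num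
        linarith
      · intro heq
        obtain ⟨u, hu, hu'⟩ := SetLike.not_le_iff_exists.mp (h Q hT'.1)
        apply hu'
        have h1 : u ∈ riemannRochSpace (D₀ + sumPlaces T') := by
          rw [heq, hins]
          refine RR.riemannRochSpace_mono ?_ hu
          intro P
          simp only [Finsupp.add_apply]
          have := sumPlaces_nonneg T' P
          simp at this
          linarith
        intro P
        by_cases hP : P = Q
        · have h2 := h1 P
          rw [Finsupp.add_apply, sumPlaces_apply, if_neg (by rw [hP]; exact hQ), add_zero] at h2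
          exact h2
        · have h2 := hu P
          rw [Finsupp.add_apply, Finsupp.single_eq_of_ne hP, add_zero] at h2
          exact h2
    have hlt' := Submodule.finrank_lt_finrank_of_lt hlt
    omega

/-- Existence of reduced nonspecial divisors of every degree `≤ g`. -/
theorem exists_nonspecial (n : ℕ) (hn : n ≤ genusFF K F) :
    ∃ T : Finset (Place K F), T.card = n ∧
      Module.finrank K (riemannRochSpace (sumPlaces T)) = 1 := by
  classical
  induction n with
  | zero =>
    refine ⟨∅, rfl, ?_⟩
    rw [show sumPlaces (∅ : Finset (Place K F)) = 0 from rfl]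
    exact RR.finrank_riemannRochSpace_zero
  | succ n ih =>
    obtain ⟨T, hT, hT1⟩ := ih (by omega)
    by_cases hcase : ∀ Q, Q ∉ T →
        ¬ riemannRochSpace (sumPlaces T + Finsupp.single Q 1) ≤ riemannRochSpace (sumPlaces T)
    · exfalso
      have := infinite_place (K := K) (F := F)
      obtain ⟨T₁, hTT₁, hT₁⟩ := Infinite.exists_superset_card_eq T (n + 2 * genusFF K F)
        (by omega)
      have h1 := finrank_add_ge T (sumPlaces T) hcase (T₁ \ T) Finset.disjoint_sdiff
      have h2 : sumPlaces T + sumPlaces (T₁ \ T) = sumPlaces T₁ := by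
        rw [sumPlaces, sumPlaces, sumPlaces, add_comm, Finset.sum_sdiff hTT₁]
      have h3 : Divisor.degree (sumPlaces T₁) = (n + 2 * genusFF K F : ℕ) := by
        rw [degree_sumPlaces, hT₁]
      have h4 := RR.finrank_riemannRochSpace_eq (D := sumPlaces T₁) (by rw [h3]; push_cast; omega)
      rw [h3] at h4
      rw [h2, hT1, Finset.card_sdiff_of_subset hTT₁, hT₁, hT] at h1
      push_cast at h4
      omega
    · push Not at hcase
      obtain ⟨Q, hQ, hle⟩ := hcase
      refine ⟨insert Q T, by rw [Finset.card_insert_of_notMem hQ, hT], ?_⟩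
      have hins : sumPlaces (insert Q T) = sumPlaces T + Finsupp.single Q 1 := by
        rw [sumPlaces, Finset.sum_insert hQ, add_comm]; rfl
      rw [hins]
      refine le_antisymm ((Submodule.finrank_mono hle).trans hT1.le) ?_
      rw [← hT1]
      refine Submodule.finrank_mono (RR.riemannRochSpace_mono ?_)
      intro P
      simp only [Finsupp.add_apply]
      have : 0 ≤ (Finsupp.single Q 1 : Divisor K F) P := by
        rw [Finsupp.single_apply]; split_ifs <;> norm_num
      linarith

omit [IsAlgClosed K] [RR.FunctionField K F] in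
theorem const_of_finrank_one {D : Divisor K F} (hD : 0 ≤ D)
    (h : Module.finrank K (riemannRochSpace D) = 1) {u : F} (hu : u ∈ riemannRochSpace D) :
    ∃ c : K, u = algebraMap K F c := by
  have h1 : (⟨1, RR.one_mem_riemannRochSpace hD⟩ : riemannRochSpace D) ≠ 0 := by
    intro h0
    exact one_ne_zero (congrArg Subtype.val h0)
  obtain ⟨c, hc⟩ := (finrank_eq_one_iff_of_nonzero' _ h1).mp h ⟨u, hu⟩
  refine ⟨c, ?_⟩
  rw [Algebra.algebraMap_eq_smul_one]
  exact (congrArg Subtype.val hc).symm

end FunctionFieldLemmas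

section ConstRed

variable {K k : Type*} [Field K] [Field k] {A : ValuationSubring K} {π : A →+* k}
  {F F' : Type*} [Field F] [Field F'] [Algebra K F] [Algebra k F']

/-- The graph of the residue map. -/
def ConstRed.toRedDatum (C : ConstRed A π F F') : RedDatum K F k F' A π where
  Red w u := ∃ h : w ∈ C.O, C.res ⟨w, h⟩ = u
  add := by
    rintro w w' u u' ⟨h, rfl⟩ ⟨h', rfl⟩
    exact ⟨add_mem h h', by rw [← map_add]; rfl⟩
  mul := by
    rintro w w' u u' ⟨h, rfl⟩ ⟨h', rfl⟩
    exact ⟨mul_mem h h', by rw [← map_mul]; rfl⟩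
  const a := ⟨C.algebraMap_mem a, C.res_algebraMap a⟩
  unique := by
    rintro w u u' ⟨h, rfl⟩ ⟨h', rfl⟩
    rfl
  normalize w hw := by
    obtain ⟨c, hc, h, h'⟩ := C.exists_unit w hw
    exact ⟨c, hc, _, h', h, rfl⟩

theorem ConstRed.placeRed (C : ConstRed A π F F') {r : Place K F → Place k F'}
    (hr : C.IsPlaceMap r) : PlaceRed C.toRedDatum r := by
  rintro w u ⟨h, rfl⟩ hu D hD Q
  exact hr ⟨w, h⟩ hu D hD Q

variable [IsAlgClosed K] [IsAlgClosed k] [RR.FunctionField K F] [RR.FunctionField k F']

theorem degree_mapDomain (r : Place K F → Place k F') (D : Divisor K F) :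
    Divisor.degree (Finsupp.mapDomain r D) = Divisor.degree D := by
  induction D using Finsupp.induction with
  | zero => simp
  | single_add P n D _ _ ih =>
    rw [Finsupp.mapDomain_add, map_add, map_add, ih, Finsupp.mapDomain_single,
      RR.degree_single_one, RR.degree_single_one]

omit [IsAlgClosed K] [IsAlgClosed k] [RR.FunctionField k F'] in
theorem mem_of_red {R : RedDatum K F k F' A π} {r : Place K F → Place k F'} (hr : PlaceRed R r)
    {D : Divisor K F} {w : F} (hw : w ∈ riemannRochSpace D) {u : F'} (h : R.Red w u) :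
    u ∈ riemannRochSpace (Finsupp.mapDomain r D) := by
  rw [mem_riemannRochSpace_iff]
  intro Q
  rcases eq_or_ne u 0 with hu | hu
  · exact Or.inl hu
  right
  have hw0 := RedDatum.ne_zero_of_red h hu
  rw [← hr w u h hu (RR.divOf w) (fun P => RR.divOf_apply w P) Q]
  have h1 : 0 ≤ Finsupp.mapDomain r (RR.divOf w + D) Q := by
    refine mapDomain_nonneg fun P _ => ?_
    have := (mem_riemannRochSpace_iff.mp hw P).resolve_left hw0
    rw [Finsupp.add_apply, RR.divOf_apply]
    omega
  rw [Finsupp.mapDomain_add, Finsupp.add_apply] at h1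
  linarith

/-- **Lifting lemma**: for `deg D > 2g - 2`, reduction `L(D) ∩ O → L(r_* D)` is surjective. -/
theorem ConstRed.exists_lift (hπ : Function.Surjective π) (C : ConstRed A π F F')
    {r : Place K F → Place k F'} (hr : C.IsPlaceMap r) (hg : genusFF K F = genusFF k F')
    {D : Divisor K F} (hD : 2 * (genusFF K F : ℤ) - 2 < Divisor.degree D) {u : F'}
    (hu : u ∈ riemannRochSpace (Finsupp.mapDomain r D)) :
    ∃ w ∈ riemannRochSpace D, ∃ h : w ∈ C.O, C.res ⟨w, h⟩ = u := by
  obtain ⟨b, hbV, hbO, hli⟩ := C.exists_basis (riemannRochSpace D) inferInstance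
  have hmem : ∀ i, C.res ⟨b i, hbO i⟩ ∈ riemannRochSpace (Finsupp.mapDomain r D) := fun i =>
    mem_of_red (C.placeRed hr) (hbV i) ⟨hbO i, rfl⟩
  have hli' : LinearIndependent k fun i =>
      (⟨C.res ⟨b i, hbO i⟩, hmem i⟩ : riemannRochSpace (Finsupp.mapDomain r D)) := by
    apply LinearIndependent.of_comp (riemannRochSpace (Finsupp.mapDomain r D)).subtype
    exact hli
  have h1 := RR.finrank_riemannRochSpace_eq hD
  have h2 := RR.finrank_riemannRochSpace_eq (D := Finsupp.mapDomain r D)
    (by rw [degree_mapDomain, ← hg]; exact hD)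
  rw [degree_mapDomain, ← hg, ← h1] at h2
  have hcard : Fintype.card (Fin (Module.finrank K (riemannRochSpace D))) =
      Module.finrank k (riemannRochSpace (Finsupp.mapDomain r D)) := by
    rw [Fintype.card_fin]
    exact_mod_cast h2.symm
  have hspan := hli'.span_eq_top_of_card_eq_finrank' hcard
  have hu' : (⟨u, hu⟩ : riemannRochSpace (Finsupp.mapDomain r D)) ∈ Submodule.span k (Set.range
      fun i => (⟨C.res ⟨b i, hbO i⟩, hmem i⟩ : riemannRochSpace (Finsupp.mapDomain r D))) := by
    rw [hspan]; trivial
  rw [Submodule.mem_span_range_iff_exists_fun] at hu'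
  obtain ⟨c, hc⟩ := hu'
  choose a ha using fun i => hπ (c i)
  refine ⟨∑ i, algebraMap K F (a i) * b i, ?_, ?_⟩
  · refine Submodule.sum_mem _ fun i _ => ?_
    rw [← Algebra.smul_def]
    exact Submodule.smul_mem _ _ (hbV i)
  · have h3 := RedDatum.sum (R := C.toRedDatum) (s := Finset.univ)
      (w := fun i => algebraMap K F (a i) * b i)
      (u := fun i => algebraMap k F' (π (a i)) * C.res ⟨b i, hbO i⟩)
      (fun i _ => C.toRedDatum.mul (C.toRedDatum.const (a i)) ⟨hbO i, rfl⟩)
    obtain ⟨h4, h5⟩ := h3
    refine ⟨h4, h5.trans ?_⟩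
    have h6 : ∑ i, c i • C.res ⟨b i, hbO i⟩ = u := by
      simpa using congrArg Subtype.val hc
    rw [← h6]
    simp only [ha, Algebra.smul_def]

omit [IsAlgClosed K] [RR.FunctionField K F] in
theorem exists_ord_eq_one_of_pole (Q R : Place k F') (hQR : Q ≠ R) (n : ℕ)
    (hn : 2 * genusFF k F' < n) :
    ∃ u : F', u ∈ riemannRochSpace (Finsupp.single R (n : ℤ)) ∧ Q.ord u = 1 := by
  classical
  set D₁ : Divisor k F' := Finsupp.single R (n : ℤ) - Finsupp.single Q 1 with hD₁
  set D₂ : Divisor k F' := Finsupp.single R (n : ℤ) - Finsupp.single Q 2 with hD₂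
  have h1 : Divisor.degree D₁ = n - 1 := by
    rw [hD₁, map_sub, RR.degree_single_one, RR.degree_single_one]
  have h2 : Divisor.degree D₂ = n - 2 := by
    rw [hD₂, map_sub, RR.degree_single_one, RR.degree_single_one]
  have h3 := RR.finrank_riemannRochSpace_eq (D := D₁) (by rw [h1]; omega)
  have h4 := RR.finrank_riemannRochSpace_eq (D := D₂) (by rw [h2]; omega)
  have h5 : ¬ riemannRochSpace D₁ ≤ riemannRochSpace D₂ := by
    intro hle
    have := Submodule.finrank_mono hle
    omega
  obtain ⟨u, hu, hu'⟩ := SetLike.not_le_iff_exists.mp h5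
  have hu0 : u ≠ 0 := by
    rintro rfl
    exact hu' (zero_mem _)
  have hu1 := fun P => (mem_riemannRochSpace_iff.mp hu P).resolve_left hu0
  refine ⟨u, ?_, ?_⟩
  · rw [mem_riemannRochSpace_iff]
    intro P
    right
    have := hu1 P
    rw [hD₁, Finsupp.sub_apply] at this
    have h6 : 0 ≤ (Finsupp.single Q 1 : Divisor k F') P := by
      rw [Finsupp.single_apply]; split_ifs <;> norm_num
    linarith
  · have h6 := hu1 Q
    rw [hD₁, Finsupp.sub_apply, Finsupp.single_eq_same, Finsupp.single_eq_of_ne hQR] at h6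
    by_contra hne
    apply hu'
    rw [mem_riemannRochSpace_iff]
    intro P
    right
    by_cases hP : P = Q
    · rw [hP, hD₂, Finsupp.sub_apply, Finsupp.single_eq_same, Finsupp.single_eq_of_ne hQR]
      omega
    · have := hu1 P
      rw [hD₁, Finsupp.sub_apply, Finsupp.single_eq_of_ne hP] at this
      rw [hD₂, Finsupp.sub_apply, Finsupp.single_eq_of_ne hP]
      exact this

omit [IsAlgClosed K] [IsAlgClosed k] [RR.FunctionField k F'] in
theorem ConstRed.exists_place_over (C : ConstRed A π F F')
    {r : Place K F → Place k F'} (hr : C.IsPlaceMap r) (Q : Place k F') : ∃ P, r P = Q := by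
  obtain ⟨t, ht⟩ := RR.exists_ord_eq_one Q
  obtain ⟨w, hw⟩ := C.res_surjective t
  have ht0 : t ≠ 0 := ne_zero_of_ord_ne_zero Q (by rw [ht]; norm_num)
  have h1 := hr w (by rw [hw]; exact ht0) (RR.divOf (w : F)) (fun P => RR.divOf_apply _ P) Q
  rw [hw, ht] at h1
  obtain ⟨P, hP, -⟩ := exists_pos_of_mapDomain_pos (r := r) (D := RR.divOf (K := K) (w : F))
    (Q := Q) (by rw [h1]; norm_num)
  exact ⟨P, hP⟩

/-- Every place of the special fibre has a liftable local parameter. -/
theorem ConstRed.hasLocalParam (hπ : Function.Surjective π) (C : ConstRed A π F F')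
    {r : Place K F → Place k F'} (hr : C.IsPlaceMap r) (hg : genusFF K F = genusFF k F')
    (Q : Place k F') : HasLocalParam C.toRedDatum r Q := by
  classical
  have := infinite_place (K := k) (F := F')
  obtain ⟨Q', hQ'⟩ := Infinite.exists_notMem_finset ({Q} : Finset (Place k F'))
  rw [Finset.mem_singleton] at hQ'
  obtain ⟨P', hP'⟩ := C.exists_place_over hr Q'
  obtain ⟨u, hu, hu1⟩ := exists_ord_eq_one_of_pole Q Q' (Ne.symm hQ') (2 * genusFF k F' + 1)
    (by omega)
  have hu0 : u ≠ 0 := ne_zero_of_ord_ne_zero Q (by rw [hu1]; norm_num)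
  set D : Divisor K F := Finsupp.single P' ((2 * genusFF k F' + 1 : ℕ) : ℤ) with hD
  have hmap : Finsupp.mapDomain r D = Finsupp.single Q' ((2 * genusFF k F' + 1 : ℕ) : ℤ) := by
    rw [hD, Finsupp.mapDomain_single, hP']
  obtain ⟨w, hw, hwO, hwu⟩ := C.exists_lift hπ hr hg (D := D)
    (by rw [hD, RR.degree_single_one, hg]; push_cast; omega) (u := u) (by rw [hmap]; exact hu)
  refine ⟨w, u, 0, ⟨hwO, hwu⟩, fun P hP => ?_, by rw [map_zero, sub_zero, hu1]⟩
  have hne : P ≠ P' := by
    rintro rfl
    exact hQ' (hP'.symm.trans hP)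
  rw [RR.mem_iff_ord]
  have := mem_riemannRochSpace_iff.mp hw P
  rw [hD, Finsupp.single_eq_of_ne hne] at this
  simpa using this

/-- **Injectivity of reduction on torsion prime to the residue characteristic.** -/
theorem ConstRed.isPrincipal_of_torsion (hπ : Function.Surjective π) (C : ConstRed A π F F')
    {r : Place K F → Place k F'} (hr : C.IsPlaceMap r) (hg : genusFF K F = genusFF k F')
    {m : ℕ} (hm : (m : k) ≠ 0) (D : Divisor K F) (hD : Divisor.degree D = 0)
    (hmD : Divisor.IsPrincipal (m • D))
    (hred : Divisor.IsPrincipal (Finsupp.mapDomain r D)) : Divisor.IsPrincipal D := by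
  classical
  have := isFF1_of_functionField (K := K) (F := F)
  have := infinite_place (K := k) (F := F')
  obtain ⟨T, hT, hT1⟩ := exists_nonspecial (K := k) (F := F') (genusFF K F) hg.le
  refine isPrincipal_of_mapDomain hπ (C.placeRed hr) (genusFF K F) (fun D hD => ?_) T hT
    (fun Q _ => C.hasLocalParam hπ hr hg Q) (fun Q _ => C.exists_place_over hr Q)
    (fun u hu => const_of_finrank_one (sumPlaces_nonneg T) hT1 hu) ?_ hm D hD hmD hred
  · have h1 := RR.finrank_riemannRochSpace_ge D
    have h2 : 0 < Module.finrank K (riemannRochSpace D) := by omega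
    have := Module.nontrivial_of_finrank_pos h2
    obtain ⟨w, hw⟩ := exists_ne (0 : riemannRochSpace D)
    exact ⟨w, w.2, fun h => hw (Subtype.ext h)⟩
  · obtain ⟨Q, hQ⟩ := Infinite.exists_notMem_finset T
    obtain ⟨P, hP⟩ := C.exists_place_over hr Q
    exact ⟨P, by rw [hP]; exact hQ⟩

end ConstRed

end Fermat.Agent.JRED
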