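import Mathlib
import Fermat.Agent.JRED.Interface
import Fermat.Agent.JRED.ESSemi
import Fermat.Agent.JRED.ESAbstract
import Fermat.Agent.JRED.Torsion
import Fermat.Agent.QbarInst
import Fermat.Prelude.Def_EllipticCurve_FrobeniusTrace

/-!
# Galois equivariance of the reduction of `X₀(N)`

`σ` in the decomposition group of `A` acts on `F_N` coefficientwise, preserves the Gauss valuation
ring `M.C.O` and induces on `F̄_N` the coefficientwise action of the residual automorphism `τ`.
-/

set_option autoImplicit false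
set_option linter.unusedSectionVars false

noncomputable section

open AlgebraicCurve ModularCurve IsLocalRing

namespace Fermat.Agent.JRED.ESGalois

open ESSemi

section Residual

variable {K k : Type*} [Field K] [Field k] {A : ValuationSubring K} {π : A →+* k}

theorem ker_eq_maximalIdeal (hπ : Function.Surjective π) :
    RingHom.ker π = maximalIdeal A :=
  haveI := RingHom.ker_isMaximal_of_surjective π hπ
  IsLocalRing.eq_maximalIdeal inferInstance

theorem map_eq_iff (hπ : Function.Surjective π) (a b : A) :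
    π a = π b ↔ residue A a = residue A b := by
  rw [← sub_eq_zero, ← map_sub, ← RingHom.mem_ker, ker_eq_maximalIdeal hπ,
    ← sub_eq_zero (a := residue A a), ← map_sub, residue_eq_zero_iff]

/-- An automorphism of `A` induces an automorphism of the residue field `k`. -/
theorem exists_residual (hπ : Function.Surjective π) (g : A ≃+* A) :
    ∃ τ : k ≃+* k, ∀ a : A, τ (π a) = π (g a) := by
  have hker : ∀ e : A ≃+* A, RingHom.ker π ≤ RingHom.ker (π.comp (e : A →+* A)) := by
    intro e a ha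
    rw [RingHom.mem_ker, RingHom.comp_apply, ← RingHom.mem_ker, ker_eq_maximalIdeal hπ,
      mem_maximalIdeal, mem_nonunits_iff]
    rw [ker_eq_maximalIdeal hπ, mem_maximalIdeal, mem_nonunits_iff] at ha
    intro h
    exact ha ((MulEquiv.isUnit_map e).mp h)
  let lift : ∀ e : A ≃+* A, k →+* k := fun e =>
    π.liftOfSurjective hπ ⟨π.comp (e : A →+* A), hker e⟩
  have hlift : ∀ (e : A ≃+* A) (a : A), lift e (π a) = π (e a) := by
    intro e a
    exact π.liftOfSurjective_comp_apply hπ ⟨π.comp (e : A →+* A), hker e⟩ a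
  refine ⟨RingEquiv.ofRingHom (lift g) (lift g.symm) ?_ ?_, fun a => hlift g a⟩
  · refine RingHom.ext fun x => ?_
    obtain ⟨a, rfl⟩ := hπ x
    rw [RingHom.comp_apply, hlift, hlift, RingEquiv.apply_symm_apply]
    rfl
  · refine RingHom.ext fun x => ?_
    obtain ⟨a, rfl⟩ := hπ x
    rw [RingHom.comp_apply, hlift, hlift, RingEquiv.symm_apply_apply]
    rfl

end Residual

section Decomposition

variable {L : Type*} [Field L] [Algebra ℚ L] {k : Type*} [Field k]
  {A : ValuationSubring L} {π : A →+* k}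

/-- The automorphism of `A` attached to an element of the decomposition group. -/
def autA {σ : L ≃ₐ[ℚ] L} (hσ : σ ∈ A.decompositionSubgroup ℚ) : A ≃+* A :=
  MulSemiringAction.toRingEquiv (A.decompositionSubgroup ℚ) A ⟨σ, hσ⟩

theorem coe_autA {σ : L ≃ₐ[ℚ] L} (hσ : σ ∈ A.decompositionSubgroup ℚ) (a : A) :
    ((autA hσ a : A) : L) = σ (a : L) := rfl

theorem residue_autA {σ : L ≃ₐ[ℚ] L} (hσ : σ ∈ A.decompositionSubgroup ℚ) (a : A) :
    residue A (autA hσ a) =
      (⟨σ, hσ⟩ : A.decompositionSubgroup ℚ) • residue A a := rfl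

/-- `τ` is the automorphism of `k` induced by `σ`. -/
def IsResidual (π : A →+* k) (σ : L ≃ₐ[ℚ] L) (τ : k ≃+* k) : Prop :=
  ∃ hσ : σ ∈ A.decompositionSubgroup ℚ, ∀ a : A, τ (π a) = π (autA hσ a)

theorem exists_isResidual (hπ : Function.Surjective π) {σ : L ≃ₐ[ℚ] L}
    (hσ : σ ∈ A.decompositionSubgroup ℚ) : ∃ τ : k ≃+* k, IsResidual π σ τ := by
  obtain ⟨τ, hτ⟩ := exists_residual hπ (autA hσ)
  exact ⟨τ, hσ, hτ⟩

theorem isResidual_one_of_inertia (hπ : Function.Surjective π) {σ : L ≃ₐ[ℚ] L}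
    (hσ : σ ∈ A.inertiaSubgroupIn ℚ) : IsResidual π σ 1 := by
  obtain ⟨⟨σ', hσ'⟩, hmem, rfl⟩ := hσ
  refine ⟨hσ', fun a => ?_⟩
  show π a = _
  rw [map_eq_iff hπ, residue_autA]
  have h1 : MulSemiringAction.toRingAut (A.decompositionSubgroup ℚ) (ResidueField A) ⟨σ', hσ'⟩
      = 1 := hmem
  have h2 := RingEquiv.congr_fun h1 (residue A a)
  exact h2.symm

theorem isResidual_of_frobenius (hπ : Function.Surjective π) {σ : L ≃ₐ[ℚ] L} {ℓ : ℕ}
    (hσ : A.IsFrobeniusAt σ ℓ) (τ : k ≃+* k) (hτ : ∀ x, τ x = x ^ ℓ) : IsResidual π σ τ := by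
  obtain ⟨hσ', hfrob⟩ := hσ
  refine ⟨hσ', fun a => ?_⟩
  rw [hτ, ← map_pow, map_eq_iff hπ, residue_autA, hfrob, map_pow]

end Decomposition

section Modular

variable {N : ℕ} {A : ValuationSubring (AlgebraicClosure ℚ)} {k : Type} [Field k] {π : A →+* k}

/-- **Galois equivariance of the reduction of functions.** -/
theorem res_galois (M : ModularConstRed N π) {σ : AlgebraicClosure ℚ ≃ₐ[ℚ] AlgebraicClosure ℚ}
    {τ : k ≃+* k} (hτ : IsResidual π σ τ) (f : M.C.O) :
    ∃ h : arithmeticGalois (modularFunctionFieldFull N) σ • (f : modularFunctionFieldBar N) ∈ M.C.O,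
      M.C.res ⟨arithmeticGalois (modularFunctionFieldFull N) σ •
        (f : modularFunctionFieldBar N), h⟩ = coeffSemi N τ • M.C.res f := by
  obtain ⟨hσ, hτ⟩ := hτ
  obtain ⟨a, b, hb, hab⟩ := (M.mem_O_iff f).mp f.2
  set g : A →+* A := (autA hσ : A →+* A) with hg
  have h1 : ∀ x : LaurentSeries A, coeffMap π (coeffMap g x) = coeffMap (τ : k →+* k) (coeffMap π x) := by
    intro x
    rw [coeffMap_coeffMap, coeffMap_coeffMap]
    exact coeffMap_congr (RingHom.ext fun y => (hτ y).symm) x
  have h2 : ∀ x : LaurentSeries A, coeffMap A.subtype (coeffMap g x) =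
      coeffMap (σ : AlgebraicClosure ℚ →+* AlgebraicClosure ℚ) (coeffMap A.subtype x) := by
    intro x
    rw [coeffMap_coeffMap, coeffMap_coeffMap]
    exact coeffMap_congr (RingHom.ext fun y => coe_autA hσ y) x
  have hinj : Function.Injective (coeffMap (τ : k →+* k)) := (coeffMap (τ : k →+* k)).injective
  have hb' : coeffMap π (coeffMap g b) ≠ 0 := by
    rw [h1]
    exact (map_ne_zero_iff _ hinj).mpr hb
  have hab' : ((arithmeticGalois (modularFunctionFieldFull N) σ •
      (f : modularFunctionFieldBar N) : modularFunctionFieldBar N) :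
        LaurentSeries (AlgebraicClosure ℚ)) * coeffMap A.subtype (coeffMap g b) =
      coeffMap A.subtype (coeffMap g a) := by
    rw [coe_arithmeticGalois_smul, h2, h2, ← map_mul, hab]
  have hmem : arithmeticGalois (modularFunctionFieldFull N) σ •
      (f : modularFunctionFieldBar N) ∈ M.C.O := (M.mem_O_iff _).mpr ⟨_, _, hb', hab'⟩
  refine ⟨hmem, Subtype.ext ?_⟩
  have h3 := M.res_eq ⟨_, hmem⟩ _ _ hb' hab'
  have h4 := M.res_eq f a b hb hab
  rw [coe_coeffSemi_smul]
  apply mul_right_cancel₀ hb'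
  rw [h3, h1, h1, ← map_mul, h4]

variable [IsAlgClosed k] [RR.FunctionField (AlgebraicClosure ℚ) (modularFunctionFieldBar N)]
  (M : ModularConstRed N π)
  {r : Place (AlgebraicClosure ℚ) (modularFunctionFieldBar N) →
    Place k (modularFunctionFieldFullC k N)} (hr : M.C.IsPlaceMap r)

include hr in
/-- `r_* (σ D) = τ r_* D` on divisors of degree zero. -/
theorem mapDomain_galois {σ : AlgebraicClosure ℚ ≃ₐ[ℚ] AlgebraicClosure ℚ}
    {τ : k ≃+* k} (hτ : IsResidual π σ τ)
    {D : Divisor (AlgebraicClosure ℚ) (modularFunctionFieldBar N)} (hD : Divisor.degree D = 0) :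
    Finsupp.mapDomain r (arithmeticGalois (modularFunctionFieldFull N) σ • D) =
      coeffSemi N τ • Finsupp.mapDomain r D :=
  ESAbstract.smul_agree M.C hr _ _ (res_galois M hτ) hD

/-- The reduction map on `J₀(N)`. -/
def redMap : JZero N →+
    (Divisor k (modularFunctionFieldFullC k N) ⧸
      Divisor.principal (K := k) (F := modularFunctionFieldFullC k N)) :=
  ESAbstract.redHom M.C r hr

theorem redMap_mk (D : Divisor.degZero (K := AlgebraicClosure ℚ) (F := modularFunctionFieldBar N)) :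
    redMap M hr (Pic0.mk D) = QuotientAddGroup.mk (Finsupp.mapDomain r
      (D : Divisor (AlgebraicClosure ℚ) (modularFunctionFieldBar N))) := rfl

theorem jzero_smul_mk (σ : AlgebraicClosure ℚ ≃ₐ[ℚ] AlgebraicClosure ℚ)
    (D : Divisor.degZero (K := AlgebraicClosure ℚ) (F := modularFunctionFieldBar N)) :
    σ • (Pic0.mk D : JZero N) = Pic0.mk (SemilinearAut.degZeroSMulHom
      (arithmeticGalois (modularFunctionFieldFull N) σ) D) := rfl

/-- `r̃ (σ x)` in terms of divisors. -/
theorem redMap_smul_mk {σ : AlgebraicClosure ℚ ≃ₐ[ℚ] AlgebraicClosure ℚ}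
    {τ : k ≃+* k} (hτ : IsResidual π σ τ)
    (D : Divisor.degZero (K := AlgebraicClosure ℚ) (F := modularFunctionFieldBar N)) :
    redMap M hr (σ • (Pic0.mk D : JZero N)) = QuotientAddGroup.mk (coeffSemi N τ •
      Finsupp.mapDomain r (D : Divisor (AlgebraicClosure ℚ) (modularFunctionFieldBar N))) := by
  rw [jzero_smul_mk, redMap_mk, SemilinearAut.coe_degZeroSMulHom, mapDomain_galois M hr hτ D.2]

/-- (inertia) -/
theorem redMap_inertia (hπ : Function.Surjective π)
    {σ : AlgebraicClosure ℚ ≃ₐ[ℚ] AlgebraicClosure ℚ} (hσ : σ ∈ A.inertiaSubgroupIn ℚ)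
    (x : JZero N) : redMap M hr (σ • x) = redMap M hr x := by
  obtain ⟨D, rfl⟩ := Pic0.mk_surjective x
  rw [redMap_smul_mk M hr (isResidual_one_of_inertia hπ hσ), map_one, one_smul, redMap_mk]

/-- (decomposition group) the kernel of the reduction map is stable. -/
theorem redMap_eq_zero_of_smul {σ : AlgebraicClosure ℚ ≃ₐ[ℚ] AlgebraicClosure ℚ}
    {τ : k ≃+* k} (hτ : IsResidual π σ τ) (x : JZero N) (hx : redMap M hr x = 0) :
    redMap M hr (σ • x) = 0 := by
  obtain ⟨D, rfl⟩ := Pic0.mk_surjective x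
  rw [redMap_smul_mk M hr hτ]
  rw [redMap_mk] at hx
  exact (QuotientAddGroup.eq_zero_iff _).mpr
    (SemilinearAut.smul_mem_principal _ ((QuotientAddGroup.eq_zero_iff _).mp hx))

/-- (Eichler–Shimura) -/
theorem redMap_quadratic {σ : AlgebraicClosure ℚ ≃ₐ[ℚ] AlgebraicClosure ℚ}
    {τ : k ≃+* k} (hτ : IsResidual π σ τ) (ℓ : ℕ)
    (T : Divisor (AlgebraicClosure ℚ) (modularFunctionFieldBar N) →+
      Divisor (AlgebraicClosure ℚ) (modularFunctionFieldBar N))
    (hT : ∀ D, Divisor.degree D = 0 → Finsupp.mapDomain r (T D) =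
      coeffSemi N τ • Finsupp.mapDomain r D + ℓ • ((coeffSemi N τ)⁻¹ • Finsupp.mapDomain r D))
    (TJ : JZero N →+ JZero N)
    (hTJ : ∀ D : Divisor.degZero (K := AlgebraicClosure ℚ) (F := modularFunctionFieldBar N),
      ∃ h, TJ (Pic0.mk D) = Pic0.mk ⟨T D, h⟩)
    (x : JZero N) :
    redMap M hr (σ • σ • x - TJ (σ • x) + ℓ • x) = 0 := by
  obtain ⟨D, rfl⟩ := Pic0.mk_surjective x
  have h1 : redMap M hr (σ • σ • (Pic0.mk D : JZero N)) = QuotientAddGroup.mk (coeffSemi N τ •
      coeffSemi N τ • Finsupp.mapDomain r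
        (D : Divisor (AlgebraicClosure ℚ) (modularFunctionFieldBar N))) := by
    rw [jzero_smul_mk, redMap_smul_mk M hr hτ, SemilinearAut.coe_degZeroSMulHom,
      mapDomain_galois M hr hτ D.2]
  have h2 : redMap M hr (TJ (σ • (Pic0.mk D : JZero N))) = QuotientAddGroup.mk (
      coeffSemi N τ • coeffSemi N τ • Finsupp.mapDomain r
        (D : Divisor (AlgebraicClosure ℚ) (modularFunctionFieldBar N)) +
      ℓ • Finsupp.mapDomain r
        (D : Divisor (AlgebraicClosure ℚ) (modularFunctionFieldBar N))) := by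
    rw [jzero_smul_mk]
    obtain ⟨h, h3⟩ := hTJ (SemilinearAut.degZeroSMulHom
      (arithmeticGalois (modularFunctionFieldFull N) σ) D)
    rw [h3, redMap_mk]
    show QuotientAddGroup.mk (Finsupp.mapDomain r (T (arithmeticGalois
      (modularFunctionFieldFull N) σ •
        (D : Divisor (AlgebraicClosure ℚ) (modularFunctionFieldBar N))))) = _
    rw [hT _ (SemilinearAut.smul_mem_degZero _ D.2), mapDomain_galois M hr hτ D.2, inv_smul_smul]
  rw [map_add, map_sub, map_nsmul, h1, h2, redMap_mk, QuotientAddGroup.mk_add,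
    QuotientAddGroup.mk_nsmul]
  abel

/-- (torsion) the reduction map is injective on torsion prime to the residue characteristic. -/
theorem redMap_torsion [RR.FunctionField k (modularFunctionFieldFullC k N)]
    (hπ : Function.Surjective π) (hg : GoodReduction N k) {m : ℕ} (hm : (m : k) ≠ 0)
    (x : JZero N) (hmx : m • x = 0) (hx : redMap M hr x = 0) : x = 0 := by
  obtain ⟨D, rfl⟩ := Pic0.mk_surjective x
  rw [redMap_mk] at hx
  have h1 := (QuotientAddGroup.eq_zero_iff _).mp hx
  have h2 : Divisor.IsPrincipal (m • (D : Divisor (AlgebraicClosure ℚ)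
      (modularFunctionFieldBar N))) := by
    have h3 : (Pic0.mk (m • D) : JZero N) = 0 := hmx
    have h4 := (QuotientAddGroup.eq_zero_iff _).mp h3
    rw [AddSubgroup.mem_addSubgroupOf] at h4
    exact h4
  have h5 := M.C.isPrincipal_of_torsion hπ hr hg hm _ D.2 h2 h1
  exact (QuotientAddGroup.eq_zero_iff _).mpr (AddSubgroup.mem_addSubgroupOf.mpr h5)

end Modular

end Fermat.Agent.JRED.ESGalois
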