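import Mathlib
import Fermat.Prelude.Def_ModularCurve_X0ModL
import Fermat.Agent.S28.TowerStep
import Fermat.Agent.S28.ModPolySpecProof
import Fermat.Agent.MFF.CoeffDescent
import Fermat.Prelude.Def_ModularCurve_HeckeOperator

/-!
# The Atkin–Lehner automorphism `w_p` of the function field of `X₀(Mp)`, `p ∤ M`

Over any algebraically closed field `K : Type` with `(Mp : K) ≠ 0`.
-/

set_option autoImplicit false

noncomputable section

open ModularCurve Polynomial IntermediateField Fermat.Agent.S28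

namespace Fermat.Agent.JRED.AL

section Ext

variable {K : Type} [Field K] {M : ℕ}

theorem full_ringHom_ext {R : Type*} [Field R]
    (f g : modularFunctionFieldFullC K M →+* R)
    (hC : ∀ c : K, f (algebraMap K _ c) = g (algebraMap K _ c))
    (hj : ∀ (d : ℕ) (h : jt (1 : Kˣ) d ∈ modularFunctionFieldFullC K M), d ≠ 0 → d ∣ M →
      f ⟨jt 1 d, h⟩ = g ⟨jt 1 d, h⟩) : f = g := by
  ext ⟨x, hx⟩
  refine IntermediateField.adjoin_induction (F := K) (s := divisorExpansionsC K M)
    (p := fun x hx => f ⟨x, hx⟩ = g ⟨x, hx⟩) ?_ ?_ ?_ ?_ ?_ hx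
  · rintro x hx
    have hx' := hx
    obtain ⟨d, hd0, hd, rfl⟩ := hx'
    have h1 : qExpand K d (jqModC K) = jt (1 : Kˣ) d := (jt_one_eq d).symm
    simp only [h1]
    exact hj d _ hd0.out hd
  · intro c
    exact hC c
  · intro x y hx hy h1 h2
    have := congrArg₂ (· + ·) h1 h2
    simp only [← map_add] at this
    exact this
  · intro x hx h1
    have := congrArg (fun t => t⁻¹) h1
    simp only [← map_inv₀] at this
    exact this
  · intro x y hx hy h1 h2
    have := congrArg₂ (· * ·) h1 h2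
    simp only [← map_mul] at this
    exact this

end Ext

section Swap

variable {K : Type} [Field K] {p : ℕ} [hp : Fact p.Prime]

theorem eval_PhiR_qExpand {Φ : ℤ[X][X]} (r : ℕ) [NeZero r] {c : ℕ} {z : LaurentSeries K}
    (h1 : (PhiR Φ (jt (1 : Kˣ) c)).eval z = 0) :
    (PhiR Φ (jt (1 : Kˣ) (r * c))).eval (qExpand K r z) = 0 := by
  have h2 : PhiR Φ (jt (1 : Kˣ) (r * c)) = (PhiR Φ (jt (1 : Kˣ) c)).map (qExpand K r) := by
    rw [PhiR_map, qExpand_jt]
  rw [h2, eval_map, eval₂_at_apply, h1, map_zero]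

/-- common roots, swap form -/
theorem common_root_swap {r : ℕ} [hr : Fact r.Prime] {ζ : Kˣ}
    (hζ : IsPrimitiveRoot ζ p) {η : Kˣ} (hη : IsPrimitiveRoot η r) {Φp Φr : ℤ[X][X]}
    (hΦp : ModPolySpec p Φp) (hΦr : ModPolySpec r Φr) {c : ℕ} (hc : c ≠ 0)
    {z : LaurentSeries K} (h1 : (PhiR Φr (jt (1 : Kˣ) c)).eval z = 0)
    (h2 : (PhiR Φp (jt (1 : Kˣ) (p * (r * c)))).eval z = 0) :
    z = jt 1 (r * c) := by
  have hp0 := hp.out.pos
  have hr0 := hr.out.pos
  have hp1 := hp.out.one_lt
  have hr1 := hr.out.one_lt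
  have hc0 := Nat.pos_of_ne_zero hc
  have h1' := eval_PhiR_qExpand r h1
  have h2' := eval_PhiR_qExpand r h2
  rw [show r * (p * (r * c)) = p * (r * (r * c)) by ring] at h2'
  have hb : r * (r * c) ≠ 0 := by positivity
  have h1'' := hΦr.eq_of_root hη 1 hc (x := qExpand K r z) (by rw [one_pow]; exact h1')
  have h2'' := hΦp.eq_of_root hζ 1 hb (x := qExpand K r z) (by rw [one_pow]; exact h2')
  rcases h1'' with h1'' | ⟨i, -, h1''⟩
  · apply qExpand_injective (R := K) r
    rw [h1'', qExpand_jt, one_pow, mul_assoc]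
  · exfalso
    have hlt : 1 * c < r * (r * c) := by
      have : r * (r * c) = r * r * c := by ring
      rw [this]
      apply Nat.mul_lt_mul_of_pos_right _ hc0
      nlinarith
    rcases h2'' with h2'' | ⟨j, -, h2''⟩
    · rw [h1''] at h2''
      have h3 := (jt_inj hc (by positivity) h2'').1
      have hlt2 : 1 * (r * (r * c)) ≤ p * p * (r * (r * c)) := by
        apply Nat.mul_le_mul_right
        nlinarith
      omega
    · rw [h1''] at h2''
      have h3 := (jt_inj hc hb h2'').1
      omega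

end Swap

section Top

/-- The input from the tower: `Φ_p(X; j)` is the minimal polynomial of `j(q^p)` over `F_M`
(in the weak form: `j(q)` is a root of its transport), and `F_{Mp} = F_M(j(q^p))`. -/
structure TopHyp (K : Type) [Field K] (M p : ℕ) [Fact p.Prime] : Prop where
  root : ((minpoly (modularFunctionFieldFullC K M) (jt (1 : Kˣ) p)).map ((qExpand K p).comp
     (algebraMap (modularFunctionFieldFullC K M) (LaurentSeries K)))).eval (jt (1 : Kˣ) 1) = 0
  gen : modularFunctionFieldFullC K (M * p) =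
    (IntermediateField.adjoin (modularFunctionFieldFullC K M) {jt (1 : Kˣ) p}).restrictScalars K

variable {K : Type} [Field K] [IsAlgClosed K] {M p : ℕ} [hp : Fact p.Prime]

theorem exists_swap (hM : M ≠ 0) (hchar : ((M * p : ℕ) : K) ≠ 0)
    (H : TopHyp K M p) :
    ∃ σ : modularFunctionFieldFullC K (M * p) →+* LaurentSeries K,
      (∀ c : K, σ (algebraMap K _ c) = algebraMap K _ c) ∧
      (∀ (d : ℕ) (h : jt (1 : Kˣ) d ∈ modularFunctionFieldFullC K (M * p)), d ∣ M →
        σ ⟨jt 1 d, h⟩ = jt 1 (p * d)) ∧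
      (∀ (d : ℕ) (h : jt (1 : Kˣ) (p * d) ∈ modularFunctionFieldFullC K (M * p)), d ∣ M →
        σ ⟨jt 1 (p * d), h⟩ = jt 1 d) := by
  obtain ⟨Φp, hΦp⟩ := exists_modPolySpec p
  have hp0 : p ≠ 0 := hp.out.ne_zero
  have hcharp : (p : K) ≠ 0 := by
    intro h; apply hchar; push_cast; rw [h, mul_zero]
  obtain ⟨ζ, hζ⟩ := exists_unit_primitiveRoot (K := K) (n := p) hcharp
  have hMp : M * p ≠ 0 := Nat.mul_ne_zero hM hp0
  let F := modularFunctionFieldFullC K M
  have hjmem : jt (1 : Kˣ) 1 ∈ F := jt_mem_full K hM (one_dvd _)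
  have hxint : IsIntegral F (jt (1 : Kˣ) p) := by
    refine ⟨PhiR Φp (⟨jt 1 1, hjmem⟩ : F), PhiR_monic hΦp.monic _, ?_⟩
    rw [← eval_map, PhiR_map]
    have := hΦp.root_high hζ (m := 1) one_ne_zero
    rwa [mul_one] at this
  obtain ⟨ι'', hext, hgen⟩ := exists_extend_simple _ hxint H.root
  have hle : ∀ a, a ∈ modularFunctionFieldFullC K (M * p) →
      a ∈ IntermediateField.adjoin (modularFunctionFieldFullC K M) {jt (1 : Kˣ) p} := by
    intro a ha
    rw [H.gen] at ha
    exact ha
  let f : modularFunctionFieldFullC K (M * p) →+*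
      IntermediateField.adjoin (modularFunctionFieldFullC K M) {jt (1 : Kˣ) p} :=
    (algebraMap (modularFunctionFieldFullC K (M * p)) (LaurentSeries K)).codRestrict
      _ (fun a => hle a.1 a.2)
  have hfF : ∀ (a : LaurentSeries K) (ha : a ∈ F) (ha' : a ∈ modularFunctionFieldFullC K (M * p)),
      (ι''.comp f) ⟨a, ha'⟩ = qExpand K p a := by
    intro a ha ha'
    have h1 : f ⟨a, ha'⟩ = algebraMap F _ ⟨a, ha⟩ := Subtype.ext rfl
    rw [RingHom.comp_apply, h1, hext]
    rfl
  have hlow : ∀ (d : ℕ) (h : jt (1 : Kˣ) d ∈ modularFunctionFieldFullC K (M * p)), d ∣ M →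
        (ι''.comp f) ⟨jt 1 d, h⟩ = jt 1 (p * d) := by
    intro d h hd
    rw [hfF _ (jt_mem_full K hM hd), qExpand_jt]
  refine ⟨ι''.comp f, ?_, hlow, ?_⟩
  · intro c
    have h1 : f (algebraMap K _ c) = algebraMap F _ (algebraMap K F c) := Subtype.ext rfl
    rw [RingHom.comp_apply, h1, hext]
    exact (qExpandAlgHomC K p).commutes c
  · intro d
    induction d using Nat.strong_induction_on with
    | _ d ih =>
    intro h hd
    have hd0 : d ≠ 0 := by rintro rfl; exact hM (Nat.eq_zero_of_zero_dvd hd)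
    by_cases hd1 : d = 1
    · subst hd1
      rw [← hgen, RingHom.comp_apply]
      congr 1
      apply Subtype.ext
      rw [IntermediateField.AdjoinSimple.coe_gen]
      change jt (1 : Kˣ) (p * 1) = _
      rw [mul_one]
    · have hrp : (d.minFac).Prime := Nat.minFac_prime hd1
      set r := d.minFac with hr
      have : Fact r.Prime := ⟨hrp⟩
      obtain ⟨d', hd'⟩ : r ∣ d := Nat.minFac_dvd d
      obtain ⟨Φr, hΦr⟩ := exists_modPolySpec r
      have hd'0 : d' ≠ 0 := by rintro rfl; exact hd0 (by rw [hd', mul_zero])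
      have hd'lt : d' < d := by
        rw [hd']
        have := hrp.one_lt
        have h3 := Nat.pos_of_ne_zero hd'0
        nlinarith
      have hd'M : d' ∣ M := (Dvd.intro_left r hd'.symm).trans hd
      have hrM : r ∣ M := (Nat.minFac_dvd d).trans hd
      have hcharr : (r : K) ≠ 0 := by
        intro h
        obtain ⟨c, hc⟩ := hrM
        apply hchar
        rw [hc]
        push_cast
        rw [h, zero_mul, zero_mul]
      obtain ⟨η, hη⟩ := exists_unit_primitiveRoot (K := K) (n := r) hcharr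
      have hmem' : jt (1 : Kˣ) (p * d') ∈ modularFunctionFieldFullC K (M * p) :=
        jt_mem_full K hMp (by rw [mul_comm M p]; exact Nat.mul_dvd_mul_left p hd'M)
      have hval' := ih d' hd'lt hmem' hd'M
      have hmemd : jt (1 : Kˣ) d ∈ modularFunctionFieldFullC K (M * p) :=
        jt_mem_full K hMp (hd.trans (dvd_mul_right _ _))
      set σ := ι''.comp f with hσ
      have hroot : ∀ R : (modularFunctionFieldFullC K (M * p))[X],
          aeval (jt (1 : Kˣ) (p * d)) R = 0 →
          (R.map σ).eval (σ ⟨jt 1 (p * d), h⟩) = 0 := by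
        intro R hR
        rw [eval_map, eval₂_at_apply]
        have : R.eval (⟨jt 1 (p * d), h⟩ : modularFunctionFieldFullC K (M * p)) = 0 := by
          apply Subtype.val_injective
          change algebraMap (modularFunctionFieldFullC K (M * p)) (LaurentSeries K) _ = 0
          rw [← hR, aeval_def, ← eval₂_at_apply]
          rfl
        rw [this, map_zero]
      have hv1 := hroot (PhiR Φr (⟨jt 1 (p * d'), hmem'⟩ : modularFunctionFieldFullC K (M * p))) (by
        rw [aeval_def, ← eval_map, PhiR_map]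
        change (PhiR Φr (jt (1 : Kˣ) (p * d'))).eval _ = 0
        have := hΦr.root_high hη (m := p * d') (Nat.mul_ne_zero hp0 hd'0)
        rwa [show r * (p * d') = p * d by rw [hd']; ring] at this)
      have hv2 := hroot (PhiR Φp (⟨jt 1 d, hmemd⟩ : modularFunctionFieldFullC K (M * p))) (by
        rw [aeval_def, ← eval_map, PhiR_map]
        change (PhiR Φp (jt (1 : Kˣ) d)).eval _ = 0
        exact hΦp.root_high hζ (m := d) hd0)
      rw [PhiR_map, hval'] at hv1
      rw [PhiR_map, hlow d hmemd hd] at hv2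
      refine (common_root_swap hζ hη hΦp hΦr hd'0 hv1 ?_).trans ?_
      · rw [← hd']; exact hv2
      · rw [← hd']

end Top

section Maps

variable (K : Type) [Field K] (M ℓ : ℕ) [NeZero M] [NeZero ℓ]

/-- the degeneracy map `f(q) ↦ f(q)` -/
def alphaC : modularFunctionFieldFullC K M →ₐ[K] modularFunctionFieldFullC K (M * ℓ) :=
  IntermediateField.inclusion (full_degeneracyC_le K (dvd_mul_right M ℓ))

@[simp] theorem coe_alphaC (x : modularFunctionFieldFullC K M) :
    (alphaC K M ℓ x : LaurentSeries K) = x := IntermediateField.coe_inclusion _ x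

theorem qExpand_mem_full {x : LaurentSeries K} (hx : x ∈ modularFunctionFieldFullC K M) :
    qExpand K ℓ x ∈ modularFunctionFieldFullC K (M * ℓ) :=
  full_degeneracyC_map_le K M ℓ ⟨x, hx, rfl⟩

/-- the degeneracy map `f(q) ↦ f(q^ℓ)` -/
def betaC : modularFunctionFieldFullC K M →ₐ[K] modularFunctionFieldFullC K (M * ℓ) :=
  AlgHom.codRestrict ((qExpandAlgHomC K ℓ).comp (modularFunctionFieldFullC K M).val)
    (modularFunctionFieldFullC K (M * ℓ)).toSubalgebra (fun x => qExpand_mem_full K M ℓ x.2)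

@[simp] theorem coe_betaC (x : modularFunctionFieldFullC K M) :
    (betaC K M ℓ x : LaurentSeries K) = qExpand K ℓ (x : LaurentSeries K) := rfl


end Maps

section Package

variable {K : Type} [Field K]

/-- Two `K`-algebra homomorphisms out of `F_M` agreeing on the `j(q^d)` are equal. -/
theorem full_algHom_ext {M : ℕ} {R : Type*} [Field R] [Algebra K R]
    {f g : modularFunctionFieldFullC K M →ₐ[K] R}
    (hj : ∀ (d : ℕ) (h : jt (1 : Kˣ) d ∈ modularFunctionFieldFullC K M), d ≠ 0 → d ∣ M →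
      f ⟨jt 1 d, h⟩ = g ⟨jt 1 d, h⟩) : f = g := by
  have h1 := full_ringHom_ext (f : modularFunctionFieldFullC K M →+* R)
    (g : modularFunctionFieldFullC K M →+* R) (fun c => by simp) (by simpa using hj)
  ext x
  exact congrArg (fun h : modularFunctionFieldFullC K M →+* R => h x) h1

/-- A homomorphism `F_M → K((t))` over `K` permuting the generators restricts to an
endomorphism; if the permutation is an involution it is an automorphism. -/
theorem exists_involution {M : ℕ} (hM : M ≠ 0)
    (σ : modularFunctionFieldFullC K M →+* LaurentSeries K)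
    (hC : ∀ c : K, σ (algebraMap K _ c) = algebraMap K _ c)
    (τ : ℕ → ℕ) (hτ : ∀ d, d ∣ M → τ d ∣ M) (hττ : ∀ d, d ∣ M → τ (τ d) = d)
    (hσ : ∀ (d : ℕ) (h : jt (1 : Kˣ) d ∈ modularFunctionFieldFullC K M), d ∣ M →
      σ ⟨jt 1 d, h⟩ = jt 1 (τ d)) :
    ∃ w : modularFunctionFieldFullC K M ≃ₐ[K] modularFunctionFieldFullC K M,
      (∀ x, ((w x : modularFunctionFieldFullC K M) : LaurentSeries K) = σ x) ∧
      (∀ x, w (w x) = x) ∧
      (∀ (d : ℕ) (h : jt (1 : Kˣ) d ∈ modularFunctionFieldFullC K M)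
        (h' : jt (1 : Kˣ) (τ d) ∈ modularFunctionFieldFullC K M), d ∣ M →
        w ⟨jt 1 d, h⟩ = ⟨jt 1 (τ d), h'⟩) := by
  let σA : modularFunctionFieldFullC K M →ₐ[K] LaurentSeries K := { σ with commutes' := hC }
  have hσA : ∀ x, σA x = σ x := fun _ => rfl
  have hmem : ∀ x, σA x ∈ (modularFunctionFieldFullC K M).toSubalgebra := by
    have hcl : ∀ (x : LaurentSeries K) (hx : x ∈ modularFunctionFieldFullC K M),
        σA ⟨x, hx⟩ ∈ modularFunctionFieldFullC K M := by
      intro x hx
      refine IntermediateField.adjoin_induction (F := K) (s := divisorExpansionsC K M)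
        (p := fun x hx => σA ⟨x, hx⟩ ∈ modularFunctionFieldFullC K M) ?_ ?_ ?_ ?_ ?_ hx
      · rintro x hx
        have hx' := hx
        obtain ⟨d, hd0, hd, rfl⟩ := hx'
        have h1 : qExpand K d (jqModC K) = jt (1 : Kˣ) d := (jt_one_eq d).symm
        simp only [h1]
        rw [hσA, hσ d _ hd]
        exact jt_mem_full K hM (hτ d hd)
      · intro c
        have h1 : σA (algebraMap K _ c) = algebraMap K _ c := hC c
        exact (congrArg (· ∈ modularFunctionFieldFullC K M) h1).mpr
          (IntermediateField.algebraMap_mem _ c)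
      · intro x y hx hy h1 h2
        have h3 : σA (⟨x, hx⟩ + ⟨y, hy⟩) = _ := map_add σA _ _
        exact (congrArg (· ∈ modularFunctionFieldFullC K M) h3).mpr (add_mem h1 h2)
      · intro x hx h1
        have h3 : σA (⟨x, hx⟩⁻¹) = _ := map_inv₀ σA _
        exact (congrArg (· ∈ modularFunctionFieldFullC K M) h3).mpr (inv_mem h1)
      · intro x y hx hy h1 h2
        have h3 : σA (⟨x, hx⟩ * ⟨y, hy⟩) = _ := map_mul σA _ _
        exact (congrArg (· ∈ modularFunctionFieldFullC K M) h3).mpr (mul_mem h1 h2)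
    exact fun x => hcl x.1 x.2
  let w₀ : modularFunctionFieldFullC K M →ₐ[K] modularFunctionFieldFullC K M :=
    AlgHom.codRestrict σA (modularFunctionFieldFullC K M).toSubalgebra hmem
  have hw₀ : ∀ x, ((w₀ x : modularFunctionFieldFullC K M) : LaurentSeries K) = σ x := fun _ => rfl
  have hw₀j : ∀ (d : ℕ) (h : jt (1 : Kˣ) d ∈ modularFunctionFieldFullC K M)
        (h' : jt (1 : Kˣ) (τ d) ∈ modularFunctionFieldFullC K M), d ∣ M →
        w₀ ⟨jt 1 d, h⟩ = ⟨jt 1 (τ d), h'⟩ := by
    intro d h h' hd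
    apply Subtype.ext
    rw [hw₀, hσ d h hd]
  have hinv : w₀.comp w₀ = AlgHom.id K _ := by
    apply full_algHom_ext
    intro d h hd0 hd
    have h' : jt (1 : Kˣ) (τ d) ∈ modularFunctionFieldFullC K M := jt_mem_full K hM (hτ d hd)
    have h'' : jt (1 : Kˣ) (τ (τ d)) ∈ modularFunctionFieldFullC K M := by rwa [hττ d hd]
    rw [AlgHom.comp_apply, hw₀j d h h' hd, hw₀j _ h' h'' (hτ d hd), AlgHom.id_apply]
    apply Subtype.ext
    change jt (1 : Kˣ) (τ (τ d)) = jt 1 d
    rw [hττ d hd]
  refine ⟨AlgEquiv.ofAlgHom w₀ w₀ hinv hinv, hw₀, ?_, hw₀j⟩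
  intro x
  exact congrArg (fun h : modularFunctionFieldFullC K M →ₐ[K] modularFunctionFieldFullC K M => h x)
    hinv

/-- the involution `d ↦ pd`, `pd ↦ d` of the divisors of `Mp` -/
def swapIdx (p d : ℕ) : ℕ := if p ∣ d then d / p else p * d

theorem swapIdx_dvd {M p : ℕ} {d : ℕ} (hd : d ∣ M) (hpM : ¬ p ∣ M) :
    swapIdx p d = p * d := by
  rw [swapIdx, if_neg (fun h => hpM (h.trans hd))]

theorem swapIdx_mul {p : ℕ} (hp : p.Prime) (d : ℕ) : swapIdx p (p * d) = d := by
  rw [swapIdx, if_pos (dvd_mul_right p d), Nat.mul_div_cancel_left _ hp.pos]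

theorem dvd_cases {M p : ℕ} (hp : p.Prime) {d : ℕ} (hd : d ∣ M * p) :
    d ∣ M ∨ ∃ d', d' ∣ M ∧ d = p * d' := by
  have hd' : d ∣ M * p ^ (0 + 1) := by rwa [zero_add, pow_one]
  rcases dvd_mul_pow_succ_cases hp hd' with h | ⟨d₁, h1, h2⟩
  · left; simpa using h
  · right; exact ⟨d₁, h1, by rw [h2, zero_add, pow_one, mul_comm]⟩

theorem exists_atkinLehner [IsAlgClosed K] {M p : ℕ} [hp : Fact p.Prime] [hM : NeZero M]
    (hpM : ¬ p ∣ M) (hchar : ((M * p : ℕ) : K) ≠ 0) (H : TopHyp K M p) :
    ∃ w : modularFunctionFieldFullC K (M * p) ≃ₐ[K] modularFunctionFieldFullC K (M * p),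
      (∀ x, w (w x) = x) ∧
      (∀ x, w (alphaC K M p x) = betaC K M p x) ∧
      (∀ x, w (betaC K M p x) = alphaC K M p x) := by
  obtain ⟨σ, hC, h1, h2⟩ := exists_swap hM.out hchar H
  have hMp : M * p ≠ 0 := Nat.mul_ne_zero hM.out hp.out.ne_zero
  obtain ⟨w, hw, hww, hwj⟩ := exists_involution hMp σ hC (swapIdx p)
    (by
      intro d hd
      rcases dvd_cases hp.out hd with h | ⟨d', h, rfl⟩
      · rw [swapIdx_dvd h hpM, mul_comm M p]
        exact Nat.mul_dvd_mul_left p h
      · rw [swapIdx_mul hp.out]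
        exact h.trans (dvd_mul_right _ _))
    (by
      intro d hd
      rcases dvd_cases hp.out hd with h | ⟨d', h, rfl⟩
      · rw [swapIdx_dvd h hpM, swapIdx_mul hp.out]
      · rw [swapIdx_mul hp.out, swapIdx_dvd h hpM])
    (by
      intro d hmem hd
      rcases dvd_cases hp.out hd with h | ⟨d', h, rfl⟩
      · rw [h1 d hmem h, swapIdx_dvd h hpM]
      · rw [h2 d' hmem h, swapIdx_mul hp.out])
  have hα : ∀ x, w (alphaC K M p x) = betaC K M p x := by
    have : (w : _ →ₐ[K] _).comp (alphaC K M p) = betaC K M p := by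
      apply full_algHom_ext
      intro d h hd0 hd
      have hm : jt (1 : Kˣ) d ∈ modularFunctionFieldFullC K (M * p) :=
        jt_mem_full K hMp (hd.trans (dvd_mul_right _ _))
      have ha : alphaC K M p ⟨jt 1 d, h⟩ = ⟨jt 1 d, hm⟩ := Subtype.ext (coe_alphaC K M p _)
      apply Subtype.ext
      rw [AlgHom.comp_apply, ha, coe_betaC, qExpand_jt, ← h1 d hm hd]
      exact hw _
    intro x
    exact congrArg (fun f : modularFunctionFieldFullC K M →ₐ[K]
      modularFunctionFieldFullC K (M * p) => f x) this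
  refine ⟨w, hww, hα, fun x => ?_⟩
  rw [← hα x, hww]

end Package

section Bar

theorem coe_equivOfEq {F E : Type*} [Field F] [Field E] [Algebra F E] {S T : IntermediateField F E}
    (h : S = T) (x : S) : ((IntermediateField.equivOfEq h x : T) : E) = x := rfl

theorem coe_equivOfEq_symm {F E : Type*} [Field F] [Field E] [Algebra F E]
    {S T : IntermediateField F E}
    (h : S = T) (x : T) : (((IntermediateField.equivOfEq h).symm x : S) : E) = x := rfl

variable (L : Type) [Field L] [Algebra ℚ L]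

/-- `laurentBaseChange L F_N = F_N(L)` as an isomorphism of `L`-algebras. -/
def barEquiv (N : ℕ) :
    laurentBaseChange L (modularFunctionFieldFull N) ≃ₐ[L] modularFunctionFieldFullC L N :=
  IntermediateField.equivOfEq (MFF.laurentBaseChange_full L N)

@[simp] theorem coe_barEquiv (N : ℕ) (x : laurentBaseChange L (modularFunctionFieldFull N)) :
    (barEquiv L N x : LaurentSeries L) = x := coe_equivOfEq _ x

@[simp] theorem coe_barEquiv_symm (N : ℕ) (x : modularFunctionFieldFullC L N) :
    ((barEquiv L N).symm x : LaurentSeries L) = x := coe_equivOfEq_symm _ x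

variable (N ℓ : ℕ) [NeZero N] [NeZero ℓ]

theorem barEquiv_alpha (x : laurentBaseChange L (modularFunctionFieldFull N)) :
    barEquiv L (N * ℓ) (heckeAlphaBar L N ℓ x) = alphaC L N ℓ (barEquiv L N x) := by
  apply Subtype.ext
  rw [coe_barEquiv, coe_heckeAlphaBar, coe_alphaC, coe_barEquiv]

theorem barEquiv_beta (x : laurentBaseChange L (modularFunctionFieldFull N)) :
    barEquiv L (N * ℓ) (heckeBetaBar L N ℓ x) = betaC L N ℓ (barEquiv L N x) := by
  apply Subtype.ext
  rw [coe_barEquiv, coe_heckeBetaBar, coe_betaC, coe_barEquiv]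

theorem exists_atkinLehnerBar [IsAlgClosed L] {M p : ℕ} [hp : Fact p.Prime] [hM : NeZero M]
    (hpM : ¬ p ∣ M) (H : TopHyp L M p) :
    ∃ w : laurentBaseChange L (modularFunctionFieldFull (M * p)) ≃ₐ[L]
        laurentBaseChange L (modularFunctionFieldFull (M * p)),
      (∀ x, w (w x) = x) ∧
      (∀ x, w (heckeAlphaBar L M p x) = heckeBetaBar L M p x) ∧
      (∀ x, w (heckeBetaBar L M p x) = heckeAlphaBar L M p x) := by
  have : CharZero L := algebraRat.charZero L
  obtain ⟨w, hww, hα, hβ⟩ := exists_atkinLehner (K := L) hpM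
    (by exact_mod_cast Nat.mul_ne_zero hM.out hp.out.ne_zero) H
  refine ⟨((barEquiv L (M * p)).trans w).trans (barEquiv L (M * p)).symm, ?_, ?_, ?_⟩
  · intro x
    simp [hww]
  · intro x
    rw [AlgEquiv.trans_apply, AlgEquiv.trans_apply, barEquiv_alpha, hα, ← barEquiv_beta,
      AlgEquiv.symm_apply_apply]
  · intro x
    rw [AlgEquiv.trans_apply, AlgEquiv.trans_apply, barEquiv_beta, hβ, ← barEquiv_alpha,
      AlgEquiv.symm_apply_apply]

end Bar

end Fermat.Agent.JRED.AL
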