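import Mathlib
import Fermat.Agent.JRED.AtkinLehner
import Fermat.Agent.S28.Degree

/-!
# Atkin–Lehner `w_p` and Fricke `W_M` automorphisms of `F_M`, degree of `α`, `β`
-/

set_option autoImplicit false

noncomputable section

open ModularCurve Polynomial IntermediateField Fermat.Agent.S28 AlgebraicCurve

namespace Fermat.Agent.JRED.AL

section Alg

variable {K : Type} [Field K] [IsAlgClosed K] {M p : ℕ} [hp : Fact p.Prime]

theorem minpoly_natDegree (hM : M ≠ 0) (hpM : ¬ p ∣ M) (hchar : ((M * p : ℕ) : K) ≠ 0) :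
    (minpoly (modularFunctionFieldFullC K M) (jt (1 : Kˣ) p)).natDegree = p + 1 ∧
    modularFunctionFieldFullC K (M * p) =
      (IntermediateField.adjoin (modularFunctionFieldFullC K M)
        {jt (1 : Kˣ) p}).restrictScalars K := by
  have hcharM : ((M * p ^ 0 : ℕ) : K) ≠ 0 := by
    intro h; apply hchar
    rw [pow_zero, mul_one] at h
    push_cast; rw [h, zero_mul]
  have hcharp : (p : K) ≠ 0 := by
    intro h; apply hchar; push_cast; rw [h, mul_zero]
  obtain ⟨Φp, hΦp⟩ := exists_modPolySpec p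
  obtain ⟨ζ, hζ⟩ := exists_unit_primitiveRoot (K := K) (n := p) hcharp
  obtain ⟨⟨ι, hι⟩, -⟩ := tower (K := K) modPolyAll jpNotMem (M * p ^ 0) hcharM
  have hnot : jt (1 : Kˣ) (p ^ 1) ∉ modularFunctionFieldFullC K (M * p ^ 0) := by
    rw [pow_zero, mul_one]
    exact jt_p_notMem modPolyAll jpNotMem hpM hchar
  have hB := caseB hΦp hζ hM hpM hι hnot
  have hst := (tower_step modPolyAll hM hpM hchar hι
    (eval_eq_zero_of_dvd_of_eval_eq_zero hB.1 lowProd_eval_one)).2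
  have h2 := hB.2
  rw [pow_zero, mul_one, pow_one] at h2
  rw [pow_zero, mul_one, zero_add, pow_one] at hst
  exact ⟨h2, hst⟩

theorem topHyp (hM : M ≠ 0) (hpM : ¬ p ∣ M) (hchar : ((M * p : ℕ) : K) ≠ 0) : TopHyp K M p := by
  obtain ⟨hdeg, hgen⟩ := minpoly_natDegree hM hpM hchar
  refine ⟨?_, hgen⟩
  have hcharp : (p : K) ≠ 0 := by
    intro h; apply hchar; push_cast; rw [h, mul_zero]
  obtain ⟨Φp, hΦp⟩ := exists_modPolySpec p
  obtain ⟨ζ, hζ⟩ := exists_unit_primitiveRoot (K := K) (n := p) hcharp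
  let F := modularFunctionFieldFullC K M
  have hjmem : jt (1 : Kˣ) 1 ∈ F := jt_mem_full K hM (one_dvd _)
  have hroot : aeval (jt (1 : Kˣ) p) (PhiR Φp (⟨jt 1 1, hjmem⟩ : F)) = 0 := by
    rw [aeval_def, ← eval_map, PhiR_map]
    have := hΦp.root_high hζ (m := 1) one_ne_zero
    rwa [mul_one] at this
  have hmon : (PhiR Φp (⟨jt 1 1, hjmem⟩ : F)).Monic := PhiR_monic hΦp.monic _
  have hxint : IsIntegral F (jt (1 : Kˣ) p) := ⟨_, hmon, hroot⟩
  have hd1 : (PhiR Φp (⟨jt 1 1, hjmem⟩ : F)).natDegree = p + 1 := by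
    rw [PhiR_natDegree hΦp.monic, hΦp.natDegree_eq]
  have heq : minpoly F (jt (1 : Kˣ) p) = PhiR Φp (⟨jt 1 1, hjmem⟩ : F) := by
    generalize hR : PhiR Φp (⟨jt 1 1, hjmem⟩ : F) = R at hd1 hmon hroot
    clear hR
    symm
    refine Polynomial.eq_of_monic_of_dvd_of_natDegree_le (minpoly.monic hxint) hmon
      (minpoly.dvd F _ hroot) ?_
    rw [hd1]
    exact hdeg.ge
  rw [heq, PhiR_map]
  change (PhiR Φp (qExpand K p (jt (1 : Kˣ) 1))).eval (jt 1 1) = 0
  rw [qExpand_jt]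
  exact hΦp.root_low_one hζ one_ne_zero

/-- The Fricke involution `W_M` of `F_M`: `j(q^d) ↔ j(q^{M/d})`. -/
theorem exists_frickeC (M : ℕ) (hM : (M : K) ≠ 0) :
    ∃ W : modularFunctionFieldFullC K M ≃ₐ[K] modularFunctionFieldFullC K M,
      (∀ x, W (W x) = x) ∧
      (∀ (d : ℕ) (h : jt (1 : Kˣ) d ∈ modularFunctionFieldFullC K M)
        (h' : jt (1 : Kˣ) (M / d) ∈ modularFunctionFieldFullC K M), d ∣ M →
        W ⟨jt 1 d, h⟩ = ⟨jt 1 (M / d), h'⟩) := by
  have hM0 : M ≠ 0 := by rintro rfl; exact hM Nat.cast_zero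
  obtain ⟨⟨ι, hι⟩, -⟩ := tower (K := K) modPolyAll jpNotMem M hM
  obtain ⟨w, -, hww, hwj⟩ := exists_involution hM0 ι hι.1 (fun d => M / d)
    (fun d hd => Nat.div_dvd_of_dvd hd) (fun d hd => Nat.div_div_self hd hM0) hι.2
  exact ⟨w, hww, hwj⟩

/-- The Fricke involution of `F_M`. -/
def frickeC (M : ℕ) (hM : (M : K) ≠ 0) :
    modularFunctionFieldFullC K M ≃ₐ[K] modularFunctionFieldFullC K M :=
  Classical.choose (exists_frickeC M hM)

theorem frickeC_frickeC (M : ℕ) (hM : (M : K) ≠ 0) (x : modularFunctionFieldFullC K M) :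
    frickeC M hM (frickeC M hM x) = x := (Classical.choose_spec (exists_frickeC M hM)).1 x

theorem frickeC_jt (M : ℕ) (hM : (M : K) ≠ 0) (d : ℕ)
    (h : jt (1 : Kˣ) d ∈ modularFunctionFieldFullC K M)
    (h' : jt (1 : Kˣ) (M / d) ∈ modularFunctionFieldFullC K M) (hd : d ∣ M) :
    frickeC M hM ⟨jt 1 d, h⟩ = ⟨jt 1 (M / d), h'⟩ :=
  (Classical.choose_spec (exists_frickeC M hM)).2 d h h' hd

theorem coe_frickeC_jt (M : ℕ) (hM : (M : K) ≠ 0) (d : ℕ)
    (h : jt (1 : Kˣ) d ∈ modularFunctionFieldFullC K M) (hd : d ∣ M) :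
    (frickeC M hM ⟨jt 1 d, h⟩ : LaurentSeries K) = jt 1 (M / d) := by
  have hM0 : M ≠ 0 := by rintro rfl; exact hM Nat.cast_zero
  rw [frickeC_jt M hM d h (jt_mem_full K hM0 (Nat.div_dvd_of_dvd hd)) hd]

/-- `W_{Mℓ} ∘ α ∘ W_M = β`, for every `ℓ`. -/
theorem frickeC_alpha_frickeC (M ℓ : ℕ) [NeZero M] [NeZero ℓ] (hM : (M : K) ≠ 0)
    (hMℓ : ((M * ℓ : ℕ) : K) ≠ 0) (x : modularFunctionFieldFullC K M) :
    frickeC (M * ℓ) hMℓ (alphaC K M ℓ (frickeC M hM x)) = betaC K M ℓ x := by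
  have hM0 : M ≠ 0 := NeZero.ne M
  have hℓ0 : ℓ ≠ 0 := NeZero.ne ℓ
  have key : ((frickeC (M * ℓ) hMℓ : _ →ₐ[K] _).comp (alphaC K M ℓ)).comp
      (frickeC M hM : _ →ₐ[K] _) = betaC K M ℓ := by
    apply full_algHom_ext
    intro d h hd0 hd
    have h1 : jt (1 : Kˣ) (M / d) ∈ modularFunctionFieldFullC K M :=
      jt_mem_full K hM0 (Nat.div_dvd_of_dvd hd)
    have h2 : jt (1 : Kˣ) (M / d) ∈ modularFunctionFieldFullC K (M * ℓ) :=
      full_degeneracyC_le K (dvd_mul_right M ℓ) h1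
    have ha : alphaC K M ℓ ⟨jt 1 (M / d), h1⟩ = ⟨jt 1 (M / d), h2⟩ :=
      Subtype.ext (coe_alphaC K M ℓ _)
    apply Subtype.ext
    change (frickeC (M * ℓ) hMℓ (alphaC K M ℓ (frickeC M hM ⟨jt 1 d, h⟩)) : LaurentSeries K) = _
    rw [frickeC_jt M hM d h h1 hd, ha, coe_frickeC_jt (M * ℓ) hMℓ _ h2
      ((Nat.div_dvd_of_dvd hd).trans (dvd_mul_right _ _)), coe_betaC, qExpand_jt]
    congr 1
    obtain ⟨c, rfl⟩ := hd
    have hc0 : 0 < c := Nat.pos_of_ne_zero (by rintro rfl; exact hM0 (mul_zero _))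
    rw [Nat.mul_div_cancel_left _ (Nat.pos_of_ne_zero hd0),
      show d * c * ℓ = (ℓ * d) * c by ring, Nat.mul_div_cancel _ hc0]
  exact congrArg (fun f : modularFunctionFieldFullC K M →ₐ[K]
      modularFunctionFieldFullC K (M * ℓ) => f x) key

/-- The Atkin–Lehner automorphism `w_p` of `F_{Mp}`, `p ∤ M`. -/
theorem exists_atkinLehnerC [hM : NeZero M] (hpM : ¬ p ∣ M) (hchar : ((M * p : ℕ) : K) ≠ 0) :
    ∃ w : modularFunctionFieldFullC K (M * p) ≃ₐ[K] modularFunctionFieldFullC K (M * p),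
      (∀ x, w (w x) = x) ∧
      (∀ x, w (alphaC K M p x) = betaC K M p x) ∧
      (∀ x, w (betaC K M p x) = alphaC K M p x) :=
  exists_atkinLehner hpM hchar (topHyp hM.out hpM hchar)

end Alg

section Bar

variable (L : Type) [Field L] [Algebra ℚ L] [IsAlgClosed L]

/-- The Atkin–Lehner automorphism `w_p` over an algebraically closed field of characteristic
zero. -/
theorem exists_wBar (M p : ℕ) [hM : NeZero M] [hp : Fact p.Prime] (hpM : ¬ p ∣ M) :
    ∃ w : laurentBaseChange L (modularFunctionFieldFull (M * p)) ≃ₐ[L]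
        laurentBaseChange L (modularFunctionFieldFull (M * p)),
      (∀ x, w (w x) = x) ∧
      (∀ x, w (heckeAlphaBar L M p x) = heckeBetaBar L M p x) ∧
      (∀ x, w (heckeBetaBar L M p x) = heckeAlphaBar L M p x) := by
  have : CharZero L := algebraRat.charZero L
  exact exists_atkinLehnerBar L hpM (topHyp hM.out hpM
    (by exact_mod_cast Nat.mul_ne_zero hM.out hp.out.ne_zero))

/-- Fricke involutions over `L`, with `W_{Mℓ} ∘ α ∘ W_M = β`. -/
theorem exists_frickeBar : ∃ W : ∀ M : ℕ,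
    laurentBaseChange L (modularFunctionFieldFull M) ≃ₐ[L]
      laurentBaseChange L (modularFunctionFieldFull M),
    (∀ (M : ℕ) [NeZero M] (x), W M (W M x) = x) ∧
    (∀ (M d : ℕ) [NeZero M] (_ : d ∣ M)
      (x : laurentBaseChange L (modularFunctionFieldFull M)),
      (x : LaurentSeries L) = jt (1 : Lˣ) d → (W M x : LaurentSeries L) = jt 1 (M / d)) ∧
    (∀ (M ℓ : ℕ) [NeZero M] [NeZero ℓ] (x),
      W (M * ℓ) (heckeAlphaBar L M ℓ (W M x)) = heckeBetaBar L M ℓ x) := by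
  have : CharZero L := algebraRat.charZero L
  have hne : ∀ M : ℕ, M ≠ 0 → (M : L) ≠ 0 := fun M h => by exact_mod_cast h
  classical
  let W : ∀ M : ℕ, laurentBaseChange L (modularFunctionFieldFull M) ≃ₐ[L]
      laurentBaseChange L (modularFunctionFieldFull M) := fun M =>
    if h : M = 0 then AlgEquiv.refl else
      ((barEquiv L M).trans (frickeC M (hne M h))).trans (barEquiv L M).symm
  have hW : ∀ (M : ℕ) (h : M ≠ 0) (x), W M x = (barEquiv L M).symm
      (frickeC M (hne M h) (barEquiv L M x)) := by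
    intro M h x
    simp only [W, dif_neg h]
    rfl
  refine ⟨W, ?_, ?_, ?_⟩
  · intro M hM x
    rw [hW M hM.out, hW M hM.out, AlgEquiv.apply_symm_apply, frickeC_frickeC,
      AlgEquiv.symm_apply_apply]
  · intro M d hM hd x hx
    rw [hW M hM.out, coe_barEquiv_symm]
    have h1 : barEquiv L M x = ⟨jt 1 d, jt_mem_full L hM.out hd⟩ :=
      Subtype.ext ((coe_barEquiv L M x).trans hx)
    rw [h1, coe_frickeC_jt _ _ _ _ hd]
  · intro M ℓ hM hℓ x
    have hMℓ : M * ℓ ≠ 0 := Nat.mul_ne_zero hM.out hℓ.out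
    rw [hW M hM.out, hW (M * ℓ) hMℓ, AlgEquiv.symm_apply_eq, barEquiv_beta, barEquiv_alpha,
      AlgEquiv.apply_symm_apply, frickeC_alpha_frickeC]

end Bar

end Fermat.Agent.JRED.AL
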