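import Mathlib
import Fermat.Agent.Jan.HeckeNorm
import Fermat.Agent.S28.Twist
import Fermat.Agent.JRED.Interface
import Fermat.Prelude.Thm_ModularCurve_coeffMap_qExpand

/-!
# The norm identity for `T_ℓ` and its reduction modulo `ℓ`

* `normAlong_abstract`, `qExpand_normAlong`: `N_α(β f) = f(q^ℓ) n(f)`, `n(f)(q^ℓ) = ∏_b f(ζ^b q)`.
* `res_normAlong`: for `f` in the Gauss valuation ring of `F_N`, `N_α(β f)` is also there and
  `res (N_α(β f)) = φ(res f) * (res f)(q^ℓ)`, `φ` the coefficientwise Frobenius.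
* `laurent_pow_char`: `x^ℓ = (φ x)(q^ℓ)`.
-/

set_option autoImplicit false
set_option linter.unusedSectionVars false
set_option linter.style.haveILetI false

noncomputable section

open AlgebraicCurve ModularCurve

namespace Fermat.Agent.JRED.ES

open Fermat.Agent.S28 Fermat.Agent.Jan.HeckeNorm Fermat.Agent.Jan.HeckeInputs

section NormProd

/-- The norm is the product over a complete set of embeddings into a field. -/
theorem map_norm_eq_prod {E M Ω : Type*} [Field E] [Field M] [Field Ω] [Algebra E M]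
    [FiniteDimensional E M] [Algebra.IsSeparable E M] (i0 : E →+* Ω) {I : Type*} [Fintype I]
    (ι : I → (M →+* Ω)) (hι : ∀ i x, ι i (algebraMap E M x) = i0 x)
    (hinj : Function.Injective ι) (hcard : Fintype.card I = Module.finrank E M) (y : M) :
    i0 (Algebra.norm E y) = ∏ i, ι i y := by
  letI : Algebra E Ω := i0.toAlgebra
  have hmap : ∀ x, algebraMap Ω (AlgebraicClosure Ω) (i0 x) = algebraMap E (AlgebraicClosure Ω) x :=
    fun x => (IsScalarTower.algebraMap_apply E Ω (AlgebraicClosure Ω) x).symm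
  let κ : I → (M →ₐ[E] AlgebraicClosure Ω) := fun i =>
    { (algebraMap Ω (AlgebraicClosure Ω)).comp (ι i) with
      commutes' := fun x => by
        change algebraMap Ω (AlgebraicClosure Ω) (ι i (algebraMap E M x)) = _
        rw [hι, hmap] }
  have hκ : ∀ i x, κ i x = algebraMap Ω (AlgebraicClosure Ω) (ι i x) := fun _ _ => rfl
  have hκinj : Function.Injective κ := by
    intro i i' h
    apply hinj
    ext x
    apply (algebraMap Ω (AlgebraicClosure Ω)).injective
    rw [← hκ, ← hκ, h]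
  have hbij : Function.Bijective κ := by
    rw [Fintype.bijective_iff_injective_and_card]
    exact ⟨hκinj, by rw [hcard, AlgHom.card E M (AlgebraicClosure Ω)]⟩
  apply (algebraMap Ω (AlgebraicClosure Ω)).injective
  rw [hmap, Algebra.norm_eq_prod_embeddings E (AlgebraicClosure Ω) y, map_prod]
  exact (Fintype.prod_bijective κ hbij _ _ fun i => (hκ i y).symm).symm

/-- The version along an algebra map. -/
theorem map_normAlong_eq_prod {K E M Ω : Type*} [Field K] [CharZero K] [Field E] [Field M]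
    [Field Ω] [Algebra K E] [Algebra K M] (ψ : E →ₐ[K] M) (hfin : FiniteAlong K ψ)
    (i0 : E →+* Ω) {I : Type*} [Fintype I]
    (ι : I → (M →+* Ω)) (hι : ∀ i x, ι i (ψ x) = i0 x)
    (hinj : Function.Injective ι) (hcard : Fintype.card I = finrankAlong K ψ) (y : M) :
    i0 (normAlong ψ y) = ∏ i, ι i y := by
  letI := algebraAlong ψ
  haveI : FiniteDimensional E M := hfin
  haveI : CharZero E := charZero_of_injective_algebraMap (algebraMap K E).injective
  exact map_norm_eq_prod i0 ι hι hinj hcard y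

/-- The norm identity, abstract form: `M → Ω` given by `e∞ = s ∘ incl` and `t_b ∘ incl ∘ w`. -/
theorem normAlong_abstract {K E M Ω : Type*} [Field K] [CharZero K] [Field E] [Field M]
    [Field Ω] [Algebra K E] [Algebra K M] (α β : E →ₐ[K] M) (hfin : FiniteAlong K α)
    (inE : E →+* Ω) (inM : M →+* Ω) (s : Ω →+* Ω) {ℓ : ℕ} (t : Fin ℓ → (Ω →+* Ω))
    (w : M →+* M) (hw1 : ∀ x, w (α x) = β x) (hw2 : ∀ x, w (β x) = α x)
    (hα : ∀ x, inM (α x) = inE x) (hβ : ∀ x, inM (β x) = s (inE x))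
    (hts : ∀ b x, t b (s x) = s x) (hdeg : finrankAlong K α = ℓ + 1)
    (y : E) (hy : ∀ b, t b (inE y) ≠ s (s (inE y)))
    (hy2 : ∀ b c, t b (inE y) = t c (inE y) → b = c) (f : E) :
    s (inE (normAlong α (β f))) = s (s (inE f)) * ∏ b, t b (inE f) := by
  let ι : Option (Fin ℓ) → (M →+* Ω) := fun o => o.elim (s.comp inM)
    (fun b => (t b).comp (inM.comp w))
  have hnone0 : ∀ x, ι none x = s (inM x) := fun _ => rfl
  have hsome0 : ∀ b x, ι (some b) x = t b (inM (w x)) := fun _ _ => rfl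
  have hnone : ∀ x, ι none (β x) = s (s (inE x)) := fun x => by rw [hnone0, hβ]
  have hsome : ∀ b x, ι (some b) (β x) = t b (inE x) := fun b x => by rw [hsome0, hw2, hα]
  have hι : ∀ i x, ι i (α x) = (s.comp inE) x := by
    rintro (_ | b) x
    · rw [hnone0, hα]; rfl
    · rw [hsome0, hw1, hβ, hts]; rfl
  have hinj : Function.Injective ι := by
    rintro (_ | b) (_ | c) h
    · rfl
    · exfalso
      have h1 := hsome c y
      rw [← h, hnone] at h1
      exact hy c h1.symm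
    · exfalso
      have h1 := hsome b y
      rw [h, hnone] at h1
      exact hy b h1.symm
    · have h1 := hsome b y
      rw [h, hsome] at h1
      rw [hy2 b c h1.symm]
  have hcard : Fintype.card (Option (Fin ℓ)) = finrankAlong K α := by
    rw [hdeg, Fintype.card_option, Fintype.card_fin]
  have key := map_normAlong_eq_prod α hfin (s.comp inE) ι hι hinj hcard (β f)
  rw [Fintype.prod_option, hnone] at key
  simp only [hsome] at key
  exact key

end NormProd

section Identity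

variable (L : Type*) [Field L] [Algebra ℚ L]

/-- `j` in the modular function field. -/
def jB (N : ℕ) : laurentBaseChange L (modularFunctionFieldFull N) :=
  ⟨jL L, coeffEmb_mem_laurentBaseChange L (by simpa [qExpand_one_apply] using jqd_mem_full N (one_dvd N))⟩

theorem coe_jB (N : ℕ) : (jB L N : LaurentSeries L) = jL L := rfl

theorem coeff_jL_neg_one : (jL L).coeff (-1) = 1 := by
  rw [jL, coeffEmb_coeff, coeff_jq_neg_one, map_one]

/-- The inclusion as a ring homomorphism. -/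
def inclL (N : ℕ) : laurentBaseChange L (modularFunctionFieldFull N) →+* LaurentSeries L :=
  (laurentBaseChange L (modularFunctionFieldFull N)).toSubfield.subtype

theorem inclL_apply (N : ℕ) (x : laurentBaseChange L (modularFunctionFieldFull N)) :
    inclL L N x = (x : LaurentSeries L) := rfl


/-- **The norm identity.** -/
theorem qExpand_normAlong (hJ : JAlg) (N ℓ : ℕ) [NeZero N] [NeZero ℓ] (hℓ : ℓ.Prime)
    (w : laurentBaseChange L (modularFunctionFieldFull (N * ℓ)) →+*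
      laurentBaseChange L (modularFunctionFieldFull (N * ℓ)))
    (hw1 : ∀ x, w (heckeAlphaBar L N ℓ x) = heckeBetaBar L N ℓ x)
    (hw2 : ∀ x, w (heckeBetaBar L N ℓ x) = heckeAlphaBar L N ℓ x)
    (hdeg : finrankAlong L (heckeAlphaBar L N ℓ) = ℓ + 1)
    {ζ : Lˣ} (hζ : IsPrimitiveRoot ζ ℓ)
    (f : laurentBaseChange L (modularFunctionFieldFull N)) :
    qExpand L ℓ (inclL L N (normAlong (heckeAlphaBar L N ℓ) (heckeBetaBar L N ℓ f))) =
      qExpand L ℓ (qExpand L ℓ (inclL L N f)) * ∏ b : Fin ℓ, twist (ζ ^ (b : ℕ)) (inclL L N f) := by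
  have : CharZero L := charZero_of_injective_algebraMap (algebraMap ℚ L).injective
  have hfin : FiniteAlong L (heckeAlphaBar L N ℓ) := finiteAlong_heckeAlphaBar L N ℓ hJ
  have hj : ∀ b : Fin ℓ, (twist (ζ ^ (b : ℕ)) (inclL L N (jB L N))).coeff (-1) =
      (((ζ ^ (b : ℕ))⁻¹ : Lˣ) : L) := by
    intro b
    rw [twist_coeff, zpow_neg_one, inclL_apply, coe_jB, coeff_jL_neg_one, mul_one]
  have hj0 : (qExpand L ℓ (qExpand L ℓ (inclL L N (jB L N)))).coeff (-1) = 0 := by
    apply qExpand_coeff_of_not_dvd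
    intro h
    have h1 : (ℓ : ℤ) ∣ 1 := by simpa using h
    have h2 : ℓ ∣ 1 := by exact_mod_cast h1
    exact hℓ.one_lt.ne' (Nat.dvd_one.mp h2)
  refine normAlong_abstract (heckeAlphaBar L N ℓ) (heckeBetaBar L N ℓ) hfin (inclL L N)
    (inclL L (N * ℓ)) (qExpand L ℓ) (fun b : Fin ℓ => twist (ζ ^ (b : ℕ))) w hw1 hw2 ?_ ?_ ?_ hdeg
    (jB L N) ?_ ?_ f
  · intro x
    rw [inclL_apply, inclL_apply, coe_heckeAlphaBar]
  · intro x
    rw [inclL_apply, inclL_apply, coe_heckeBetaBar]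
  · intro b x
    apply twist_qExpand_of_pow_eq_one
    rw [← pow_mul, mul_comm, pow_mul, hζ.pow_eq_one, one_pow]
  · intro b h
    have h1 := hj b
    rw [h, hj0] at h1
    exact Units.ne_zero _ h1.symm
  · intro b c h
    have h1 := hj b
    rw [h, hj c] at h1
    have h2 : ζ ^ (c : ℕ) = ζ ^ (b : ℕ) := inv_injective (Units.ext h1)
    exact (Fin.ext (hζ.pow_inj c.2 b.2 h2)).symm

end Identity

section Integral

variable {R : Type*} [CommRing R] [IsDomain R] (ℓ : ℕ) [NeZero ℓ]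

/-- `∏_b a(ζ^b t)`. -/
def twistProd (ζ : Rˣ) (a : LaurentSeries R) : LaurentSeries R :=
  ∏ b : Fin ℓ, twist (ζ ^ (b : ℕ)) a

omit [IsDomain R] in
theorem twistProd_mul (ζ : Rˣ) (a b : LaurentSeries R) :
    twistProd ℓ ζ (a * b) = twistProd ℓ ζ a * twistProd ℓ ζ b := by
  simp [twistProd, Finset.prod_mul_distrib]

omit [IsDomain R] in
theorem twist_twistProd {ζ : Rˣ} (hζ : ζ ^ ℓ = 1) (a : LaurentSeries R) :
    twist ζ (twistProd ℓ ζ a) = twistProd ℓ ζ a := by
  rw [twistProd, map_prod]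
  simp only [twist_twist]
  rw [Fin.prod_univ_eq_prod_range (fun b => twist (ζ * ζ ^ b) a) ℓ,
    Fin.prod_univ_eq_prod_range (fun b => twist (ζ ^ b) a) ℓ]
  obtain ⟨m, hm⟩ : ∃ m, ℓ = m + 1 := ⟨ℓ - 1, (Nat.succ_pred_eq_of_ne_zero (NeZero.ne ℓ)).symm⟩
  rw [hm] at hζ ⊢
  rw [Finset.prod_range_succ, Finset.prod_range_succ' (fun b => twist (ζ ^ b) a)]
  simp only [← pow_succ', hζ, pow_zero]

theorem exists_qExpand_eq_twistProd {ζ : Rˣ} (hζ : IsPrimitiveRoot ζ ℓ) (a : LaurentSeries R) :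
    ∃ n : LaurentSeries R, qExpand R ℓ n = twistProd ℓ ζ a := by
  have := (mem_range_qExpand_iff ℓ (twistProd ℓ ζ a)).mpr ?_
  · exact this
  · intro n hn
    have h1 := congrArg (fun x => x.coeff n) (twist_twistProd ℓ hζ.pow_eq_one a)
    simp only [twist_coeff] at h1
    have h2 : (((ζ ^ n : Rˣ) : R) - 1) * (twistProd ℓ ζ a).coeff n = 0 := by
      rw [sub_mul, one_mul, h1, sub_self]
    rcases mul_eq_zero.mp h2 with h3 | h3
    · exfalso
      apply hn
      rw [← hζ.zpow_eq_one_iff_dvd]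
      exact Units.ext (by rw [Units.val_one]; exact sub_eq_zero.mp h3)
    · exact h3

end Integral

section CharL

variable {k : Type*} [Field k] (ℓ : ℕ) [NeZero ℓ]

theorem coeffMap_twist {R S : Type*} [CommRing R] [CommRing S] (π : R →+* S) (u : Rˣ)
    (a : LaurentSeries R) : coeffMap π (twist u a) = twist (Units.map π.toMonoidHom u) (coeffMap π a) := by
  ext n
  rw [coeffMap_coeff, twist_coeff, twist_coeff, coeffMap_coeff, map_mul, ← map_zpow]
  rfl

theorem unit_eq_one_of_pow [CharP k ℓ] (hℓ : ℓ.Prime) (u : kˣ) (hu : u ^ ℓ = 1) : u = 1 := by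
  haveI := Fact.mk hℓ
  apply Units.ext
  have h1 : ((u : k) - 1) ^ ℓ = 0 := by
    rw [sub_pow_char, one_pow, ← Units.val_pow_eq_pow_val, hu, Units.val_one, sub_self]
  exact sub_eq_zero.mp (pow_eq_zero_iff (NeZero.ne ℓ) |>.mp h1)

theorem coeffMap_twistProd {R : Type*} [CommRing R] [CharP k ℓ] (hℓ : ℓ.Prime) (π : R →+* k)
    {ζ : Rˣ} (hζ : ζ ^ ℓ = 1) (a : LaurentSeries R) :
    coeffMap π (twistProd ℓ ζ a) = coeffMap π a ^ ℓ := by
  have h1 : Units.map π.toMonoidHom ζ = 1 :=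
    unit_eq_one_of_pow ℓ hℓ _ (by rw [← map_pow, hζ, map_one])
  rw [twistProd, map_prod]
  simp only [coeffMap_twist, map_pow, h1, one_pow, twist_one]
  rw [Finset.prod_const, Finset.card_univ, Fintype.card_fin]

end CharL

section Pow

theorem powerSeries_pow_char {k : Type*} [CommRing k] (ℓ : ℕ) (hℓ : ℓ ≠ 0) [ExpChar k ℓ]
    (p : PowerSeries k) :
    p ^ ℓ = (PowerSeries.expand ℓ hℓ p).map (frobenius k ℓ) :=
  (MvPowerSeries.map_frobenius_expand ℓ hℓ (f := p)).symm

theorem qExpand_ofPowerSeries {k : Type*} [CommRing k] (ℓ : ℕ) [NeZero ℓ] (p : PowerSeries k) :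
    qExpand k ℓ (HahnSeries.ofPowerSeries ℤ k p) =
      HahnSeries.ofPowerSeries ℤ k (PowerSeries.expand ℓ (NeZero.ne ℓ) p) := by
  ext n
  by_cases hn : (ℓ : ℤ) ∣ n
  · obtain ⟨m, rfl⟩ := hn
    rw [qExpand_coeff_mul]
    rcases le_or_gt 0 m with hm | hm
    · lift m to ℕ using hm
      have h1 : (ℓ : ℤ) * (m : ℤ) = ((ℓ * m : ℕ) : ℤ) := by push_cast; ring
      rw [h1, HahnSeries.ofPowerSeries_apply_coeff, HahnSeries.ofPowerSeries_apply_coeff, 
        PowerSeries.coeff_expand_mul]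
    · rw [ofPowerSeries_coeff_of_neg _ hm, ofPowerSeries_coeff_of_neg]
      have : (0:ℤ) < ℓ := by exact_mod_cast Nat.pos_of_ne_zero (NeZero.ne ℓ)
      nlinarith
  · rw [qExpand_coeff_of_not_dvd _ _ hn]
    rcases le_or_gt 0 n with h0 | h0
    · lift n to ℕ using h0
      rw [HahnSeries.ofPowerSeries_apply_coeff, PowerSeries.coeff_expand_of_not_dvd]
      exact fun h => hn (by exact_mod_cast h)
    · rw [ofPowerSeries_coeff_of_neg _ h0]

/-- `x^ℓ = x^{(ℓ)}(q^ℓ)` in characteristic `ℓ`. -/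
theorem laurent_pow_char {k : Type*} [CommRing k] (ℓ : ℕ) [NeZero ℓ] [ExpChar k ℓ]
    (x : LaurentSeries k) :
    x ^ ℓ = qExpand k ℓ (coeffMap (frobenius k ℓ) x) := by
  rw [← LaurentSeries.single_order_mul_powerSeriesPart x]
  rw [mul_pow, HahnSeries.single_pow, one_pow, map_mul, map_mul, coeffMap_single, map_one (frobenius k ℓ),
    qExpand_single, coeffMap_ofPowerSeries, qExpand_ofPowerSeries, ← map_pow,
    powerSeries_pow_char ℓ (NeZero.ne ℓ), PowerSeries.map_expand, nsmul_eq_mul]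

end Pow

section Reduction

variable {A : ValuationSubring (AlgebraicClosure ℚ)} {k : Type} [Field k] {π : A →+* k}

/-- A root of unity belongs to every valuation ring. -/
theorem exists_primitiveRoot_unit (A : ValuationSubring (AlgebraicClosure ℚ)) (ℓ : ℕ) [NeZero ℓ] :
    ∃ ζ : Aˣ, IsPrimitiveRoot ζ ℓ := by
  obtain ⟨ζ, hζ⟩ := HasEnoughRootsOfUnity.exists_primitiveRoot (AlgebraicClosure ℚ) ℓ
  have hmem : ∀ x : AlgebraicClosure ℚ, x ^ ℓ = 1 → x ∈ A := by
    intro x hx
    have hx0 : x ≠ 0 := by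
      rintro rfl
      rw [zero_pow (NeZero.ne ℓ)] at hx
      exact zero_ne_one hx
    rcases A.mem_or_inv_mem x with h | h
    · exact h
    · obtain ⟨m, hm⟩ : ∃ m, ℓ = m + 1 := ⟨ℓ - 1, (Nat.succ_pred_eq_of_ne_zero (NeZero.ne ℓ)).symm⟩
      have h1 : x = (x⁻¹) ^ m := by
        rw [inv_pow]
        exact eq_inv_of_mul_eq_one_left (by rw [← pow_succ', ← hm, hx])
      rw [h1]
      exact pow_mem h m
  have h1 : ζ ∈ A := hmem ζ hζ.pow_eq_one
  have h2 : ζ⁻¹ ∈ A := hmem ζ⁻¹ (by rw [inv_pow, hζ.pow_eq_one, inv_one])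
  have h0 : ζ ≠ 0 := hζ.ne_zero (NeZero.ne ℓ)
  let u : Aˣ := ⟨⟨ζ, h1⟩, ⟨ζ⁻¹, h2⟩, Subtype.ext (mul_inv_cancel₀ h0), Subtype.ext (inv_mul_cancel₀ h0)⟩
  refine ⟨u, ?_⟩
  have hinj : Function.Injective (A.subtype.toMonoidHom.comp (Units.coeHom A)) := by
    intro x y h
    exact Units.ext (Subtype.ext h)
  exact IsPrimitiveRoot.of_map_of_injective (f := A.subtype.toMonoidHom.comp (Units.coeHom A))
    (k := ℓ) hζ hinj

theorem coeffMap_twistProd' {R S : Type*} [CommRing R] [CommRing S] (ℓ : ℕ) (π : R →+* S) (ζ : Rˣ)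
    (a : LaurentSeries R) :
    coeffMap π (twistProd ℓ ζ a) = twistProd ℓ (Units.map π.toMonoidHom ζ) (coeffMap π a) := by
  rw [twistProd, twistProd, map_prod]
  simp only [coeffMap_twist, map_pow]

/-- **Reduction of the norm identity.** -/
theorem res_normAlong (hJ : JAlg) (N ℓ : ℕ) [NeZero N] [NeZero ℓ] (hℓ : ℓ.Prime) [CharP k ℓ]
    [ExpChar k ℓ] (M : ModularConstRed N π)
    (w : modularFunctionFieldBar (N * ℓ) →+* modularFunctionFieldBar (N * ℓ))
    (hw1 : ∀ x, w (heckeAlphaBar (AlgebraicClosure ℚ) N ℓ x) = heckeBetaBar (AlgebraicClosure ℚ) N ℓ x)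
    (hw2 : ∀ x, w (heckeBetaBar (AlgebraicClosure ℚ) N ℓ x) = heckeAlphaBar (AlgebraicClosure ℚ) N ℓ x)
    (hdeg : finrankAlong (AlgebraicClosure ℚ) (heckeAlphaBar (AlgebraicClosure ℚ) N ℓ) = ℓ + 1)
    (h : M.C.O) :
    ∃ hm : normAlong (heckeAlphaBar (AlgebraicClosure ℚ) N ℓ)
        (heckeBetaBar (AlgebraicClosure ℚ) N ℓ (h : modularFunctionFieldBar N)) ∈ M.C.O,
      (M.C.res ⟨_, hm⟩ : LaurentSeries k) =
        coeffMap (frobenius k ℓ) (M.C.res h : LaurentSeries k) *
          qExpand k ℓ (M.C.res h : LaurentSeries k) := by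
  obtain ⟨ζ, hζ⟩ := exists_primitiveRoot_unit A ℓ
  obtain ⟨a, b, hb, hab⟩ := (M.mem_O_iff h).mp h.2
  obtain ⟨na, hna⟩ := exists_qExpand_eq_twistProd ℓ hζ a
  obtain ⟨nb, hnb⟩ := exists_qExpand_eq_twistProd ℓ hζ b
  set ζ' : (AlgebraicClosure ℚ)ˣ := Units.map A.subtype.toMonoidHom ζ with hζ'def
  have hζ' : IsPrimitiveRoot ζ' ℓ := by
    refine hζ.map_of_injective (f := Units.map A.subtype.toMonoidHom) ?_
    exact Units.map_injective Subtype.val_injective
  have hred : ∀ x nx : LaurentSeries A, qExpand A ℓ nx = twistProd ℓ ζ x →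
      coeffMap π nx = coeffMap (frobenius k ℓ) (coeffMap π x) := by
    intro x nx hx
    apply qExpand_injective ℓ
    rw [← coeffMap_qExpand, hx, coeffMap_twistProd ℓ hℓ π hζ.pow_eq_one, laurent_pow_char]
  have hemb : ∀ x nx : LaurentSeries A, qExpand A ℓ nx = twistProd ℓ ζ x →
      qExpand _ ℓ (coeffMap A.subtype nx) = twistProd ℓ ζ' (coeffMap A.subtype x) := by
    intro x nx hx
    rw [← coeffMap_qExpand, hx, coeffMap_twistProd']
  set g := normAlong (heckeAlphaBar (AlgebraicClosure ℚ) N ℓ)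
        (heckeBetaBar (AlgebraicClosure ℚ) N ℓ (h : modularFunctionFieldBar N)) with hg
  have hb' : coeffMap π (qExpand A ℓ b * nb) ≠ 0 := by
    rw [map_mul, coeffMap_qExpand, hred b nb hnb]
    refine mul_ne_zero ?_ ?_
    · rw [← map_zero (qExpand k ℓ)]
      exact fun h0 => hb (qExpand_injective ℓ h0)
    · intro h0
      apply hb
      ext n
      have h1 := congrArg (fun x => x.coeff n) h0
      simp only [coeffMap_coeff, HahnSeries.coeff_zero] at h1
      rw [coeffMap_coeff, HahnSeries.coeff_zero]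
      rw [frobenius_def] at h1
      exact pow_eq_zero_iff (NeZero.ne ℓ) |>.mp h1
  have hgab : (g : LaurentSeries (AlgebraicClosure ℚ)) * coeffMap A.subtype (qExpand A ℓ b * nb) =
      coeffMap A.subtype (qExpand A ℓ a * na) := by
    apply qExpand_injective ℓ
    have key := qExpand_normAlong (AlgebraicClosure ℚ) hJ N ℓ hℓ w hw1 hw2 hdeg hζ'
      (h : modularFunctionFieldBar N)
    rw [← hg, inclL_apply, inclL_apply] at key
    rw [map_mul, key, map_mul, map_mul, map_mul, map_mul, hemb a na hna, hemb b nb hnb,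
      coeffMap_qExpand, coeffMap_qExpand, ← hab, twistProd_mul, map_mul, map_mul]
    change _ * twistProd ℓ ζ' _ * _ = _
    ring
  have hm : g ∈ M.C.O := (M.mem_O_iff g).mpr ⟨_, _, hb', hgab⟩
  refine ⟨hm, ?_⟩
  have h1 := M.res_eq ⟨g, hm⟩ _ _ hb' hgab
  have h2 := M.res_eq h a b hb hab
  apply mul_right_cancel₀ hb'
  rw [h1, map_mul, map_mul, coeffMap_qExpand, coeffMap_qExpand, hred a na hna, hred b nb hnb, ← h2,
    map_mul, map_mul]
  ring

end Reduction

end Fermat.Agent.JRED.ES
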