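import Fermat.Agent.JRED.PlaceRedMap
import Fermat.Agent.JRED.Torsion

set_option autoImplicit false

/-!
# The place map of a constant reduction with equal genus (J3a)

* `ConstRed.exists_isPlaceMap`: Deuring's theorem for `ConstRed`.
* `RedDatum.exists_basis`: orthonormal bases in the shape of `ConstRed.exists_basis`.
-/

noncomputable section

open AlgebraicCurve IntermediateField

namespace Fermat.Agent.JRED

theorem curveFacts (K F : Type*) [Field K] [Field F] [Algebra K F] [IsAlgClosed K]
    [RR.FunctionField K F] : CurveFacts K F (genusFF K F) where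
  hpd := inferInstance
  deg_eq_one := RR.deg_eq_one
  nonempty := RR.FunctionField.nonempty_place
  finite_rr D := inferInstance
  riemann := ⟨2 * (genusFF K F : ℤ) - 1, fun D hD =>
    RR.finrank_riemannRochSpace_eq (by omega)⟩
  transc z hz := Fermat.FF.transcendental_of_not_mem_range hz
  finite_adjoin z hz := by
    have := isFF1_of_functionField (K := K) (F := F)
    exact Fermat.FF.IsFF1.finiteDimensional_adjoin hz
  pole_degree z hz E hE := by
    have := isFF1_of_functionField (K := K) (F := F)
    have := Fermat.FF.IsFF1.finiteDimensional_adjoin hz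
    rw [← RR.degree_polesOf (K := K) hz]
    congr 1
    ext v
    rw [hE v, RR.polesOf_apply]
    try rw [max_comm]

section ConstRed

variable {K k : Type*} [Field K] [Field k] {A : ValuationSubring K} {π : A →+* k}
  {F F' : Type*} [Field F] [Field F'] [Algebra K F] [Algebra k F']

/-- Orthonormal bases in the shape required by `ConstRed.exists_basis`. -/
theorem RedDatum.HasOrtho.exists_basis {R : RedDatum K F k F' A π} (hπ : Function.Surjective π)
    {V : Submodule K F} (h : R.HasOrtho V) :
    ∃ b : Fin (Module.finrank K V) → F, (∀ i, b i ∈ V) ∧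
      ∃ u : Fin (Module.finrank K V) → F', (∀ i, R.Red (b i) (u i)) ∧ LinearIndependent k u := by
  obtain ⟨n, b, bbar, hb, rfl⟩ := h
  have hn : Module.finrank K (Submodule.span K (Set.range b)) = n := by
    rw [finrank_span_eq_card (hb.linearIndependent hπ), Fintype.card_fin]
  rw [hn]
  exact ⟨b, fun i => Submodule.subset_span ⟨i, rfl⟩, bbar, hb.red, hb.li⟩

/-- All finite dimensional subspaces have orthonormal bases if `[F : K(x)] ≤ [F' : k(t)]`. -/
theorem RedDatum.exists_basis {R : RedDatum K F k F' A π} (hπ : Function.Surjective π)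
    (hsurj : ∀ u : F', ∃ w, R.Red w u) {x : F} {t : F'} (hx : R.Red x t)
    (htr : Transcendental k t) [FiniteDimensional K⟮x⟯ F]
    (hdeg : Module.finrank K⟮x⟯ F ≤ Module.finrank k⟮t⟯ F')
    (V : Submodule K F) (hV : Module.Finite K V) :
    ∃ b : Fin (Module.finrank K V) → F, (∀ i, b i ∈ V) ∧
      ∃ u : Fin (Module.finrank K V) → F', (∀ i, R.Red (b i) (u i)) ∧ LinearIndependent k u :=
  (RedDatum.hasOrtho_of_finrank hπ hsurj hx htr hdeg V).exists_basis hπ

/-- `Fin n`-family with independent reductions spanning a subspace of dimension `n`. -/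
theorem ConstRed.hasOrtho (hπ : Function.Surjective π) (C : ConstRed A π F F')
    (V : Submodule K F) (hV : Module.Finite K V) : C.toRedDatum.HasOrtho V := by
  obtain ⟨b, hbV, hbO, hli⟩ := C.exists_basis V hV
  have hort : C.toRedDatum.IsOrtho b (fun i => C.res ⟨b i, hbO i⟩) :=
    ⟨fun i => ⟨hbO i, rfl⟩, hli⟩
  refine ⟨_, b, _, hort, ?_⟩
  have h1 := hort.linearIndependent hπ
  refine Submodule.eq_of_le_of_finrank_eq (Submodule.span_le.mpr ?_) ?_
  · rintro _ ⟨i, rfl⟩
    exact hbV i
  · rw [finrank_span_eq_card h1, Fintype.card_fin]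

variable [IsAlgClosed K] [IsAlgClosed k] [RR.FunctionField K F] [RR.FunctionField k F']

theorem ConstRed.deuringHyp (hπ : Function.Surjective π) (C : ConstRed A π F F')
    (hg : genusFF K F = genusFF k F') : DeuringHyp C.toRedDatum (genusFF K F) where
  surj_res := hπ
  surj_red u := by
    obtain ⟨w, hw⟩ := C.res_surjective u
    exact ⟨w, w.2, hw⟩
  ortho W hW := C.hasOrtho hπ W hW
  curve := curveFacts K F
  curve' := by rw [hg]; exact curveFacts k F'
  infinite := IsAlgClosed.instInfinite

/-- **Deuring's theorem**: existence of the place map. -/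
theorem ConstRed.exists_isPlaceMap (hπ : Function.Surjective π) (C : ConstRed A π F F')
    (hg : genusFF K F = genusFF k F') : ∃ r : Place K F → Place k F', C.IsPlaceMap r := by
  refine ⟨(C.deuringHyp hπ hg).r, fun f hf D hD Q => ?_⟩
  exact (C.deuringHyp hπ hg).placeRed f (C.res f) ⟨f.2, rfl⟩ hf D hD Q

/-- Uniqueness of the place map. -/
theorem ConstRed.isPlaceMap_unique (hπ : Function.Surjective π) (C : ConstRed A π F F')
    (hg : genusFF K F = genusFF k F') {r r' : Place K F → Place k F'} (hr : C.IsPlaceMap r)
    (hr' : C.IsPlaceMap r') : r = r' := by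
  rw [(C.deuringHyp hπ hg).placeRed_unique (C.placeRed hr),
    (C.deuringHyp hπ hg).placeRed_unique (C.placeRed hr')]

omit [IsAlgClosed K] [IsAlgClosed k] [RR.FunctionField k F'] in
/-- The place map is surjective. -/
theorem ConstRed.isPlaceMap_surjective (C : ConstRed A π F F')
    {r : Place K F → Place k F'} (hr : C.IsPlaceMap r) : Function.Surjective r :=
  PlaceRed.surjective (C.placeRed hr)
    (fun w _ => ⟨RR.divOf w, fun P => RR.divOf_apply w P⟩)
    (fun u => by
      obtain ⟨w, hw⟩ := C.res_surjective u
      exact ⟨w, w.2, hw⟩)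

end ConstRed

end Fermat.Agent.JRED
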