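import Fermat.Agent.RR.Divisors
import Fermat.Agent.FF.GenPrincipal
import Fermat.Agent.S28.JFacts
import Fermat.Agent.JRED.Interface
import Fermat.Agent.JRED.PlaceMap

set_option autoImplicit false

/-!
# `RR.FunctionField` instances for the modular function fields, and `IsAlgClosed k`
-/

noncomputable section

open AlgebraicCurve ModularCurve IntermediateField Polynomial

namespace Fermat.Agent.JRED

/-- A function field in the sense of `Fermat.FF` (arbitrary characteristic) is one in the sense
of `RR`. -/
theorem functionField_of_isFF1 (K F : Type*) [Field K] [Field F] [Algebra K F]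
    [h : Fermat.FF.IsFF1 K F] : RR.FunctionField K F where
  toHasPrincipalDivisors := Fermat.FF.Gen.hasPrincipalDivisors
  finiteResidue v := Fermat.FF.Gen.finite_residueField v
  nonempty_place := by
    obtain ⟨x, hx, hfin⟩ := h.exists_finite
    have h1 := Fermat.FF.Gen.sum_pos_ord_mul_deg hx
    by_contra hne
    rw [not_nonempty_iff] at hne
    have h2 : (Fermat.FF.Gen.setOf_ord_pos_finite (K := K) (F := F) hx).toFinset = ∅ := by
      apply Finset.eq_empty_of_isEmpty
    rw [h2, Finset.sum_empty] at h1
    have h3 : 0 < Module.finrank K⟮x⟯ F := Module.finrank_pos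
    omega
  exists_finite := h.exists_finite

theorem functionField_of_finite {K F : Type*} [Field K] [Field F] [Algebra K F] {x : F}
    (hx : Transcendental K x) (hfin : FiniteDimensional K⟮x⟯ F) : RR.FunctionField K F := by
  have : Fermat.FF.IsFF1 K F := ⟨x, hx, hfin⟩
  exact functionField_of_isFF1 K F

theorem finiteDimensional_of_finrank_le {K F k F' : Type*} [Field K] [Field F] [Algebra K F]
    [Field k] [Field F'] [Algebra k F'] {x : F} {t : F'} (hfin : FiniteDimensional K⟮x⟯ F)
    (h : Module.finrank K⟮x⟯ F ≤ Module.finrank k⟮t⟯ F') : FiniteDimensional k⟮t⟯ F' :=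
  Module.finite_of_finrank_pos (Module.finrank_pos.trans_le h)

/-- The residue field of a valuation ring of an algebraically closed field is algebraically
closed. -/
theorem isAlgClosed_of_surjective {K k : Type*} [Field K] [Field k] [IsAlgClosed K]
    {A : ValuationSubring K} {π : A →+* k} (hπ : Function.Surjective π) : IsAlgClosed k := by
  refine IsAlgClosed.of_exists_root k fun p hp hirr => ?_
  obtain ⟨q, hq, hdeg, hmon⟩ := lifts_and_natDegree_eq_and_monic
    ((lifts_iff_coeff_lifts p).mpr fun n => (hπ _)) hp
  have hne : (q.map (algebraMap A K)).degree ≠ 0 := by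
    rw [hmon.degree_map, degree_eq_natDegree hmon.ne_zero, hdeg]
    have := hirr.natDegree_pos
    exact_mod_cast this.ne'
  obtain ⟨α, hα⟩ := IsAlgClosed.exists_root _ hne
  have hint : IsIntegral A α := ⟨q, hmon, by rwa [IsRoot.def, eval_map] at hα⟩
  obtain ⟨a, ha⟩ := IsIntegrallyClosed.isIntegral_iff.mp hint
  refine ⟨π a, ?_⟩
  have h1 : q.eval a = 0 := by
    have : algebraMap A K (q.eval a) = 0 := by
      rw [← hα.eq_zero, eval_map, ← ha, eval₂_hom]
    exact (FaithfulSMul.algebraMap_eq_zero_iff A K).mp this
  rw [← hq, eval_map, eval₂_hom, h1, map_zero]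

section Modular

theorem transcendental_jRed (k : Type*) [Field k] (N : ℕ) : Transcendental k (jRed k N) := by
  rw [← transcendental_algebraMap_iff
    (FaithfulSMul.algebraMap_injective (modularFunctionFieldFullC k N) (LaurentSeries k))]
  exact Fermat.Agent.S28.transcendental_jqModC k

theorem coe_jBar (N : ℕ) :
    ((jBar N : modularFunctionFieldBar N) : LaurentSeries (AlgebraicClosure ℚ)) =
      jqModC (AlgebraicClosure ℚ) :=
  coeffMap_jqModC (algebraMap ℚ (AlgebraicClosure ℚ))

theorem transcendental_jBar (N : ℕ) : Transcendental (AlgebraicClosure ℚ) (jBar N) := by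
  rw [← transcendental_algebraMap_iff
    (FaithfulSMul.algebraMap_injective (modularFunctionFieldBar N)
      (LaurentSeries (AlgebraicClosure ℚ)))]
  have : algebraMap (modularFunctionFieldBar N) (LaurentSeries (AlgebraicClosure ℚ)) (jBar N) =
    jqModC (AlgebraicClosure ℚ) := coe_jBar N
  rw [this]
  exact Fermat.Agent.S28.transcendental_jqModC _

variable {N : ℕ} {k : Type} [Field k]

theorem DegreeInput.finiteDimensional (h : DegreeInput N k) :
    FiniteDimensional k⟮jRed k N⟯ (modularFunctionFieldFullC k N) :=
  finiteDimensional_of_finrank_le h.1 h.2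

theorem DegreeInput.functionField (h : DegreeInput N k) :
    RR.FunctionField (AlgebraicClosure ℚ) (modularFunctionFieldBar N) :=
  functionField_of_finite (transcendental_jBar N) h.1

theorem DegreeInput.functionField' (h : DegreeInput N k) :
    RR.FunctionField k (modularFunctionFieldFullC k N) :=
  functionField_of_finite (transcendental_jRed k N) h.finiteDimensional

/-- **The place reduction map of `X₀(N)`.** -/
theorem ModularConstRed.exists_isPlaceMap {A : ValuationSubring (AlgebraicClosure ℚ)}
    {π : A →+* k} (hπ : Function.Surjective π) (M : ModularConstRed N π) (hdeg : DegreeInput N k)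
    (hgood : GoodReduction N k) :
    ∃ r : Place (AlgebraicClosure ℚ) (modularFunctionFieldBar N) →
      Place k (modularFunctionFieldFullC k N), M.C.IsPlaceMap r := by
  have := isAlgClosed_of_surjective hπ
  have := hdeg.functionField
  have := hdeg.functionField'
  exact M.C.exists_isPlaceMap hπ hgood

theorem ModularConstRed.isPlaceMap_unique {A : ValuationSubring (AlgebraicClosure ℚ)}
    {π : A →+* k} (hπ : Function.Surjective π) (M : ModularConstRed N π) (hdeg : DegreeInput N k)
    (hgood : GoodReduction N k)
    {r r' : Place (AlgebraicClosure ℚ) (modularFunctionFieldBar N) →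
      Place k (modularFunctionFieldFullC k N)} (hr : M.C.IsPlaceMap r) (hr' : M.C.IsPlaceMap r') :
    r = r' := by
  have := isAlgClosed_of_surjective hπ
  have := hdeg.functionField
  have := hdeg.functionField'
  exact M.C.isPlaceMap_unique hπ hgood hr hr'

theorem ModularConstRed.isPlaceMap_surjective {A : ValuationSubring (AlgebraicClosure ℚ)}
    {π : A →+* k} (M : ModularConstRed N π) (hdeg : DegreeInput N k)
    {r : Place (AlgebraicClosure ℚ) (modularFunctionFieldBar N) →
      Place k (modularFunctionFieldFullC k N)} (hr : M.C.IsPlaceMap r) :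
    Function.Surjective r := by
  have := hdeg.functionField
  exact M.C.isPlaceMap_surjective hr

end Modular

end Fermat.Agent.JRED
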