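import Fermat.Agent.JRED.ModularRed

set_option autoImplicit false

/-!
# Existence of the constant reduction of `X₀(N)` (J0)
-/

noncomputable section

open HahnSeries ModularCurve AlgebraicCurve IntermediateField

namespace Fermat.Agent.JRED

section FgIn

variable {K : Type*} [Field K]

/-- Fractions of elements of `T` with finitely generated coefficient groups. -/
def fgFieldIn (T : Subfield (LaurentSeries K)) : Subfield (LaurentSeries K) where
  carrier := {f | ∃ a b : LaurentSeries K, a ∈ T ∧ b ∈ T ∧ FGCoeff a ∧ FGCoeff b ∧ b ≠ 0 ∧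
    f * b = a}
  mul_mem' := by
    rintro f f' ⟨a, b, hta, htb, ha, hb, hb0, h⟩ ⟨a', b', hta', htb', ha', hb', hb0', h'⟩
    exact ⟨a * a', b * b', mul_mem hta hta', mul_mem htb htb', ha.mul ha', hb.mul hb',
      mul_ne_zero hb0 hb0', by rw [← h, ← h']; ring⟩
  one_mem' := ⟨1, 1, one_mem _, one_mem _, by simpa using FGCoeff.const (1 : K),
    by simpa using FGCoeff.const (1 : K), one_ne_zero, by simp⟩
  add_mem' := by
    rintro f f' ⟨a, b, hta, htb, ha, hb, hb0, h⟩ ⟨a', b', hta', htb', ha', hb', hb0', h'⟩
    exact ⟨a * b' + a' * b, b * b', add_mem (mul_mem hta htb') (mul_mem hta' htb),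
      mul_mem htb htb', (ha.mul hb').add (ha'.mul hb), hb.mul hb',
      mul_ne_zero hb0 hb0', by rw [← h, ← h']; ring⟩
  zero_mem' := ⟨0, 1, zero_mem _, one_mem _, by simpa using FGCoeff.const (0 : K),
    by simpa using FGCoeff.const (1 : K), one_ne_zero, by simp⟩
  neg_mem' := by
    rintro f ⟨a, b, hta, htb, ha, hb, hb0, h⟩
    exact ⟨-a, b, neg_mem hta, htb, ha.neg, hb, hb0, by rw [neg_mul, h]⟩
  inv_mem' := by
    rintro f ⟨a, b, hta, htb, ha, hb, hb0, h⟩
    rcases eq_or_ne f 0 with rfl | hf
    · exact ⟨0, 1, zero_mem _, one_mem _, by simpa using FGCoeff.const (0 : K),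
        by simpa using FGCoeff.const (1 : K), one_ne_zero, by simp⟩
    · refine ⟨b, a, htb, hta, hb, ha, ?_, ?_⟩
      · rw [← h]; exact mul_ne_zero hf hb0
      · rw [← h]; field_simp

theorem mem_fgFieldIn_of {T : Subfield (LaurentSeries K)} {f : LaurentSeries K} (hT : f ∈ T)
    (hf : FGCoeff f) : f ∈ fgFieldIn T :=
  ⟨f, 1, hT, one_mem _, hf, by simpa using FGCoeff.const (1 : K), one_ne_zero, by simp⟩

end FgIn

section General

variable {L k : Type*} [Field L] [Algebra ℚ L] [Field k] {A : ValuationSubring L} {π : A →+* k}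
  {N : ℕ}

/-- Elements of `F_N` are quotients of elements of `F_N` with finitely generated
coefficient group. -/
theorem exists_fg_quotient {x : LaurentSeries L}
    (hx : x ∈ laurentBaseChange L (modularFunctionFieldFull N)) :
    ∃ a b : LaurentSeries L, a ∈ laurentBaseChange L (modularFunctionFieldFull N) ∧
      b ∈ laurentBaseChange L (modularFunctionFieldFull N) ∧ FGCoeff a ∧ FGCoeff b ∧ b ≠ 0 ∧
      x * b = a := by
  set T : Subfield (LaurentSeries L) :=
    (laurentBaseChange L (modularFunctionFieldFull N)).toSubfield with hT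
  suffices h : x ∈ fgFieldIn T from h
  rw [mem_laurentBaseChange_iff] at hx
  have hle : Subfield.closure (Set.range (algebraMap L (LaurentSeries L)) ∪
      (⇑(coeffEmb L) '' (modularFunctionFieldFull N : Set (LaurentSeries ℚ)))) ≤ fgFieldIn T := by
    rw [Subfield.closure_le]
    rintro _ (⟨c, rfl⟩ | ⟨z, hz, rfl⟩)
    · exact mem_fgFieldIn_of
        ((laurentBaseChange L (modularFunctionFieldFull N)).algebraMap_mem c) (FGCoeff.const c)
    · have hle2 : Subfield.closure (Set.range (algebraMap ℚ (LaurentSeries ℚ)) ∪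
          divisorExpansions N) ≤ (fgFieldIn T).comap (coeffEmb L) := by
        rw [Subfield.closure_le]
        rintro _ (⟨c, rfl⟩ | ⟨d, hd0, hd, rfl⟩)
        · show coeffEmb L _ ∈ fgFieldIn T
          rw [coeffEmb_algebraMap]
          exact mem_fgFieldIn_of
            ((laurentBaseChange L (modularFunctionFieldFull N)).algebraMap_mem _)
            (FGCoeff.const _)
        · show coeffEmb L _ ∈ fgFieldIn T
          refine mem_fgFieldIn_of (coeffEmb_mem_laurentBaseChange _ (jqd_mem_full N hd)) ?_
          rw [coeffEmb_qExpand_jq]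
          exact FGCoeff.of_int _
      exact hle2 hz
  exact hle hx

variable (π) in
/-- Elements of `F_N` are quotients of integral elements of `F_N` with nonzero reductions. -/
theorem exists_integral_quotient {x : LaurentSeries L}
    (hx : x ∈ laurentBaseChange L (modularFunctionFieldFull N)) (hx0 : x ≠ 0) :
    ∃ (c : L) (y₁ y₂ : LaurentSeries A), c ≠ 0 ∧
      coeffMap A.subtype y₁ ∈ laurentBaseChange L (modularFunctionFieldFull N) ∧
      coeffMap A.subtype y₂ ∈ laurentBaseChange L (modularFunctionFieldFull N) ∧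
      coeffMap π y₁ ≠ 0 ∧ coeffMap π y₂ ≠ 0 ∧
      x * coeffMap A.subtype y₂ = algebraMap L (LaurentSeries L) c * coeffMap A.subtype y₁ := by
  obtain ⟨a, b, hta, htb, ha, hb, hb0, h⟩ := exists_fg_quotient hx
  have ha0 : a ≠ 0 := by rw [← h]; exact mul_ne_zero hx0 hb0
  obtain ⟨c, a', hc, ha', hca⟩ := ha.exists_integral π ha0
  obtain ⟨d, b', hd, hb', hdb⟩ := hb.exists_integral π hb0
  refine ⟨d / c, a', b', div_ne_zero hd hc, ?_, ?_, ha', hb', ?_⟩
  · rw [← hca]
    exact mul_mem ((laurentBaseChange L (modularFunctionFieldFull N)).algebraMap_mem _) hta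
  · rw [← hdb]
    exact mul_mem ((laurentBaseChange L (modularFunctionFieldFull N)).algebraMap_mem _) htb
  · have hc' : algebraMap L (LaurentSeries L) c ≠ 0 := by simpa using hc
    rw [← hca, ← hdb, ← h, map_div₀]
    field_simp

theorem red_of_integral {y : LaurentSeries A}
    (hy : coeffMap A.subtype y ∈ laurentBaseChange L (modularFunctionFieldFull N)) :
    (redL π N).Red ⟨coeffMap A.subtype y, hy⟩ (coeffMap π y) :=
  GRed.of_integral y

end General

section Modular

variable {N : ℕ} {A : ValuationSubring (AlgebraicClosure ℚ)} {k : Type} [Field k] {π : A →+* k}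

theorem DegreeInput.mem_full (h : DegreeInput N k) (hπ : Function.Surjective π)
    {f : laurentBaseChange (AlgebraicClosure ℚ) (modularFunctionFieldFull N)} {u : LaurentSeries k}
    (hu : (redL π N).Red f u) : u ∈ modularFunctionFieldFullC k N :=
  haveI : FiniteDimensional (AlgebraicClosure ℚ)⟮jL (AlgebraicClosure ℚ) N⟯
    (laurentBaseChange (AlgebraicClosure ℚ) (modularFunctionFieldFull N)) := h.1
  mem_full_of_red N hπ h.2 hu

/-- The reduction datum from `F_N` to `F̄_N`. -/
def DegreeInput.redDatum (h : DegreeInput N k) (hπ : Function.Surjective π) :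
    RedDatum (AlgebraicClosure ℚ) (modularFunctionFieldBar N) k (modularFunctionFieldFullC k N)
      A π :=
  (redL π N).restrict (modularFunctionFieldFullC k N) (fun _ _ hu => h.mem_full hπ hu)

theorem DegreeInput.redDatum_iff (h : DegreeInput N k) (hπ : Function.Surjective π)
    {f : modularFunctionFieldBar N} {u : modularFunctionFieldFullC k N} :
    (h.redDatum hπ).Red f u ↔
      GRed π (f : LaurentSeries (AlgebraicClosure ℚ)) (u : LaurentSeries k) := Iff.rfl

theorem DegreeInput.redDatum_surjective (h : DegreeInput N k) (hπ : Function.Surjective π)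
    (u : modularFunctionFieldFullC k N) : ∃ w, (h.redDatum hπ).Red w u :=
  exists_red_of_mem_full N hπ u.2

theorem jRed_transcendental (k : Type*) [Field k] (N : ℕ) : Transcendental k (jRed k N) := by
  intro h
  apply transcendental_jqModC k
  have h0 := h.algebraMap (A := LaurentSeries k)
  exact h0

theorem DegreeInput.hasOrtho (h : DegreeInput N k) (hπ : Function.Surjective π)
    (W : Submodule (AlgebraicClosure ℚ) (modularFunctionFieldBar N))
    (hW : Module.Finite (AlgebraicClosure ℚ) W) : (h.redDatum hπ).HasOrtho W :=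
  haveI : FiniteDimensional (AlgebraicClosure ℚ)⟮jBar N⟯ (modularFunctionFieldBar N) := h.1
  RedDatum.hasOrtho_of_finrank (R := h.redDatum hπ) (x := jBar N) (xbar := jRed k N) hπ
    (h.redDatum_surjective hπ) (redL_j π N) (jRed_transcendental k N) h.2 W

/-- The constant reduction of `X₀(N)`. -/
def DegreeInput.constRed (h : DegreeInput N k) (hπ : Function.Surjective π) :
    ConstRed A π (modularFunctionFieldBar N) (modularFunctionFieldFullC k N) :=
  (h.redDatum hπ).toConstRed hπ (h.redDatum_surjective hπ) (h.hasOrtho hπ)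

theorem DegreeInput.mem_constRed_O (h : DegreeInput N k) (hπ : Function.Surjective π)
    {f : modularFunctionFieldBar N} :
    f ∈ (h.constRed hπ).O ↔ ∃ u, (h.redDatum hπ).Red f u := Iff.rfl

theorem DegreeInput.constRed_res (h : DegreeInput N k) (hπ : Function.Surjective π)
    (f : (h.constRed hπ).O) : (h.redDatum hπ).Red f ((h.constRed hπ).res f) :=
  f.2.choose_spec

/-- **J0**: the concrete constant reduction of `X₀(N)`. -/
def DegreeInput.modularConstRed (h : DegreeInput N k) (hπ : Function.Surjective π) :
    ModularConstRed N π where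
  C := h.constRed hπ
  mem_O_iff f := by
    rw [h.mem_constRed_O hπ]
    constructor
    · rintro ⟨u, a, b, hb, h1, h2⟩
      exact ⟨a, b, hb, h1⟩
    · rintro ⟨a, b, hb, h1⟩
      have h3 : (redL π N).Red f (coeffMap π a / coeffMap π b) :=
        ⟨a, b, hb, h1, by field_simp⟩
      exact ⟨⟨_, h.mem_full hπ h3⟩, h3⟩
  res_eq f a b hb h1 := by
    have h3 : GRed π ((f : modularFunctionFieldBar N) : LaurentSeries (AlgebraicClosure ℚ))
        (coeffMap π a / coeffMap π b) := ⟨a, b, hb, h1, by field_simp⟩
    have h4 := GRed.unique (h.constRed_res hπ f) h3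
    rw [h4]
    field_simp

end Modular

end Fermat.Agent.JRED
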