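import Mathlib
import Fermat.Agent.JRED.ESNorm
import Fermat.Agent.JRED.ESGalois
import Fermat.Agent.JRED.ModularFF
import Fermat.Agent.JRED.ModularRedExists
import Fermat.Agent.EichlerShimura.Specialization
import Fermat.Agent.Jan.HeckeNorm
import Fermat.Agent.Jan.DegreeWiring

/-!
# S37 from good reduction of `X₀(N)`

Inputs (all for `ℓ ∤ N`): `DegreeInput N k`, `GoodReduction N k`, the Atkin–Lehner involution
`w_ℓ` of `F_{Nℓ}` swapping the two degeneracy maps and the degree `ℓ + 1` of `F_{Nℓ} / F_N`.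
-/

set_option autoImplicit false
set_option linter.unusedSectionVars false
set_option linter.style.haveILetI false

noncomputable section

open AlgebraicCurve ModularCurve

namespace Fermat.Agent.JRED.ESFinal

open ESSemi ESGalois Fermat.Agent.Jan.HeckeInputs Fermat.Agent.Jan.HeckeNorm

section General

variable {K F F' : Type*} [Field K] [Field F] [Field F'] [Algebra K F] [Algebra K F']
  [HasPrincipalDivisors K F']

/-- Correspondences send places to effective divisors. -/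
theorem correspondence_single_nonneg (φ ψ : F →ₐ[K] F') (hφ : φ.toRingHom.IsIntegral)
    (hψ : ψ.toRingHom.IsIntegral) (P : Place K F) :
    0 ≤ Divisor.correspondence φ ψ hφ hψ (Finsupp.single P 1) := by
  rw [Divisor.correspondence_apply, Divisor.pullbackAlong_single, map_sum]
  refine Finset.sum_nonneg fun W _ => ?_
  rw [Divisor.pushforwardAlong_single]
  exact Finsupp.single_nonneg.mpr (by positivity)

end General

section Char

variable {A : ValuationSubring (AlgebraicClosure ℚ)} {k : Type} [Field k] {π : A →+* k}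

theorem map_natCast_eq_zero (hπ : Function.Surjective π) {ℓ : ℕ} (hA : A.LiesOverPrime ℓ) :
    (ℓ : k) = 0 := by
  rw [← map_natCast π ℓ, ← RingHom.mem_ker, ker_eq_maximalIdeal hπ,
    ← ValuationSubring.coe_mem_nonunits_iff]
  exact hA

theorem charP_of_liesOver (hπ : Function.Surjective π) {ℓ : ℕ} (hℓ : ℓ.Prime)
    (hA : A.LiesOverPrime ℓ) : CharP k ℓ :=
  (CharP.charP_iff_prime_eq_zero hℓ).mpr (map_natCast_eq_zero hπ hA)

end Char

section Modular

variable {N : ℕ} [NeZero N] {A : ValuationSubring (AlgebraicClosure ℚ)} {k : Type} [Field k]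
  {π : A →+* k}

/-- The Atkin–Lehner and degree inputs at `ℓ`. -/
def AtkinLehnerInput (N ℓ : ℕ) [NeZero N] [NeZero ℓ] : Prop :=
  (∃ w : modularFunctionFieldBar (N * ℓ) →+* modularFunctionFieldBar (N * ℓ),
    (∀ x, w (heckeAlphaBar (AlgebraicClosure ℚ) N ℓ x) =
      heckeBetaBar (AlgebraicClosure ℚ) N ℓ x) ∧
    (∀ x, w (heckeBetaBar (AlgebraicClosure ℚ) N ℓ x) =
      heckeAlphaBar (AlgebraicClosure ℚ) N ℓ x)) ∧
  finrankAlong (AlgebraicClosure ℚ) (heckeAlphaBar (AlgebraicClosure ℚ) N ℓ) = ℓ + 1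

/-- The reduction of `N_α (β f)` is `φ(f̄) · (φ⁻¹ f̄)^ℓ`. -/
theorem res_norm_eq (ℓ : ℕ) [NeZero ℓ] (hℓ : ℓ.Prime) [CharP k ℓ] [ExpChar k ℓ] [PerfectRing k ℓ]
    (M : ModularConstRed N π) (hAL : AtkinLehnerInput N ℓ) (f : M.C.O) :
    ∃ h : M.C.O, (h : modularFunctionFieldBar N) =
        normAlong (heckeAlphaBar (AlgebraicClosure ℚ) N ℓ)
          (heckeBetaBar (AlgebraicClosure ℚ) N ℓ (f : modularFunctionFieldBar N)) ∧
      M.C.res h = (coeffSemi N (frobeniusEquiv k ℓ) • M.C.res f) *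
        ((coeffSemi N (frobeniusEquiv k ℓ))⁻¹ • M.C.res f) ^ ℓ := by
  obtain ⟨⟨w, hw1, hw2⟩, hdeg⟩ := hAL
  obtain ⟨hm, hres⟩ := ES.res_normAlong Fermat.Agent.Jan.DegreeWiring.jAlg N ℓ hℓ M w hw1 hw2
    hdeg f
  refine ⟨⟨_, hm⟩, rfl, Subtype.ext ?_⟩
  rw [hres, MulMemClass.coe_mul, SubmonoidClass.coe_pow, coe_coeffSemi_smul,
    coe_coeffSemi_inv_smul, ES.laurent_pow_char ℓ, coeffMap_coeffMap]
  congr 2
  symm
  refine (coeffMap_congr (g := RingHom.id k) (RingHom.ext fun a => ?_) _).trans (coeffMap_id _)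
  exact frobenius_apply_frobeniusEquiv_symm k ℓ a

variable (N) in
/-- The reduction map and its properties at a place `A` above `ℓ ∤ N p`. -/
theorem exists_reduction (hπ : Function.Surjective π) {ℓ : ℕ} [NeZero ℓ] (hℓ : ℓ.Prime) {p : ℕ}
    (hℓN : ¬ ℓ ∣ N * p) (hA : A.LiesOverPrime ℓ) (hD : DegreeInput N k) (hG : GoodReduction N k)
    (hAL : AtkinLehnerInput N ℓ) :
    ∃ (G : Type) (_ : AddCommGroup G) (r : JZero N →+ G),
        (∀ σ ∈ A.inertiaSubgroupIn ℚ, ∀ x : JZero N, r (σ • x) = r x) ∧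
        (∀ σ : AlgebraicClosure ℚ ≃ₐ[ℚ] AlgebraicClosure ℚ, A.IsFrobeniusAt σ ℓ →
          ∀ x : JZero N, r x = 0 → r (σ • x) = 0) ∧
        (∀ σ : AlgebraicClosure ℚ ≃ₐ[ℚ] AlgebraicClosure ℚ, A.IsFrobeniusAt σ ℓ →
          ∀ x : JZero N,
            r (σ • σ • x - heckeOperatorBar N ⟨ℓ, hℓ⟩ (σ • x) + ℓ • x) = 0) ∧
        (∀ x : JZero N, (∃ n : ℕ, p ^ n • x = 0) → r x = 0 → x = 0) := by
  have i1 : CharP k ℓ := charP_of_liesOver hπ hℓ hA
  have i2 : IsAlgClosed k := isAlgClosed_of_surjective hπ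
  have i3 : Fact ℓ.Prime := ⟨hℓ⟩
  have i4 : ExpChar k ℓ := ExpChar.prime hℓ
  have i5 := hD.functionField
  have i6 := hD.functionField'
  have i7 : PerfectRing k ℓ := inferInstance
  let M : ModularConstRed N π := hD.modularConstRed hπ
  obtain ⟨r, hr⟩ := M.exists_isPlaceMap hπ hD hG
  have hτ : ∀ σ : AlgebraicClosure ℚ ≃ₐ[ℚ] AlgebraicClosure ℚ, A.IsFrobeniusAt σ ℓ →
      IsResidual π σ (frobeniusEquiv k ℓ) := fun σ hσ =>
    isResidual_of_frobenius hπ hσ _ fun x => by rw [frobeniusEquiv_apply, frobenius_def]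
  haveI i8 := hasPrincipalDivisors_modular (AlgebraicClosure ℚ)
    Fermat.Agent.Jan.DegreeWiring.jAlg (N * ℓ)
  have hα := heckeAlphaBarIntegral (AlgebraicClosure ℚ) N ℓ Fermat.Agent.Jan.DegreeWiring.jAlg
  have hβ := heckeBetaBarIntegral (AlgebraicClosure ℚ) N ℓ Fermat.Agent.Jan.DegreeWiring.jAlg
  have hfin := finiteAlong_heckeAlphaBar (AlgebraicClosure ℚ) N ℓ
    Fermat.Agent.Jan.DegreeWiring.jAlg
  haveI i9 := isFF1_modular (AlgebraicClosure ℚ) Fermat.Agent.Jan.DegreeWiring.jAlg N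
  have hN := Fermat.Agent.Jan.RelFundamental.normFormulaAlong
    (heckeAlphaBar (AlgebraicClosure ℚ) N ℓ) hfin
  refine ⟨_, _, redMap M hr, fun σ hσ x => redMap_inertia M hr hπ hσ x,
    fun σ hσ x hx => redMap_eq_zero_of_smul M hr (hτ σ hσ) x hx, fun σ hσ x => ?_, ?_⟩
  · refine redMap_quadratic M hr (hτ σ hσ) ℓ (heckeDivBar hα hβ) ?_ _ ?_ x
    · intro D hD0
      refine ESAbstract.hecke_agree M.C hr (heckeDivBar hα hβ)
        (fun P => correspondence_single_nonneg _ _ _ _ P) _ ℓ ?_ hD0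
      intro f hf
      obtain ⟨h, hh, hres⟩ := res_norm_eq ℓ hℓ M hAL f
      have h1 : coeffSemi N (frobeniusEquiv k ℓ) • M.C.res f ≠ 0 :=
        (smul_ne_zero_iff_ne _).mpr hf
      have h2 : (coeffSemi N (frobeniusEquiv k ℓ))⁻¹ • M.C.res f ≠ 0 :=
        (smul_ne_zero_iff_ne _).mpr hf
      refine ⟨h, ?_, ?_, ?_⟩
      · rw [hres]
        exact mul_ne_zero h1 (pow_ne_zero _ h2)
      · intro D hD P
        rw [hh]
        have hf0 : (f : modularFunctionFieldBar N) ≠ 0 := by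
          intro h0
          apply hf
          rw [show f = 0 from Subtype.ext h0, map_zero]
        exact correspondence_eq_ord _ _ hβ hα hfin hN hf0 hD P
      · intro Q
        rw [hres, Q.ord_mul h1 (pow_ne_zero _ h2), RR.ord_pow]
    · intro D
      exact heckeOperatorBar_mk Fermat.Agent.Jan.DegreeWiring.jAlg N ⟨ℓ, hℓ⟩ D
  · rintro x ⟨n, hn⟩ hx
    refine redMap_torsion M hr hπ hG (m := p ^ n) ?_ x hn hx
    rw [Nat.cast_pow]
    refine pow_ne_zero _ fun h0 => hℓN ?_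
    exact ((CharP.cast_eq_zero_iff k ℓ p).mp h0).mul_left N

/-- The inputs at level `N` for a prime `ℓ ∤ N`, over all algebraically closed fields of
characteristic `ℓ`. -/
structure LevelInputs (N : ℕ) [NeZero N] : Prop where
  degree : ∀ (ℓ : ℕ) (k : Type) [Field k] [IsAlgClosed k] [CharP k ℓ], ℓ.Prime → ¬ ℓ ∣ N →
    DegreeInput N k
  good : ∀ (ℓ : ℕ) (k : Type) [Field k] [IsAlgClosed k] [CharP k ℓ], ℓ.Prime → ¬ ℓ ∣ N →
    GoodReduction N k
  atkinLehner : ∀ (ℓ : ℕ) [NeZero ℓ], ℓ.Prime → ¬ ℓ ∣ N → AtkinLehnerInput N ℓ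

set_option synthInstance.maxHeartbeats 400000 in
/-- **S37** from the inputs. -/
theorem s37_of_inputs (N p : ℕ) [NeZero N] (I : LevelInputs N)
    (hcomm : HeckeOperatorsCommuteBar N) :
    letI := heckeModuleBar N
    ∀ (_ : SMulCommClass (AlgebraicClosure ℚ ≃ₐ[ℚ] AlgebraicClosure ℚ) HeckeAlg (JZero N)),
      SpecializationExists (K := ℚ) (L := AlgebraicClosure ℚ) N p (JZero N) := by
  refine EichlerShimura.s37_of_reduction N p hcomm fun ℓ hℓ hℓN A hA => ?_
  have hπ : Function.Surjective (IsLocalRing.residue A) := IsLocalRing.residue_surjective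
  have i1 : CharP (IsLocalRing.ResidueField A) ℓ := charP_of_liesOver hπ hℓ hA
  have i2 : IsAlgClosed (IsLocalRing.ResidueField A) := isAlgClosed_of_surjective hπ
  haveI : NeZero ℓ := ⟨hℓ.ne_zero⟩
  have hℓN' : ¬ ℓ ∣ N := fun h => hℓN (h.mul_right p)
  exact exists_reduction N hπ hℓ hℓN hA (I.degree ℓ _ hℓ hℓN') (I.good ℓ _ hℓ hℓN')
    (I.atkinLehner ℓ hℓ hℓN')

end Modular

end Fermat.Agent.JRED.ESFinal
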