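import Mathlib
import Fermat.Agent.JRED.AtkinLehnerMain
import Fermat.Agent.JAN.Degree
import Fermat.Agent.JRED.ESFinal

/-!
# Degrees of `α`, `β` and the `AtkinLehnerInput` of the Eichler–Shimura file
-/

set_option autoImplicit false

noncomputable section

open ModularCurve Polynomial IntermediateField Fermat.Agent.S28 AlgebraicCurve
  Fermat.Agent.JRED.ESFinal

namespace Fermat.Agent.JRED.AL

section Along

variable {K F F' : Type*} [Field K] [Field F] [Field F'] [Algebra K F] [Algebra K F']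

theorem finrankAlong_comp_equiv (φ ψ : F →ₐ[K] F') (e : F ≃ₐ[K] F) (e' : F' ≃ₐ[K] F')
    (h : ∀ x, e' (φ (e x)) = ψ x) : finrankAlong K ψ = finrankAlong K φ := by
  have h' : ∀ x, e' (φ x) = ψ (e.symm x) := fun x => by rw [← h, AlgEquiv.apply_symm_apply]
  unfold finrankAlong
  refine (@Algebra.finrank_eq_of_equiv_equiv F F' _ _ (algebraAlong φ) F F' _ _ (algebraAlong ψ)
    (e.symm : F ≃+* F) (e' : F' ≃+* F') ?_).symm
  ext x
  exact (h' x).symm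

end Along

section Degree

variable (L : Type) [Field L] [Algebra ℚ L] [IsAlgClosed L]

/-- `deg β = deg α` for every `ℓ`. -/
theorem finrankAlong_beta_eq (M ℓ : ℕ) [NeZero M] [NeZero ℓ] :
    finrankAlong L (heckeBetaBar L M ℓ) = finrankAlong L (heckeAlphaBar L M ℓ) := by
  obtain ⟨W, -, -, hW⟩ := exists_frickeBar L
  exact finrankAlong_comp_equiv _ _ (W M) (W (M * ℓ)) (hW M ℓ)

theorem finrankAlong_alpha_of_not_dvd (M ℓ : ℕ) [NeZero M] [NeZero ℓ] (hℓ : ℓ.Prime)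
    (h : ¬ ℓ ∣ M) : finrankAlong L (heckeAlphaBar L M ℓ) = ℓ + 1 := by
  rw [JAN.Degree.alphaDegree L M ℓ hℓ, if_neg h]

theorem finrankAlong_beta_of_not_dvd (M ℓ : ℕ) [NeZero M] [NeZero ℓ] (hℓ : ℓ.Prime)
    (h : ¬ ℓ ∣ M) : finrankAlong L (heckeBetaBar L M ℓ) = ℓ + 1 := by
  rw [finrankAlong_beta_eq, finrankAlong_alpha_of_not_dvd L M ℓ hℓ h]

theorem finrankAlong_beta (M ℓ : ℕ) [NeZero M] [NeZero ℓ] (hℓ : ℓ.Prime) :
    finrankAlong L (heckeBetaBar L M ℓ) = if ℓ ∣ M then ℓ else ℓ + 1 := by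
  rw [finrankAlong_beta_eq, JAN.Degree.alphaDegree L M ℓ hℓ]

end Degree

/-- The Atkin–Lehner input of the Eichler–Shimura relation. -/
theorem atkinLehnerInput (N ℓ : ℕ) [NeZero N] [NeZero ℓ] (hℓ : ℓ.Prime) (h : ¬ ℓ ∣ N) :
    AtkinLehnerInput N ℓ := by
  have : Fact ℓ.Prime := ⟨hℓ⟩
  obtain ⟨w, -, h1, h2⟩ := exists_wBar (AlgebraicClosure ℚ) N ℓ h
  exact ⟨⟨(w : _ →+* _), h1, h2⟩, finrankAlong_alpha_of_not_dvd _ N ℓ hℓ h⟩

end Fermat.Agent.JRED.AL
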