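import Mathlib
import Fermat.Agent.JRED.Interface
import Fermat.Agent.S28.DegreeGen

/-!
# (J1) `[F_N(K) : K(j)] = ψ(N)` and separability, for every field `K` in which `N ≠ 0`
-/

set_option autoImplicit false

noncomputable section

namespace Fermat.Agent.JRED

open ModularCurve Polynomial IntermediateField Fermat.Agent.S28

theorem exists_common_denom {K E : Type*} [Field K] [Field E] [Algebra K E] {α : E}
    (hα : Transcendental K α) {m : ℕ} (g : Fin m → E) (hg : ∀ i, g i ∈ K⟮α⟯) :
    ∃ B : K[X], B ≠ 0 ∧ ∃ A : Fin m → K[X], ∀ i, g i * aeval α B = aeval α (A i) := by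
  classical
  have hinj : Function.Injective (aeval (R := K) α) := transcendental_iff_injective.mp hα
  have hfrac : ∀ i, ∃ A B : K[X], B ≠ 0 ∧ g i * aeval α B = aeval α A := by
    intro i
    obtain ⟨r, s, hrs⟩ := (mem_adjoin_simple_iff K _).mp (hg i)
    by_cases hs : aeval α s = 0
    · refine ⟨0, 1, one_ne_zero, ?_⟩
      rw [hrs, hs, div_zero, zero_mul, map_zero]
    · refine ⟨r, s, ?_, ?_⟩
      · rintro rfl; exact hs (map_zero _)
      · rw [hrs, div_mul_cancel₀ _ hs]
  choose A B hB hAB using hfrac
  refine ⟨∏ k, B k, Finset.prod_ne_zero_iff.mpr fun k _ => hB k,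
    fun i => A i * ∏ k ∈ Finset.univ.erase i, B k, fun i => ?_⟩
  rw [← Finset.mul_prod_erase Finset.univ B (Finset.mem_univ i), map_mul, map_mul, ← hAB]
  ring

section Gen

variable {K : Type} [Field K] {N : ℕ}

theorem coe_aeval_full {F : IntermediateField K (LaurentSeries K)} (x : F) (P : K[X]) :
    ((aeval x P : F) : LaurentSeries K) = aeval (x : LaurentSeries K) P := by
  have := Polynomial.aeval_algHom_apply F.val x P
  exact this.symm

theorem transcendental_of_coe {F : IntermediateField K (LaurentSeries K)} (x : F)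
    (hx : (x : LaurentSeries K) = jqModC K) : Transcendental K x := by
  rw [transcendental_iff_injective]
  intro P Q hPQ
  have h1 := congrArg (Subtype.val) hPQ
  rw [coe_aeval_full, coe_aeval_full, hx] at h1
  exact aeval_j_injective K h1

/-- The degree theorem for a field `F = F_N(K)` and an element `x = j`. -/
theorem exists_basis_full (hN : (N : K) ≠ 0) (x : modularFunctionFieldFullC K N)
    (hx : (x : LaurentSeries K) = jqModC K) :
    Nonempty (Module.Basis (Fin (dedekindPsi N)) K⟮x⟯ (modularFunctionFieldFullC K N)) := by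
  obtain ⟨e, he, h2⟩ := exists_basis_int_gen (K := K) hN
  have htr := transcendental_of_coe x hx
  have hinj : Function.Injective (aeval (R := K) x) := transcendental_iff_injective.mp htr
  let e' : Fin (dedekindPsi N) → modularFunctionFieldFullC K N := fun i =>
    ⟨coeffMap (Int.castRingHom K) (e i), coeffMap_adjoin_mem K (he i)⟩
  have hli : LinearIndependent K⟮x⟯ e' := by
    rw [Fintype.linearIndependent_iff]
    intro g hg
    obtain ⟨B, hB, A, hA⟩ := exists_common_denom htr (fun i => (g i : modularFunctionFieldFullC K N))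
      (fun i => (g i).2)
    have hB' : aeval x B ≠ 0 := fun h => hB (hinj (h.trans (map_zero _).symm))
    have h3 : ∑ i, aeval x (A i) * e' i = 0 := by
      simp only [← hA]
      have h4 : ∀ i, (g i : modularFunctionFieldFullC K N) * aeval x B * e' i =
          aeval x B * (g i • e' i) := by
        intro i
        rw [IntermediateField.smul_def, smul_eq_mul]
        ring
      simp only [h4]
      rw [← Finset.mul_sum, hg, mul_zero]
    have h5 := h2 A (by
      have h6 := congrArg (algebraMap (modularFunctionFieldFullC K N) (LaurentSeries K)) h3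
      rw [map_sum, map_zero] at h6
      rw [← h6]
      refine Finset.sum_congr rfl fun i _ => ?_
      rw [map_mul]
      congr 1
      rw [← hx]
      exact (coe_aeval_full x (A i)).symm)
    intro i
    have h7 := hA i
    rw [h5] at h7
    simp only [Pi.zero_apply, map_zero, mul_eq_zero] at h7
    exact Subtype.ext (h7.resolve_right hB')
  refine ⟨Module.Basis.mk hli ?_⟩
  rintro y -
  obtain ⟨Q, hQ, hQx⟩ := exists_relation_gen (K := K) hN (Nat.lt_succ_self (dedekindPsi N))
    (Fin.cons (y : LaurentSeries K) fun i => (e' i : LaurentSeries K)) (by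
      intro i
      refine Fin.cases ?_ (fun i => ?_) i
      · rw [Fin.cons_zero]; exact y.2
      · rw [Fin.cons_succ]; exact (e' i).2)
  rw [Fin.sum_univ_succ] at hQx
  simp only [Fin.cons_zero, Fin.cons_succ] at hQx
  have hQ0 : Q 0 ≠ 0 := by
    intro h0
    rw [h0, map_zero, zero_mul, zero_add] at hQx
    apply hQ
    have h3 := h2 (fun i => Q i.succ) hQx
    funext i
    refine Fin.cases ?_ (fun i => ?_) i
    · exact h0
    · exact congrFun h3 i
  have hQ0' : aeval x (Q 0) ≠ 0 := fun h => hQ0 (hinj (h.trans (map_zero _).symm))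
  have h4 : y = ∑ i, (-(aeval x (Q i.succ)) / aeval x (Q 0)) * e' i := by
    have e1 : ∀ P : K[X], algebraMap (modularFunctionFieldFullC K N) (LaurentSeries K)
        (aeval x P) = aeval (jqModC K) P := fun P => (coe_aeval_full x P).trans (by rw [hx])
    have h5 : aeval x (Q 0) * y + ∑ i : Fin (dedekindPsi N), aeval x (Q i.succ) * e' i = 0 := by
      apply (algebraMap (modularFunctionFieldFullC K N) (LaurentSeries K)).injective
      rw [map_add, map_mul, map_sum, map_zero]
      simp only [map_mul, e1]
      exact hQx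
    have h6 : ∀ i, (-(aeval x (Q i.succ)) / aeval x (Q 0)) * e' i =
        -(aeval x (Q 0))⁻¹ * (aeval x (Q i.succ) * e' i) := by
      intro i
      rw [div_eq_mul_inv]
      ring
    simp only [h6]
    rw [← Finset.mul_sum]
    have h7 := eq_neg_of_add_eq_zero_right h5
    rw [h7]
    field_simp
  rw [h4]
  refine Submodule.sum_mem _ fun i _ => ?_
  have h8 : -(aeval x (Q i.succ)) / aeval x (Q 0) ∈ K⟮x⟯ := by
    refine div_mem (neg_mem ?_) ?_
    · exact IntermediateField.algebra_adjoin_le_adjoin K _
        (Polynomial.aeval_mem_adjoin_singleton K x)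
    · exact IntermediateField.algebra_adjoin_le_adjoin K _
        (Polynomial.aeval_mem_adjoin_singleton K x)
  have h9 := Submodule.smul_mem (Submodule.span K⟮x⟯ (Set.range e'))
    (⟨_, h8⟩ : K⟮x⟯) (Submodule.subset_span ⟨i, rfl⟩)
  rw [IntermediateField.smul_def, smul_eq_mul] at h9
  exact h9

theorem finite_full (hN : (N : K) ≠ 0) (x : modularFunctionFieldFullC K N)
    (hx : (x : LaurentSeries K) = jqModC K) :
    FiniteDimensional K⟮x⟯ (modularFunctionFieldFullC K N) := by
  obtain ⟨b⟩ := exists_basis_full hN x hx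
  exact Module.Finite.of_basis b

/-- `[F_N(K) : K(j)] = ψ(N)`. -/
theorem finrank_full (hN : (N : K) ≠ 0) (x : modularFunctionFieldFullC K N)
    (hx : (x : LaurentSeries K) = jqModC K) :
    Module.finrank K⟮x⟯ (modularFunctionFieldFullC K N) = dedekindPsi N := by
  obtain ⟨b⟩ := exists_basis_full hN x hx
  rw [Module.finrank_eq_card_basis b, Fintype.card_fin]

theorem finite_full_jRed (hN : (N : K) ≠ 0) :
    FiniteDimensional K⟮jRed K N⟯ (modularFunctionFieldFullC K N) := finite_full hN _ rfl

theorem finrank_full_jRed (hN : (N : K) ≠ 0) :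
    Module.finrank K⟮jRed K N⟯ (modularFunctionFieldFullC K N) = dedekindPsi N :=
  finrank_full hN _ rfl

theorem finrank_of_eq {F : IntermediateField K (LaurentSeries K)}
    (hF : F = modularFunctionFieldFullC K N) (hN : (N : K) ≠ 0) (x : F)
    (hx : (x : LaurentSeries K) = jqModC K) :
    FiniteDimensional K⟮x⟯ F ∧ Module.finrank K⟮x⟯ F = dedekindPsi N := by
  subst hF
  exact ⟨finite_full hN x hx, finrank_full hN x hx⟩

end Gen

theorem finrank_bar (N : ℕ) [NeZero N] :
    FiniteDimensional (AlgebraicClosure ℚ)⟮jBar N⟯ (modularFunctionFieldBar N) ∧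
    Module.finrank (AlgebraicClosure ℚ)⟮jBar N⟯ (modularFunctionFieldBar N) = dedekindPsi N := by
  refine finrank_of_eq (Fermat.Agent.MFF.modularFunctionFieldBar_eq N)
    (Nat.cast_ne_zero.mpr (NeZero.ne N)) (jBar N) ?_
  change coeffMap _ (jqModC ℚ) = _
  rw [coeffMap_jqModC]

/-- (J1)(a) -/
theorem degreeInput (N : ℕ) [NeZero N] (k : Type) [Field k] (hN : (N : k) ≠ 0) :
    DegreeInput N k := by
  refine ⟨(finrank_bar N).1, ?_⟩
  rw [(finrank_bar N).2, finrank_full_jRed hN]

/-! ### separability -/

section Sep

variable {K : Type} [Field K] {N : ℕ}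

theorem qExpand_mem_of_le {K : Type*} [Field K] {N : ℕ} {E : IntermediateField K (modularFunctionFieldFullC K N)}
    (h : ∀ (d : ℕ) (_ : NeZero d) (hd : d ∣ N),
      (⟨qExpand K d (jqModC K), jqModCd_mem_full K N hd⟩ : modularFunctionFieldFullC K N) ∈ E) :
    E = ⊤ := by
  rw [eq_top_iff]
  rintro y -
  have h1 : IntermediateField.adjoin K (divisorExpansionsC K N) ≤
      E.map (modularFunctionFieldFullC K N).val := by
    rw [adjoin_le_iff]
    rintro _ ⟨d, hd0, hd, rfl⟩
    exact ⟨_, h d hd0 hd, rfl⟩
  obtain ⟨z, hz, hzy⟩ := h1 y.2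
  have : z = y := Subtype.ext hzy
  rw [← this]
  exact hz

theorem isSeparable_of_adjoin {K F : Type*} [Field K] [Field F] [Algebra K F] (x : F) (T : Set F)
    (hT : IntermediateField.adjoin K T = ⊤) (h : ∀ t ∈ T, t ∈ separableClosure K⟮x⟯ F) :
    Algebra.IsSeparable K⟮x⟯ F := by
  rw [← separableClosure.eq_top_iff]
  apply IntermediateField.restrictScalars_injective K
  rw [IntermediateField.restrictScalars_top, eq_top_iff, ← hT, adjoin_le_iff]
  exact h

theorem isSeparable_full (hN : (N : K) ≠ 0) (x : modularFunctionFieldFullC K N)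
    (hx : (x : LaurentSeries K) = jqModC K) :
    Algebra.IsSeparable K⟮x⟯ (modularFunctionFieldFullC K N) := by
  let S := separableClosure K⟮x⟯ (modularFunctionFieldFullC K N)
  have key : ∀ (d : ℕ) (_ : NeZero d) (hd : d ∣ N),
      (⟨qExpand K d (jqModC K), jqModCd_mem_full K N hd⟩ : modularFunctionFieldFullC K N) ∈ S := by
    intro d
    induction d using Nat.strong_induction_on with
    | _ d ih =>
    intro h hd
    have hd0 : d ≠ 0 := h.out
    by_cases hd1 : d = 1
    · subst hd1
      have : (⟨qExpand K 1 (jqModC K), jqModCd_mem_full K N hd⟩ : modularFunctionFieldFullC K N) =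
          algebraMap K⟮x⟯ _ ⟨x, mem_adjoin_simple_self K x⟩ := by
        apply Subtype.ext
        change qExpand K 1 (jqModC K) = x
        rw [hx, qExpand_one_apply]
      rw [this]
      exact IntermediateField.algebraMap_mem _ _
    · have hrp : (d.minFac).Prime := Nat.minFac_prime hd1
      set r := d.minFac with hr
      have : Fact r.Prime := ⟨hrp⟩
      obtain ⟨d', hd'⟩ : r ∣ d := Nat.minFac_dvd d
      obtain ⟨Φr, hΦr⟩ := exists_modPolySpec r
      have hd'0 : d' ≠ 0 := by rintro rfl; exact hd0 (by rw [hd', mul_zero])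
      have hne' : NeZero d' := ⟨hd'0⟩
      have hd'lt : d' < d := by
        rw [hd']
        have := hrp.one_lt
        have h3 := Nat.pos_of_ne_zero hd'0
        nlinarith
      have hd'N : d' ∣ N := (Dvd.intro_left r hd'.symm).trans hd
      have hrN : r ∣ N := (Nat.minFac_dvd d).trans hd
      have hmem := ih d' hd'lt hne' hd'N
      let L := AlgebraicClosure K
      have hrL : (r : L) ≠ 0 := by
        rw [← map_natCast (algebraMap K L) r, Ne, map_eq_zero]
        intro h0
        obtain ⟨c, hc⟩ := hrN
        apply hN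
        rw [hc]
        push_cast
        rw [h0, zero_mul]
      obtain ⟨ζ, hζ⟩ := exists_unit_primitiveRoot (K := L) (n := r) hrL
      set P : S[X] := PhiR Φr (⟨_, hmem⟩ : S) with hP
      have hPsep : P.Separable := by
        rw [← Polynomial.separable_map ((((qExpand L r).comp (coeffMap (algebraMap K L))).comp
          (algebraMap (modularFunctionFieldFullC K N) (LaurentSeries K))).comp
            (algebraMap S (modularFunctionFieldFullC K N))), hP, PhiR_map]
        have h1 := hΦr.separable hζ 1 (m := d') hd'0
        rw [one_pow] at h1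
        have h2 : (((qExpand L r).comp (coeffMap (algebraMap K L))).comp
          (algebraMap (modularFunctionFieldFullC K N) (LaurentSeries K))).comp
            (algebraMap S (modularFunctionFieldFullC K N)) (⟨_, hmem⟩ : S) =
            jt (1 : Lˣ) (r * d') := by
          change qExpand L r (coeffMap (algebraMap K L) (qExpand K d' (jqModC K))) = _
          rw [coeffMap_qExpand, coeffMap_jqModC, ← jt_one_eq, qExpand_jt]
        rw [h2]
        exact h1
      have hPx : aeval (⟨qExpand K d (jqModC K), jqModCd_mem_full K N hd⟩ :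
          modularFunctionFieldFullC K N) P = 0 := by
        apply Subtype.val_injective
        change algebraMap (modularFunctionFieldFullC K N) (LaurentSeries K) _ = 0
        rw [aeval_def, ← eval_map, hP, PhiR_map, ← eval₂_at_apply, ← eval_map, PhiR_map]
        exact modEq_root K r hΦr d' d hd'
      have hsepS : IsSeparable S (⟨qExpand K d (jqModC K), jqModCd_mem_full K N hd⟩ :
          modularFunctionFieldFullC K N) :=
        hPsep.of_dvd (minpoly.dvd S _ hPx)
      rw [mem_separableClosure_iff]
      exact IsSeparable.of_algebra_isSeparable_of_isSeparable K⟮x⟯ hsepS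
  refine isSeparable_of_adjoin x {y | ∃ (d : ℕ) (_ : NeZero d) (hd : d ∣ N),
    y = (⟨qExpand K d (jqModC K), jqModCd_mem_full K N hd⟩ : modularFunctionFieldFullC K N)} ?_ ?_
  · exact qExpand_mem_of_le (fun d h hd => subset_adjoin K _ ⟨d, h, hd, rfl⟩)
  · rintro _ ⟨d, h, hd, rfl⟩
    exact key d h hd

/-- `F_N(K)` is separable over `K(j)` -/
theorem isSeparable_full_jRed (hN : (N : K) ≠ 0) :
    Algebra.IsSeparable K⟮jRed K N⟯ (modularFunctionFieldFullC K N) :=
  isSeparable_full hN _ rfl

end Sep

end Fermat.Agent.JRED
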