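import Fermat.Agent.JRED.PlaceRedMap
import Fermat.Agent.JRED.Torsion
import Fermat.Agent.RR.Duality
import Fermat.Agent.FF.Line

/-!
# Descent of genus equality, part B1: reduction of the spaces `L(m (x)_∞)`

For a constant reduction and `x` reducing to a transcendental `xbar` with
`deg (x)_∞ = deg (xbar)_∞`: the reduction of `L(m (x)_∞)` is contained in `L(m (xbar)_∞)`
(any genera), with equality for `m ≫ 0` if the genera agree.
-/

set_option autoImplicit false
set_option linter.unusedSectionVars false

noncomputable section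

open AlgebraicCurve IntermediateField

namespace Fermat.Agent.JRED.DescentB

section General

variable {K F : Type*} [Field K] [Field F] [Algebra K F]

theorem isFF1_of_functionField [h : RR.FunctionField K F] : Fermat.FF.IsFF1 K F :=
  ⟨h.exists_finite⟩

variable [IsAlgClosed K] [RR.FunctionField K F]

theorem finiteDimensional_adjoin {x : F} (hx : Transcendental K x) :
    FiniteDimensional K⟮x⟯ F := by
  have := isFF1_of_functionField (K := K) (F := F)
  exact Fermat.FF.IsFF1.finiteDimensional_adjoin hx

theorem degree_polesOf {x : F} (hx : Transcendental K x) :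
    Divisor.degree (RR.polesOf (K := K) x) = Module.finrank K⟮x⟯ F := by
  have := finiteDimensional_adjoin hx
  exact RR.degree_polesOf hx

omit [RR.FunctionField K F] in
theorem transcendental_of_ord_ne_zero {x : F} (v : Place K F) (h : v.ord x ≠ 0) :
    Transcendental K x := by
  intro halg
  have h1 : x ∈ (algebraMap K F).range := by
    have h2 : IsIntegral K x := halg.isIntegral
    have h3 := IsAlgClosed.degree_eq_one_of_irreducible K (minpoly.irreducible h2)
    exact minpoly.mem_range_of_degree_eq_one K x h3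
  obtain ⟨c, rfl⟩ := h1
  exact h (RR.ord_algebraMap v c)

theorem polesOf_le_of_mem {D : Divisor K F} (hD : 0 ≤ D) {f : F}
    (hf : f ∈ riemannRochSpace D) : RR.polesOf (K := K) f ≤ D := by
  intro v
  rw [RR.polesOf_apply]
  have h0 : 0 ≤ D v := hD v
  rcases (mem_riemannRochSpace_iff.mp hf) v with rfl | h
  · simpa using h0
  · exact max_le (by omega) h0

omit [IsAlgClosed K] in
theorem mem_of_polesOf_le {D : Divisor K F} {f : F} (h : RR.polesOf (K := K) f ≤ D) :
    f ∈ riemannRochSpace D := by
  rw [mem_riemannRochSpace_iff]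
  intro v
  right
  have h1 := h v
  rw [RR.polesOf_apply] at h1
  have := le_max_left (-v.ord f) 0
  omega

omit [IsAlgClosed K] in
theorem pow_mem_nsmul_polesOf (x : F) (m : ℕ) :
    x ^ m ∈ riemannRochSpace (m • RR.polesOf (K := K) x) := by
  rw [mem_riemannRochSpace_iff]
  intro v
  right
  rw [RR.ord_pow, Finsupp.smul_apply, RR.polesOf_apply, nsmul_eq_mul, ← mul_neg]
  have h1 : -max (-v.ord x) 0 ≤ v.ord x := by
    have := le_max_left (-v.ord x) 0
    omega
  exact mul_le_mul_of_nonneg_left h1 (Int.natCast_nonneg m)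

theorem polesOf_lt_iff (v : Place K F) (g : F) {M : ℤ} (hM : 0 < M) :
    RR.polesOf (K := K) g v < M ↔ v.adicValuation g < WithZero.exp M := by
  rw [RR.polesOf_apply]
  rcases eq_or_ne g 0 with rfl | hg
  · simpa using hM
  · rw [v.adicValuation_eq_exp_neg_ord hg, WithZero.exp_lt_exp]
    constructor
    · exact fun h => lt_of_le_of_lt (le_max_left _ _) h
    · exact fun h => max_lt h hM

/-- A generic combination `f + c * y` has poles of the maximal possible order. -/
theorem exists_generic_const (f y : F) : ∃ c : K, c ≠ 0 ∧ ∀ v : Place K F,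
    max (RR.polesOf (K := K) f v) (RR.polesOf (K := K) y v) ≤
      RR.polesOf (K := K) (f + algebraMap K F c * y) v := by
  classical
  set T : Finset (Place K F) := (RR.polesOf (K := K) f).support ∪ (RR.polesOf (K := K) y).support
    with hT
  -- the bad constants
  let bad : Place K F → Set K := fun v => {c : K | c ≠ 0 ∧
    ¬ max (RR.polesOf (K := K) f v) (RR.polesOf (K := K) y v) ≤
      RR.polesOf (K := K) (f + algebraMap K F c * y) v}
  have hconst : ∀ (v : Place K F) (c : K), c ≠ 0 → v.adicValuation (algebraMap K F c) = 1 := by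
    intro v c hc
    rw [v.adicValuation_eq_exp_neg_ord (by simpa using hc), RR.ord_algebraMap]
    simp
  have hbad : ∀ v, (bad v).Subsingleton := by
    rintro v c ⟨hc, hc'⟩ d ⟨hd, hd'⟩
    by_contra hcd
    rw [not_le] at hc' hd'
    set M := max (RR.polesOf (K := K) f v) (RR.polesOf (K := K) y v) with hM
    have hM0 : 0 < M := lt_of_le_of_lt (RR.polesOf_nonneg _ v) hc'
    rw [polesOf_lt_iff v _ hM0] at hc' hd'
    have hcd' : c - d ≠ 0 := sub_ne_zero.mpr hcd
    have hy : v.adicValuation y < WithZero.exp M := by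
      have h4 : algebraMap K F (c - d) * y =
          (f + algebraMap K F c * y) - (f + algebraMap K F d * y) := by
        rw [map_sub]; ring
      have h5 : v.adicValuation (algebraMap K F (c - d) * y) < WithZero.exp M := by
        rw [h4]
        exact Valuation.map_sub_lt _ hc' hd'
      rwa [map_mul, hconst v _ hcd', one_mul] at h5
    have hf : v.adicValuation f < WithZero.exp M := by
      have h4 : f = (f + algebraMap K F c * y) - algebraMap K F c * y := by ring
      rw [h4]
      refine Valuation.map_sub_lt _ hc' ?_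
      rwa [map_mul, hconst v _ hc, one_mul]
    rw [← polesOf_lt_iff v _ hM0] at hf hy
    exact absurd hM (max_lt hf hy).ne'
  have hfin : ({0} ∪ ⋃ v ∈ T, bad v).Finite :=
    (Set.finite_singleton _).union (T.finite_toSet.biUnion fun v _ => (hbad v).finite)
  have : Infinite K := IsAlgClosed.instInfinite
  obtain ⟨c, hc⟩ := hfin.exists_notMem
  rw [Set.mem_union, not_or, Set.mem_singleton_iff] at hc
  refine ⟨c, hc.1, fun v => ?_⟩
  by_cases hv : v ∈ T
  · by_contra hcon
    apply hc.2
    simp only [Set.mem_iUnion]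
    exact ⟨v, hv, hc.1, hcon⟩
  · rw [hT, Finset.mem_union, not_or, Finsupp.notMem_support_iff, Finsupp.notMem_support_iff] at hv
    rw [hv.1, hv.2, max_self]
    exact RR.polesOf_nonneg _ v

end General

section Red

variable {K F k Fk : Type*} [Field K] [Field F] [Algebra K F] [Field k] [Field Fk] [Algebra k Fk]
variable {A : ValuationSubring K} {π : A →+* k} {R : RedDatum K F k Fk A π}

theorem polesOf_pow [RR.FunctionField K F] (x : F) (m : ℕ) :
    RR.polesOf (K := K) (x ^ m) = m • RR.polesOf (K := K) x := by
  ext v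
  rw [Finsupp.smul_apply, RR.polesOf_apply, RR.polesOf_apply, RR.ord_pow, nsmul_eq_mul,
    mul_max_of_nonneg _ _ (Int.natCast_nonneg m), mul_zero, mul_neg]

variable [IsAlgClosed K] [IsAlgClosed k] [RR.FunctionField K F] [RR.FunctionField k Fk]

theorem degree_polesOf_le (hπ : Function.Surjective π) (hsurj : ∀ u : Fk, ∃ w, R.Red w u)
    {h : F} {hbar : Fk} (hh : R.Red h hbar) (htr : Transcendental k hbar) :
    Divisor.degree (RR.polesOf (K := k) hbar) ≤ Divisor.degree (RR.polesOf (K := K) h) := by
  have h1 := RedDatum.transcendental_of_red hπ hh htr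
  have := finiteDimensional_adjoin h1
  rw [degree_polesOf h1, degree_polesOf htr]
  exact_mod_cast RedDatum.finrank_adjoin_le hπ hsurj hh htr

/-- **(H2)** The reduction of `L(m (x)_∞)` is contained in `L(m (xbar)_∞)`. -/
theorem redSub_le (hπ : Function.Surjective π) (hsurj : ∀ u : Fk, ∃ w, R.Red w u)
    {x : F} {xbar : Fk} (hx : R.Red x xbar)
    (hdeg : Divisor.degree (RR.polesOf (K := K) x) ≤ Divisor.degree (RR.polesOf (K := k) xbar))
    (m : ℕ) :
    R.redSub hπ (riemannRochSpace (m • RR.polesOf x)) ≤
      riemannRochSpace (m • RR.polesOf xbar) := by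
  rintro u ⟨f, hf, hfu⟩
  by_contra hcon
  rw [mem_riemannRochSpace_iff] at hcon
  push Not at hcon
  obtain ⟨v, hu0, hv⟩ := hcon
  obtain ⟨c, hc, hgen⟩ := exists_generic_const (K := k) u (xbar ^ m)
  obtain ⟨a, rfl⟩ := hπ c
  have hh : R.Red (f + algebraMap K F a * x ^ m) (u + algebraMap k Fk (π a) * xbar ^ m) :=
    R.add hfu (R.mul (R.const a) (RedDatum.pow hx m))
  have h1 : f + algebraMap K F (a : K) * x ^ m ∈ riemannRochSpace (m • RR.polesOf (K := K) x) := by
    refine add_mem hf ?_
    rw [← Algebra.smul_def]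
    exact Submodule.smul_mem _ _ (pow_mem_nsmul_polesOf x m)
  have h2 := RR.degree_mono
    (polesOf_le_of_mem (K := K) (nsmul_nonneg (RR.polesOf_nonneg (K := K) x) m) h1)
  rw [Finsupp.smul_apply, RR.polesOf_apply] at hv
  have h3 : (m • RR.polesOf (K := k) xbar + Finsupp.single v 1) ≤
      RR.polesOf (K := k) (u + algebraMap k Fk (π a) * xbar ^ m) := by
    intro w
    have h4 := hgen w
    rw [polesOf_pow] at h4
    by_cases hw : w = v
    · subst hw
      rw [RR.add_single_apply_self]
      have h5 := (le_max_left _ _).trans h4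
      rw [RR.polesOf_apply (K := k) u] at h5
      have h6 := le_max_left (-w.ord u) 0
      rw [Finsupp.smul_apply, RR.polesOf_apply (K := k) xbar]
      omega
    · rw [RR.add_single_apply_ne _ _ hw]
      exact (le_max_right _ _).trans h4
  have htr : Transcendental k (u + algebraMap k Fk (π a) * xbar ^ m) := by
    refine transcendental_of_ord_ne_zero v ?_
    have h4 := h3 v
    rw [RR.add_single_apply_self, Finsupp.smul_apply, RR.polesOf_apply (K := k) xbar,
      RR.polesOf_apply] at h4
    have h5 : 0 ≤ m • max (-v.ord xbar) 0 := nsmul_nonneg (le_max_right _ _) m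
    intro h6
    rw [h6] at h4
    simp only [neg_zero, max_self] at h4
    omega
  have h4 := degree_polesOf_le hπ hsurj hh htr
  have h5 := RR.degree_mono h3
  rw [map_add, RR.degree_single_one, map_nsmul] at h5
  rw [map_nsmul] at h2
  have h6 : m • Divisor.degree (RR.polesOf (K := K) x) ≤
      m • Divisor.degree (RR.polesOf (K := k) xbar) := nsmul_le_nsmul_right hdeg m
  omega

/-- If the genera agree, then `L(m (x)_∞)` reduces onto `L(m (xbar)_∞)` for large `m`. -/
theorem redSub_eq_of_genus (hπ : Function.Surjective π) (hsurj : ∀ u : Fk, ∃ w, R.Red w u)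
    (hortho : ∀ W : Submodule K F, FiniteDimensional K W → R.HasOrtho W)
    {x : F} {xbar : Fk} (hx : R.Red x xbar) (htr : Transcendental k xbar)
    (hdeg : Divisor.degree (RR.polesOf (K := K) x) ≤ Divisor.degree (RR.polesOf (K := k) xbar))
    (hg : genusFF K F = genusFF k Fk) :
    ∃ m₀ : ℕ, ∀ m : ℕ, m₀ ≤ m →
      R.redSub hπ (riemannRochSpace (m • RR.polesOf x)) = riemannRochSpace (m • RR.polesOf xbar) := by
  have hdeg' := degree_polesOf_le hπ hsurj hx htr
  have hd : Divisor.degree (RR.polesOf (K := K) x) = Divisor.degree (RR.polesOf (K := k) xbar) :=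
    le_antisymm hdeg hdeg'
  have hpos : 0 < Divisor.degree (RR.polesOf (K := k) xbar) := by
    have := finiteDimensional_adjoin htr
    rw [degree_polesOf htr]
    exact_mod_cast Module.finrank_pos
  refine ⟨2 * genusFF K F, fun m hm => ?_⟩
  have hlarge : 2 * (genusFF K F : ℤ) - 2 < m • Divisor.degree (RR.polesOf (K := k) xbar) := by
    rw [nsmul_eq_mul]
    have : (2 * (genusFF K F : ℤ)) ≤ m := by exact_mod_cast hm
    nlinarith
  have h1 := RR.finrank_riemannRochSpace_eq (K := K) (F := F) (D := m • RR.polesOf (K := K) x)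
    (by rw [map_nsmul, hd]; exact hlarge)
  have h2 := RR.finrank_riemannRochSpace_eq (K := k) (F := Fk) (D := m • RR.polesOf (K := k) xbar)
    (by rw [map_nsmul, ← hg]; exact hlarge)
  refine Submodule.eq_of_le_of_finrank_eq (redSub_le hπ hsurj hx hdeg m) ?_
  rw [(hortho _ (RR.finite_riemannRochSpace _)).finrank_redSub hπ]
  rw [map_nsmul, hd] at h1
  rw [map_nsmul, ← hg] at h2
  have h3 := h1.trans h2.symm
  exact_mod_cast h3

/-- Conversely, equality of the dimensions for large `m` gives the equality of the genera. -/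
theorem genus_eq_of_redSub_eq (hπ : Function.Surjective π) (hsurj : ∀ u : Fk, ∃ w, R.Red w u)
    (hortho : ∀ W : Submodule K F, FiniteDimensional K W → R.HasOrtho W)
    {x : F} {xbar : Fk} (hx : R.Red x xbar) (htr : Transcendental k xbar)
    (hdeg : Divisor.degree (RR.polesOf (K := K) x) ≤ Divisor.degree (RR.polesOf (K := k) xbar))
    (h : ∃ m₀ : ℕ, ∀ m : ℕ, m₀ ≤ m →
      riemannRochSpace (m • RR.polesOf xbar) ≤
        R.redSub hπ (riemannRochSpace (m • RR.polesOf x))) :
    genusFF K F = genusFF k Fk := by
  obtain ⟨m₀, hm₀⟩ := h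
  have hdeg' := degree_polesOf_le hπ hsurj hx htr
  have hd : Divisor.degree (RR.polesOf (K := K) x) = Divisor.degree (RR.polesOf (K := k) xbar) :=
    le_antisymm hdeg hdeg'
  have hpos : 0 < Divisor.degree (RR.polesOf (K := k) xbar) := by
    have := finiteDimensional_adjoin htr
    rw [degree_polesOf htr]
    exact_mod_cast Module.finrank_pos
  set m : ℕ := m₀ + 2 * genusFF K F + 2 * genusFF k Fk with hm
  have hmn : (m : ℤ) ≤ m • Divisor.degree (RR.polesOf (K := k) xbar) := by
    rw [nsmul_eq_mul]
    have : (0 : ℤ) ≤ m := Int.natCast_nonneg m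
    nlinarith
  have h1 := RR.finrank_riemannRochSpace_eq (K := K) (F := F) (D := m • RR.polesOf (K := K) x)
    (by rw [map_nsmul, hd]; push_cast [hm] at hmn ⊢; omega)
  have h2 := RR.finrank_riemannRochSpace_eq (K := k) (F := Fk) (D := m • RR.polesOf (K := k) xbar)
    (by rw [map_nsmul]; push_cast [hm] at hmn ⊢; omega)
  have h3 := le_antisymm (redSub_le hπ hsurj hx hdeg m) (hm₀ m (by omega))
  have h4 := (hortho _ (RR.finite_riemannRochSpace (m • RR.polesOf (K := K) x))).finrank_redSub hπ
  rw [h3] at h4
  rw [h4, map_nsmul] at h2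
  rw [map_nsmul, hd] at h1
  have h5 := h1.symm.trans h2
  omega

end Red

end Fermat.Agent.JRED.DescentB
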