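import Fermat.Agent.JRED.ModularRedExists
import Fermat.Agent.JRED.ModularFF
import Fermat.Agent.JRED.Torsion

set_option autoImplicit false

/-!
# The reduction map on `J₀(N)` of the prelude, in terms of the constant reduction

Given `DegreeInput N k` and `GoodReduction N k`:
* `ReductionInputsAlong A π N` holds (`reductionInputsAlong`);
* `reductionAlong A π N` is injective on torsion prime to the residue characteristic
  (`eq_zero_of_reductionAlong`).
-/

noncomputable section

open HahnSeries ModularCurve AlgebraicCurve IntermediateField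

namespace Fermat.Agent.JRED

section Modular

variable {N : ℕ} {A : ValuationSubring (AlgebraicClosure ℚ)} {k : Type} [Field k] {π : A →+* k}

local notation "Fbar" => laurentBaseChange (AlgebraicClosure ℚ) (modularFunctionFieldFull N)

theorem ModularConstRed.mem_O_of_integral (M : ModularConstRed N π) {y : LaurentSeries A}
    (hy : coeffMap A.subtype y ∈ laurentBaseChange (AlgebraicClosure ℚ)
      (modularFunctionFieldFull N)) :
    (⟨coeffMap A.subtype y, hy⟩ : modularFunctionFieldBar N) ∈ M.C.O :=
  (M.mem_O_iff _).mpr ⟨y, 1, by simp, by simp⟩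

theorem ModularConstRed.coe_res_integral (M : ModularConstRed N π) {y : LaurentSeries A}
    (hy : coeffMap A.subtype y ∈ laurentBaseChange (AlgebraicClosure ℚ)
      (modularFunctionFieldFull N)) :
    ((M.C.res ⟨⟨coeffMap A.subtype y, hy⟩, M.mem_O_of_integral hy⟩ :
      modularFunctionFieldFullC k N) : LaurentSeries k) = coeffMap π y := by
  have h := M.res_eq ⟨⟨coeffMap A.subtype y, hy⟩, M.mem_O_of_integral hy⟩ y 1 (by simp) (by simp)
  simpa using h

theorem ModularConstRed.coeffMap_mem (M : ModularConstRed N π) {y : LaurentSeries A}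
    (hy : coeffMap A.subtype y ∈ laurentBaseChange (AlgebraicClosure ℚ)
      (modularFunctionFieldFull N)) : coeffMap π y ∈ modularFunctionFieldFullC k N := by
  rw [← M.coe_res_integral hy]
  exact Subtype.coe_prop _

/-- The place map is a place reduction in the sense of the prelude. -/
theorem ModularConstRed.isPlaceReductionAlong (hπ : Function.Surjective π)
    (hdeg : DegreeInput N k) (M : ModularConstRed N π)
    {r : Place (AlgebraicClosure ℚ) (modularFunctionFieldBar N) →
      Place k (modularFunctionFieldFullC k N)} (hr : M.C.IsPlaceMap r) :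
    IsPlaceReductionAlong A π N r := by
  have := isAlgClosed_of_surjective hπ
  have := hdeg.functionField
  have := hdeg.functionField'
  refine ⟨fun P => ?_, fun y hy hyk hne D hD Q => ?_⟩
  · have h1 : (r P).deg = 1 := RR.deg_eq_one _
    have h2 : P.deg = 1 := RR.deg_eq_one (K := AlgebraicClosure ℚ)
      (F := modularFunctionFieldBar N) P
    rw [h1, h2]
  · have h1 : M.C.res ⟨⟨coeffMap A.subtype y, hy⟩, M.mem_O_of_integral hy⟩ =
        ⟨coeffMap π y, hyk⟩ := Subtype.ext (M.coe_res_integral hy)
    rw [← h1]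
    refine hr ⟨⟨coeffMap A.subtype y, hy⟩, M.mem_O_of_integral hy⟩ ?_ D hD Q
    rw [h1]
    intro h0
    exact hne (congrArg Subtype.val h0)

theorem principalGeneratedByIntegral (hπ : Function.Surjective π) (hdeg : DegreeInput N k) :
    PrincipalGeneratedByIntegral A π N := by
  rintro D ⟨f, hf, hD⟩
  have := hdeg.functionField
  obtain ⟨c, y₁, y₂, hc, hy₁, hy₂, h₁, h₂, h⟩ := exists_integral_quotient π f.2
    (fun h0 => hf (Subtype.ext h0))
  set Y₁ : modularFunctionFieldBar N := ⟨coeffMap A.subtype y₁, hy₁⟩ with hY₁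
  set Y₂ : modularFunctionFieldBar N := ⟨coeffMap A.subtype y₂, hy₂⟩ with hY₂
  have hne : ∀ {y : LaurentSeries A} (hy : coeffMap A.subtype y ∈ modularFunctionFieldBar N),
      coeffMap π y ≠ 0 → (⟨coeffMap A.subtype y, hy⟩ : modularFunctionFieldBar N) ≠ 0 := by
    intro y hy h0 h1
    apply h0
    have h2 : y = 0 := coeffMap_injective (f := A.subtype) Subtype.val_injective
      (by rw [map_zero]; exact congrArg Subtype.val h1)
    rw [h2, map_zero]
  have hfac : f * Y₂ = algebraMap _ _ c * Y₁ := Subtype.ext h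
  have hc' : algebraMap (AlgebraicClosure ℚ) (modularFunctionFieldBar N) c ≠ 0 :=
    (map_ne_zero_iff _ (algebraMap (AlgebraicClosure ℚ)
      (modularFunctionFieldBar N)).injective).mpr hc
  have hmem : ∀ {y : LaurentSeries A} (hy : coeffMap A.subtype y ∈ modularFunctionFieldBar N),
      coeffMap π y ≠ 0 →
      RR.divOf (K := AlgebraicClosure ℚ) (⟨coeffMap A.subtype y, hy⟩ : modularFunctionFieldBar N) ∈
        integralPrincipalDivisors A π N := by
    intro y hy h0
    exact ⟨y, hy, (hdeg.modularConstRed hπ).coeffMap_mem hy, h0, fun P => RR.divOf_apply _ P⟩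
  have hDeq : D = RR.divOf (K := AlgebraicClosure ℚ) Y₁ - RR.divOf (K := AlgebraicClosure ℚ) Y₂ := by
    ext P
    rw [Finsupp.sub_apply, RR.divOf_apply, RR.divOf_apply, hD P]
    have h1 : P.ord (f * Y₂) = P.ord (algebraMap _ _ c * Y₁) := by rw [hfac]
    have hY₂0 : Y₂ ≠ 0 := hne hy₂ h₂
    have hY₁0 : Y₁ ≠ 0 := hne hy₁ h₁
    rw [P.ord_mul hf hY₂0, P.ord_mul hc' hY₁0, RR.ord_algebraMap] at h1
    omega
  rw [hDeq]
  exact sub_mem (AddSubgroup.subset_closure (hmem hy₁ h₁)) (AddSubgroup.subset_closure (hmem hy₂ h₂))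

theorem reductionInputsAlong (hπ : Function.Surjective π) (hdeg : DegreeInput N k)
    (hgood : GoodReduction N k) : ReductionInputsAlong A π N := by
  obtain ⟨r, hr⟩ := (hdeg.modularConstRed hπ).exists_isPlaceMap hπ hdeg hgood
  exact ⟨r, (hdeg.modularConstRed hπ).isPlaceReductionAlong hπ hdeg hr,
    principalGeneratedByIntegral hπ hdeg⟩

/-- Two place reductions agree on divisors of finite order in `Pic`. -/
theorem mapDomain_eq_of_torsion (hgen : PrincipalGeneratedByIntegral A π N)
    {r r' : Place (AlgebraicClosure ℚ) (modularFunctionFieldBar N) →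
      Place k (modularFunctionFieldFullC k N)}
    (hr : IsPlaceReductionAlong A π N r) (hr' : IsPlaceReductionAlong A π N r')
    {D : Divisor (AlgebraicClosure ℚ) (modularFunctionFieldBar N)} {m : ℕ} (hm : m ≠ 0)
    (hmD : Divisor.IsPrincipal (m • D)) :
    Finsupp.mapDomain r D = Finsupp.mapDomain r' D := by
  have h1 : ∀ E ∈ Divisor.principal (K := AlgebraicClosure ℚ) (F := modularFunctionFieldBar N),
      Finsupp.mapDomain r E = Finsupp.mapDomain r' E := by
    intro E hE
    have hE' := hgen hE
    clear hE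
    induction hE' using AddSubgroup.closure_induction with
    | mem E hE =>
      obtain ⟨y, hy, hyk, hne, hDy⟩ := hE
      ext Q
      rw [hr.2 y hy hyk hne E hDy Q, hr'.2 y hy hyk hne E hDy Q]
    | zero => rw [Finsupp.mapDomain_zero, Finsupp.mapDomain_zero]
    | add E E' _ _ hE hE' => rw [Finsupp.mapDomain_add, Finsupp.mapDomain_add, hE, hE']
    | neg E _ hE =>
      rw [← Finsupp.mapDomain.addMonoidHom_apply, ← Finsupp.mapDomain.addMonoidHom_apply,
        map_neg, map_neg, Finsupp.mapDomain.addMonoidHom_apply,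
        Finsupp.mapDomain.addMonoidHom_apply, hE]
  have h2 := h1 (m • D) hmD
  rw [← Finsupp.mapDomain.addMonoidHom_apply, ← Finsupp.mapDomain.addMonoidHom_apply,
    map_nsmul, map_nsmul, Finsupp.mapDomain.addMonoidHom_apply,
    Finsupp.mapDomain.addMonoidHom_apply] at h2
  ext Q
  have h3 := DFunLike.congr_fun h2 Q
  rw [Finsupp.smul_apply, Finsupp.smul_apply, nsmul_eq_mul, nsmul_eq_mul] at h3
  exact mul_left_cancel₀ (by exact_mod_cast hm) h3

/-- **Injectivity of reduction on torsion prime to the residue characteristic.** -/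
theorem eq_zero_of_reductionAlong (hπ : Function.Surjective π) (hdeg : DegreeInput N k)
    (hgood : GoodReduction N k) (h : ReductionInputsAlong A π N) {m : ℕ} (hm : (m : k) ≠ 0)
    (z : Pic0 (AlgebraicClosure ℚ) (laurentBaseChange (AlgebraicClosure ℚ)
      (modularFunctionFieldFull N))) (hmz : m • z = 0) (hz : reductionAlong A π N z = 0) :
    z = 0 := by
  have hac := isAlgClosed_of_surjective hπ
  have := hdeg.functionField
  have := hdeg.functionField'
  have hm0 : m ≠ 0 := by rintro rfl; exact hm (by simp)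
  obtain ⟨⟨D, hD⟩, rfl⟩ := Pic0.mk_surjective z
  set M := hdeg.modularConstRed hπ
  obtain ⟨r, hr⟩ := M.exists_isPlaceMap hπ hdeg hgood
  have hr' := M.isPlaceReductionAlong hπ hdeg hr
  have h1 : Divisor.IsPrincipal (m • D) := by
    have h2 : Pic0.mk (m • (⟨D, hD⟩ : Divisor.degZero (K := AlgebraicClosure ℚ)
        (F := modularFunctionFieldBar N))) = 0 := hmz
    exact (QuotientAddGroup.eq_zero_iff _).mp h2
  have h3 : Divisor.IsPrincipal (Finsupp.mapDomain h.choose D) := by
    rw [reductionAlong_mk h] at hz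
    exact (QuotientAddGroup.eq_zero_iff _).mp hz
  rw [mapDomain_eq_of_torsion h.choose_spec.2 h.choose_spec.1 hr' hm0 h1] at h3
  exact (QuotientAddGroup.eq_zero_iff _).mpr
    (M.C.isPrincipal_of_torsion hπ hr hgood hm D hD h1 h3)

end Modular

end Fermat.Agent.JRED
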