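import Fermat.Agent.JRED.CharZeroGenus
import Fermat.Agent.JRED.DescentSpace
import Fermat.Agent.JRED.ModularPlace

/-!
# Good reduction of `X₀(N)` (genus form): final assembly

From
* `DegreeInput M k` for `ℓ ∤ M`,
* the lower bound `finrank_ℂ S₂(Γ₀(M)) ≤ genusFF k F̄_M` for `M` even if `ℓ = 3`, `3 ∣ M` if `ℓ = 2`,
* the descent of good reduction from level `M` to level `N ∣ M`.
-/

set_option autoImplicit false

noncomputable section

open ModularCurve AlgebraicCurve IntermediateField

namespace Fermat.Agent.JRED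

section Abstract

variable {K k : Type*} [Field K] [Field k] {A : ValuationSubring K} {π : A →+* k}
  {F Fk : Type*} [Field F] [Field Fk] [Algebra K F] [Algebra k Fk]
  {R : RedDatum K F k Fk A π} [IsAlgClosed K] [IsAlgClosed k] [RR.FunctionField K F]
  [RR.FunctionField k Fk]

/-- **Semicontinuity of the genus.** -/
theorem genusFF_le_of_red (hπ : Function.Surjective π) (hsurj : ∀ u : Fk, ∃ w, R.Red w u)
    (hortho : ∀ W : Submodule K F, FiniteDimensional K W → R.HasOrtho W)
    {x : F} {xbar : Fk} (hx : R.Red x xbar) (htr : Transcendental k xbar)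
    (hdeg : Divisor.degree (RR.polesOf (K := K) x) ≤ Divisor.degree (RR.polesOf (K := k) xbar)) :
    genusFF k Fk ≤ genusFF K F := by
  have hdeg' := DescentB.degree_polesOf_le hπ hsurj hx htr
  have hd : Divisor.degree (RR.polesOf (K := K) x) = Divisor.degree (RR.polesOf (K := k) xbar) :=
    le_antisymm hdeg hdeg'
  have hpos : 0 < Divisor.degree (RR.polesOf (K := k) xbar) := by
    have := DescentB.finiteDimensional_adjoin htr
    rw [DescentB.degree_polesOf htr]
    exact_mod_cast Module.finrank_pos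
  set m : ℕ := 2 * genusFF K F + 2 * genusFF k Fk with hm
  have hmn : (m : ℤ) ≤ m • Divisor.degree (RR.polesOf (K := k) xbar) := by
    rw [nsmul_eq_mul]
    have : (0 : ℤ) ≤ m := Int.natCast_nonneg m
    nlinarith
  have h1 := RR.finrank_riemannRochSpace_eq (K := K) (F := F) (D := m • RR.polesOf (K := K) x)
    (by rw [map_nsmul, hd]; push_cast [hm] at hmn ⊢; omega)
  have h2 := RR.finrank_riemannRochSpace_eq (K := k) (F := Fk) (D := m • RR.polesOf (K := k) xbar)
    (by rw [map_nsmul]; push_cast [hm] at hmn ⊢; omega)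
  have h4 := (hortho _ (RR.finite_riemannRochSpace (m • RR.polesOf (K := K) x))).finrank_redSub hπ
  have h5 := Submodule.finrank_mono (DescentB.redSub_le hπ hsurj hx hdeg m)
  rw [h4] at h5
  rw [map_nsmul] at h2
  rw [map_nsmul, hd] at h1
  have h6 : (Module.finrank K (riemannRochSpace (m • RR.polesOf (K := K) x)) : ℤ) ≤
    Module.finrank k (riemannRochSpace (m • RR.polesOf (K := k) xbar)) := by exact_mod_cast h5
  omega

end Abstract

section Modular

variable {N : ℕ} {A : ValuationSubring (AlgebraicClosure ℚ)} {k : Type} [Field k] {π : A →+* k}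

theorem DegreeInput.genusFF_le (h : DegreeInput N k) (hπ : Function.Surjective π) :
    genusFF k (modularFunctionFieldFullC k N) ≤
      genusFF (AlgebraicClosure ℚ) (modularFunctionFieldBar N) := by
  have := isAlgClosed_of_surjective hπ
  have := h.functionField
  have := h.functionField'
  refine genusFF_le_of_red (R := h.redDatum hπ) hπ (h.redDatum_surjective hπ)
    (fun W hW => h.hasOrtho hπ W hW) (x := jBar N) (xbar := jRed k N) (redL_j π N)
    (jRed_transcendental k N) ?_
  rw [DescentB.degree_polesOf (transcendental_jBar N), DescentB.degree_polesOf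
    (jRed_transcendental k N)]
  exact_mod_cast h.2

theorem goodReduction_of_le [NeZero N] (h : DegreeInput N k) (hπ : Function.Surjective π)
    (hle : Module.finrank ℂ (CuspForm (CongruenceSubgroup.Gamma0 N) 2) ≤
      genusFF k (modularFunctionFieldFullC k N)) : GoodReduction N k := by
  rw [← genusFF_bar_eq_finrank N] at hle
  exact le_antisymm hle (h.genusFF_le hπ)

/-- (J2) lower bound for the genus of the reduction of `X₀(M)`. -/
def GenusLowerBound (M : ℕ) (k : Type) [Field k] : Prop :=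
  Module.finrank ℂ (CuspForm (CongruenceSubgroup.Gamma0 M) 2) ≤
    genusFF k (modularFunctionFieldFullC k M)

/-- (J2') descent of good reduction. -/
def DescentInput (N M : ℕ) (k : Type) [Field k] : Prop :=
  DegreeInput N k → DegreeInput M k → GoodReduction M k → GoodReduction N k

/-- **Good reduction of `X₀(N)` at all `ℓ ∤ N`**, from the inputs. -/
theorem goodReduction_of_inputs {ℓ : ℕ} (hℓ : ℓ.Prime) (hπ : Function.Surjective π)
    (hdeg : ∀ M : ℕ, M ≠ 0 → ¬ ℓ ∣ M → DegreeInput M k)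
    (hlow : ∀ M : ℕ, M ≠ 0 → ¬ ℓ ∣ M → (ℓ = 2 → 3 ∣ M) → (ℓ ≠ 2 → 2 ∣ M) → GenusLowerBound M k)
    (hdesc : ∀ N M : ℕ, N ≠ 0 → M ≠ 0 → N ∣ M → ¬ ℓ ∣ M → DescentInput N M k)
    (N : ℕ) (hN : N ≠ 0) (hℓN : ¬ ℓ ∣ N) : GoodReduction N k := by
  obtain ⟨c, hc0, hcℓ, hc2, hc3⟩ : ∃ c : ℕ, c ≠ 0 ∧ ¬ ℓ ∣ c ∧ (ℓ = 2 → 3 ∣ c) ∧
      (ℓ ≠ 2 → 2 ∣ c) := by
    by_cases h2 : ℓ = 2
    · exact ⟨3, by norm_num, by rw [h2]; norm_num, fun _ => dvd_rfl, fun h => absurd h2 h⟩
    · refine ⟨2, by norm_num, fun h => h2 ?_, fun h => absurd h h2, fun _ => dvd_rfl⟩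
      exact ((Nat.prime_dvd_prime_iff_eq hℓ Nat.prime_two).mp h)
  have hM0 : N * c ≠ 0 := mul_ne_zero hN hc0
  have hMℓ : ¬ ℓ ∣ N * c := fun h => (hℓ.dvd_mul.mp h).elim hℓN hcℓ
  have : NeZero (N * c) := ⟨hM0⟩
  have h1 := hlow (N * c) hM0 hMℓ (fun h => (hc2 h).mul_left N) (fun h => (hc3 h).mul_left N)
  exact hdesc N (N * c) hN hM0 (dvd_mul_right N c) hMℓ (hdeg N hN hℓN) (hdeg _ hM0 hMℓ)
    (goodReduction_of_le (hdeg _ hM0 hMℓ) hπ h1)

end Modular

end Fermat.Agent.JRED
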