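import Fermat.Agent.JRED.DescentMain
import Fermat.Agent.JRED.GoodReductionFinal
import Fermat.Agent.JRED.ModularFF

set_option autoImplicit false

/-!
# Descent of good reduction from level `M` to level `N ∣ M`

`descentInput : DescentInput N M k` for `N ∣ M`.
-/

noncomputable section

open AlgebraicCurve ModularCurve IntermediateField

namespace Fermat.Agent.JRED

section Abstract

open Descent DescentB

variable {K k : Type*} [Field K] [Field k]
variable {A : ValuationSubring K} {π : A →+* k} {F F' F₁ F₁' : Type*} [Field F] [Field F']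
    [Algebra K F] [Algebra k F'] [Field F₁] [Field F₁'] [Algebra K F₁] [Algebra k F₁']
    [Algebra F F₁] [Algebra F' F₁'] [IsScalarTower K F F₁] [IsScalarTower k F' F₁']
    {C : ConstRed A π F F'} {C₁ : ConstRed A π F₁ F₁'}

/-- `F₁ / F` is finite if `F₁ / K(x)` is finite. -/
theorem finiteDimensional_of_adjoin {K F F₁ : Type*} [Field K] [Field F] [Field F₁] [Algebra K F]
    [Algebra K F₁] [Algebra F F₁] [IsScalarTower K F F₁] (x : F)
    (h : FiniteDimensional K⟮algebraMap F F₁ x⟯ F₁) : FiniteDimensional F F₁ := by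
  have h1 : FiniteDimensional K⟮x⟯ F₁ :=
    (Fermat.FF.Gen.finiteDimensional_adjoin_algebraMap_iff K F F₁ x).mp h
  exact Module.Finite.of_restrictScalars_finite K⟮x⟯ F F₁

variable [IsAlgClosed K] [IsAlgClosed k] [RR.FunctionField K F] [RR.FunctionField k F']
    [RR.FunctionField K F₁] [RR.FunctionField k F₁']

theorem finrank_adjoin_algebraMap {K F F₁ : Type*} [Field K] [Field F] [Field F₁] [Algebra K F]
    [Algebra K F₁] [Algebra F F₁] [IsScalarTower K F F₁] [FiniteDimensional F F₁] [IsAlgClosed K]
    [RR.FunctionField K F] [RR.FunctionField K F₁] {x : F} (hx : Transcendental K x) :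
    Module.finrank K⟮algebraMap F F₁ x⟯ F₁ = Module.finrank F F₁ * Module.finrank K⟮x⟯ F := by
  have hx1 : Transcendental K (algebraMap F F₁ x) :=
    (transcendental_algebraMap_iff (algebraMap F F₁).injective).mpr hx
  have h1 := degree_polesOf_algebraMap (K := K) (F₁ := F₁) x
  rw [degree_polesOf hx1, degree_polesOf hx] at h1
  exact_mod_cast h1

/-- Descent of good reduction, with degree hypotheses over `K(x)` only. -/
theorem genusFF_eq_of_ext_of_degree (hπ : Function.Surjective π) (E : Ext C C₁) (x : C.O)
    (hx : Transcendental k (C.res x))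
    (hd : Module.finrank K⟮(x : F)⟯ F ≤ Module.finrank k⟮C.res x⟯ F')
    (hd₁ : Module.finrank K⟮algebraMap F F₁ x⟯ F₁ ≤
      Module.finrank k⟮algebraMap F' F₁' (C.res x)⟯ F₁')
    (hg : genusFF K F₁ = genusFF k F₁') :
    genusFF K F = genusFF k F' := by
  have hxK : Transcendental K (x : F) := transcendental_of_res C x hx
  have hxK1 : Transcendental K (algebraMap F F₁ x) :=
    (transcendental_algebraMap_iff (algebraMap F F₁).injective).mpr hxK
  have hx1 : Transcendental k (algebraMap F' F₁' (C.res x)) :=
    (transcendental_algebraMap_iff (algebraMap F' F₁').injective).mpr hx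
  have f1 : FiniteDimensional F F₁ := finiteDimensional_of_adjoin (K := K) (x : F)
    (finiteDimensional_adjoin hxK1)
  have f2 : FiniteDimensional F' F₁' := finiteDimensional_of_adjoin (K := k) (C.res x)
    (finiteDimensional_adjoin hx1)
  have f3 : FiniteDimensional K⟮(x : F)⟯ F := finiteDimensional_adjoin hxK
  have f4 : FiniteDimensional K⟮algebraMap F F₁ (x : F)⟯ F₁ := finiteDimensional_adjoin hxK1
  -- degrees over `k(x̄)` are at most the degrees over `K(x)`
  have g1 : Module.finrank k⟮C.res x⟯ F' ≤ Module.finrank K⟮(x : F)⟯ F :=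
    RedDatum.finrank_adjoin_le (R := C.toRedDatum) hπ (constRed_red_surj C) ⟨x.2, rfl⟩ hx
  have g2 : Module.finrank k⟮algebraMap F' F₁' (C.res x)⟯ F₁' ≤
      Module.finrank K⟮algebraMap F F₁ (x : F)⟯ F₁ :=
    RedDatum.finrank_adjoin_le (R := C₁.toRedDatum) hπ (constRed_red_surj C₁)
      ⟨E.mem x, E.res x⟩ hx1
  have e1 := le_antisymm hd g1
  have e2 := le_antisymm hd₁ g2
  rw [finrank_adjoin_algebraMap hxK, finrank_adjoin_algebraMap hx, e1] at e2
  have hpos : 0 < Module.finrank k⟮C.res x⟯ F' := by
    rw [← e1]
    exact Module.finrank_pos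
  exact genusFF_eq_of_ext hπ E (Nat.eq_of_mul_eq_mul_right hpos e2) x hx hd hg

end Abstract

section Modular

theorem bar_le {N M : ℕ} [NeZero N] [NeZero M] (h : N ∣ M) :
    modularFunctionFieldBar N ≤ modularFunctionFieldBar M := by
  rw [modularFunctionFieldBar, laurentBaseChange, IntermediateField.adjoin_le_iff]
  rintro _ ⟨x, hx, rfl⟩
  exact coeffEmb_mem_laurentBaseChange _ (full_degeneracy_le h hx)

variable {N M : ℕ} {A : ValuationSubring (AlgebraicClosure ℚ)} {k : Type} [Field k] {π : A →+* k}

/-- The reductions of levels `N ∣ M` are compatible. -/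
theorem ModularConstRed.ext [NeZero N] [NeZero M] (h : N ∣ M) (R : ModularConstRed N π)
    (R₁ : ModularConstRed M π) :
    letI : Algebra (modularFunctionFieldBar N) (modularFunctionFieldBar M) :=
      (IntermediateField.inclusion (bar_le h)).toRingHom.toAlgebra
    letI : Algebra (modularFunctionFieldFullC k N) (modularFunctionFieldFullC k M) :=
      (IntermediateField.inclusion (full_degeneracyC_le k h)).toRingHom.toAlgebra
    Descent.Ext R.C R₁.C := by
  let : Algebra (modularFunctionFieldBar N) (modularFunctionFieldBar M) :=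
    (IntermediateField.inclusion (bar_le h)).toRingHom.toAlgebra
  let : Algebra (modularFunctionFieldFullC k N) (modularFunctionFieldFullC k M) :=
    (IntermediateField.inclusion (full_degeneracyC_le k h)).toRingHom.toAlgebra
  have hmem : ∀ f : R.C.O, algebraMap (modularFunctionFieldBar N) (modularFunctionFieldBar M) f ∈
      R₁.C.O := by
    intro f
    rw [R₁.mem_O_iff]
    exact (R.mem_O_iff _).mp f.2
  refine ⟨hmem, fun f => ?_⟩
  obtain ⟨a, b, hb, h1⟩ := (R.mem_O_iff _).mp f.2
  have h2 := R.res_eq f a b hb h1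
  have h3 := R₁.res_eq ⟨_, hmem f⟩ a b hb h1
  apply Subtype.ext
  have h4 : ((R₁.C.res ⟨_, hmem f⟩ : modularFunctionFieldFullC k M) : LaurentSeries k) *
      coeffMap π b = ((R.C.res f : modularFunctionFieldFullC k N) : LaurentSeries k) *
      coeffMap π b := by
    rw [h3, h2]
  exact mul_right_cancel₀ hb h4

/-- **(J2')** descent of good reduction along `X₀(M) → X₀(N)`. -/
theorem descentInput (hπ : Function.Surjective π) (hN : N ≠ 0) (hM : M ≠ 0) (h : N ∣ M) :
    DescentInput N M k := by
  intro dN dM hgood
  have : NeZero N := ⟨hN⟩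
  have : NeZero M := ⟨hM⟩
  have := isAlgClosed_of_surjective hπ
  have := dN.functionField
  have := dN.functionField'
  have := dM.functionField
  have := dM.functionField'
  let : Algebra (modularFunctionFieldBar N) (modularFunctionFieldBar M) :=
    (IntermediateField.inclusion (bar_le h)).toRingHom.toAlgebra
  let : Algebra (modularFunctionFieldFullC k N) (modularFunctionFieldFullC k M) :=
    (IntermediateField.inclusion (full_degeneracyC_le k h)).toRingHom.toAlgebra
  have : IsScalarTower (AlgebraicClosure ℚ) (modularFunctionFieldBar N)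
      (modularFunctionFieldBar M) := IsScalarTower.of_algebraMap_eq fun _ => rfl
  have : IsScalarTower k (modularFunctionFieldFullC k N) (modularFunctionFieldFullC k M) :=
    IsScalarTower.of_algebraMap_eq fun _ => rfl
  set R := dN.modularConstRed hπ
  set R₁ := dM.modularConstRed hπ
  have E := ModularConstRed.ext h R R₁
  obtain ⟨hjO, hjres⟩ : (R.C.toRedDatum).Red (jBar N) (jRed k N) := by
    have h1 : jBar N ∈ R.C.O := ⟨jRed k N, redL_j π N⟩
    exact ⟨h1, (dN.redDatum hπ).unique (dN.constRed_res hπ ⟨_, h1⟩) (redL_j π N)⟩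
  have hx : Transcendental k (R.C.res ⟨jBar N, hjO⟩) := by
    rw [hjres]
    exact jRed_transcendental k N
  refine genusFF_eq_of_ext_of_degree hπ E ⟨jBar N, hjO⟩ hx ?_ ?_ hgood
  · rw [hjres]
    exact dN.2
  · rw [hjres]
    exact dM.2

end Modular

end Fermat.Agent.JRED
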