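import Fermat.Agent.JRED.GoodFinal
import Fermat.Agent.JRED.ModularExt
import Fermat.Agent.JRED.Degree

/-!
# Good reduction of `X₀(N)` at all primes `ℓ ∤ N`
-/

set_option autoImplicit false

noncomputable section

open ModularCurve AlgebraicCurve

namespace Fermat.Agent.JRED

variable {A : ValuationSubring (AlgebraicClosure ℚ)} {k : Type} [Field k] {π : A →+* k}

theorem natCast_ne_zero_of_charP {ℓ : ℕ} [CharP k ℓ] {N : ℕ} (h : ¬ ℓ ∣ N) : (N : k) ≠ 0 := by
  rwa [Ne, CharP.cast_eq_zero_iff k ℓ]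

theorem degreeInput' {ℓ : ℕ} [CharP k ℓ] {N : ℕ} (hN : N ≠ 0) (h : ¬ ℓ ∣ N) : DegreeInput N k := by
  have : NeZero N := ⟨hN⟩
  exact degreeInput N k (natCast_ne_zero_of_charP h)

/-- **Good reduction** of `X₀(N)` at all primes not dividing `N` (in genus form). -/
theorem goodReduction (hπ : Function.Surjective π) {ℓ : ℕ} [CharP k ℓ] (hℓ : ℓ.Prime)
    {N : ℕ} (hN : N ≠ 0) (hℓN : ¬ ℓ ∣ N) : GoodReduction N k := by
  refine goodReduction_of_inputs hℓ hπ (fun M hM h => degreeInput' hM h)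
    (fun M hM h h2 h3 => ?_) (fun N M hN hM h _ => descentInput hπ hN hM h) N hN hℓN
  have : NeZero M := ⟨hM⟩
  refine genusLowerBound hπ (degreeInput' hM h) hℓ h2 fun h => h3 ?_
  omega

end Fermat.Agent.JRED
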