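import Fermat.Agent.FF.Principal

set_option autoImplicit false

/-!
# Abstract reduction data

`K ⊇ A → k` a valuation ring with residue field, `F / K` and `Fk / k` two fields.
A `RedDatum` is (the graph of) the residue map of a valuation ring of `F` above `A` with residue
field inside `Fk` and the same value group as `A`.
-/

noncomputable section

open AlgebraicCurve

namespace Fermat.Agent.JRED

section Defs

variable (K F k Fk : Type*) [Field K] [Field F] [Algebra K F] [Field k] [Field Fk] [Algebra k Fk]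

/-- Reduction datum: `Red w u` means "`w` is integral and its reduction is `u`". -/
structure RedDatum (A : ValuationSubring K) (π : A →+* k) where
  Red : F → Fk → Prop
  add : ∀ {w w' : F} {u u' : Fk}, Red w u → Red w' u' → Red (w + w') (u + u')
  mul : ∀ {w w' : F} {u u' : Fk}, Red w u → Red w' u' → Red (w * w') (u * u')
  const : ∀ a : A, Red (algebraMap K F a) (algebraMap k Fk (π a))
  unique : ∀ {w : F} {u u' : Fk}, Red w u → Red w u' → u = u'
  normalize : ∀ w : F, w ≠ 0 → ∃ c : K, c ≠ 0 ∧ ∃ u : Fk, u ≠ 0 ∧ Red (algebraMap K F c * w) u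

end Defs

variable {K F k Fk : Type*} [Field K] [Field F] [Algebra K F] [Field k] [Field Fk] [Algebra k Fk]
variable {A : ValuationSubring K} {π : A →+* k}

/-- `r` is compatible with divisors of integral functions. -/
def PlaceRed (R : RedDatum K F k Fk A π) (r : Place K F → Place k Fk) : Prop :=
  ∀ (w : F) (u : Fk), R.Red w u → u ≠ 0 →
    ∀ D : Divisor K F, (∀ P, D P = P.ord w) → ∀ Q, Finsupp.mapDomain r D Q = Q.ord u

theorem isUnit_of_res_ne_zero (hπ : Function.Surjective π) {a : A} (ha : π a ≠ 0) :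
    IsUnit a := by
  by_contra hu
  have hmax : (RingHom.ker π).IsMaximal := RingHom.ker_isMaximal_of_surjective π hπ
  have h1 : RingHom.ker π = IsLocalRing.maximalIdeal A := IsLocalRing.eq_maximalIdeal hmax
  apply ha
  rw [← RingHom.mem_ker, h1]
  exact hu

theorem res_eq_zero_of_not_isUnit (hπ : Function.Surjective π) {a : A} (ha : ¬ IsUnit a) :
    π a = 0 := by
  by_contra h
  exact ha (isUnit_of_res_ne_zero hπ h)

theorem res_inv_eq_zero (hπ : Function.Surjective π) {c : K} (hc : c ∉ A) :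
    ∃ h : c⁻¹ ∈ A, π ⟨c⁻¹, h⟩ = 0 := by
  have h := (A.mem_or_inv_mem c).resolve_left hc
  refine ⟨h, res_eq_zero_of_not_isUnit hπ fun hu => ?_⟩
  obtain ⟨b, hb⟩ := isUnit_iff_exists_inv.mp hu
  have hb' : c⁻¹ * (b : K) = 1 := congrArg Subtype.val hb
  have hc0 : c ≠ 0 := fun h0 => hc (h0 ▸ A.zero_mem)
  have : c = b := by rwa [inv_mul_eq_one₀ hc0] at hb'
  exact hc (this ▸ b.2)

namespace RedDatum

variable (R : RedDatum K F k Fk A π)

theorem one : R.Red 1 1 := by
  have h := R.const 1
  simpa using h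

theorem zero : R.Red 0 0 := by
  have h := R.const 0
  simpa using h

variable {R}

theorem neg {w : F} {u : Fk} (h : R.Red w u) : R.Red (-w) (-u) := by
  have h1 := R.mul (R.const (-1)) h
  simpa using h1

theorem sub {w w' : F} {u u' : Fk} (h : R.Red w u) (h' : R.Red w' u') :
    R.Red (w - w') (u - u') := by
  rw [sub_eq_add_neg, sub_eq_add_neg]
  exact R.add h (neg h')

theorem pow {w : F} {u : Fk} (h : R.Red w u) (n : ℕ) : R.Red (w ^ n) (u ^ n) := by
  induction n with
  | zero => simpa using R.one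
  | succ n ih => rw [pow_succ, pow_succ]; exact R.mul ih h

theorem sum {ι : Type*} {s : Finset ι} {w : ι → F} {u : ι → Fk}
    (h : ∀ i ∈ s, R.Red (w i) (u i)) : R.Red (∑ i ∈ s, w i) (∑ i ∈ s, u i) := by
  classical
  induction s using Finset.induction_on with
  | empty => simpa using R.zero
  | insert a s ha ih =>
    rw [Finset.sum_insert ha, Finset.sum_insert ha]
    exact R.add (h a (Finset.mem_insert_self a s))
      (ih fun i hi => h i (Finset.mem_insert_of_mem hi))

theorem ne_zero_of_red {w : F} {u : Fk} (h : R.Red w u) (hu : u ≠ 0) : w ≠ 0 := by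
  rintro rfl
  exact hu (R.unique h R.zero)

theorem smul_mem {a : K} (ha : a ∈ A) {w : F} {u : Fk} (h : R.Red w u) :
    R.Red (algebraMap K F a * w) (algebraMap k Fk (π ⟨a, ha⟩) * u) :=
  R.mul (R.const ⟨a, ha⟩) h

section Surj

/-- A constant is integral iff it lies in `A`. -/
theorem mem_of_red_const (hπ : Function.Surjective π) {c : K} {u : Fk}
    (h : R.Red (algebraMap K F c) u) : c ∈ A := by
  by_contra hc
  obtain ⟨hi, h0⟩ := res_inv_eq_zero hπ hc
  have hc0 : c ≠ 0 := fun h0 => hc (h0 ▸ A.zero_mem)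
  have h1 := smul_mem hi h
  rw [h0, map_zero, zero_mul, ← map_mul, inv_mul_cancel₀ hc0, map_one] at h1
  exact one_ne_zero (R.unique R.one h1)

theorem inv (hπ : Function.Surjective π) {w : F} {u : Fk} (h : R.Red w u) (hu : u ≠ 0) :
    R.Red w⁻¹ u⁻¹ := by
  have hw := ne_zero_of_red h hu
  obtain ⟨c, hc, u', hu', h'⟩ := R.normalize w⁻¹ (inv_ne_zero hw)
  have h2 := R.mul h h'
  have h3 : w * (algebraMap K F c * w⁻¹) = algebraMap K F c := by
    field_simp
  rw [h3] at h2
  have hcA := mem_of_red_const hπ h2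
  have h4 : algebraMap k Fk (π ⟨c, hcA⟩) = u * u' := R.unique (R.const ⟨c, hcA⟩) h2
  have h5 : π ⟨c, hcA⟩ ≠ 0 := by
    intro h0
    rw [h0, map_zero] at h4
    exact mul_ne_zero hu hu' h4.symm
  obtain ⟨b, hb⟩ := isUnit_iff_exists_inv.mp (isUnit_of_res_ne_zero hπ h5)
  have hb' : c * (b : K) = 1 := congrArg Subtype.val hb
  have h6 := R.mul (R.const b) h'
  have h7 : algebraMap K F (b : K) * (algebraMap K F c * w⁻¹) = w⁻¹ := by
    rw [← mul_assoc, ← map_mul, mul_comm (b : K) c, hb', map_one, one_mul]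
  rw [h7] at h6
  have h8 := R.mul h h6
  rw [mul_inv_cancel₀ hw] at h8
  have h9 := R.unique R.one h8
  rw [eq_inv_of_mul_eq_one_right h9.symm] at h6
  exact h6

theorem div (hπ : Function.Surjective π) {w w' : F} {u u' : Fk} (h : R.Red w u)
    (h' : R.Red w' u') (hu' : u' ≠ 0) : R.Red (w / w') (u / u') := by
  rw [div_eq_mul_inv, div_eq_mul_inv]
  exact R.mul h (inv hπ h' hu')

/-- Multiplying an integral function by a scalar outside `A⁻¹`... : if `c • w` is integral and
`c ∉ A` then `w` reduces to `0`. -/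
theorem red_zero_of_smul (hπ : Function.Surjective π) {c : K} (hc : c ∉ A) {w : F} {u : Fk}
    (h : R.Red (algebraMap K F c * w) u) : R.Red w 0 := by
  obtain ⟨hi, h0⟩ := res_inv_eq_zero hπ hc
  have hc0 : c ≠ 0 := fun h0 => hc (h0 ▸ A.zero_mem)
  have h1 := smul_mem hi h
  rw [h0, map_zero, zero_mul, ← mul_assoc, ← map_mul, inv_mul_cancel₀ hc0, map_one, one_mul] at h1
  exact h1

/-- Either `w` is integral or its inverse reduces to zero. -/
theorem red_or_inv (hπ : Function.Surjective π) (w : F) :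
    (∃ u, R.Red w u) ∨ R.Red w⁻¹ 0 := by
  rcases eq_or_ne w 0 with rfl | hw
  · exact Or.inl ⟨0, R.zero⟩
  obtain ⟨c, hc, u, hu, h⟩ := R.normalize w hw
  by_cases hcA : c⁻¹ ∈ A
  · left
    have h1 := smul_mem hcA h
    rw [← mul_assoc, ← map_mul, inv_mul_cancel₀ hc, map_one, one_mul] at h1
    exact ⟨_, h1⟩
  · right
    have h1 := inv hπ h hu
    rw [mul_inv, ← map_inv₀] at h1
    exact red_zero_of_smul hπ hcA h1

end Surj

end RedDatum

end Fermat.Agent.JRED
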