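import Fermat.Agent.RH.Genus
import Fermat.Agent.Jan.DegreeWiring
import Fermat.Agent.S20
import Fermat.Agent.S24

/-!
# The genus of `X₀(N)` in characteristic zero
-/

set_option autoImplicit false

noncomputable section

open ModularCurve AlgebraicCurve

namespace Fermat.Agent.JRED

theorem genusFF_bar_eq_genusFormula (N : ℕ) [NeZero N] :
    (genusFF (AlgebraicClosure ℚ) (modularFunctionFieldBar N) : ℚ) = genusFormula N := by
  have hF : Fermat.FF.IsFF1 (AlgebraicClosure ℚ) (modularFunctionFieldBar N) :=
    Fermat.Agent.Jan.DegreeWiring.isFF1_modular' (AlgebraicClosure ℚ) N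
  have hcan : HasCanonicalDivisor (K := AlgebraicClosure ℚ) (F := modularFunctionFieldBar N) :=
    Fermat.Agent.RH.hasCanonicalDivisor
  rw [Fermat.Agent.RH.genusFF_eq_genus]
  exact Fermat.Agent.S24.result N

theorem genusFF_bar_eq_finrank (N : ℕ) [NeZero N] :
    genusFF (AlgebraicClosure ℚ) (modularFunctionFieldBar N) =
      Module.finrank ℂ (CuspForm (CongruenceSubgroup.Gamma0 N) 2) := by
  have h1 := genusFF_bar_eq_genusFormula N
  rw [← Fermat.Agent.S20.result N] at h1
  exact_mod_cast h1

end Fermat.Agent.JRED
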