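import Mathlib
import Fermat.Agent.FunField.Ramanujan
import Fermat.Agent.S28.ModPolySym

/-!
# Computing with truncated integral power series
-/

set_option autoImplicit false

open ModularCurve

noncomputable section

namespace Fermat.Agent.JRED.TruncPS

open Fermat.Agent.S28.ModPoly (VZ)

/-- `l` lists the first `n` coefficients of `f` -/
def Rep (n : ℕ) (f : PowerSeries ℤ) (l : List ℤ) : Prop :=
  ∀ i < n, PowerSeries.coeff i f = l.getD i 0

/-- product of truncated series -/
def mulL (n : ℕ) (l m : List ℤ) : List ℤ :=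
  (List.range n).map fun k => ∑ i ∈ Finset.range (k + 1), l.getD i 0 * m.getD (k - i) 0

theorem getD_map_range {f : ℕ → ℤ} {n i : ℕ} (hi : i < n) :
    ((List.range n).map f).getD i 0 = f i := by
  rw [List.getD_eq_getElem _ _ (by simpa using hi)]
  simp

theorem Rep.mul {n : ℕ} {f g : PowerSeries ℤ} {l m : List ℤ} (hf : Rep n f l) (hg : Rep n g m) :
    Rep n (f * g) (mulL n l m) := by
  intro i hi
  rw [mulL, getD_map_range hi, PowerSeries.coeff_mul,
    Finset.Nat.sum_antidiagonal_eq_sum_range_succ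
      (fun a b => PowerSeries.coeff a f * PowerSeries.coeff b g)]
  refine Finset.sum_congr rfl fun k hk => ?_
  rw [Finset.mem_range] at hk
  rw [hf k (by omega), hg (i - k) (by omega)]

/-- powers -/
def powL (n : ℕ) (l : List ℤ) : ℕ → List ℤ
  | 0 => [1]
  | k + 1 => mulL n (powL n l k) l

theorem Rep.one (n : ℕ) : Rep n 1 [1] := by
  intro i _
  rw [PowerSeries.coeff_one]
  cases i with
  | zero => rfl
  | succ i => simp

theorem Rep.pow {n : ℕ} {f : PowerSeries ℤ} {l : List ℤ} (hf : Rep n f l) (k : ℕ) :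
    Rep n (f ^ k) (powL n l k) := by
  induction k with
  | zero => rw [pow_zero, powL]; exact Rep.one n
  | succ k ih => rw [pow_succ]; exact ih.mul hf

/-- `f(q^p)` -/
def expL (n p : ℕ) (l : List ℤ) : List ℤ :=
  (List.range n).map fun i => if p ∣ i then l.getD (i / p) 0 else 0

theorem Rep.exp {n : ℕ} {f : PowerSeries ℤ} {l : List ℤ} (hf : Rep n f l) (p : ℕ) :
    Rep n (VZ p f) (expL n p l) := by
  intro i hi
  rw [expL, getD_map_range hi, VZ, PowerSeries.coeff_mk]
  split_ifs with h
  · exact hf _ (lt_of_le_of_lt (Nat.div_le_self i p) hi)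
  · rfl

theorem Rep.X_pow_mul {n : ℕ} {f : PowerSeries ℤ} {l : List ℤ} (hf : Rep n f l) (k : ℕ) :
    Rep n (PowerSeries.X ^ k * f) (List.replicate k 0 ++ l) := by
  intro i hi
  rw [PowerSeries.coeff_X_pow_mul']
  split_ifs with h
  · rw [hf _ (by omega), List.getD_append_right _ _ _ _ (by simpa using h)]
    simp
  · rw [List.getD_append _ _ _ _ (by simpa using h)]
    rw [List.getD_eq_getElem?_getD, List.getElem?_replicate]
    split_ifs <;> rfl

theorem Rep.congr {n : ℕ} {f : PowerSeries ℤ} {l m : List ℤ} (hf : Rep n f l) (h : l = m) :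
    Rep n f m := h ▸ hf

theorem Rep.coeff {n : ℕ} {f : PowerSeries ℤ} {l : List ℤ} (hf : Rep n f l) (i : ℕ) (hi : i < n)
    {z : ℤ} (h : l.getD i 0 = z) : PowerSeries.coeff i f = z := (hf i hi).trans h

theorem Rep.mono {n m : ℕ} (hnm : m ≤ n) {f : PowerSeries ℤ} {l : List ℤ} (hf : Rep n f l) :
    Rep m f l := fun i hi => hf i (lt_of_lt_of_le hi hnm)

def e4L : List ℤ := [1, 240, 2160, 6720, 17520, 30240, 60480, 82560, 140400, 181680, 272160, 319680, 490560, 527520]
def e6L : List ℤ := [1, -504, -16632, -122976, -532728, -1575504, -4058208, -8471232, -17047800, -29883672, -51991632, -81170208, -129985632, -187132176]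
def uL : List ℤ := [1, -24, 252, -1472, 4830, -6048, -16744, 84480, -113643, -115920, 534612, -370944, -577738]

theorem rep_E4 : Rep 14 eisenstein4 e4L := by
  intro i hi
  rw [eisenstein4, PowerSeries.coeff_mk]
  interval_cases i <;> decide +kernel

theorem rep_E6 : Rep 14 Fermat.Agent.FunField.eisenstein6 e6L := by
  intro i hi
  rw [Fermat.Agent.FunField.eisenstein6, PowerSeries.coeff_mk]
  interval_cases i <;> decide +kernel

theorem rep_u : Rep 13 dedekindEtaUnit uL := by
  intro i hi
  have h := congrArg (PowerSeries.coeff (i + 1)) Fermat.Agent.FunField.eisenstein_delta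
  have h4 := (rep_E4.pow 3) (i + 1) (by omega)
  have h6 := (rep_E6.pow 2) (i + 1) (by omega)
  rw [map_sub, h4, h6, show (1728 : PowerSeries ℤ) = PowerSeries.C (1728 : ℤ) from
      (map_ofNat (PowerSeries.C (R := ℤ)) 1728).symm, PowerSeries.coeff_C_mul,
    Fermat.Agent.FunField.deltaZ, PowerSeries.coeff_succ_X_mul] at h
  have h2 : (powL 14 e4L 3).getD (i + 1) 0 - (powL 14 e6L 2).getD (i + 1) 0 =
      1728 * uL.getD i 0 := by
    interval_cases i <;> decide +kernel
  omega

open Fermat.Agent.S28.ModPoly (dz)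

theorem rep_dz : Rep 14 dz (0 :: uL) := by
  intro i hi
  rw [dz]
  cases i with
  | zero => simp
  | succ i =>
    rw [PowerSeries.coeff_succ_X_mul, List.getD_cons_succ]
    exact rep_u i (by omega)

end Fermat.Agent.JRED.TruncPS
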