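import Mathlib
import Fermat.Agent.S28.ModPolyMain
import Fermat.Agent.JRED.TruncPS

/-!
# The characteristic polynomial of `p^12 Δ(q^p)/Δ(q)`: degrees of the coefficients
-/

set_option autoImplicit false

open ModularCurve Polynomial

noncomputable section

namespace Fermat.Agent.JRED.DeltaRel

open Fermat.Agent.S28 Fermat.Agent.S28.ModPoly

section Ge

variable {R : Type*} [CommRing R]

/-- order at least `m` -/
def Ge (m : ℤ) (f : LaurentSeries R) : Prop := ∀ n < m, f.coeff n = 0

theorem Ge.zero (m : ℤ) : Ge m (0 : LaurentSeries R) := fun _ _ => rfl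

theorem Ge.mono {m m' : ℤ} (h : m' ≤ m) {f : LaurentSeries R} (hf : Ge m f) : Ge m' f :=
  fun n hn => hf n (lt_of_lt_of_le hn h)

theorem Ge.add {m : ℤ} {f g : LaurentSeries R} (hf : Ge m f) (hg : Ge m g) : Ge m (f + g) :=
  fun n hn => by rw [HahnSeries.coeff_add, hf n hn, hg n hn, add_zero]

theorem Ge.neg {m : ℤ} {f : LaurentSeries R} (hf : Ge m f) : Ge m (-f) :=
  fun n hn => by rw [HahnSeries.coeff_neg, hf n hn, neg_zero]

theorem Ge.sum {ι : Type*} {m : ℤ} {s : Finset ι} {f : ι → LaurentSeries R}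
    (h : ∀ i ∈ s, Ge m (f i)) : Ge m (∑ i ∈ s, f i) := by
  intro n hn
  rw [HahnSeries.coeff_sum]
  exact Finset.sum_eq_zero fun i hi => h i hi n hn

theorem Ge.mul {m m' : ℤ} {f g : LaurentSeries R} (hf : Ge m f) (hg : Ge m' g) :
    Ge (m + m') (f * g) := by
  intro n hn
  rw [HahnSeries.coeff_mul]
  refine Finset.sum_eq_zero ?_
  rintro ⟨i, j⟩ hij
  have hij : i + j = n := (Finset.mem_addAntidiagonal.mp hij).2.2
  simp only
  by_cases hi : i < m
  · rw [hf i hi, zero_mul]
  · rw [hg j (by omega), mul_zero]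

theorem Ge.coeff_mul {m m' : ℤ} {f g : LaurentSeries R} (hf : Ge m f) (hg : Ge m' g) :
    (f * g).coeff (m + m') = f.coeff m * g.coeff m' := by
  classical
  rw [HahnSeries.coeff_mul]
  by_cases hm : f.coeff m = 0
  · rw [hm, zero_mul]
    refine Finset.sum_eq_zero ?_
    rintro ⟨i, j⟩ hij
    have hij : i + j = m + m' := (Finset.mem_addAntidiagonal.mp hij).2.2
    simp only
    by_cases hi : i ≤ m
    · rcases hi.lt_or_eq with h | h
      · rw [hf i h, zero_mul]
      · rw [h, hm, zero_mul]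
    · rw [hg j (by omega), mul_zero]
  by_cases hm' : g.coeff m' = 0
  · rw [hm', mul_zero]
    refine Finset.sum_eq_zero ?_
    rintro ⟨i, j⟩ hij
    have hij : i + j = m + m' := (Finset.mem_addAntidiagonal.mp hij).2.2
    simp only
    by_cases hi : j ≤ m'
    · rcases hi.lt_or_eq with h | h
      · rw [hg j h, mul_zero]
      · rw [h, hm', mul_zero]
    · rw [hf i (by omega), zero_mul]
  rw [Finset.sum_eq_single_of_mem (m, m')]
  · exact Finset.mem_addAntidiagonal.mpr ⟨hm, hm', rfl⟩
  · rintro ⟨i, j⟩ hij hne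
    have hij : i + j = m + m' := (Finset.mem_addAntidiagonal.mp hij).2.2
    simp only
    rcases lt_trichotomy i m with h | h | h
    · rw [hf i h, zero_mul]
    · exact absurd (Prod.ext h (by simp only; omega)) hne
    · rw [hg j (by omega), mul_zero]

theorem Ge.one : Ge 0 (1 : LaurentSeries R) := fun n hn => by
  rw [HahnSeries.coeff_one, if_neg (by omega)]

theorem Ge.pow_zero {f : LaurentSeries R} (hf : Ge 0 f) (n : ℕ) : Ge 0 (f ^ n) := by
  induction n with
  | zero => simpa using Ge.one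
  | succ n ih => rw [pow_succ]; simpa using ih.mul hf

theorem Ge.natCast (n : ℕ) : Ge 0 (n : LaurentSeries R) := by
  induction n with
  | zero => simpa using Ge.zero 0
  | succ n ih => rw [Nat.cast_succ]; exact ih.add Ge.one

theorem Ge.qExpand {p : ℕ} [NeZero p] {m : ℤ} {f : LaurentSeries R} (hf : Ge m f) :
    Ge (p * m) (qExpand R p f) := by
  intro n hn
  have hp : 0 < (p : ℤ) := by exact_mod_cast Nat.pos_of_ne_zero (NeZero.ne p)
  by_cases h : (p : ℤ) ∣ n
  · obtain ⟨k, rfl⟩ := h
    rw [qExpand_coeff_mul]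
    exact hf k (lt_of_mul_lt_mul_left hn hp.le)
  · exact qExpand_coeff_of_not_dvd _ _ h

theorem Ge.twist {u : Rˣ} {m : ℤ} {f : LaurentSeries R} (hf : Ge m f) : Ge m (twist u f) :=
  fun n hn => by rw [twist_coeff, hf n hn, mul_zero]

theorem Ge.L (f : PowerSeries ℤ) : Ge 0 (L R f) := fun _ hn => L_coeff_neg R f hn

theorem Ge.L_dz : Ge 1 (ModPoly.L R dz) := by
  intro n hn
  rcases lt_or_ge n 0 with h | h
  · exact L_coeff_neg R _ h
  · obtain rfl : n = 0 := by omega
    have := L_coeff_nat R dz 0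
    rw [Nat.cast_zero] at this
    rw [this, dz]
    simp

theorem Ge.dInv : Ge (-1) (ModPoly.dInv R) := by
  intro n hn
  rw [ModPoly.dInv, HahnSeries.coeff_single_mul, one_mul]
  exact L_coeff_neg R _ (by omega)

theorem coeff_L_dz_one : (ModPoly.L R dz).coeff 1 = 1 := by
  have := L_coeff_nat R dz 1
  rw [Nat.cast_one] at this
  rw [this, dz, PowerSeries.coeff_succ_X_mul]
  have h : PowerSeries.coeff 0 dedekindEtaUnit = (1 : ℤ) := by
    rw [PowerSeries.coeff_zero_eq_constantCoeff, constantCoeff_dedekindEtaUnit]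
  rw [h, Int.cast_one]

theorem coeff_dInv_neg_one : (ModPoly.dInv R).coeff (-1) = 1 := by
  rw [ModPoly.dInv, HahnSeries.coeff_single_mul, one_mul, sub_self]
  have := L_coeff_nat R dedekindEtaUnitInv 0
  rw [Nat.cast_zero] at this
  rw [this, PowerSeries.coeff_zero_eq_constantCoeff, constantCoeff_dedekindEtaUnitInv, Int.cast_one]

/-- graded order bound for polynomials -/
def GeP (w : ℤ) (d : ℤ) (P : (LaurentSeries R)[X]) : Prop := ∀ i : ℕ, Ge (-w * (d - i)) (P.coeff i)

theorem GeP.mul {w d d' : ℤ} {P Q : (LaurentSeries R)[X]} (hP : GeP w d P) (hQ : GeP w d' Q) :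
    GeP w (d + d') (P * Q) := by
  intro i
  rw [Polynomial.coeff_mul]
  refine Ge.sum ?_
  rintro ⟨a, b⟩ hab
  have hab : a + b = i := Finset.HasAntidiagonal.mem_antidiagonal.mp hab
  refine Ge.mono (le_of_eq ?_) ((hP a).mul (hQ b))
  rw [← hab]
  push_cast
  ring

theorem GeP.X_sub_C {w : ℤ} {a : LaurentSeries R} (ha : Ge (-w) a) : GeP w 1 (X - C a) := by
  intro i
  rcases i with _ | _ | i
  · simp only [coeff_sub, coeff_X_zero, coeff_C_zero, zero_sub]
    simpa using ha.neg
  · simp only [zero_add, coeff_sub, coeff_X_one, coeff_C_succ, sub_zero]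
    simpa using Ge.one (R := R)
  · simp only [coeff_sub, coeff_C_succ, sub_zero]
    rw [coeff_X_of_ne_one (by omega)]
    exact Ge.zero _

theorem GeP.one {w : ℤ} : GeP w 0 (1 : (LaurentSeries R)[X]) := by
  intro i
  rcases i with _ | i
  · simpa using Ge.one (R := R)
  · rw [coeff_one, if_neg (by omega)]
    exact Ge.zero _

theorem GeP.prod {ι : Type*} {w : ℤ} (s : Finset ι) {a : ι → LaurentSeries R}
    (ha : ∀ i ∈ s, Ge (-w) (a i)) : GeP w s.card (∏ i ∈ s, (X - C (a i))) := by
  classical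
  induction s using Finset.induction_on with
  | empty => simpa using GeP.one
  | insert i s hi ih =>
    rw [Finset.prod_insert hi, Finset.card_insert_of_notMem hi, Nat.cast_succ, add_comm]
    exact (GeP.X_sub_C (ha i (Finset.mem_insert_self i s))).mul
      (ih fun j hj => ha j (Finset.mem_insert_of_mem hj))

end Ge

section Rel

variable (p : ℕ) [hp : Fact p.Prime] {K : Type*} [Field K] (ζ : Kˣ)

theorem ge_S (i : Option (Fin p)) : Ge 1 (S K p ζ i (L K dz)) := by
  cases i with
  | none =>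
    refine Ge.mono ?_ (Ge.L_dz.qExpand (p := p * p))
    have : 1 ≤ p * p := Nat.mul_pos hp.out.pos hp.out.pos
    push_cast
    rw [mul_one]
    exact_mod_cast this
  | some b => exact Ge.L_dz.twist

theorem ge_uu (i : Option (Fin p)) : Ge (-((p : ℤ) - 1)) (uu K p ζ i) := by
  rw [uu]
  refine Ge.mono (le_of_eq ?_) ((((Ge.natCast (cc p i)).pow_zero 12).mul (ge_S p ζ i)).mul
    (Ge.dInv.qExpand (p := p)))
  ring

variable [CharZero K] {ζ} (hζ : IsPrimitiveRoot ζ p)

include hζ in
theorem natDegree_le (i : ℕ) (hi : i ≤ p + 1) :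
    p * ((deltaPoly p).coeff i).natDegree ≤ (p - 1) * (p + 1 - i) := by
  have h1 : GeP ((p : ℤ) - 1) ((p + 1 : ℕ) : ℤ) ((deltaPoly p).map (evJ K (J0 K p))) := by
    rw [deltaPoly_map p K ζ hζ]
    have := GeP.prod (w := (p : ℤ) - 1) (Finset.univ : Finset (Option (Fin p)))
      (a := uu K p ζ) (fun i _ => ge_uu p ζ i)
    simpa using this
  have h2 := h1 i
  rw [coeff_map] at h2
  by_contra hcon
  push Not at hcon
  have hne : (deltaPoly p).coeff i ≠ 0 := by
    intro h0
    rw [h0, natDegree_zero, mul_zero] at hcon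
    exact absurd hcon (Nat.not_lt_zero _)
  have h3 := coeff_evJ_natDegree (R := K) p ((deltaPoly p).coeff i)
  have hp1 : 1 ≤ p := hp.out.one_lt.le
  rw [h2] at h3
  · have : ((deltaPoly p).coeff i).leadingCoeff = 0 := by exact_mod_cast h3.symm
    exact hne (leadingCoeff_eq_zero.mp this)
  · have h4 : (((p - 1) * (p + 1 - i) : ℕ) : ℤ) = ((p : ℤ) - 1) * ((p + 1 : ℕ) - i) := by
      rw [Nat.cast_mul, Nat.cast_sub hp1, Nat.cast_sub hi]
      push_cast
      ring
    have h5 : (((p - 1) * (p + 1 - i) : ℕ) : ℤ) <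
        ((p * ((deltaPoly p).coeff i).natDegree : ℕ) : ℤ) := by exact_mod_cast hcon
    rw [h4] at h5
    push_cast at h5 ⊢
    linarith

omit [CharZero K] in
include hζ in
theorem eval_none : eval₂ (evJ K (jqModC K))
    ((p : LaurentSeries K) ^ 12 * qExpand K p (L K dz) * dInv K) (deltaPoly p) = 0 := by
  apply qExpand_injective p
  rw [map_zero, hom_eval₂, comp_evJ]
  have h := deltaPoly_map p K ζ hζ
  have h2 := congrArg (eval (uu K p ζ none)) h
  rw [eval_map, eval_prod, Finset.prod_eq_zero (Finset.mem_univ none) (by simp)] at h2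
  rw [← h2]
  congr 1
  rw [uu, map_mul, map_mul, map_pow, map_natCast, qExpand_qExpand]
  rfl

omit [CharZero K] in
include hζ in
theorem eval_some : eval₂ (evJ K (qExpand K p (jqModC K)))
    (L K dz * qExpand K p (dInv K)) (deltaPoly p) = 0 := by
  have h := deltaPoly_map p K ζ hζ
  have h2 := congrArg (eval (uu K p ζ (some ⟨0, hp.out.pos⟩))) h
  rw [eval_map, eval_prod, Finset.prod_eq_zero
    (Finset.mem_univ (some (⟨0, hp.out.pos⟩ : Fin p))) (by simp)] at h2
  rw [← h2]
  congr 1
  rw [uu]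
  simp [cc, S]

end Rel

section Inj

variable {K : Type*} [Field K] [CharZero K]

theorem L_injective : Function.Injective (L K) := by
  intro f g h
  ext n
  have := congrArg (fun z => HahnSeries.coeff z (n : ℤ)) h
  simp only [L_coeff_nat] at this
  exact_mod_cast this

theorem evJ_C' (K : Type*) [CommRing K] (x : LaurentSeries K) (a : ℤ) :
    evJ K x (C a) = (a : LaurentSeries K) := by simp [evJ]

theorem L_C (K : Type*) [CommRing K] (z : ℤ) :
    L K (PowerSeries.C z) = (z : LaurentSeries K) := by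
  rw [show (PowerSeries.C z : PowerSeries ℤ) = (z : PowerSeries ℤ) by simp, map_intCast]

end Inj

end Fermat.Agent.JRED.DeltaRel
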