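import Mathlib
import Fermat.Agent.JRED.DeltaRel

/-!
# The Hauptmodul `t = Δ(q)/Δ(q²)` of `X₀(2)`, over any commutative ring
-/

set_option autoImplicit false

open ModularCurve Polynomial

noncomputable section

namespace Fermat.Agent.JRED.LevelTwo

open Fermat.Agent.S28 Fermat.Agent.S28.ModPoly Fermat.Agent.JRED.TruncPS
open Fermat.Agent.JRED.DeltaRel

instance fact_two : Fact (Nat.Prime 2) := ⟨Nat.prime_two⟩

/-- `Δ(q²)` -/
def v2 : PowerSeries ℤ := VZ 2 dz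

theorem primRoot : IsPrimitiveRoot (-1 : ℚˣ) 2 := by
  rw [← IsPrimitiveRoot.coe_units_iff]
  simpa using IsPrimitiveRoot.neg_one (R := ℚ) 0 (by norm_num)

theorem eval₂_delta {S : Type*} [CommRing S] (f : ℤ[X] →+* S) (x : S) :
    eval₂ f x (deltaPoly 2) = x ^ 3 + f ((deltaPoly 2).coeff 2) * x ^ 2 +
      f ((deltaPoly 2).coeff 1) * x + f ((deltaPoly 2).coeff 0) := by
  have hd := deltaPoly_natDegree 2
  have h3 : (deltaPoly 2).coeff 3 = 1 := by
    have := (deltaPoly_monic 2).coeff_natDegree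
    rwa [hd] at this
  rw [eval₂_eq_sum_range' f (n := 4) (by rw [hd]; norm_num), Finset.sum_range_succ,
    Finset.sum_range_succ, Finset.sum_range_succ, Finset.sum_range_one, h3, map_one]
  ring

theorem exists_coeffs : ∃ a b0 b1 ε : ℤ, (ε = 1 ∨ ε = -1) ∧
    (deltaPoly 2).coeff 2 = C a ∧ (deltaPoly 2).coeff 1 = C b1 * X + C b0 ∧
    (deltaPoly 2).coeff 0 = C (4096 * ε) := by
  have h2 := natDegree_le 2 primRoot 2 (by norm_num)
  have h1 := natDegree_le 2 primRoot 1 (by norm_num)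
  obtain ⟨a, ha⟩ := natDegree_eq_zero.mp (by omega : ((deltaPoly 2).coeff 2).natDegree = 0)
  obtain ⟨b1, b0, hb⟩ := exists_eq_X_add_C_of_natDegree_le_one
    (by omega : ((deltaPoly 2).coeff 1).natDegree ≤ 1)
  rcases deltaPoly_coeff_zero 2 with h0 | h0
  · exact ⟨a, b0, b1, 1, Or.inl rfl, ha.symm, hb, by rw [h0]; norm_num⟩
  · exact ⟨a, b0, b1, -1, Or.inr rfl, ha.symm, hb, by rw [h0, ← C_neg]; norm_num⟩

theorem L_e4 (K : Type*) [CommRing K] :
    jqModC K * L K dz = L K (eisenstein4 ^ 3) := by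
  rw [mul_comm, L_dz_mul_jq]

theorem L_v2 (K : Type*) [CommRing K] : L K v2 = qExpand K 2 (L K dz) := L_VZ K 2 dz

theorem relA (a b0 b1 ε : ℤ) (h2 : (deltaPoly 2).coeff 2 = C a)
    (h1 : (deltaPoly 2).coeff 1 = C b1 * X + C b0) (h0 : (deltaPoly 2).coeff 0 = C (4096 * ε)) :
    PowerSeries.C (4096 ^ 3 : ℤ) * v2 ^ 3 + PowerSeries.C (a * 4096 ^ 2) * (v2 ^ 2 * dz) +
      PowerSeries.C (b0 * 4096) * (v2 * dz ^ 2) +
      PowerSeries.C (b1 * 4096) * (v2 * dz * eisenstein4 ^ 3) +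
      PowerSeries.C (ε * 4096) * dz ^ 3 = 0 := by
  apply L_injective (K := ℚ)
  have h := eval_none 2 primRoot
  rw [eval₂_delta, h2, h1, h0] at h
  simp only [map_add, map_mul, evJ_C', evJ_X] at h
  have hD : (2 : LaurentSeries ℚ) ^ 12 * qExpand ℚ 2 (L ℚ dz) * dInv ℚ * L ℚ dz =
      4096 * L ℚ v2 := by
    rw [L_v2, mul_assoc, mul_comm (dInv ℚ), L_dz_mul_dInv]
    ring
  have hJ := L_e4 ℚ
  simp only [map_add, map_mul, map_pow, map_zero]
  simp only [L_C]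
  rw [map_pow] at hJ
  push_cast at h ⊢
  set D := (2 : LaurentSeries ℚ) ^ 12 * qExpand ℚ 2 (L ℚ dz) * dInv ℚ with hDdef
  set d := L ℚ dz
  set v := L ℚ v2
  set J := jqModC ℚ
  set E := L ℚ eisenstein4
  have key : (D * d) ^ 3 + (a : LaurentSeries ℚ) * (D * d) ^ 2 * d +
      ((b1 : LaurentSeries ℚ) * (J * d) + b0 * d) * (D * d) * d + 4096 * ε * d ^ 3 =
      (D ^ 3 + (a : LaurentSeries ℚ) * D ^ 2 + ((b1 : LaurentSeries ℚ) * J + b0) * D + 4096 * ε) *
        d ^ 3 := by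
    ring
  rw [h, zero_mul, hD, hJ] at key
  linear_combination key


def dL : List ℤ := 0 :: uL
def vL : List ℤ := expL 14 2 dL
def eL : List ℤ := powL 14 e4L 3

theorem rep_v2 : Rep 14 v2 vL := rep_dz.exp 2
theorem rep_e : Rep 14 (eisenstein4 ^ 3) eL := rep_E4.pow 3

theorem solve (a b0 b1 ε : ℤ) (hε : ε = 1 ∨ ε = -1)
    (h : PowerSeries.C (4096 ^ 3 : ℤ) * v2 ^ 3 + PowerSeries.C (a * 4096 ^ 2) * (v2 ^ 2 * dz) +
      PowerSeries.C (b0 * 4096) * (v2 * dz ^ 2) +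
      PowerSeries.C (b1 * 4096) * (v2 * dz * eisenstein4 ^ 3) +
      PowerSeries.C (ε * 4096) * dz ^ 3 = 0) :
    a = 48 ∧ b0 = 768 ∧ b1 = -1 ∧ ε = 1 := by
  have R0 : Rep 14 (v2 ^ 3) (powL 14 vL 3) := rep_v2.pow 3
  have R1 : Rep 14 (v2 ^ 2 * dz) (mulL 14 (powL 14 vL 2) dL) := (rep_v2.pow 2).mul rep_dz
  have R2 : Rep 14 (v2 * dz ^ 2) (mulL 14 vL (powL 14 dL 2)) := rep_v2.mul (rep_dz.pow 2)
  have R3 : Rep 14 (v2 * dz * eisenstein4 ^ 3) (mulL 14 (mulL 14 vL dL) eL) :=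
    (rep_v2.mul rep_dz).mul rep_e
  have R4 : Rep 14 (dz ^ 3) (powL 14 dL 3) := rep_dz.pow 3
  have key : ∀ i < 14, 4096 ^ 3 * (powL 14 vL 3).getD i 0 +
      a * 4096 ^ 2 * (mulL 14 (powL 14 vL 2) dL).getD i 0 +
      b0 * 4096 * (mulL 14 vL (powL 14 dL 2)).getD i 0 +
      b1 * 4096 * (mulL 14 (mulL 14 vL dL) eL).getD i 0 +
      ε * 4096 * (powL 14 dL 3).getD i 0 = 0 := by
    intro i hi
    have := congrArg (PowerSeries.coeff i) h
    simp only [map_add, PowerSeries.coeff_C_mul, map_zero] at this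
    rw [R0 i hi, R1 i hi, R2 i hi, R3 i hi, R4 i hi] at this
    exact this
  have k3 := key 3 (by norm_num)
  have k4 := key 4 (by norm_num)
  have k5 := key 5 (by norm_num)
  have k6 := key 6 (by norm_num)
  rw [show (powL 14 vL 3).getD 3 0 = 0 by decide +kernel] at k3
  rw [show (mulL 14 (powL 14 vL 2) dL).getD 3 0 = 0 by decide +kernel] at k3
  rw [show (mulL 14 vL (powL 14 dL 2)).getD 3 0 = 0 by decide +kernel] at k3
  rw [show (mulL 14 (mulL 14 vL dL) eL).getD 3 0 = 1 by decide +kernel] at k3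
  rw [show (powL 14 dL 3).getD 3 0 = 1 by decide +kernel] at k3
  rw [show (powL 14 vL 3).getD 4 0 = 0 by decide +kernel] at k4
  rw [show (mulL 14 (powL 14 vL 2) dL).getD 4 0 = 0 by decide +kernel] at k4
  rw [show (mulL 14 vL (powL 14 dL 2)).getD 4 0 = 1 by decide +kernel] at k4
  rw [show (mulL 14 (mulL 14 vL dL) eL).getD 4 0 = 696 by decide +kernel] at k4
  rw [show (powL 14 dL 3).getD 4 0 = -72 by decide +kernel] at k4
  rw [show (powL 14 vL 3).getD 5 0 = 0 by decide +kernel] at k5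
  rw [show (mulL 14 (powL 14 vL 2) dL).getD 5 0 = 1 by decide +kernel] at k5
  rw [show (mulL 14 vL (powL 14 dL 2)).getD 5 0 = -48 by decide +kernel] at k5
  rw [show (mulL 14 (mulL 14 vL dL) eL).getD 5 0 = 162228 by decide +kernel] at k5
  rw [show (powL 14 dL 3).getD 5 0 = 2484 by decide +kernel] at k5
  rw [show (powL 14 vL 3).getD 6 0 = 1 by decide +kernel] at k6
  rw [show (mulL 14 (powL 14 vL 2) dL).getD 6 0 = -24 by decide +kernel] at k6
  rw [show (mulL 14 vL (powL 14 dL 2)).getD 6 0 = 1056 by decide +kernel] at k6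
  rw [show (mulL 14 (mulL 14 vL dL) eL).getD 6 0 = 12815104 by decide +kernel] at k6
  rw [show (powL 14 dL 3).getD 6 0 = -54528 by decide +kernel] at k6
  rcases hε with rfl | rfl
  · refine ⟨?_, ?_, ?_, rfl⟩ <;> omega
  · omega

theorem coeffs : (deltaPoly 2).coeff 2 = C 48 ∧ (deltaPoly 2).coeff 1 = C (-1) * X + C 768 ∧
    (deltaPoly 2).coeff 0 = C 4096 := by
  obtain ⟨a, b0, b1, ε, hε, h2, h1, h0⟩ := exists_coeffs
  obtain ⟨rfl, rfl, rfl, rfl⟩ := solve a b0 b1 ε hε (relA a b0 b1 ε h2 h1 h0)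
  exact ⟨h2, h1, by simpa using h0⟩

/-- `D³ + 48 D² + (768 - j) D + 4096 = 0` -/
theorem relA' : PowerSeries.C (16777216 : ℤ) * v2 ^ 3 + PowerSeries.C (196608 : ℤ) * (v2 ^ 2 * dz) +
      PowerSeries.C (768 : ℤ) * (v2 * dz ^ 2) - v2 * dz * eisenstein4 ^ 3 + dz ^ 3 = 0 := by
  have h := relA 48 768 (-1) 1 coeffs.1 coeffs.2.1 (by simpa using coeffs.2.2)
  have hne : (PowerSeries.C (4096 : ℤ) : PowerSeries ℤ) ≠ 0 := by
    rw [Ne, map_eq_zero_iff _ (PowerSeries.C_injective)]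
    norm_num
  apply mul_left_cancel₀ hne
  rw [mul_zero, ← h]
  simp only [map_mul, map_pow, map_neg, map_one]
  have e1 : (PowerSeries.C (16777216 : ℤ) : PowerSeries ℤ) = PowerSeries.C 4096 ^ 2 := by
    rw [← map_pow]; norm_num
  have e2 : (PowerSeries.C (196608 : ℤ) : PowerSeries ℤ) = PowerSeries.C 4096 * PowerSeries.C 48 := by
    rw [← map_mul]; norm_num
  rw [e1, e2]
  ring

theorem relB : dz ^ 3 + PowerSeries.C (48 : ℤ) * (v2 * dz ^ 2) +
      PowerSeries.C (768 : ℤ) * (v2 ^ 2 * dz) - v2 * dz * VZ 2 (eisenstein4 ^ 3) +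
      PowerSeries.C (4096 : ℤ) * v2 ^ 3 = 0 := by
  apply L_injective (K := ℚ)
  have h := eval_some 2 primRoot
  rw [eval₂_delta, coeffs.1, coeffs.2.1, coeffs.2.2] at h
  simp only [map_add, map_mul, evJ_C', evJ_X] at h
  have hT : L ℚ dz * qExpand ℚ 2 (dInv ℚ) * L ℚ v2 = L ℚ dz := by
    rw [L_v2, mul_assoc, ← map_mul, mul_comm (dInv ℚ), L_dz_mul_dInv, map_one, mul_one]
  have hJ : qExpand ℚ 2 (jqModC ℚ) * L ℚ v2 = L ℚ (VZ 2 (eisenstein4 ^ 3)) := by
    rw [L_v2, ← map_mul, L_e4, L_VZ]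
  simp only [map_add, map_sub, map_mul, map_zero, L_C]
  simp only [map_pow]
  push_cast at h ⊢
  set T := L ℚ dz * qExpand ℚ 2 (dInv ℚ) with hTdef
  set d := L ℚ dz
  set v := L ℚ v2
  set J := qExpand ℚ 2 (jqModC ℚ)
  set E := L ℚ (VZ 2 (eisenstein4 ^ 3))
  have key : (T * v) ^ 3 + 48 * (T * v) ^ 2 * v + (-(J * v) + 768 * v) * (T * v) * v +
      4096 * v ^ 3 = (T ^ 3 + 48 * T ^ 2 + (-1 * J + 768) * T + 4096) * v ^ 3 := by
    ring
  rw [h, zero_mul, hT, hJ] at key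
  linear_combination key


section Ring

variable (R : Type*) [CommRing R]

/-- the Hauptmodul `Δ(q)/Δ(q²) = q⁻¹ + …` -/
def t2 : LaurentSeries R := L R dz * qExpand R 2 (dInv R)

variable {R} in
theorem coeffMap_t2 {S : Type*} [CommRing S] (f : R →+* S) : coeffMap f (t2 R) = t2 S := by
  rw [t2, map_mul, coeffMap_L, coeffMap_qExpand, coeffMap_dInv, t2]

theorem t2_mul : t2 R * L R v2 = L R dz := by
  rw [t2, L_v2, mul_assoc, ← map_mul, mul_comm (dInv R), L_dz_mul_dInv, map_one, mul_one]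

theorem v2_mul : L R v2 * qExpand R 2 (dInv R) = 1 := by
  rw [L_v2, ← map_mul, L_dz_mul_dInv, map_one]

/-- `j t² = (t + 256)³` -/
theorem jq_mul_t2_sq : jqModC R * t2 R ^ 2 = (t2 R + 256) ^ 3 := by
  have h := congrArg (L R) relA'
  have hJ := L_e4 R
  have hw := v2_mul R
  simp only [map_add, map_sub, map_mul, map_zero, L_C] at h
  simp only [map_pow] at h hJ
  push_cast at h
  rw [← hJ] at h
  rw [t2]
  set d := L R dz
  set v := L R v2
  set J := jqModC R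
  set w := qExpand R 2 (dInv R)
  have key : (16777216 * v ^ 3 + 196608 * (v ^ 2 * d) + 768 * (v * d ^ 2) - v * d * (J * d) +
      d ^ 3) * w ^ 3 = 16777216 * (v * w) ^ 3 + 196608 * ((v * w) ^ 2 * (d * w)) +
      768 * ((v * w) * (d * w) ^ 2) - (v * w) * J * (d * w) ^ 2 + (d * w) ^ 3 := by ring
  rw [h, zero_mul, hw] at key
  linear_combination key

/-- `j(q²) t = (t + 16)³` -/
theorem jq2_mul_t2 : qExpand R 2 (jqModC R) * t2 R = (t2 R + 16) ^ 3 := by
  have h := congrArg (L R) relB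
  have hJ : qExpand R 2 (jqModC R) * L R v2 = L R (VZ 2 (eisenstein4 ^ 3)) := by
    rw [L_v2, ← map_mul, L_e4, L_VZ]
  have hw := v2_mul R
  simp only [map_add, map_sub, map_mul, map_zero, L_C] at h
  simp only [map_pow] at h
  push_cast at h
  rw [← hJ] at h
  rw [t2]
  set d := L R dz
  set v := L R v2
  set J := qExpand R 2 (jqModC R)
  set w := qExpand R 2 (dInv R)
  have key : (d ^ 3 + 48 * (v * d ^ 2) + 768 * (v ^ 2 * d) - v * d * (J * v) +
      4096 * v ^ 3) * w ^ 3 = (d * w) ^ 3 + 48 * ((v * w) * (d * w) ^ 2) +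
      768 * ((v * w) ^ 2 * (d * w)) - (v * w) ^ 2 * (J * (d * w)) + 4096 * (v * w) ^ 3 := by ring
  rw [h, zero_mul, hw] at key
  linear_combination key

theorem coeff_t2_neg_one : (t2 R).coeff (-1) = 1 := by
  have h1 : (qExpand R 2 (dInv R)).coeff (-2) = 1 := by
    rw [show (-2 : ℤ) = ((2 : ℕ) : ℤ) * (-1) by norm_num, qExpand_coeff_mul, coeff_dInv_neg_one]
  have h2 : Ge (-2) (qExpand R 2 (dInv R)) := by
    have := (Ge.dInv (R := R)).qExpand (p := 2)
    exact Ge.mono (by norm_num) this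
  have h3 := Ge.coeff_mul (Ge.L_dz (R := R)) h2
  rw [coeff_L_dz_one, h1, mul_one] at h3
  exact h3

theorem ge_t2 : Ge (-1) (t2 R) := by
  have h2 : Ge (-2) (qExpand R 2 (dInv R)) := by
    have := (Ge.dInv (R := R)).qExpand (p := 2)
    exact Ge.mono (by norm_num) this
  exact Ge.mono (by norm_num) ((Ge.L_dz (R := R)).mul h2)

end Ring

section Theta

open Fermat.Agent.FunField

theorem ne_zero_of_coeff {R : Type*} [CommRing R] [Nontrivial R] {f : LaurentSeries R}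
    (h : f.coeff (-1) = 1) : f ≠ 0 := fun h0 => by simp [h0] at h

theorem coeff_intCast_neg_one {R : Type*} [CommRing R] (c : ℤ) :
    ((c : LaurentSeries R)).coeff (-1) = 0 := by
  rw [← L_C]
  exact L_coeff_neg R _ (by norm_num)

theorem thetaD_intCast {R : Type*} [CommRing R] (c : ℤ) : thetaD R (c : LaurentSeries R) = 0 := by
  rw [← map_intCast (algebraMap R (LaurentSeries R)), thetaD_algebraMap]

theorem thetaD_t2_int : thetaD ℤ (t2 ℤ) ^ 6 = t2 ℤ ^ 4 * (t2 ℤ + 64) ^ 3 * L ℤ dz := by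
  have h1 := jq_mul_t2_sq ℤ
  have h2 := congrArg (thetaD ℤ) h1
  have h256 : thetaD ℤ (256 : LaurentSeries ℤ) = 0 := by
    have := thetaD_intCast (R := ℤ) 256
    exact_mod_cast this
  rw [thetaD_mul, thetaD_pow, thetaD_pow, map_add, h256] at h2
  have h3 := thetaD_jqModC_pow ℤ
  have hc := coeff_t2_neg_one ℤ
  have n1 : t2 ℤ + 256 ≠ 0 := by
    apply ne_zero_of_coeff
    have := coeff_intCast_neg_one (R := ℤ) 256
    push_cast at this
    rw [HahnSeries.coeff_add, hc, this, add_zero]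
  have n2 : t2 ℤ - 512 ≠ 0 := by
    apply ne_zero_of_coeff
    have := coeff_intCast_neg_one (R := ℤ) 512
    push_cast at this
    rw [HahnSeries.coeff_sub, hc, this, sub_zero]
  have hΔ : deltaL ℤ = L ℤ dz := rfl
  rw [hΔ] at h3
  push_cast at h2
  simp only [pow_one, add_zero] at h2
  set t := t2 ℤ
  set J := jqModC ℤ
  set Θ := thetaD ℤ t
  set ΘJ := thetaD ℤ J
  have h4 : ΘJ * t ^ 3 = Θ * (t + 256) ^ 2 * (t - 512) := by
    linear_combination t * h2 - 2 * Θ * h1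
  have h5 : (J - 1728) * t ^ 2 = (t + 64) * (t - 512) ^ 2 := by
    linear_combination h1
  apply mul_right_cancel₀ (mul_ne_zero (pow_ne_zero 12 n1) (pow_ne_zero 6 n2))
  calc Θ ^ 6 * ((t + 256) ^ 12 * (t - 512) ^ 6) = (Θ * (t + 256) ^ 2 * (t - 512)) ^ 6 := by ring
    _ = ΘJ ^ 6 * t ^ 18 := by rw [← h4]; ring
    _ = (J * t ^ 2) ^ 4 * ((J - 1728) * t ^ 2) ^ 3 * t ^ 4 * L ℤ dz := by rw [h3]; ring
    _ = _ := by rw [h1, h5]; ring

/-- `(θ t)⁶ = t⁴ (t + 64)³ Δ` over any commutative ring -/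
theorem thetaD_t2_pow (R : Type*) [CommRing R] :
    thetaD R (t2 R) ^ 6 = t2 R ^ 4 * (t2 R + 64) ^ 3 * L R dz := by
  have h := congrArg (coeffMap (Int.castRingHom R)) thetaD_t2_int
  simp only [map_pow, map_mul, map_add, coeffMap_t2, coeffMap_L, ← thetaD_coeffMap,
    map_ofNat] at h
  exact h

end Theta

end Fermat.Agent.JRED.LevelTwo
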