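import Mathlib
import Fermat.Prelude.Def_ModularCurve_ReductionModL
import Fermat.Agent.JRED.RedDatum

set_option autoImplicit false

/-!
# Gauss valuation on Laurent series with coefficients in a valued field

`GRed A π f u`: `f ∈ K((q))` is a quotient `a / b` of `A`-integral Laurent series with `b` nonzero
modulo the maximal ideal, and `u = ā / b̄ ∈ k((q))`.
-/

noncomputable section

open HahnSeries ModularCurve

namespace Fermat.Agent.JRED

section GRed

variable {K k : Type*} [Field K] [Field k] {A : ValuationSubring K} (π : A →+* k)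

theorem coeffMap_injective {R S : Type*} [CommRing R] [CommRing S] {f : R →+* S}
    (hf : Function.Injective f) : Function.Injective (coeffMap f) := by
  intro x y h
  ext n
  apply hf
  rw [← coeffMap_coeff, ← coeffMap_coeff, h]

/-- The graph of the Gauss residue map. -/
def GRed (f : LaurentSeries K) (u : LaurentSeries k) : Prop :=
  ∃ a b : LaurentSeries A, coeffMap π b ≠ 0 ∧ f * coeffMap A.subtype b = coeffMap A.subtype a ∧
    u * coeffMap π b = coeffMap π a

variable {π}

theorem GRed.of_integral (a : LaurentSeries A) : GRed π (coeffMap A.subtype a) (coeffMap π a) :=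
  ⟨a, 1, by simp, by simp, by simp⟩

theorem coeffMap_const {R S : Type*} [CommRing R] [CommRing S] (f : R →+* S) (r : R) :
    coeffMap f (HahnSeries.C r) = HahnSeries.C (f r) := by
  rw [HahnSeries.C_apply, HahnSeries.C_apply, coeffMap_single]

theorem algebraMap_eq_C {L : Type*} [Field L] (c : L) :
    algebraMap L (LaurentSeries L) c = HahnSeries.C c := by
  rw [algebraMap_laurentSeries_eq_single, HahnSeries.C_apply]

theorem GRed.const (a : A) : GRed π (algebraMap K (LaurentSeries K) a)
    (algebraMap k (LaurentSeries k) (π a)) := by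
  have h := GRed.of_integral (π := π) (HahnSeries.C a)
  rw [coeffMap_const, coeffMap_const] at h
  rw [algebraMap_eq_C, algebraMap_eq_C]
  exact h

theorem GRed.add {f f' : LaurentSeries K} {u u' : LaurentSeries k} (h : GRed π f u)
    (h' : GRed π f' u') : GRed π (f + f') (u + u') := by
  obtain ⟨a, b, hb, h1, h2⟩ := h
  obtain ⟨a', b', hb', h1', h2'⟩ := h'
  refine ⟨a * b' + a' * b, b * b', ?_, ?_, ?_⟩
  · rw [map_mul]; exact mul_ne_zero hb hb'
  · rw [map_add, map_mul, map_mul, map_mul, ← h1, ← h1']; ring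
  · rw [map_add, map_mul, map_mul, map_mul, ← h2, ← h2']; ring

theorem GRed.mul {f f' : LaurentSeries K} {u u' : LaurentSeries k} (h : GRed π f u)
    (h' : GRed π f' u') : GRed π (f * f') (u * u') := by
  obtain ⟨a, b, hb, h1, h2⟩ := h
  obtain ⟨a', b', hb', h1', h2'⟩ := h'
  refine ⟨a * a', b * b', ?_, ?_, ?_⟩
  · rw [map_mul]; exact mul_ne_zero hb hb'
  · rw [map_mul, map_mul, ← h1, ← h1']; ring
  · rw [map_mul, map_mul, ← h2, ← h2']; ring

theorem GRed.one : GRed π 1 1 := by
  have h := GRed.of_integral (π := π) 1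
  rwa [map_one, map_one] at h

theorem GRed.zero : GRed π 0 0 := by
  have h := GRed.of_integral (π := π) 0
  rwa [map_zero, map_zero] at h

theorem GRed.neg {f : LaurentSeries K} {u : LaurentSeries k} (h : GRed π f u) :
    GRed π (-f) (-u) := by
  obtain ⟨a, b, hb, h1, h2⟩ := h
  exact ⟨-a, b, hb, by rw [neg_mul, h1, map_neg], by rw [neg_mul, h2, map_neg]⟩

theorem GRed.unique {f : LaurentSeries K} {u u' : LaurentSeries k} (h : GRed π f u)
    (h' : GRed π f u') : u = u' := by
  obtain ⟨a, b, hb, h1, h2⟩ := h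
  obtain ⟨a', b', hb', h1', h2'⟩ := h'
  have h3 : a * b' = a' * b := by
    apply coeffMap_injective (f := A.subtype) Subtype.val_injective
    rw [map_mul, map_mul, ← h1, ← h1']; ring
  have h4 := congrArg (coeffMap π) h3
  rw [map_mul, map_mul, ← h2, ← h2'] at h4
  have h5 : (u - u') * (coeffMap π b * coeffMap π b') = 0 := by
    linear_combination h4
  exact sub_eq_zero.mp ((mul_eq_zero.mp h5).resolve_right (mul_ne_zero hb hb'))

theorem GRed.inv {f : LaurentSeries K} {u : LaurentSeries k} (h : GRed π f u) (hu : u ≠ 0) :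
    GRed π f⁻¹ u⁻¹ := by
  obtain ⟨a, b, hb, h1, h2⟩ := h
  have ha : coeffMap π a ≠ 0 := by
    rw [← h2]; exact mul_ne_zero hu hb
  have ha' : coeffMap A.subtype a ≠ 0 := by
    intro h0
    have h0' : a = 0 := by
      apply coeffMap_injective (f := A.subtype) Subtype.val_injective
      rw [h0, map_zero]
    exact ha (by rw [h0', map_zero])
  have hf : f ≠ 0 := by
    rintro rfl
    exact ha' (by rw [← h1, zero_mul])
  refine ⟨b, a, ha, ?_, ?_⟩
  · rw [← h1]; field_simp
  · rw [← h2]; field_simp

/-- Reductions of series with coefficients from `ℤ`. -/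
theorem GRed.of_int (a : LaurentSeries ℤ) :
    GRed π (coeffMap (Int.castRingHom K) a) (coeffMap (Int.castRingHom k) a) := by
  have h := GRed.of_integral (π := π) (coeffMap (Int.castRingHom A) a)
  rw [coeffMap_coeffMap, coeffMap_coeffMap, RingHom.ext_int (A.subtype.comp (Int.castRingHom A))
    (Int.castRingHom K), RingHom.ext_int (π.comp (Int.castRingHom A)) (Int.castRingHom k)] at h
  exact h

theorem GRed.sum {ι : Type*} {s : Finset ι} {w : ι → LaurentSeries K} {u : ι → LaurentSeries k}
    (h : ∀ i ∈ s, GRed π (w i) (u i)) : GRed π (∑ i ∈ s, w i) (∑ i ∈ s, u i) := by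
  classical
  induction s using Finset.induction_on with
  | empty => simpa using GRed.zero
  | insert a s ha ih =>
    rw [Finset.sum_insert ha, Finset.sum_insert ha]
    exact GRed.add (h a (Finset.mem_insert_self a s))
      (ih fun i hi => h i (Finset.mem_insert_of_mem hi))

end GRed

section FGCoeff

variable {K : Type*} [Field K]

/-- The coefficients of `f` lie in a finitely generated subgroup of `K`. -/
def FGCoeff (f : LaurentSeries K) : Prop :=
  ∃ M : Submodule ℤ K, M.FG ∧ ∀ n, f.coeff n ∈ M

theorem FGCoeff.add {f g : LaurentSeries K} (hf : FGCoeff f) (hg : FGCoeff g) :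
    FGCoeff (f + g) := by
  obtain ⟨M, hM, h⟩ := hf
  obtain ⟨M', hM', h'⟩ := hg
  exact ⟨M ⊔ M', hM.sup hM', fun n => by
    rw [HahnSeries.coeff_add]
    exact add_mem (Submodule.mem_sup_left (h n)) (Submodule.mem_sup_right (h' n))⟩

theorem FGCoeff.mul {f g : LaurentSeries K} (hf : FGCoeff f) (hg : FGCoeff g) :
    FGCoeff (f * g) := by
  obtain ⟨M, hM, h⟩ := hf
  obtain ⟨M', hM', h'⟩ := hg
  refine ⟨M * M', hM.mul hM', fun n => ?_⟩
  rw [HahnSeries.coeff_mul]
  exact sum_mem fun ij _ => Submodule.mul_mem_mul (h _) (h' _)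

theorem FGCoeff.neg {f : LaurentSeries K} (hf : FGCoeff f) : FGCoeff (-f) := by
  obtain ⟨M, hM, h⟩ := hf
  exact ⟨M, hM, fun n => by rw [HahnSeries.coeff_neg]; exact neg_mem (h n)⟩

theorem FGCoeff.const (c : K) : FGCoeff (algebraMap K (LaurentSeries K) c) := by
  refine ⟨Submodule.span ℤ {c}, Submodule.fg_span_singleton c, fun n => ?_⟩
  rw [algebraMap_laurentSeries_eq_single]
  by_cases hn : n = 0
  · rw [hn, HahnSeries.coeff_single_same]
    exact Submodule.mem_span_singleton_self c
  · rw [HahnSeries.coeff_single_of_ne hn]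
    exact zero_mem _

theorem FGCoeff.of_int (a : LaurentSeries ℤ) : FGCoeff (coeffMap (Int.castRingHom K) a) := by
  refine ⟨Submodule.span ℤ {1}, Submodule.fg_span_singleton 1, fun n => ?_⟩
  rw [coeffMap_coeff, Submodule.mem_span_singleton]
  exact ⟨a.coeff n, by simp⟩

/-- Over a valuation ring, a nonzero series with finitely generated coefficient group can be
scaled to be integral with nonzero reduction. -/
theorem FGCoeff.exists_scale (A : ValuationSubring K) {f : LaurentSeries K} (hf : FGCoeff f)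
    (hf0 : f ≠ 0) : ∃ n₀ : ℤ, f.coeff n₀ ≠ 0 ∧ ∀ n, f.coeff n / f.coeff n₀ ∈ A := by
  obtain ⟨M, hM, h⟩ := hf
  have hfg : (Submodule.span ℤ (Set.range f.coeff)).FG := by
    have hle : Submodule.span ℤ (Set.range f.coeff) ≤ M := by
      rw [Submodule.span_le]
      rintro _ ⟨n, rfl⟩
      exact h n
    have hN : IsNoetherian ℤ M := isNoetherian_of_fg_of_noetherian M hM
    have h2 : (Submodule.comap M.subtype (Submodule.span ℤ (Set.range f.coeff))).FG :=
      IsNoetherian.noetherian _
    have h3 := h2.map M.subtype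
    rwa [Submodule.map_comap_subtype, inf_eq_right.mpr hle] at h3
  obtain ⟨s, hs, hspan⟩ := (Submodule.fg_span_iff_fg_span_finset_subset _).mp hfg
  have hne : s.Nonempty := by
    rw [Finset.nonempty_iff_ne_empty]
    rintro rfl
    apply hf0
    ext n
    have h1 : f.coeff n ∈ Submodule.span ℤ (Set.range f.coeff) :=
      Submodule.subset_span ⟨n, rfl⟩
    rw [hspan] at h1
    simpa using h1
  obtain ⟨x, hx, hmax⟩ := Finset.exists_max_image s (fun x => A.valuation x) hne
  obtain ⟨n₀, rfl⟩ := hs hx
  have hle : ∀ n, A.valuation (f.coeff n) ≤ A.valuation (f.coeff n₀) := by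
    intro n
    have h1 : f.coeff n ∈ Submodule.span ℤ (s : Set K) := by
      rw [← hspan]
      exact Submodule.subset_span ⟨n, rfl⟩
    generalize f.coeff n = y at h1 ⊢
    induction h1 using Submodule.span_induction with
    | mem y hy => exact hmax y hy
    | zero => simp
    | add y z _ _ hy hz => exact (Valuation.map_add _ _ _).trans (max_le hy hz)
    | smul c y _ hy =>
      rw [zsmul_eq_mul, map_mul]
      have h2 : A.valuation (c : K) ≤ 1 := by
        rw [ValuationSubring.valuation_le_one_iff]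
        exact intCast_mem A c
      exact (mul_le_of_le_one_left' h2).trans hy
  have h0 : f.coeff n₀ ≠ 0 := by
    intro h0
    apply hf0
    ext n
    have h1 := hle n
    rw [h0, map_zero, le_zero_iff, Valuation.zero_iff] at h1
    rw [h1]
    simp
  refine ⟨n₀, h0, fun n => ?_⟩
  rw [← ValuationSubring.valuation_le_one_iff, map_div₀]
  have h1 : A.valuation (f.coeff n₀) ≠ 0 := (Valuation.ne_zero_iff _).mpr h0
  exact div_le_one_of_le₀ (hle n) zero_le

/-- The `A`-integral Laurent series with given coefficients. -/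
def liftA (A : ValuationSubring K) (f : LaurentSeries K) (h : ∀ n, f.coeff n ∈ A) :
    LaurentSeries A where
  coeff n := ⟨f.coeff n, h n⟩
  isPWO_support' := f.isPWO_support.mono fun n hn => by
    simp only [Function.mem_support] at hn ⊢
    intro h0
    exact hn (Subtype.ext h0)

@[simp]
theorem coeffMap_liftA (A : ValuationSubring K) (f : LaurentSeries K) (h : ∀ n, f.coeff n ∈ A) :
    coeffMap A.subtype (liftA A f h) = f := by
  ext n
  rfl

theorem FGCoeff.exists_integral {k : Type*} [Field k] {A : ValuationSubring K} (π : A →+* k)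
    {f : LaurentSeries K} (hf : FGCoeff f) (hf0 : f ≠ 0) :
    ∃ (c : K) (a : LaurentSeries A), c ≠ 0 ∧ coeffMap π a ≠ 0 ∧
      algebraMap K (LaurentSeries K) c * f = coeffMap A.subtype a := by
  obtain ⟨n₀, hn₀, h⟩ := hf.exists_scale A hf0
  have h1 : ∀ n, (algebraMap K (LaurentSeries K) (f.coeff n₀)⁻¹ * f).coeff n =
      f.coeff n / f.coeff n₀ := by
    intro n
    rw [algebraMap_laurentSeries_eq_single, HahnSeries.coeff_single_zero_mul]
    field_simp
  refine ⟨(f.coeff n₀)⁻¹, liftA A (algebraMap K (LaurentSeries K) (f.coeff n₀)⁻¹ * f)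
    (fun n => by rw [h1]; exact h n), inv_ne_zero hn₀, ?_, by simp⟩
  intro h0
  have h2 := congrArg (fun x => HahnSeries.coeff x n₀) h0
  simp only [coeffMap_coeff, HahnSeries.coeff_zero] at h2
  have h3 : (liftA A (algebraMap K (LaurentSeries K) (f.coeff n₀)⁻¹ * f)
    (fun n => by rw [h1]; exact h n)).coeff n₀ = 1 := by
    apply Subtype.ext
    show (algebraMap K (LaurentSeries K) (f.coeff n₀)⁻¹ * f).coeff n₀ = 1
    rw [h1, div_self hn₀]
  rw [h3, map_one] at h2
  exact one_ne_zero h2

variable (K) in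
/-- The field of fractions of the ring of series with finitely generated coefficients. -/
def fgField : Subfield (LaurentSeries K) where
  carrier := {f | ∃ a b : LaurentSeries K, FGCoeff a ∧ FGCoeff b ∧ b ≠ 0 ∧ f * b = a}
  mul_mem' := by
    rintro f f' ⟨a, b, ha, hb, hb0, h⟩ ⟨a', b', ha', hb', hb0', h'⟩
    exact ⟨a * a', b * b', ha.mul ha', hb.mul hb', mul_ne_zero hb0 hb0', by
      rw [← h, ← h']; ring⟩
  one_mem' := ⟨1, 1, by simpa using FGCoeff.const (1 : K),
    by simpa using FGCoeff.const (1 : K), one_ne_zero, by simp⟩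
  add_mem' := by
    rintro f f' ⟨a, b, ha, hb, hb0, h⟩ ⟨a', b', ha', hb', hb0', h'⟩
    exact ⟨a * b' + a' * b, b * b', (ha.mul hb').add (ha'.mul hb), hb.mul hb',
      mul_ne_zero hb0 hb0', by rw [← h, ← h']; ring⟩
  zero_mem' := ⟨0, 1, by simpa using FGCoeff.const (0 : K),
    by simpa using FGCoeff.const (1 : K), one_ne_zero, by simp⟩
  neg_mem' := by
    rintro f ⟨a, b, ha, hb, hb0, h⟩
    exact ⟨-a, b, ha.neg, hb, hb0, by rw [neg_mul, h]⟩
  inv_mem' := by
    rintro f ⟨a, b, ha, hb, hb0, h⟩
    rcases eq_or_ne f 0 with rfl | hf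
    · exact ⟨0, 1, by simpa using FGCoeff.const (0 : K),
        by simpa using FGCoeff.const (1 : K), one_ne_zero, by simp⟩
    · refine ⟨b, a, hb, ha, ?_, ?_⟩
      · rw [← h]; exact mul_ne_zero hf hb0
      · rw [← h]; field_simp

theorem mem_fgField_iff {f : LaurentSeries K} : f ∈ fgField K ↔
    ∃ a b : LaurentSeries K, FGCoeff a ∧ FGCoeff b ∧ b ≠ 0 ∧ f * b = a := Iff.rfl

theorem FGCoeff.mem_fgField {f : LaurentSeries K} (hf : FGCoeff f) : f ∈ fgField K :=
  ⟨f, 1, hf, by simpa using FGCoeff.const (1 : K), one_ne_zero, by simp⟩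

/-- **Normalisation** for the Gauss valuation on `fgField`. -/
theorem exists_normalize_of_mem_fgField {k : Type*} [Field k] {A : ValuationSubring K}
    (π : A →+* k) {f : LaurentSeries K} (hf : f ∈ fgField K) (hf0 : f ≠ 0) :
    ∃ c : K, c ≠ 0 ∧ ∃ u : LaurentSeries k, u ≠ 0 ∧
      GRed π (algebraMap K (LaurentSeries K) c * f) u := by
  obtain ⟨a, b, ha, hb, hb0, h⟩ := hf
  have ha0 : a ≠ 0 := by rw [← h]; exact mul_ne_zero hf0 hb0
  obtain ⟨c, a', hc, ha', hca⟩ := ha.exists_integral π ha0
  obtain ⟨d, b', hd, hb', hdb⟩ := hb.exists_integral π hb0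
  refine ⟨c / d, div_ne_zero hc hd, coeffMap π a' / coeffMap π b', div_ne_zero ha' hb',
    a', b', hb', ?_, ?_⟩
  · have hd' : algebraMap K (LaurentSeries K) d ≠ 0 := by simpa using hd
    rw [← hca, ← hdb, ← h, map_div₀]
    field_simp
  · field_simp

end FGCoeff

end Fermat.Agent.JRED
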