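import Fermat.Agent.JRED.RedDatum

set_option autoImplicit false

/-!
# Injectivity of reduction on prime-to-residue-characteristic torsion
-/

noncomputable section

open AlgebraicCurve WithZero Fermat.FF

namespace Fermat.Agent.JRED

section MapDomain

variable {K F k Fk : Type*} [Field K] [Field F] [Algebra K F] [Field k] [Field Fk] [Algebra k Fk]
variable {r : Place K F → Place k Fk} {D : Divisor K F} {Q : Place k Fk}

open Classical in
theorem mapDomain_apply_eq (r : Place K F → Place k Fk) (D : Divisor K F) (Q : Place k Fk) :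
    Finsupp.mapDomain r D Q = ∑ P ∈ D.support.filter (fun P => r P = Q), D P := by
  rw [Finsupp.mapDomain, Finsupp.sum, Finsupp.finsetSum_apply, Finset.sum_filter]
  refine Finset.sum_congr rfl fun P _ => ?_
  rw [Finsupp.single_apply]

theorem mapDomain_nonneg (h : ∀ P, r P = Q → 0 ≤ D P) : 0 ≤ Finsupp.mapDomain r D Q := by
  classical
  rw [mapDomain_apply_eq]
  exact Finset.sum_nonneg fun P hP => h P (Finset.mem_filter.mp hP).2

theorem le_mapDomain (h : ∀ P, r P = Q → 0 ≤ D P) {P : Place K F} (hP : r P = Q) :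
    D P ≤ Finsupp.mapDomain r D Q := by
  classical
  rw [mapDomain_apply_eq]
  by_cases hsupp : P ∈ D.support
  · exact Finset.single_le_sum (f := fun P => D P)
      (fun P hP => h P (Finset.mem_filter.mp hP).2) (Finset.mem_filter.mpr ⟨hsupp, hP⟩)
  · rw [Finsupp.notMem_support_iff.mp hsupp]
    exact Finset.sum_nonneg fun P hP => h P (Finset.mem_filter.mp hP).2

theorem add_le_mapDomain (h : ∀ P, r P = Q → 0 ≤ D P) {P P' : Place K F} (hP : r P = Q)
    (hP' : r P' = Q) (hne : P ≠ P') : D P + D P' ≤ Finsupp.mapDomain r D Q := by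
  classical
  have h1 : Finsupp.mapDomain r D Q =
      Finsupp.mapDomain r (D - Finsupp.single P (D P)) Q + D P := by
    rw [← Finsupp.mapDomain.addMonoidHom_apply, ← Finsupp.mapDomain.addMonoidHom_apply, map_sub,
      Finsupp.mapDomain.addMonoidHom_apply, Finsupp.mapDomain.addMonoidHom_apply,
      Finsupp.mapDomain_single, Finsupp.sub_apply, hP, Finsupp.single_eq_same]
    ring
  have h2 : ∀ P₁, r P₁ = Q → 0 ≤ (D - Finsupp.single P (D P)) P₁ := by
    intro P₁ hP₁
    rw [Finsupp.sub_apply, Finsupp.single_apply]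
    split_ifs with h3
    · rw [h3]; simp
    · simpa using h P₁ hP₁
  have h3 := le_mapDomain h2 hP'
  rw [Finsupp.sub_apply, Finsupp.single_eq_of_ne hne.symm, sub_zero] at h3
  rw [h1]
  linarith

/-- A fibre of total mass one, with nonnegative entries, is concentrated at one place. -/
theorem eq_ite_of_mapDomain_eq_one [DecidableEq (Place K F)] (h : ∀ P, r P = Q → 0 ≤ D P)
    (h1 : Finsupp.mapDomain r D Q = 1)
    {P : Place K F} (hP : r P = Q) (hpos : 0 < D P) {P' : Place K F} (hP' : r P' = Q) :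
    D P' = if P' = P then 1 else 0 := by
  split_ifs with h2
  · have := le_mapDomain h hP
    rw [h2]; omega
  · have := add_le_mapDomain h hP hP' (Ne.symm h2)
    have := h P' hP'
    omega

theorem exists_pos_of_mapDomain_pos (h1 : 0 < Finsupp.mapDomain r D Q) :
    ∃ P, r P = Q ∧ 0 < D P := by
  classical
  by_contra hcon
  push Not at hcon
  rw [mapDomain_apply_eq] at h1
  exact absurd h1 (not_lt.mpr (Finset.sum_nonpos fun P hP => hcon P (Finset.mem_filter.mp hP).2))

end MapDomain

section Local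

variable {K F k Fk : Type*} [Field K] [Field F] [Algebra K F] [Field k] [Field Fk] [Algebra k Fk]
variable {A : ValuationSubring K} {π : A →+* k} {R : RedDatum K F k Fk A π}
  {r : Place K F → Place k Fk}

/-- `w` has no poles at the places reducing to `Q`. -/
def RegOn (r : Place K F → Place k Fk) (Q : Place k Fk) (w : F) : Prop :=
  ∀ P, r P = Q → w ∈ P.toValuationSubring

theorem RegOn.sub_const {Q : Place k Fk} {w : F} (h : RegOn r Q w) (c : K) :
    RegOn r Q (w - algebraMap K F c) := fun P hP => sub_mem (h P hP) (P.algebraMap_mem' c)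

theorem RegOn.const_mul {Q : Place k Fk} {w : F} (h : RegOn r Q w) (c : K) :
    RegOn r Q (algebraMap K F c * w) := fun P hP => mul_mem (P.algebraMap_mem' c) (h P hP)

variable [HasPrincipalDivisors K F]

/-- The reduction of a function without poles above `Q` has no pole at `Q`. -/
theorem mem_of_regOn (hr : PlaceRed R r) {Q : Place k Fk} {w : F} {u : Fk} (hw : R.Red w u)
    (h : RegOn r Q w) : u ∈ Q.toValuationSubring := by
  rcases eq_or_ne u 0 with rfl | hu
  · exact zero_mem _
  have hw0 := RedDatum.ne_zero_of_red hw hu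
  obtain ⟨D, hD, -⟩ := HasPrincipalDivisors.exists_divisor (K := K) w hw0
  rw [mem_iff_ord _ hu, ← hr w u hw hu D hD Q]
  refine mapDomain_nonneg fun P hP => ?_
  rw [hD]
  exact ord_nonneg_of_mem P (h P hP)

/-- Zeros reduce to zeros. -/
theorem val_lt_one_of_regOn (hr : PlaceRed R r) {P : Place K F} {w : F} {u : Fk}
    (hw : R.Red w u) (h : RegOn r (r P) w) (hP : P.adicValuation w < 1) :
    (r P).adicValuation u < 1 := by
  rcases eq_or_ne u 0 with rfl | hu
  · simp
  have hw0 := RedDatum.ne_zero_of_red hw hu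
  obtain ⟨D, hD, -⟩ := HasPrincipalDivisors.exists_divisor (K := K) w hw0
  have hnn : ∀ P', r P' = r P → 0 ≤ D P' := fun P' hP' => by
    rw [hD]; exact ord_nonneg_of_mem P' (h P' hP')
  rw [val_lt_one_iff, or_iff_right hu, ← hr w u hw hu D hD (r P)]
  refine lt_of_lt_of_le ?_ (le_mapDomain hnn rfl)
  rw [hD]
  exact ord_pos_of_val_lt_one P hw0 hP

/-- The value at `P` of an integral function which is regular on the residue disc of `P` is
integral and reduces to the value of the reduction at `r P`. -/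
theorem value_mem (hπ : Function.Surjective π) (hr : PlaceRed R r) {P : Place K F} {w : F} {u : Fk}
    (hw : R.Red w u) (h : RegOn r (r P) w) {c : K}
    (hP : P.adicValuation (w - algebraMap K F c) < 1) :
    ∃ hc : c ∈ A, (r P).adicValuation (u - algebraMap k Fk (π ⟨c, hc⟩)) < 1 := by
  have hc : c ∈ A := by
    by_contra hc
    obtain ⟨hi, h0⟩ := res_inv_eq_zero hπ hc
    have hc0 : c ≠ 0 := fun h0 => hc (h0 ▸ A.zero_mem)
    have h1 := RedDatum.sub R.one (RedDatum.smul_mem hi hw)
    rw [h0, map_zero, zero_mul, sub_zero] at h1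
    have h2 : RegOn r (r P) (1 - algebraMap K F c⁻¹ * w) := fun P' hP' =>
      sub_mem (one_mem _) (mul_mem (P'.algebraMap_mem' _) (h P' hP'))
    have h3 : P.adicValuation (1 - algebraMap K F c⁻¹ * w) < 1 := by
      have h4 : 1 - algebraMap K F c⁻¹ * w = algebraMap K F (-c⁻¹) * (w - algebraMap K F c) := by
        have : algebraMap K F c⁻¹ * algebraMap K F c = 1 := by
          rw [← map_mul, inv_mul_cancel₀ hc0, map_one]
        rw [map_neg]
        linear_combination -this
      rw [h4, map_mul]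
      exact lt_of_le_of_lt (mul_le_of_le_one_left' (P.adicValuation_algebraMap_le_one _)) hP
    have h5 := val_lt_one_of_regOn hr h1 h2 h3
    rw [map_one] at h5
    exact lt_irrefl _ h5
  exact ⟨hc, val_lt_one_of_regOn hr (RedDatum.sub hw (R.const ⟨c, hc⟩)) (h.sub_const c) hP⟩

omit [HasPrincipalDivisors K F] in
theorem const_eq_zero_of_val_lt_one {Q : Place k Fk} {c : k}
    (h : Q.adicValuation (algebraMap k Fk c) < 1) : c = 0 := by
  by_contra hc
  have h1 : algebraMap k Fk c ≠ 0 := by simpa using hc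
  rw [(ord_eq_zero_iff_val Q h1).mp (ord_algebraMap Q c)] at h
  exact lt_irrefl _ h

omit [HasPrincipalDivisors K F] in
theorem const_eq_of_val_lt_one {Q : Place k Fk} {u : Fk} {c c' : k}
    (h : Q.adicValuation (u - algebraMap k Fk c) < 1)
    (h' : Q.adicValuation (u - algebraMap k Fk c') < 1) : c = c' := by
  have h1 : Q.adicValuation (algebraMap k Fk (c' - c)) < 1 := by
    have : algebraMap k Fk (c' - c) = (u - algebraMap k Fk c) - (u - algebraMap k Fk c') := by
      rw [map_sub]; ring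
    rw [this]
    exact lt_of_le_of_lt (Valuation.map_sub _ _ _) (max_lt h h')
  have h2 := const_eq_zero_of_val_lt_one h1
  exact (sub_eq_zero.mp h2).symm

/-- A local parameter at `Q` that lifts to a function without poles on the residue disc of `Q`. -/
def HasLocalParam (R : RedDatum K F k Fk A π) (r : Place K F → Place k Fk) (Q : Place k Fk) :
    Prop :=
  ∃ (x : F) (u : Fk) (c : k), R.Red x u ∧ RegOn r Q x ∧ Q.ord (u - algebraMap k Fk c) = 1

variable [IsAlgClosed K] [IsFF1 K F]

/-- Linear functions on residue discs. -/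
theorem exists_linear (hπ : Function.Surjective π) (hr : PlaceRed R r) {Q : Place k Fk}
    {x : F} {u : Fk} {c : k} (hx : R.Red x u) (hreg : RegOn r Q x)
    (hc : Q.ord (u - algebraMap k Fk c) = 1) [DecidableEq (Place K F)] {P : Place K F}
    (hP : r P = Q) :
    ∃ a : K, R.Red (x - algebraMap K F a) (u - algebraMap k Fk c) ∧
      ∀ P', r P' = Q → P'.ord (x - algebraMap K F a) = if P' = P then 1 else 0 := by
  obtain ⟨a, ha⟩ := exists_const_of_mem P (hreg P hP)
  subst hP
  obtain ⟨haA, ha'⟩ := value_mem hπ hr hx hreg ha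
  have hne : u - algebraMap k Fk c ≠ 0 := ne_zero_of_ord_ne_zero (r P) (by rw [hc]; norm_num)
  have hca : π ⟨a, haA⟩ = c := by
    refine const_eq_of_val_lt_one ha' ?_
    rw [val_lt_one_iff, hc]
    exact Or.inr one_pos
  have h1 : R.Red (x - algebraMap K F a) (u - algebraMap k Fk c) := by
    have := RedDatum.sub hx (R.const ⟨a, haA⟩)
    rwa [hca] at this
  refine ⟨a, h1, fun P' hP' => ?_⟩
  have hw0 := RedDatum.ne_zero_of_red h1 hne
  obtain ⟨D, hD, -⟩ := HasPrincipalDivisors.exists_divisor (K := K) _ hw0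
  have hnn : ∀ P', r P' = r P → 0 ≤ D P' := fun P' hP' => by
    rw [hD]; exact ord_nonneg_of_mem P' (hreg.sub_const a P' hP')
  have hsum : Finsupp.mapDomain r D (r P) = 1 := by
    rw [hr _ _ h1 hne D hD, hc]
  have hpos : 0 < D P := by
    rw [hD]; exact ord_pos_of_val_lt_one P hw0 ha
  rw [← hD]
  exact eq_ite_of_mapDomain_eq_one hnn hsum rfl hpos hP'

/-- **Key local computation**: if `f ≡ 1` has, on the residue disc of `Q`, divisor `m (P - P')`,
then the reduction of any integral multiple of `f - 1` has at most a simple pole at `Q`. -/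
theorem simple_pole (hπ : Function.Surjective π) (hr : PlaceRed R r) {Q : Place k Fk}
    (hloc : HasLocalParam R r Q) [DecidableEq (Place K F)] {P P' : Place K F} (hP : r P = Q)
    (hP' : r P' = Q) (hne : P ≠ P') {m : ℕ} (hm : (m : k) ≠ 0) {f : F} (hf : R.Red f 1)
    (hord : ∀ P₁, r P₁ = Q →
      P₁.ord f = m * ((if P₁ = P then (1 : ℤ) else 0) - if P₁ = P' then 1 else 0))
    {c : K} {ubar : Fk} (he : R.Red (algebraMap K F c * (f - 1)) ubar) :
    Q.adicValuation ubar ≤ exp (1 : ℤ) := by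
  obtain ⟨x, u, cb, hx, hreg, hcb⟩ := hloc
  obtain ⟨a, ha, horda⟩ := exists_linear hπ hr hx hreg hcb hP
  obtain ⟨a', ha', horda'⟩ := exists_linear hπ hr hx hreg hcb hP'
  set t : Fk := u - algebraMap k Fk cb with ht
  have ht0 : t ≠ 0 := ne_zero_of_ord_ne_zero Q (by rw [hcb]; norm_num)
  have hxa0 := RedDatum.ne_zero_of_red ha ht0
  have hxa0' := RedDatum.ne_zero_of_red ha' ht0
  have hf0 := RedDatum.ne_zero_of_red hf one_ne_zero
  -- `y = (x - a)/(x - a')`
  set y : F := (x - algebraMap K F a) / (x - algebraMap K F a') with hy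
  have hy0 : y ≠ 0 := div_ne_zero hxa0 hxa0'
  have hyred : R.Red y 1 := by
    have := RedDatum.div hπ ha ha' ht0
    rwa [div_self ht0] at this
  have hyord : ∀ P₁, r P₁ = Q →
      P₁.ord y = (if P₁ = P then (1 : ℤ) else 0) - if P₁ = P' then 1 else 0 := by
    intro P₁ hP₁
    rw [hy, div_eq_mul_inv, P₁.ord_mul hxa0 (inv_ne_zero hxa0'), P₁.ord_inv, horda P₁ hP₁,
      horda' P₁ hP₁]
    ring
  have hδ : a' - a ≠ 0 := by
    intro h0
    have h1 : a' = a := sub_eq_zero.mp h0
    have h2 := horda P' hP'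
    have h3 := horda' P' hP'
    rw [h1, h2, if_neg hne.symm, if_pos rfl] at h3
    exact zero_ne_one h3
  set δ : K := a' - a with hδdef
  have hδF : algebraMap K F δ ≠ 0 := by simpa using hδ
  -- `δ⁻¹ (y - 1) = 1 / (x - a')`
  have hy1 : algebraMap K F δ⁻¹ * (y - 1) = (x - algebraMap K F a')⁻¹ := by
    rw [map_inv₀, hy, hδdef, map_sub]
    rw [hδdef, map_sub] at hδF
    field_simp
    ring
  -- the `m`-th power
  have hS : R.Red (∑ i ∈ Finset.range m, y ^ i) (m : Fk) := by
    have := RedDatum.sum (R := R) (s := Finset.range m) (w := fun i => y ^ i)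
      (u := fun i => (1 : Fk) ^ i) fun i _ => RedDatum.pow hyred i
    simpa using this
  have hym : R.Red (algebraMap K F δ⁻¹ * (y ^ m - 1)) (t⁻¹ * m) := by
    have h1 : algebraMap K F δ⁻¹ * (y ^ m - 1) =
        (algebraMap K F δ⁻¹ * (y - 1)) * ∑ i ∈ Finset.range m, y ^ i := by
      rw [← geom_sum_mul]; ring
    rw [h1, hy1]
    exact R.mul (RedDatum.inv hπ ha' ht0) hS
  -- `U = f / y ^ m`
  have hym0 : y ^ m ≠ 0 := pow_ne_zero _ hy0
  have hympow : R.Red (y ^ m) 1 := by simpa using RedDatum.pow hyred m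
  set U : F := f / y ^ m with hU
  have hUreg : RegOn r Q (U - 1) := by
    intro P₁ hP₁
    refine sub_mem ?_ (one_mem _)
    rw [mem_iff_ord _ (div_ne_zero hf0 hym0), div_eq_mul_inv,
      P₁.ord_mul hf0 (inv_ne_zero hym0), P₁.ord_inv, ord_pow, hord P₁ hP₁, hyord P₁ hP₁]
    simp
  have hfU : f = y ^ m * U := by rw [hU]; field_simp
  have hQt : Q.adicValuation t⁻¹ = exp (1 : ℤ) := by
    rw [Q.adicValuation_eq_exp_neg_ord (inv_ne_zero ht0), Q.ord_inv, hcb, neg_neg]
  by_cases hcδ : c * δ ∈ A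
  · -- good case
    have h1 : R.Red (algebraMap K F c * (y ^ m - 1))
        (algebraMap k Fk (π ⟨c * δ, hcδ⟩) * (t⁻¹ * m)) := by
      have := RedDatum.smul_mem hcδ hym
      have h2 : algebraMap K F (c * δ) * (algebraMap K F δ⁻¹ * (y ^ m - 1)) =
          algebraMap K F c * (y ^ m - 1) := by
        rw [map_mul, map_inv₀]; field_simp
      rwa [h2] at this
    have h3 := RedDatum.div hπ (RedDatum.sub he h1) hympow one_ne_zero
    rw [div_one] at h3
    have h4 : (algebraMap K F c * (f - 1) - algebraMap K F c * (y ^ m - 1)) / y ^ m =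
        algebraMap K F c * (U - 1) := by
      rw [hfU]; field_simp; ring
    rw [h4] at h3
    have h5 := mem_of_regOn hr h3 (hUreg.const_mul c)
    have h6 : ubar = (ubar - algebraMap k Fk (π ⟨c * δ, hcδ⟩) * (t⁻¹ * m)) +
        algebraMap k Fk (π ⟨c * δ, hcδ⟩) * (t⁻¹ * m) := by ring
    rw [h6]
    refine (Valuation.map_add _ _ _).trans (max_le ?_ ?_)
    · exact (Q.adicValuation_le_one_of_mem h5).trans (by rw [← exp_zero, exp_le_exp]; norm_num)
    · rw [map_mul, map_mul, hQt]
      have h7 : Q.adicValuation (m : Fk) ≤ 1 := by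
        have := Q.adicValuation_algebraMap_le_one (m : k)
        simpa using this
      calc Q.adicValuation (algebraMap k Fk (π ⟨c * δ, hcδ⟩)) *
            (exp (1 : ℤ) * Q.adicValuation (m : Fk))
          ≤ 1 * (exp (1 : ℤ) * 1) :=
            mul_le_mul' (Q.adicValuation_algebraMap_le_one _) (mul_le_mul' le_rfl h7)
        _ = exp (1 : ℤ) := by rw [one_mul, mul_one]
  · -- impossible case
    exfalso
    have h1 : R.Red (algebraMap K F δ⁻¹ * (f - 1)) 0 := by
      refine RedDatum.red_zero_of_smul hπ hcδ (u := ubar) ?_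
      have h2 : algebraMap K F (c * δ) * (algebraMap K F δ⁻¹ * (f - 1)) =
          algebraMap K F c * (f - 1) := by
        rw [map_mul, map_inv₀]; field_simp
      rwa [h2]
    have h3 := RedDatum.div hπ (RedDatum.sub h1 hym) hympow one_ne_zero
    rw [div_one, zero_sub] at h3
    have h4 : (algebraMap K F δ⁻¹ * (f - 1) - algebraMap K F δ⁻¹ * (y ^ m - 1)) / y ^ m =
        algebraMap K F δ⁻¹ * (U - 1) := by
      rw [hfU]; field_simp; ring
    rw [h4] at h3
    have h5 := Q.adicValuation_le_one_of_mem (mem_of_regOn hr h3 (hUreg.const_mul δ⁻¹))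
    have h6 : Q.adicValuation (m : Fk) = 1 := by
      have h7 : algebraMap k Fk (m : k) ≠ 0 := (map_ne_zero _).mpr hm
      have := (ord_eq_zero_iff_val Q h7).mp (ord_algebraMap Q (m : k))
      simpa using this
    rw [Valuation.map_neg, map_mul, hQt, h6, mul_one, ← exp_zero, exp_le_exp] at h5
    norm_num at h5

end Local

section Main

variable {K F k Fk : Type*} [Field K] [Field F] [Algebra K F] [Field k] [Field Fk] [Algebra k Fk]
variable {A : ValuationSubring K} {π : A →+* k} {R : RedDatum K F k Fk A π}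
  {r : Place K F → Place k Fk}
variable [HasPrincipalDivisors K F] [IsAlgClosed K] [IsFF1 K F]

omit [HasPrincipalDivisors K F] [IsAlgClosed K] [IsFF1 K F] in
theorem degree_eq_sum (hdeg : ∀ P : Place K F, P.deg = 1) (D : Divisor K F) :
    Divisor.degree D = ∑ P ∈ D.support, D P := by
  rw [Divisor.degree, Finsupp.liftAddHom_apply, Finsupp.sum]
  refine Finset.sum_congr rfl fun v _ => ?_
  simp [hdeg]

/-- **Torsion injectivity**: if `m D` is principal (`m` prime to the residue characteristic), `D`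
has degree zero and the reduction of `D` is principal, then `D` is principal, provided there is a
reduced divisor `∑_{Q ∈ T} Q` of degree `g = genus F` on the special fibre with
`L(∑_{Q ∈ T} Q) = k`. -/
theorem isPrincipal_of_mapDomain (hπ : Function.Surjective π) (hr : PlaceRed R r) (g : ℕ)
    (hRiemann : ∀ D : Divisor K F, (g : ℤ) ≤ Divisor.degree D →
      ∃ w ∈ riemannRochSpace D, w ≠ 0)
    (T : Finset (Place k Fk)) (hT : T.card = g)
    (hTloc : ∀ Q ∈ T, HasLocalParam R r Q)
    (hTlift : ∀ Q ∈ T, ∃ P, r P = Q)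
    (hTone : ∀ u ∈ riemannRochSpace (K := k) (F := Fk) (∑ Q ∈ T, Finsupp.single Q (1 : ℤ)),
      ∃ c : k, u = algebraMap k Fk c)
    (hoff : ∃ P₀, r P₀ ∉ T)
    {m : ℕ} (hm : (m : k) ≠ 0) (D : Divisor K F) (hD : Divisor.degree D = 0)
    (hmD : Divisor.IsPrincipal (m • D))
    (hred : Divisor.IsPrincipal (Finsupp.mapDomain r D)) : Divisor.IsPrincipal D := by
  classical
  have hdeg : ∀ P : Place K F, P.deg = 1 := fun P => deg_eq_one P
  have hmap_add : ∀ D D' : Divisor K F, ∀ Q, Finsupp.mapDomain r (D + D') Q =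
      Finsupp.mapDomain r D Q + Finsupp.mapDomain r D' Q := fun D D' Q => by
    rw [Finsupp.mapDomain_add, Finsupp.add_apply]
  have hmap_sub : ∀ D D' : Divisor K F, ∀ Q, Finsupp.mapDomain r (D - D') Q =
      Finsupp.mapDomain r D Q - Finsupp.mapDomain r D' Q := fun D D' Q => by
    rw [← Finsupp.mapDomain.addMonoidHom_apply, map_sub, Finsupp.sub_apply]
    rfl
  have hmap_nsmul : ∀ (n : ℕ) (D : Divisor K F) (Q), Finsupp.mapDomain r (n • D) Q =
      n * Finsupp.mapDomain r D Q := fun n D Q => by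
    rw [← Finsupp.mapDomain.addMonoidHom_apply, map_nsmul, Finsupp.smul_apply, nsmul_eq_mul]
    rfl
  have hm0 : m ≠ 0 := by
    rintro rfl
    simp at hm
  obtain ⟨P₀, hP₀⟩ := hoff
  have : Nonempty (Place K F) := ⟨P₀⟩
  -- the lift of `T`
  choose! s hs using hTlift
  set S : Divisor k Fk := ∑ Q ∈ T, Finsupp.single Q (1 : ℤ) with hS
  have hSapply : ∀ Q, S Q = if Q ∈ T then 1 else 0 := by
    intro Q
    rw [hS, Finsupp.finsetSum_apply]
    simp only [Finsupp.single_apply]
    rw [Finset.sum_ite_eq' T Q (fun _ => (1 : ℤ))]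
  set E' : Divisor K F := ∑ Q ∈ T, Finsupp.single (s Q) (1 : ℤ) with hE'
  have hmapE' : Finsupp.mapDomain r E' = S := by
    rw [hE', hS, ← Finsupp.mapDomain.addMonoidHom_apply, map_sum]
    refine Finset.sum_congr rfl fun Q hQ => ?_
    rw [Finsupp.mapDomain.addMonoidHom_apply, Finsupp.mapDomain_single, hs Q hQ]
  have hE'nn : ∀ P, 0 ≤ E' P := by
    intro P
    rw [hE', Finsupp.finsetSum_apply]
    refine Finset.sum_nonneg fun Q _ => ?_
    rw [Finsupp.single_apply]
    split_ifs <;> norm_num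
  have hE'deg : Divisor.degree E' = g := by
    rw [hE', map_sum, ← hT]
    simp [hdeg]
  -- an effective divisor equivalent to `D + E'`
  obtain ⟨w, hwL, hw0⟩ := hRiemann (D + E') (by rw [map_add, hD, hE'deg, zero_add])
  obtain ⟨c₀, hc₀, u₀, hu₀, hwred⟩ := R.normalize w hw0
  set w' := algebraMap K F c₀ * w with hw'
  have hw'L : w' ∈ riemannRochSpace (D + E') := by
    rw [hw', ← Algebra.smul_def]
    exact Submodule.smul_mem _ _ hwL
  have hw'0 : w' ≠ 0 := RedDatum.ne_zero_of_red hwred hu₀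
  obtain ⟨W, hW, hWdeg⟩ := HasPrincipalDivisors.exists_divisor (K := K) w' hw'0
  set E : Divisor K F := W + D + E' with hE
  have hEnn : ∀ P, 0 ≤ E P := by
    intro P
    have := (mem_riemannRochSpace_iff.mp hw'L P).resolve_left hw'0
    rw [Finsupp.add_apply] at this
    rw [hE, Finsupp.add_apply, Finsupp.add_apply, hW]
    omega
  obtain ⟨g₀, hg₀, hg₀div⟩ := hred
  have hmapW : ∀ Q, Finsupp.mapDomain r W Q = Q.ord u₀ := fun Q => hr w' u₀ hwred hu₀ W hW Q
  have hmapE1 : ∀ Q, Finsupp.mapDomain r E Q = Q.ord (u₀ * g₀) + S Q := by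
    intro Q
    rw [hE, hmap_add, hmap_add, hmapW, hg₀div, hmapE', Q.ord_mul hu₀ hg₀]
  have hug0 : u₀ * g₀ ≠ 0 := mul_ne_zero hu₀ hg₀
  obtain ⟨c₁, hc₁⟩ := hTone (u₀ * g₀) (by
    rw [mem_riemannRochSpace_iff]
    intro Q
    right
    have h1 : 0 ≤ Finsupp.mapDomain r E Q := mapDomain_nonneg fun P _ => hEnn P
    rw [hmapE1] at h1
    linarith)
  have hmapE : ∀ Q, Finsupp.mapDomain r E Q = S Q := by
    intro Q
    rw [hmapE1, hc₁, ord_algebraMap, zero_add]
  -- it is enough to show that `E - E'` is principal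
  have hWprin : Divisor.IsPrincipal W := ⟨w', hw'0, hW⟩
  suffices hmain : Divisor.IsPrincipal (E - E') by
    have h1 : D = (E - E') - W := by rw [hE]; abel
    rw [h1]
    exact (Divisor.principal (K := K) (F := F)).sub_mem hmain hWprin
  have hmEE : Divisor.IsPrincipal (m • (E - E')) := by
    have h1 : m • (E - E') = m • D + m • W := by
      rw [hE, ← smul_add]; congr 1; abel
    rw [h1]
    exact (Divisor.principal (K := K) (F := F)).add_mem hmD
      ((Divisor.principal (K := K) (F := F)).nsmul_mem hWprin m)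
  obtain ⟨f₀, hf₀, hf₀div⟩ := hmEE
  -- normalise `f`
  obtain ⟨c₂, hc₂, u₂, hu₂, hf₂⟩ := R.normalize f₀ hf₀
  have hf₂0 : algebraMap K F c₂ * f₀ ≠ 0 := RedDatum.ne_zero_of_red hf₂ hu₂
  have hord_const_mul : ∀ (c : K) (w : F), c ≠ 0 → w ≠ 0 → ∀ P : Place K F,
      P.ord (algebraMap K F c * w) = P.ord w := fun c w hc hw P => by
    rw [P.ord_mul (by simpa using hc) hw, ord_algebraMap, zero_add]
  have hf₂div : ∀ P, (m • (E - E')) P = P.ord (algebraMap K F c₂ * f₀) := fun P => by
    rw [hord_const_mul c₂ f₀ hc₂ hf₀, hf₀div]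
  have hu₂ord : ∀ Q : Place k Fk, Q.ord u₂ = 0 := by
    intro Q
    rw [← hr _ _ hf₂ hu₂ _ hf₂div Q, hmap_nsmul, hmap_sub, hmapE, hmapE', sub_self, mul_zero]
  obtain ⟨c₃, hc₃⟩ := hTone u₂ (by
    rw [mem_riemannRochSpace_iff]
    intro Q
    right
    rw [hu₂ord, hSapply]
    split_ifs <;> norm_num)
  -- regularity off `T`
  have hoffE : ∀ P, r P ∉ T → E P = 0 := by
    intro P hP
    have h1 := le_mapDomain (r := r) (D := E) (Q := r P) (fun P' _ => hEnn P') rfl
    rw [hmapE, hSapply, if_neg hP] at h1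
    exact le_antisymm h1 (hEnn P)
  have hoffE' : ∀ P, r P ∉ T → E' P = 0 := by
    intro P hP
    have h1 := le_mapDomain (r := r) (D := E') (Q := r P) (fun P' _ => hE'nn P') rfl
    rw [hmapE', hSapply, if_neg hP] at h1
    exact le_antisymm h1 (hE'nn P)
  have hordf : ∀ (f : F), (∀ P, (m • (E - E')) P = P.ord f) → ∀ P, r P ∉ T → P.ord f = 0 := by
    intro f hf P hP
    rw [← hf, Finsupp.smul_apply, Finsupp.sub_apply, hoffE P hP, hoffE' P hP]
    simp
  -- value at `P₀`
  set f₂ := algebraMap K F c₂ * f₀ with hf₂def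
  have hreg₂ : ∀ Q, Q ∉ T → RegOn r Q f₂ := fun Q hQ P hP => by
    rw [mem_iff_ord _ hf₂0, hordf f₂ hf₂div P (by rwa [hP])]
  obtain ⟨b, hb⟩ := exists_const_of_mem P₀ (hreg₂ _ hP₀ P₀ rfl)
  obtain ⟨hbA, hb'⟩ := value_mem hπ hr hf₂ (hreg₂ _ hP₀) hb
  have hπb : π ⟨b, hbA⟩ = c₃ := by
    have h1 : (r P₀).adicValuation (algebraMap k Fk (c₃ - π ⟨b, hbA⟩)) < 1 := by
      rw [map_sub, ← hc₃]; exact hb'
    exact (sub_eq_zero.mp (const_eq_zero_of_val_lt_one h1)).symm
  have hc₃0 : c₃ ≠ 0 := by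
    rintro rfl
    exact hu₂ (by rw [hc₃, map_zero])
  have hb0 : b ≠ 0 := by
    rintro rfl
    apply hc₃0
    rw [← hπb]
    exact map_zero π
  set f : F := f₂ / algebraMap K F b with hfdef
  have hbF : algebraMap K F b ≠ 0 := by simpa using hb0
  have hf0 : f ≠ 0 := div_ne_zero hf₂0 hbF
  have hfred : R.Red f 1 := by
    have h1 := RedDatum.div hπ hf₂ (R.const ⟨b, hbA⟩) (by
      rw [hπb]; simpa using hc₃0)
    rw [hπb, ← hc₃, div_self hu₂] at h1
    exact h1
  have hfdiv : ∀ P, (m • (E - E')) P = P.ord f := fun P => by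
    rw [hf₂div, hfdef, div_eq_mul_inv, P.ord_mul hf₂0 (inv_ne_zero hbF), P.ord_inv,
      ord_algebraMap]
    simp
  have hfP₀ : P₀.adicValuation (f - 1) < 1 := by
    have h1 : f - 1 = algebraMap K F b⁻¹ * (f₂ - algebraMap K F b) := by
      rw [hfdef, map_inv₀]; field_simp
    rw [h1, map_mul]
    exact lt_of_le_of_lt (mul_le_of_le_one_left' (P₀.adicValuation_algebraMap_le_one _)) hb
  have hreg : ∀ Q, Q ∉ T → RegOn r Q f := fun Q hQ P hP => by
    rw [mem_iff_ord _ hf0, hordf f hfdiv P (by rwa [hP])]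
  rcases eq_or_ne f 1 with hf1 | hf1
  · -- `f = 1`
    have h1 : E - E' = 0 := by
      ext P
      have h2 := hfdiv P
      rw [hf1, P.ord_one, Finsupp.smul_apply, nsmul_eq_mul] at h2
      have h3 : (m : ℤ) ≠ 0 := by exact_mod_cast hm0
      simpa [h3, hm0] using h2
    rw [h1]
    exact (Divisor.principal (K := K) (F := F)).zero_mem
  -- `f ≠ 1`: contradiction
  exfalso
  have hf1' : f - 1 ≠ 0 := sub_ne_zero.mpr hf1
  obtain ⟨c, hc, ubar, hubar, he⟩ := R.normalize (f - 1) hf1'
  have hregE : ∀ Q, RegOn r Q f → Q.adicValuation ubar ≤ 1 := fun Q hQ =>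
    Q.adicValuation_le_one_of_mem (mem_of_regOn hr he
      (RegOn.const_mul (fun P hP => sub_mem (hQ P hP) (one_mem _)) c))
  obtain ⟨c₄, hc₄⟩ := hTone ubar (by
    intro Q
    rw [hSapply]
    split_ifs with hQ
    · -- `Q ∈ T`
      have hposE : ∃ P, r P = Q ∧ 0 < E P :=
        exists_pos_of_mapDomain_pos (by rw [hmapE, hSapply, if_pos hQ]; norm_num)
      obtain ⟨P, hP, hPpos⟩ := hposE
      have hposE' : ∃ P, r P = Q ∧ 0 < E' P :=
        exists_pos_of_mapDomain_pos (by rw [hmapE', hSapply, if_pos hQ]; norm_num)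
      obtain ⟨P', hP', hPpos'⟩ := hposE'
      have hE1 : ∀ P₁, r P₁ = Q → E P₁ = if P₁ = P then 1 else 0 := fun P₁ hP₁ =>
        eq_ite_of_mapDomain_eq_one (fun P' _ => hEnn P') (by rw [hmapE, hSapply, if_pos hQ]) hP
          hPpos hP₁
      have hE1' : ∀ P₁, r P₁ = Q → E' P₁ = if P₁ = P' then 1 else 0 := fun P₁ hP₁ =>
        eq_ite_of_mapDomain_eq_one (fun P' _ => hE'nn P') (by rw [hmapE', hSapply, if_pos hQ]) hP'
          hPpos' hP₁
      have hord1 : ∀ P₁, r P₁ = Q →
          P₁.ord f = m * ((if P₁ = P then (1 : ℤ) else 0) - if P₁ = P' then 1 else 0) := by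
        intro P₁ hP₁
        rw [← hfdiv, Finsupp.smul_apply, Finsupp.sub_apply, hE1 P₁ hP₁, hE1' P₁ hP₁, nsmul_eq_mul]
      by_cases hPP : P = P'
      · refine (hregE Q fun P₁ hP₁ => ?_).trans (by rw [← exp_zero, exp_le_exp]; norm_num)
        rw [mem_iff_ord _ hf0, hord1 P₁ hP₁, hPP, sub_self, mul_zero]
      · exact simple_pole hπ hr (hTloc Q hQ) hP hP' hPP hm hfred hord1 he
    · rw [exp_zero]
      exact hregE Q (hreg Q hQ))
  -- value of `ubar` at `r P₀`
  have hval : (r P₀).adicValuation ubar < 1 := by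
    refine val_lt_one_of_regOn hr he
      (RegOn.const_mul (fun P hP => sub_mem (hreg _ hP₀ P hP) (one_mem _)) c) ?_
    rw [map_mul]
    exact lt_of_le_of_lt (mul_le_of_le_one_left' (P₀.adicValuation_algebraMap_le_one _)) hfP₀
  rw [hc₄] at hval
  apply hubar
  rw [hc₄, const_eq_zero_of_val_lt_one hval, map_zero]

end Main

end Fermat.Agent.JRED
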