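import Mathlib
import Fermat.Agent.RR.Duality
import Fermat.Agent.FF.Rel

/-!
# Descent of good reduction, part 2: regular functions off the poles of `x`, strong approximation
-/

set_option autoImplicit false

noncomputable section

open AlgebraicCurve IsLocalRing IntermediateField WithZero

namespace Fermat.Agent.JRED.Descent

open Fermat.Agent.RR

section

variable {K F : Type*} [Field K] [Field F] [Algebra K F]

variable (K) in
/-- The functions which are regular outside the poles of `x`. -/
def regOff (x : F) : Subalgebra K F where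
  carrier := {f | ∀ v : Place K F, x ∈ v.toValuationSubring → f ∈ v.toValuationSubring}
  mul_mem' hf hg v hv := mul_mem (hf v hv) (hg v hv)
  add_mem' hf hg v hv := add_mem (hf v hv) (hg v hv)
  algebraMap_mem' a v _ := v.algebraMap_mem' a

theorem mem_regOff {x f : F} :
    f ∈ regOff K x ↔ ∀ v : Place K F, x ∈ v.toValuationSubring → f ∈ v.toValuationSubring :=
  Iff.rfl

theorem self_mem_regOff (x : F) : x ∈ regOff K x := fun _ h => h

theorem isFF1_of_functionField [h : FunctionField K F] : Fermat.FF.IsFF1 K F :=
  ⟨h.exists_finite⟩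

variable [FunctionField K F]

theorem finiteDimensional_of_transcendental {x : F} (hx : Transcendental K x) :
    FiniteDimensional K⟮x⟯ F :=
  haveI := isFF1_of_functionField (K := K) (F := F)
  Fermat.FF.IsFF1.finiteDimensional_adjoin hx

theorem mem_riemannRochSpace_nsmul_iff {x f : F} {m : ℕ} :
    f ∈ riemannRochSpace (m • polesOf (K := K) x) ↔
      ∀ v : Place K F, f = 0 ∨ (m : ℤ) * min (v.ord x) 0 ≤ v.ord f := by
  rw [mem_riemannRochSpace_iff]
  refine forall_congr' fun v => or_congr Iff.rfl ?_
  have h1 : (m • polesOf (K := K) x) v = (m : ℤ) * max (-v.ord x) 0 := by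
    rw [Finsupp.smul_apply, polesOf_apply, nsmul_eq_mul]
  rw [h1]
  have h2 : -max (-v.ord x) 0 = min (v.ord x) 0 := by omega
  rw [← h2, mul_neg]

theorem riemannRochSpace_nsmul_le_regOff (x : F) (m : ℕ) :
    riemannRochSpace (m • polesOf (K := K) x) ≤ Subalgebra.toSubmodule (regOff K x) := by
  intro f hf v hv
  rw [mem_riemannRochSpace_nsmul_iff] at hf
  rcases hf v with h | h
  · rw [h]; exact zero_mem _
  · apply mem_of_ord_nonneg
    have h1 := ord_nonneg_of_mem v hv
    rw [min_eq_right h1, mul_zero] at h
    exact h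

theorem exists_mem_riemannRochSpace {x f : F} (hf : f ∈ regOff K x) :
    ∃ m : ℕ, f ∈ riemannRochSpace (m • polesOf (K := K) x) := by
  refine ⟨((polesOf (K := K) f).sum fun _ n => n.toNat), ?_⟩
  rw [mem_riemannRochSpace_nsmul_iff]
  intro v
  by_cases h0 : f = 0
  · exact Or.inl h0
  right
  by_cases hv : x ∈ v.toValuationSubring
  · have h1 := ord_nonneg_of_mem v hv
    have h2 := ord_nonneg_of_mem v (hf v hv)
    rw [min_eq_right h1, mul_zero]
    exact h2
  · have h1 : v.ord x < 0 := by
      by_contra h
      exact hv (mem_of_ord_nonneg v (not_lt.mp h))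
    rw [min_eq_left h1.le]
    have h2 : (-v.ord f).toNat ≤ (polesOf (K := K) f).sum fun _ n => n.toNat := by
      by_cases h3 : v ∈ (polesOf (K := K) f).support
      · have h4 := Finset.single_le_sum (f := fun w => (polesOf (K := K) f w).toNat)
          (fun _ _ => Nat.zero_le _) h3
        have h5 : (polesOf (K := K) f v).toNat = (-v.ord f).toNat := by
          rw [polesOf_apply]; omega
        rw [h5] at h4
        exact h4
      · rw [Finsupp.notMem_support_iff, polesOf_apply] at h3
        have : (-v.ord f).toNat = 0 := by omega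
        rw [this]
        exact Nat.zero_le _
    have h3 : -v.ord f ≤ (((polesOf (K := K) f).sum fun _ n => n.toNat : ℕ) : ℤ) := by
      have := Int.self_le_toNat (-v.ord f)
      have h4 : (((-v.ord f).toNat : ℕ) : ℤ) ≤
          (((polesOf (K := K) f).sum fun _ n => n.toNat : ℕ) : ℤ) := by exact_mod_cast h2
      linarith
    set M : ℤ := (((polesOf (K := K) f).sum fun _ n => n.toNat : ℕ) : ℤ) with hM
    have hM0 : 0 ≤ M := Int.natCast_nonneg _
    nlinarith

theorem riemannRochSpace_nsmul_mono (x : F) {m n : ℕ} (h : m ≤ n) :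
    riemannRochSpace (m • polesOf (K := K) x) ≤ riemannRochSpace (n • polesOf (K := K) x) := by
  intro f hf
  rw [mem_riemannRochSpace_nsmul_iff] at hf ⊢
  intro v
  refine (hf v).imp_right fun h1 => le_trans ?_ h1
  have h2 : min (v.ord x) 0 ≤ 0 := min_le_right _ _
  have h3 : (m : ℤ) ≤ n := by exact_mod_cast h
  nlinarith

theorem zeros_finite (u : F) : {v : Place K F | 0 < v.ord u}.Finite := by
  refine ((divOf (K := K) u).support.finite_toSet).subset fun v hv => ?_
  rw [Finset.mem_coe, Finsupp.mem_support_iff, divOf_apply]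
  exact (ne_of_gt hv)

variable [IsAlgClosed K]

/-- **Strong approximation** off the poles of `x`. -/
theorem exists_approx {x : F} (hx : Transcendental K x)
    (S : Finset (Place K F)) (hS : ∀ v ∈ S, x ∈ v.toValuationSubring) (z : Place K F → F)
    (N : ℕ) :
    ∃ g : F, (∀ v ∈ S, g - z v = 0 ∨ (N : ℤ) ≤ v.ord (g - z v)) ∧
      ∀ v, v ∉ S → x ∈ v.toValuationSubring → g ∈ v.toValuationSubring := by
  classical
  have := finiteDimensional_of_transcendental (K := K) hx
  have hd : 0 < Divisor.degree (polesOf (K := K) x) := by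
    rw [degree_polesOf hx]
    exact_mod_cast Module.finrank_pos
  set E : Divisor K F := ∑ v ∈ S, Finsupp.single v (N : ℤ) with hE
  obtain ⟨m, hm⟩ : ∃ m : ℕ, 2 * (genusFF K F : ℤ) - 2 <
      Divisor.degree (m • polesOf (K := K) x - E) := by
    refine ⟨(2 * (genusFF K F : ℤ) + Divisor.degree E).toNat, ?_⟩
    rw [map_sub, map_nsmul, nsmul_eq_mul]
    have h1 := Int.self_le_toNat (2 * (genusFF K F : ℤ) + Divisor.degree E)
    have h2 : (0 : ℤ) ≤ ((2 * (genusFF K F : ℤ) + Divisor.degree E).toNat : ℤ) :=
      Int.natCast_nonneg _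
    nlinarith
  have hEv : ∀ v, E v = if v ∈ S then (N : ℤ) else 0 := by
    intro v
    rw [hE, Finsupp.finsetSum_apply]
    simp only [Finsupp.single_apply]
    rw [Finset.sum_ite_eq' S v]
  have htop := sup_eq_top hm
  let α : Place K F → F := fun v => if v ∈ S then z v else 0
  have hα : α ∈ repartitions K F := by
    apply mem_repartitions_of_finite_ord
    refine S.finite_toSet.subset fun v hv => ?_
    by_contra hvS
    have h1 : α v = 0 := if_neg hvS
    rw [Set.mem_ofPred_eq, h1, Place.ord_zero] at hv
    exact lt_irrefl _ hv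
  have hmem : (⟨α, hα⟩ : ↥(repartitions K F)) ∈
      repartitionsOf (m • polesOf (K := K) x - E) ⊔ principalRepartitions K F := by
    rw [htop]; trivial
  obtain ⟨β, hβ, γ, hγ, hsum⟩ := Submodule.mem_sup.mp hmem
  obtain ⟨g, hg⟩ := mem_principalRepartitions_iff.mp hγ
  have hval : ∀ v, (β : Place K F → F) v = α v - g := by
    intro v
    have h1 := congrFun (congrArg (Subtype.val) hsum) v
    have h2 : (β : Place K F → F) v + (γ : Place K F → F) v = α v := h1
    rw [hg] at h2
    rw [← h2]
    ring
  have hβ' := mem_repartitionsOf_iff.mp hβ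
  have hDv : ∀ v, x ∈ v.toValuationSubring →
      (m • polesOf (K := K) x - E) v = -(if v ∈ S then (N : ℤ) else 0) := by
    intro v hv
    have h1 := ord_nonneg_of_mem v hv
    rw [Finsupp.sub_apply, Finsupp.smul_apply, polesOf_apply, hEv,
      max_eq_right (by omega : -v.ord x ≤ 0)]
    simp
  refine ⟨g, fun v hv => ?_, fun v hv hxv => ?_⟩
  · have h1 := hβ' v
    rw [hDv v (hS v hv), if_pos hv, neg_neg, hval v] at h1
    have h2 : α v = z v := if_pos hv
    rw [h2] at h1
    rcases h1 with h1 | h1
    · left
      rw [← neg_sub, h1, neg_zero]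
    · right
      rwa [ord_sub_comm]
  · have h1 := hβ' v
    rw [hDv v hxv, if_neg hv, neg_zero, neg_zero, hval v] at h1
    have h2 : α v = 0 := if_neg hv
    rw [h2, zero_sub] at h1
    rcases h1 with h1 | h1
    · rw [neg_eq_zero.mp h1]
      exact zero_mem _
    · rw [ord_neg] at h1
      exact mem_of_ord_nonneg v h1

end

end Fermat.Agent.JRED.Descent
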