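import Mathlib
import Fermat.Agent.JRED.DescentApprox
import Fermat.Agent.FF.GenLocal
import Fermat.Agent.RR.Instance

/-!
# The integrality condition `XInt`

`y` satisfies `y ^ n + ∑ Pᵢ(x) y ^ (n - i) = 0` with `deg Pᵢ ≤ m i` if and only if
`y ∈ L(m (x)_∞)`.
-/

set_option autoImplicit false

noncomputable section

open AlgebraicCurve IsLocalRing IntermediateField WithZero Polynomial IsDedekindDomain

namespace Fermat.Agent.JRED.IntRed

open Fermat.Agent.RR Fermat.Agent.JRED.Descent

theorem isIntegral_of_sum' {R S : Type*} [CommRing R] [CommRing S] [Algebra R S] {n : ℕ} {x : S}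
    (a : ℕ → R) (h : x ^ n + ∑ i ∈ Finset.range n, algebraMap R S (a i) * x ^ i = 0) :
    IsIntegral R x := by
  refine ⟨X ^ n + ∑ i ∈ Finset.range n, C (a i) * X ^ i, ?_, ?_⟩
  · rcases Nat.eq_zero_or_pos n with rfl | hn
    · simp
    · refine monic_X_pow_add ?_
      refine (degree_sum_le _ _).trans_lt ?_
      rw [Finset.sup_lt_iff (by exact WithBot.bot_lt_coe n)]
      intro i hi
      exact (degree_C_mul_X_pow_le _ _).trans_lt (by exact_mod_cast Finset.mem_range.mp hi)
  · simp only [eval₂_add, eval₂_pow, eval₂_X, eval₂_finsetSum, eval₂_mul, eval₂_C]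
    exact h

theorem sum_Icc_flip' {M : Type*} [AddCommMonoid M] (n : ℕ) (f : ℕ → M) :
    ∑ i ∈ Finset.Icc 1 n, f i = ∑ i ∈ Finset.range n, f (n - i) := by
  refine Finset.sum_nbij' (fun i => n - i) (fun i => n - i) ?_ ?_ ?_ ?_ ?_
  · intro i hi
    rw [Finset.mem_Icc] at hi
    rw [Finset.mem_range]
    omega
  · intro i hi
    rw [Finset.mem_range] at hi
    rw [Finset.mem_Icc]
    omega
  · intro i hi
    rw [Finset.mem_Icc] at hi
    omega
  · intro i hi
    rw [Finset.mem_range] at hi
    omega
  · intro i hi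
    rw [Finset.mem_Icc] at hi
    congr 1
    omega

section Abstract

variable {K F : Type*} [Field K] [Field F] [Algebra K F]

variable (K) in
/-- `y ^ n + ∑ Pᵢ(x) y ^ (n - i) = 0` with `deg Pᵢ ≤ m i`. -/
def XInt (x : F) (m : ℕ) (y : F) : Prop :=
  ∃ (n : ℕ) (P : ℕ → K[X]), 0 < n ∧ (∀ i ∈ Finset.Icc 1 n, (P i).natDegree ≤ m * i) ∧
    y ^ n + ∑ i ∈ Finset.Icc 1 n, aeval x (P i) * y ^ (n - i) = 0

theorem aeval_div_pow_mem {x : F} (hx0 : x ≠ 0) (P : K[X]) {r : ℕ} (hr : P.natDegree ≤ r) :
    aeval x P / x ^ r ∈ Algebra.adjoin K {x⁻¹} := by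
  rw [aeval_eq_sum_range, Finset.sum_div]
  refine sum_mem fun i hi => ?_
  rw [Finset.mem_range] at hi
  rw [Algebra.smul_def, mul_div_assoc]
  refine mul_mem (Subalgebra.algebraMap_mem _ _) ?_
  have : x ^ i / x ^ r = x⁻¹ ^ (r - i) := by
    rw [inv_pow, div_eq_iff (pow_ne_zero _ hx0), ← div_eq_inv_mul,
      eq_div_iff (pow_ne_zero _ hx0), ← pow_add]
    congr 1
    omega
  rw [this]
  exact pow_mem (Algebra.subset_adjoin (Set.mem_singleton _)) _

theorem XInt.isIntegral {x : F} {m : ℕ} {y : F} (h : XInt K x m y) :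
    IsIntegral (Algebra.adjoin K {x}) y := by
  obtain ⟨n, P, hn, hP, h⟩ := h
  refine isIntegral_of_sum' (n := n)
    (fun i => ⟨aeval x (P (n - i)), aeval_mem_adjoin_singleton K x⟩) ?_
  rw [← h, sum_Icc_flip']
  congr 1
  refine Finset.sum_congr rfl fun i hi => ?_
  rw [Finset.mem_range] at hi
  rw [show n - (n - i) = i by omega]
  rfl

theorem XInt.isIntegral_inv {x : F} (hx0 : x ≠ 0) {m : ℕ} {y : F} (h : XInt K x m y) :
    IsIntegral (Algebra.adjoin K {x⁻¹}) (y / x ^ m) := by
  obtain ⟨n, P, hn, hP, h⟩ := h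
  have hex : ∀ i, ∃ Q : Algebra.adjoin K {x⁻¹}, i ∈ Finset.Icc 1 n →
      (Q : F) = aeval x (P i) / x ^ (m * i) := by
    intro i
    by_cases hi : i ∈ Finset.Icc 1 n
    · exact ⟨⟨_, aeval_div_pow_mem hx0 (P i) (hP i hi)⟩, fun _ => rfl⟩
    · exact ⟨0, fun h => absurd h hi⟩
  choose Q hQ using hex
  refine isIntegral_of_sum' (n := n) (fun i => Q (n - i)) ?_
  have h1 : (y ^ n + ∑ i ∈ Finset.Icc 1 n, aeval x (P i) * y ^ (n - i)) /
      x ^ (m * n) = 0 := by rw [h, zero_div]
  rw [← h1, sum_Icc_flip', add_div, Finset.sum_div, div_pow, ← pow_mul]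
  congr 1
  refine Finset.sum_congr rfl fun i hi => ?_
  rw [Finset.mem_range] at hi
  rw [show n - (n - i) = i by omega]
  change (Q (n - i) : F) * _ = _
  rw [hQ (n - i) (by rw [Finset.mem_Icc]; omega), div_pow, ← pow_mul, div_mul_div_comm, ← pow_add]
  congr 2
  rw [← mul_add]
  congr 1
  omega

/-- integral elements are in the valuation ring -/
theorem mem_of_isIntegral_adjoin (v : Place K F) {x y : F} (hx : x ∈ v.toValuationSubring)
    (hy : IsIntegral (Algebra.adjoin K {x}) y) : y ∈ v.toValuationSubring := by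
  have hle : ∀ r : Algebra.adjoin K {x}, (r : F) ∈ v.toValuationSubring := by
    intro r
    have h1 : Algebra.adjoin K {x} ≤
        ({ v.toValuationSubring.toSubring with algebraMap_mem' := v.algebraMap_mem' } :
          Subalgebra K F) := by
      rw [Algebra.adjoin_le_iff, Set.singleton_subset_iff]
      exact hx
    exact h1 r.2
  obtain ⟨p, hp, hp0⟩ := hy
  have : IsIntegral v.toValuationSubring y := by
    let g : Algebra.adjoin K {x} →+* v.toValuationSubring :=
      { toFun := fun r => ⟨r, hle r⟩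
        map_one' := rfl
        map_mul' := fun _ _ => rfl
        map_zero' := rfl
        map_add' := fun _ _ => rfl }
    refine ⟨p.map g, hp.map g, ?_⟩
    rw [eval₂_map]
    exact hp0
  obtain ⟨z, hz⟩ := IsIntegrallyClosed.isIntegral_iff.mp this
  rw [← hz]
  exact z.2

theorem mem_regOff_of_isIntegral {x y : F} (hy : IsIntegral (Algebra.adjoin K {x}) y) :
    y ∈ regOff K x := fun v hv => mem_of_isIntegral_adjoin v hv hy

variable [FunctionField K F]

theorem XInt.mem {x : F} (hx0 : x ≠ 0) {m : ℕ} {y : F} (h : XInt K x m y) :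
    y ∈ riemannRochSpace (m • polesOf (K := K) x) := by
  rw [mem_riemannRochSpace_nsmul_iff]
  intro v
  by_cases hy0 : y = 0
  · exact Or.inl hy0
  right
  by_cases hv : x ∈ v.toValuationSubring
  · rw [min_eq_right (ord_nonneg_of_mem v hv), mul_zero]
    exact ord_nonneg_of_mem v (mem_of_isIntegral_adjoin v hv h.isIntegral)
  · have h1 : v.ord x < 0 := by
      by_contra h
      exact hv (mem_of_ord_nonneg v (not_lt.mp h))
    rw [min_eq_left h1.le]
    have h2 : x⁻¹ ∈ v.toValuationSubring := by
      apply mem_of_ord_nonneg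
      rw [v.ord_inv]
      omega
    have h3 := ord_nonneg_of_mem v (mem_of_isIntegral_adjoin v h2 (h.isIntegral_inv hx0))
    rw [ord_div v hy0 (pow_ne_zero _ hx0), ord_pow] at h3
    omega

/-- A function which is regular off the poles of `x` is integral over `K[x]`. -/
theorem isIntegral_of_mem_regOff {x : F} (hx : Transcendental K x) {y : F}
    (hy : y ∈ regOff K x) : IsIntegral (Algebra.adjoin K {x}) y := by
  open scoped IntermediateField.algebraAdjoinAdjoin in
  have := finiteDimensional_of_transcendental (K := K) hx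
  have h1 := Fermat.FF.Gen.finite_integralClosure_adjoin hx F
  have : IsPrincipalIdealRing (Algebra.adjoin K {x}) := isPrincipalIdealRing_adjoin hx
  have h2 : IsDedekindDomain (integralClosure (Algebra.adjoin K {x}) F) :=
    Fermat.FF.Gen.isDedekindDomain_integralClosure _ K⟮x⟯ F
  have h3 : IsFractionRing (integralClosure (Algebra.adjoin K {x}) F) F :=
    integralClosure.isFractionRing_of_finite_extension K⟮x⟯ F
  have h4 := HeightOneSpectrum.mem_integers_of_valuation_le_one
    (R := integralClosure (Algebra.adjoin K {x}) F) F y ?_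
  · obtain ⟨z, hz⟩ := h4
    rw [← hz]
    exact z.2
  · intro P
    have h5 : y ∈ (Place.ofHeightOneSpectrum (K := K) (F := F) P).toValuationSubring := by
      apply hy
      rw [Place.ofHeightOneSpectrum_toValuationSubring]
      have h6 := P.valuation_le_one (K := F) (algebraMap (Algebra.adjoin K {x})
        (integralClosure (Algebra.adjoin K {x}) F) ⟨x, Algebra.self_mem_adjoin_singleton K x⟩)
      exact h6
    rw [Place.ofHeightOneSpectrum_toValuationSubring] at h5
    exact h5

omit [FunctionField K F] in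
open scoped IntermediateField.algebraAdjoinAdjoin in
/-- The coefficients of the minimal polynomial over `K(x)` of an element integral over `K[x]` are
polynomials in `x`. -/
theorem minpoly_coeff_eq {x : F} (hx : Transcendental K x) (L : IntermediateField K F)
    (hL : L = K⟮x⟯) {y : F} (hy : IsIntegral (Algebra.adjoin K {x}) y) (i : ℕ) :
    ∃ P : K[X], (((minpoly L y).coeff i : L) : F) = aeval x P := by
  subst hL
  have : IsPrincipalIdealRing (Algebra.adjoin K {x}) := isPrincipalIdealRing_adjoin hx
  have h1 := minpoly.isIntegrallyClosed_eq_field_fractions' (R := Algebra.adjoin K {x})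
    (K := K⟮x⟯) hy
  rw [h1, coeff_map]
  have h2 : ((minpoly (Algebra.adjoin K {x}) y).coeff i : F) ∈ Algebra.adjoin K {x} :=
    Subtype.property _
  have h3 : ((minpoly (Algebra.adjoin K {x}) y).coeff i : F) ∈ (aeval (R := K) x).range := by
    rw [← Algebra.adjoin_singleton_eq_range_aeval]
    exact h2
  obtain ⟨P, hP⟩ := h3
  exact ⟨P, hP.symm⟩

omit [FunctionField K F] in
theorem natDegree_le_of_aeval_eq {x : F} (hx : Transcendental K x) {P Q : K[X]} {r : ℕ}
    (h : aeval x P = x ^ r * aeval x⁻¹ Q) : P.natDegree ≤ r := by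
  have hx0 : x ≠ 0 := by
    rintro rfl
    exact hx isAlgebraic_zero
  set s := Q.natDegree with hs
  let R : K[X] := ∑ i ∈ Finset.range (s + 1), C (Q.coeff i) * X ^ (s - i)
  have h1 : aeval x (X ^ s * P) = aeval x (X ^ r * R) := by
    simp only [R]
    rw [map_mul, map_mul, h, map_pow, map_pow, aeval_X, aeval_eq_sum_range, map_sum,
      Finset.mul_sum, Finset.mul_sum, Finset.mul_sum]
    refine Finset.sum_congr rfl fun i hi => ?_
    rw [Finset.mem_range] at hi
    rw [map_mul, aeval_C, map_pow, aeval_X, Algebra.smul_def]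
    have h2 : x ^ s = x ^ (s - i) * x ^ i := by rw [← pow_add]; congr 1; omega
    rw [h2, inv_pow]
    field_simp
  have h2 := transcendental_iff_injective.mp hx h1
  have h3 : R.natDegree ≤ s := by
    refine natDegree_sum_le_of_forall_le _ _ fun i _ => ?_
    refine (natDegree_C_mul_X_pow_le _ _).trans (Nat.sub_le _ _)
  by_cases hP0 : P = 0
  · rw [hP0]; simp
  have h4 : (X ^ s * P).natDegree = s + P.natDegree := by
    rw [natDegree_mul (pow_ne_zero _ X_ne_zero) hP0, natDegree_X_pow]
  have h5 : (X ^ r * R).natDegree ≤ r + s := by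
    refine natDegree_mul_le.trans ?_
    rw [natDegree_X_pow]
    omega
  rw [← h2, h4] at h5
  omega

omit [FunctionField K F] in
theorem xInt_of_isIntegral {x : F} (hx : Transcendental K x) [FiniteDimensional K⟮x⟯ F] {m : ℕ}
    {y : F} (h1 : IsIntegral (Algebra.adjoin K {x}) y)
    (h2 : IsIntegral (Algebra.adjoin K {x⁻¹}) (y / x ^ m)) : XInt K x m y := by
  have hx0 : x ≠ 0 := by
    rintro rfl
    exact hx isAlgebraic_zero
  have hxi : Transcendental K x⁻¹ := fun h => hx (by simpa using h.inv)
  set L := K⟮x⟯ with hL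
  have hyL : IsIntegral L y := IsIntegral.of_finite L y
  let p := minpoly L y
  let g : L := AdjoinSimple.gen K x
  have hg : (g : F) = x := rfl
  have hg0 : g ≠ 0 := fun h => hx0 (by rw [← hg, h]; rfl)
  have h3 : minpoly L (y / x ^ m) = p.scaleRoots ((g ^ m)⁻¹) := by
    have h4 : y / x ^ m = ((g ^ m)⁻¹ : L) • y := by
      rw [Algebra.smul_def, div_eq_inv_mul]
      rfl
    rw [h4]
    exact IsIntegrallyClosed.minpoly_smul (inv_ne_zero (pow_ne_zero _ hg0)) hyL
  have hP := minpoly_coeff_eq hx L rfl h1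
  have hQ := minpoly_coeff_eq hxi L (adjoin_inv x).symm h2
  choose P hP using hP
  choose Q hQ using hQ
  refine ⟨p.natDegree, fun i => P (p.natDegree - i), minpoly.natDegree_pos hyL, ?_, ?_⟩
  · intro i hi
    rw [Finset.mem_Icc] at hi
    apply natDegree_le_of_aeval_eq hx (Q := Q (p.natDegree - i))
    rw [← hP, ← hQ, h3, coeff_scaleRoots, show p.natDegree - (p.natDegree - i) = i by omega]
    push_cast
    rw [hg, inv_pow, ← pow_mul]
    have : x ^ (m * i) ≠ 0 := pow_ne_zero _ hx0
    change ((p.coeff (p.natDegree - i) : L) : F) = _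
    field_simp
  · have h4 := minpoly.aeval L y
    rw [aeval_eq_sum_range, Finset.sum_range_succ] at h4
    have h5 : (minpoly L y).coeff (minpoly L y).natDegree = 1 := (minpoly.monic hyL).coeff_natDegree
    rw [h5, one_smul] at h4
    rw [← h4, sum_Icc_flip', add_comm]
    congr 1
    refine Finset.sum_congr rfl fun i hi => ?_
    have hi : i < p.natDegree := Finset.mem_range.mp hi
    change aeval x (P (p.natDegree - (p.natDegree - i))) * y ^ (p.natDegree - (p.natDegree - i)) = _
    rw [show p.natDegree - (p.natDegree - i) = i by omega, ← hP, Algebra.smul_def]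
    rfl

/-- Elements of `L(m (x)_∞)` satisfy an equation over `K[x]` with degree bounds. -/
theorem xInt_of_mem {x : F} (hx : Transcendental K x) {m : ℕ} {y : F}
    (h : y ∈ riemannRochSpace (m • polesOf (K := K) x)) : XInt K x m y := by
  have hx0 : x ≠ 0 := by
    rintro rfl
    exact hx isAlgebraic_zero
  have hxi : Transcendental K x⁻¹ := fun h => hx (by simpa using h.inv)
  have := finiteDimensional_of_transcendental (K := K) hx
  refine xInt_of_isIntegral hx (isIntegral_of_mem_regOff hx
    (riemannRochSpace_nsmul_le_regOff x m h)) (isIntegral_of_mem_regOff hxi fun v hv => ?_)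
  by_cases hy0 : y = 0
  · rw [hy0, zero_div]; exact zero_mem _
  have h1 := ((mem_riemannRochSpace_nsmul_iff.mp h) v).resolve_left hy0
  apply mem_of_ord_nonneg
  rw [ord_div v hy0 (pow_ne_zero _ hx0), ord_pow]
  have h2 := ord_nonneg_of_mem v hv
  rw [v.ord_inv] at h2
  rw [min_eq_left (by omega)] at h1
  omega

end Abstract

end Fermat.Agent.JRED.IntRed
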