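import Mathlib
import Fermat.Agent.JRED.Interface

/-!
# Descent of good reduction, part 1: norms are compatible with reduction
-/

set_option autoImplicit false

noncomputable section

open AlgebraicCurve IsLocalRing

namespace Fermat.Agent.JRED.Descent

section Single

variable {K k : Type*} [Field K] [Field k]
variable {A : ValuationSubring K} {π : A →+* k} {F F' : Type*} [Field F] [Field F']
    [Algebra K F] [Algebra k F'] (C : ConstRed A π F F')

theorem res_eq_zero_iff (f : C.O) : C.res f = 0 ↔ ¬ IsUnit f := by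
  constructor
  · intro h hu
    exact (hu.map C.res).ne_zero h
  · intro h
    have hmax : (RingHom.ker C.res).IsMaximal := RingHom.ker_isMaximal_of_surjective _ C.res_surjective
    have h1 : RingHom.ker C.res = maximalIdeal C.O := IsLocalRing.eq_maximalIdeal hmax
    rw [← RingHom.mem_ker, h1]
    exact (IsLocalRing.mem_maximalIdeal f).mpr h

theorem res_ne_zero_iff (f : C.O) : C.res f ≠ 0 ↔ IsUnit f := by
  rw [Ne, res_eq_zero_iff, not_not]

theorem inv_mem_of_res_ne_zero {f : F} (hf : f ∈ C.O) (h : C.res ⟨f, hf⟩ ≠ 0) : f⁻¹ ∈ C.O := by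
  have hu := (res_ne_zero_iff C _).mp h
  obtain ⟨g, hg⟩ := hu.exists_right_inv
  have h1 : f * (g : F) = 1 := congrArg Subtype.val hg
  have h2 : f⁻¹ = g := inv_eq_of_mul_eq_one_right h1
  rw [h2]
  exact g.2

theorem not_mem_iff {f : F} : f ∉ C.O ↔ ∃ h : f⁻¹ ∈ C.O, f ≠ 0 ∧ C.res ⟨f⁻¹, h⟩ = 0 := by
  constructor
  · intro hf
    have h1 : f⁻¹ ∈ C.O := (C.O.mem_or_inv_mem f).resolve_left hf
    have hf0 : f ≠ 0 := fun h => hf (h ▸ zero_mem _)
    refine ⟨h1, hf0, ?_⟩
    by_contra hne
    apply hf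
    have := inv_mem_of_res_ne_zero C h1 hne
    rwa [inv_inv] at this
  · rintro ⟨h, hf0, hres⟩ hf
    rw [res_eq_zero_iff] at hres
    apply hres
    refine IsUnit.of_mul_eq_one ⟨f, hf⟩ (Subtype.ext ?_)
    exact inv_mul_cancel₀ hf0

end Single

theorem exists_normalize {F ι : Type*} [Field F] [Fintype ι] (O : ValuationSubring F)
    (a : ι → F) (ha : a ≠ 0) : ∃ i₀, a i₀ ≠ 0 ∧ ∀ i, a i / a i₀ ∈ O := by
  obtain ⟨j, hj⟩ := Function.ne_iff.mp ha
  obtain ⟨i₀, -, hi₀⟩ := Finset.exists_max_image Finset.univ (fun i => O.valuation (a i))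
    ⟨j, Finset.mem_univ j⟩
  have h0 : O.valuation (a i₀) ≠ 0 := by
    intro h
    have h1 := hi₀ j (Finset.mem_univ j)
    rw [h, le_zero_iff, Valuation.zero_iff] at h1
    exact hj h1
  refine ⟨i₀, (Valuation.ne_zero_iff _).mp h0, fun i => ?_⟩
  rw [← ValuationSubring.valuation_le_one_iff, map_div₀]
  exact div_le_one_of_le₀ (hi₀ i (Finset.mem_univ i)) zero_le

section Pair

variable {K k : Type*} [Field K] [Field k]
variable {A : ValuationSubring K} {π : A →+* k} {F F' F₁ F₁' : Type*} [Field F] [Field F']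
    [Algebra K F] [Algebra k F'] [Field F₁] [Field F₁'] [Algebra K F₁] [Algebra k F₁']
    [Algebra F F₁] [Algebra F' F₁']

/-- The constant reduction `C₁` extends `C`. -/
structure Ext (C : ConstRed A π F F') (C₁ : ConstRed A π F₁ F₁') : Prop where
  mem : ∀ f : C.O, algebraMap F F₁ f ∈ C₁.O
  res : ∀ f : C.O, C₁.res ⟨algebraMap F F₁ f, mem f⟩ = algebraMap F' F₁' (C.res f)

variable {C : ConstRed A π F F'} {C₁ : ConstRed A π F₁ F₁'} (E : Ext C C₁)

include E

theorem Ext.mem_iff {f : F} : algebraMap F F₁ f ∈ C₁.O ↔ f ∈ C.O := by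
  constructor
  · intro h
    by_contra hf
    obtain ⟨h1, hf0, h2⟩ := (not_mem_iff C).mp hf
    have h3 : algebraMap F F₁ f ∉ C₁.O := by
      rw [not_mem_iff]
      have h4 := E.mem ⟨f⁻¹, h1⟩
      have h5 := E.res ⟨f⁻¹, h1⟩
      rw [h2, map_zero] at h5
      simp only [map_inv₀] at h4 h5
      exact ⟨h4, by simpa using hf0, h5⟩
    exact h3 h
  · exact fun h => E.mem ⟨f, h⟩

/-- Elements of `C₁.O` with `F'`-independent residues are orthogonal. -/
theorem Ext.orthogonal {ι : Type*} [Fintype ι] (b : ι → C₁.O)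
    (hb : LinearIndependent F' fun i => C₁.res (b i)) (a : ι → F) (ha : a ≠ 0) :
    ∃ i₀, a i₀ ≠ 0 ∧ (∀ i, a i / a i₀ ∈ C.O) ∧
      ∃ h : (∑ i, a i • (b i : F₁)) / algebraMap F F₁ (a i₀) ∈ C₁.O,
        C₁.res ⟨_, h⟩ ≠ 0 := by
  obtain ⟨i₀, h0, hi⟩ := exists_normalize C.O a ha
  refine ⟨i₀, h0, hi, ?_⟩
  set c : ι → C.O := fun i => ⟨a i / a i₀, hi i⟩ with hc
  have h0' : algebraMap F F₁ (a i₀) ≠ 0 := by simpa using h0
  have key : (∑ i, a i • (b i : F₁)) / algebraMap F F₁ (a i₀) =
      ((∑ i, (⟨algebraMap F F₁ (c i), E.mem (c i)⟩ : C₁.O) * b i : C₁.O) : F₁) := by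
    push_cast
    rw [Finset.sum_div]
    refine Finset.sum_congr rfl fun i _ => ?_
    simp only [hc, Algebra.smul_def, map_div₀]
    field_simp
  have hmem : (∑ i, a i • (b i : F₁)) / algebraMap F F₁ (a i₀) ∈ C₁.O := by
    rw [key]
    exact Subtype.property _
  refine ⟨hmem, ?_⟩
  have h1 : (⟨_, hmem⟩ : C₁.O) = ∑ i, (⟨algebraMap F F₁ (c i), E.mem (c i)⟩ : C₁.O) * b i :=
    Subtype.ext key
  rw [h1, map_sum]
  intro h2
  have h3 : ∑ i, (C.res (c i)) • C₁.res (b i) = 0 := by
    rw [← h2]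
    refine Finset.sum_congr rfl fun i _ => ?_
    rw [map_mul, E.res, Algebra.smul_def]
  have h4 := Fintype.linearIndependent_iff.mp hb _ h3 i₀
  have h5 : c i₀ = 1 := Subtype.ext (div_self h0)
  rw [h5, map_one] at h4
  exact one_ne_zero h4

theorem Ext.linearIndependent {ι : Type*} [Fintype ι] (b : ι → C₁.O)
    (hb : LinearIndependent F' fun i => C₁.res (b i)) :
    LinearIndependent F fun i => (b i : F₁) := by
  rw [Fintype.linearIndependent_iff]
  intro a ha
  by_contra hne
  push Not at hne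
  obtain ⟨i, hi⟩ := hne
  have ha0 : a ≠ 0 := fun h => hi (congrFun h i)
  obtain ⟨i₀, -, -, h, h'⟩ := E.orthogonal b hb a ha0
  apply h'
  have h1 : (⟨_, h⟩ : C₁.O) = 0 := by
    apply Subtype.ext
    change (∑ i, a i • (b i : F₁)) / algebraMap F F₁ (a i₀) = 0
    rw [ha, zero_div]
  rw [h1, map_zero]

theorem Ext.coeff_mem {ι : Type*} [Fintype ι] (b : ι → C₁.O)
    (hb : LinearIndependent F' fun i => C₁.res (b i)) (a : ι → F)
    (h : ∑ i, a i • (b i : F₁) ∈ C₁.O) : ∀ i, a i ∈ C.O := by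
  by_cases ha : a = 0
  · intro i
    rw [ha]
    exact zero_mem _
  obtain ⟨i₀, h0, hi, h1, h2⟩ := E.orthogonal b hb a ha
  have h0' : algebraMap F F₁ (a i₀) ≠ 0 := by simpa using h0
  have h3 := inv_mem_of_res_ne_zero C₁ h1 h2
  have h4 : algebraMap F F₁ (a i₀) ∈ C₁.O := by
    have hne : (∑ i, a i • (b i : F₁)) / algebraMap F F₁ (a i₀) ≠ 0 := by
      intro h5
      apply h2
      have h6 : (⟨_, h1⟩ : C₁.O) = 0 := Subtype.ext h5
      rw [h6, map_zero]
    have hs : (∑ i, a i • (b i : F₁)) ≠ 0 := by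
      intro h5
      rw [h5, zero_div] at hne
      exact hne rfl
    have h5 : algebraMap F F₁ (a i₀) =
        (∑ i, a i • (b i : F₁)) * ((∑ i, a i • (b i : F₁)) / algebraMap F F₁ (a i₀))⁻¹ := by
      rw [inv_div, mul_div_assoc', mul_comm, mul_div_assoc, div_self hs, mul_one]
    rw [h5]
    exact mul_mem h h3
  have h5 : a i₀ ∈ C.O := E.mem_iff.mp h4
  intro i
  have h6 : a i = a i / a i₀ * a i₀ := by field_simp
  rw [h6]
  exact mul_mem (hi i) h5

variable [FiniteDimensional F' F₁']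

/-- **Norms are compatible with reduction.** -/
theorem Ext.norm (hn : Module.finrank F F₁ = Module.finrank F' F₁') (t : C₁.O) :
    ∃ h : Algebra.norm F (t : F₁) ∈ C.O,
      C.res ⟨_, h⟩ = Algebra.norm F' (C₁.res t) := by
  classical
  let b' := Module.finBasis F' F₁'
  choose b hb using fun i => C₁.res_surjective (b' i)
  have hb' : LinearIndependent F' fun i => C₁.res (b i) := by
    have : (fun i => C₁.res (b i)) = b' := funext hb
    rw [this]
    exact b'.linearIndependent
  have hli := E.linearIndependent b hb'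
  have hcard : Fintype.card (Fin (Module.finrank F' F₁')) = Module.finrank F F₁ := by
    rw [Fintype.card_fin, hn]
  have hpos : 0 < Module.finrank F' F₁' := Module.finrank_pos
  have : Nonempty (Fin (Module.finrank F' F₁')) := ⟨⟨0, hpos⟩⟩
  let B := basisOfLinearIndependentOfCardEqFinrank hli hcard
  have hB : ∀ i, B i = (b i : F₁) := fun i => by
    simp [B]
  have hmem : ∀ i j, Algebra.leftMulMatrix B (t : F₁) i j ∈ C.O := by
    intro i j
    have h1 : ∑ i, (Algebra.leftMulMatrix B (t : F₁) i j) • (b i : F₁) ∈ C₁.O := by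
      have h2 : ∑ i, (Algebra.leftMulMatrix B (t : F₁) i j) • (b i : F₁) = t * b j := by
        have h3 := B.sum_repr ((t : F₁) * B j)
        simp only [Algebra.leftMulMatrix_eq_repr_mul]
        rw [← hB j]
        conv_rhs => rw [← h3]
        exact Finset.sum_congr rfl fun i _ => by rw [hB i]
      rw [h2]
      exact mul_mem t.2 (b j).2
    exact E.coeff_mem b hb' _ h1 i
  let M : Matrix (Fin (Module.finrank F' F₁')) (Fin (Module.finrank F' F₁')) C.O :=
    fun i j => ⟨_, hmem i j⟩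
  have hM : M.map (algebraMap C.O F) = Algebra.leftMulMatrix B (t : F₁) := by
    ext i j
    rfl
  have hM' : M.map C.res = Algebra.leftMulMatrix b' (C₁.res t) := by
    ext i j
    rw [Algebra.leftMulMatrix_eq_repr_mul]
    have h1 : ∑ i, (M.map C.res i j) • b' i = C₁.res t * b' j := by
      have h2 : ∑ i, (⟨algebraMap F F₁ (M i j), E.mem (M i j)⟩ : C₁.O) * b i = t * b j := by
        apply Subtype.ext
        push_cast
        have h3 := B.sum_repr ((t : F₁) * B j)
        rw [← hB j]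
        conv_rhs => rw [← h3]
        refine Finset.sum_congr rfl fun i _ => ?_
        rw [hB i, Algebra.smul_def, ← Algebra.leftMulMatrix_eq_repr_mul]
      have h4 := congrArg C₁.res h2
      rw [map_mul, hb j, map_sum] at h4
      rw [← h4]
      refine Finset.sum_congr rfl fun i _ => ?_
      rw [map_mul, E.res, hb i, Algebra.smul_def]
      rfl
    rw [← h1]
    simp [Finsupp.single_apply]
  have hdet : Algebra.norm F (t : F₁) = ((M.det : C.O) : F) := by
    rw [Algebra.norm_eq_matrix_det B, ← hM]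
    exact (RingHom.map_det (algebraMap C.O F) M).symm
  refine ⟨by rw [hdet]; exact Subtype.property _, ?_⟩
  have h1 : (⟨Algebra.norm F (t : F₁), by rw [hdet]; exact Subtype.property _⟩ : C.O) = M.det :=
    Subtype.ext hdet
  rw [h1, RingHom.map_det, Algebra.norm_eq_matrix_det b', ← hM']
  rfl

end Pair

end Fermat.Agent.JRED.Descent
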