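import Fermat.Agent.Flat.DescentNT
import Fermat.Agent.FunField.GaussInt
import Fermat.Agent.JRED.XInt
import Fermat.Agent.JRED.ModularFF
import Fermat.Agent.JRED.ModularRedExists
import Fermat.Agent.RR.HoloModular

set_option autoImplicit false

/-!
# Integral functions have integral `q`-expansions; reduction of the cusp `∞`

* `exists_pow_not_mem`: valuation rings of `ℚ̄` above `ℓ` are archimedean.
* `coeff_mem_of_isIntegral`: an element of `Frac A((q)) ∩ K((q))` integral over `A((q))` is in
  `A((q))`.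
* `ModularConstRed.exists_series`: elements of the Gauss ring of `F_N` with poles only at cusps
  have `A`-integral `q`-expansions, and their reduction is the coefficientwise reduction.
* `ModularConstRed.placeMap_cusp`: the cusp `∞` reduces to the cusp `∞`.
-/

noncomputable section

open HahnSeries AlgebraicCurve ModularCurve IntermediateField Polynomial

namespace Fermat.Agent.JRED

section Archimedean

open Fermat.Agent.Flat Fermat.Agent.Flat.DescentNT

variable {L : Type*} [Field L] [Algebra ℚ L] [Algebra.IsAlgebraic ℚ L] {ℓ : ℕ}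

/-- Valuation rings above `ℓ` are archimedean. -/
theorem exists_pow_not_mem (A : ValuationSubring L) (hℓ : ℓ.Prime) (hA : A.LiesOverPrime ℓ)
    {c : L} (hc : c ∉ A) {d : L} (hd : d ≠ 0) : ∃ m : ℕ, d * c ^ m ∉ A := by
  have : CharZero L := charZero_of_injective_algebraMap (algebraMap ℚ L).injective
  have : Algebra.IsAlgebraic ℤ L :=
    (IsFractionRing.comap_isAlgebraic_iff (A := ℤ) (K := ℚ) (C := L)).mpr inferInstance
  have hc0 : c ≠ 0 := by
    rintro rfl
    exact hc (zero_mem _)
  have h1 : c⁻¹ ∈ A.nonunits := by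
    rw [ValuationSubring.mem_nonunits_iff_or]
    right
    rwa [inv_inv]
  obtain ⟨k, hk⟩ := exists_pow_mul_mem A hℓ hA d⁻¹
  obtain ⟨n, hn⟩ := exists_pow_eq_pow_mul A hℓ hA (k + 1) h1
  obtain ⟨y, hy, hxy⟩ := hn n le_rfl
  refine ⟨n, fun hcon => ?_⟩
  have h2 : (1 : L) = ℓ * ((ℓ ^ k * d⁻¹) * y * (d * c ^ n)) := by
    have h3 : c⁻¹ ^ n * c ^ n = 1 := by
      rw [← mul_pow, inv_mul_cancel₀ hc0, one_pow]
    rw [hxy] at h3
    have h4 : d⁻¹ * d = 1 := inv_mul_cancel₀ hd
    calc (1 : L) = (ℓ ^ (k + 1) * y * c ^ n) * (d⁻¹ * d) := by rw [h3, h4, one_mul]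
      _ = _ := by ring
  have h5 : (1 : L) ∈ A.nonunits := by
    rw [h2]
    rw [ValuationSubring.mem_nonunits_iff, map_mul]
    refine mul_lt_one_of_nonneg_of_lt_one_left zero_le hA ?_
    rw [ValuationSubring.valuation_le_one_iff]
    exact mul_mem (mul_mem hk hy) hcon
  rw [ValuationSubring.mem_nonunits_iff, map_one] at h5
  exact lt_irrefl _ h5

end Archimedean

section Series

variable {K : Type*} [Field K] {A : ValuationSubring K}

variable (A) in
/-- Laurent series with coefficients in `A`. -/
def integralSeries : Subring (LaurentSeries K) := (coeffMap A.subtype).range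

theorem mem_integralSeries {f : LaurentSeries K} :
    f ∈ integralSeries A ↔ ∀ n, f.coeff n ∈ A := by
  constructor
  · rintro ⟨y, rfl⟩ n
    exact (y.coeff n).2
  · intro h
    exact ⟨liftA A f h, coeffMap_liftA A f h⟩

/-- The key lemma: rings almost integral over `A((q))` are contained in `A((q))`. -/
theorem coeff_mem_of_almost (harch : ∀ c : K, c ∉ A → ∀ d : K, d ≠ 0 → ∃ m : ℕ, d * c ^ m ∉ A)
    (T : Subring (LaurentSeries K)) (hT : integralSeries A ≤ T) {d : LaurentSeries K} (hd : d ≠ 0)
    (h : ∀ t ∈ T, d * t ∈ integralSeries A) : T ≤ integralSeries A := by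
  -- leading coefficients
  have hlead : ∀ t ∈ T, t.leadingCoeff ∈ A := by
    intro t ht
    by_contra hcon
    obtain ⟨m, hm⟩ := harch _ hcon d.leadingCoeff (by
      rw [HahnSeries.leadingCoeff_ne_zero]
      exact hd)
    apply hm
    have hpow : ∀ m : ℕ, (t ^ m).leadingCoeff = t.leadingCoeff ^ m := by
      intro m
      induction m with
      | zero => rw [pow_zero, pow_zero, HahnSeries.leadingCoeff_one]
      | succ m ih => rw [pow_succ, HahnSeries.leadingCoeff_mul, ih, pow_succ]
    rw [← hpow, ← HahnSeries.leadingCoeff_mul, HahnSeries.leadingCoeff_eq]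
    exact mem_integralSeries.mp (h _ (pow_mem ht m)) _
  intro t ht
  rw [mem_integralSeries]
  by_contra hcon
  push Not at hcon
  -- minimal bad index
  obtain ⟨n, hn⟩ := hcon
  have hbound : ∀ i : ℤ, t.coeff i ∉ A → t.order ≤ i := by
    intro i hi
    refine HahnSeries.order_le_of_coeff_ne_zero fun h0 => hi ?_
    rw [h0]
    exact zero_mem _
  obtain ⟨n₀, hn₀, hmin⟩ := Int.exists_least_of_bdd ⟨t.order, hbound⟩ ⟨n, hn⟩
  have hs : HahnSeries.truncLT n₀ t ∈ integralSeries A := by
    rw [mem_integralSeries]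
    intro i
    rw [HahnSeries.coeff_truncLT]
    split_ifs with hi
    · by_contra hcon
      exact absurd (hmin i hcon) (not_le.mpr hi)
    · exact zero_mem _
  have hz : t - HahnSeries.truncLT n₀ t ∈ T := sub_mem ht (hT hs)
  have hcoeff : ∀ i, (t - HahnSeries.truncLT n₀ t).coeff i = if i < n₀ then 0 else t.coeff i := by
    intro i
    rw [HahnSeries.coeff_sub, HahnSeries.coeff_truncLT]
    split_ifs
    · rw [sub_self]
    · rw [sub_zero]
  have h0 : t.coeff n₀ ≠ 0 := by
    intro h0
    apply hn₀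
    rw [h0]
    exact zero_mem _
  have hord : (t - HahnSeries.truncLT n₀ t).order = n₀ := by
    refine le_antisymm (HahnSeries.order_le_of_coeff_ne_zero ?_) ?_
    · rw [hcoeff, if_neg (lt_irrefl _)]
      exact h0
    · by_contra hlt
      push Not at hlt
      have h1 : (t - HahnSeries.truncLT n₀ t).coeff (t - HahnSeries.truncLT n₀ t).order = 0 := by
        rw [hcoeff, if_pos hlt]
      rw [HahnSeries.coeff_order_eq_zero] at h1
      have h2 := hcoeff n₀
      rw [h1, if_neg (lt_irrefl _), HahnSeries.coeff_zero] at h2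
      exact h0 h2.symm
  have h1 := hlead _ hz
  rw [HahnSeries.leadingCoeff_eq, hord, hcoeff, if_neg (lt_irrefl _)] at h1
  exact hn₀ h1

/-- An element of `Frac A((q))` which is integral over `A((q))` is in `A((q))`. -/
theorem mem_integralSeries_of_isIntegral
    (harch : ∀ c : K, c ∉ A → ∀ d : K, d ≠ 0 → ∃ m : ℕ, d * c ^ m ∉ A) {f b : LaurentSeries K}
    (hb : b ∈ integralSeries A) (hb0 : b ≠ 0) (hfb : f * b ∈ integralSeries A)
    (hf : IsIntegral (integralSeries A) f) : f ∈ integralSeries A := by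
  have hN : ∀ x ∈ Algebra.adjoin (integralSeries A) {f}, ∃ N : ℕ, b ^ N * x ∈ integralSeries A := by
    intro x hx
    induction hx using Algebra.adjoin_induction with
    | mem x hx =>
      rw [Set.mem_singleton_iff] at hx
      subst hx
      exact ⟨1, by rwa [pow_one, mul_comm]⟩
    | algebraMap r => exact ⟨0, by rw [pow_zero, one_mul]; exact r.2⟩
    | add x y _ _ hx hy =>
      obtain ⟨N, hN⟩ := hx
      obtain ⟨M, hM⟩ := hy
      refine ⟨N + M, ?_⟩
      have : b ^ (N + M) * (x + y) = b ^ M * (b ^ N * x) + b ^ N * (b ^ M * y) := by ring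
      rw [this]
      exact add_mem (mul_mem (pow_mem hb _) hN) (mul_mem (pow_mem hb _) hM)
    | mul x y _ _ hx hy =>
      obtain ⟨N, hN⟩ := hx
      obtain ⟨M, hM⟩ := hy
      refine ⟨N + M, ?_⟩
      have : b ^ (N + M) * (x * y) = (b ^ N * x) * (b ^ M * y) := by ring
      rw [this]
      exact mul_mem hN hM
  obtain ⟨S, hS⟩ := hf.fg_adjoin_singleton
  have hSm : ∀ x ∈ S, x ∈ Algebra.adjoin (integralSeries A) {f} := by
    intro x hx
    have h1 : x ∈ Submodule.span (integralSeries A) (S : Set (LaurentSeries K)) :=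
      Submodule.subset_span hx
    rw [hS] at h1
    exact h1
  choose! N hN' using fun x (hx : x ∈ S) => hN x (hSm x hx)
  set M := ∑ x ∈ S, N x with hM
  have hspan : ∀ x ∈ Submodule.span (integralSeries A) (S : Set (LaurentSeries K)),
      b ^ M * x ∈ integralSeries A := by
    intro x hx
    induction hx using Submodule.span_induction with
    | mem x hx' =>
      have h2 : N x ≤ M := Finset.single_le_sum (fun _ _ => Nat.zero_le _) hx'
      have h3 : b ^ M * x = b ^ (M - N x) * (b ^ N x * x) := by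
        rw [← mul_assoc, ← _root_.pow_add, Nat.sub_add_cancel h2]
      rw [h3]
      exact mul_mem (pow_mem hb _) (hN' x hx')
    | zero => rw [mul_zero]; exact zero_mem _
    | add x y _ _ ihx ihy =>
      rw [mul_add]
      exact add_mem ihx ihy
    | smul c x _ ih =>
      have h2 : b ^ M * (c • x) = c * (b ^ M * x) := by
        rw [Subring.smul_def, smul_eq_mul]
        ring
      rw [h2]
      exact mul_mem c.2 ih
  have hall : ∀ x ∈ Algebra.adjoin (integralSeries A) {f}, b ^ M * x ∈ integralSeries A := by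
    intro x hx
    apply hspan
    rw [hS]
    exact hx
  have h1 := coeff_mem_of_almost harch (Algebra.adjoin (integralSeries A) {f}).toSubring
    (fun r hr => (Algebra.adjoin (integralSeries A) {f}).algebraMap_mem ⟨r, hr⟩)
    (pow_ne_zero M hb0) (fun t ht => hall t ht)
  exact h1 (Algebra.self_mem_adjoin_singleton _ f)

end Series

section Modular

variable {N : ℕ} {A : ValuationSubring (AlgebraicClosure ℚ)} {k : Type} [Field k] {π : A →+* k}
  (M : ModularConstRed N π)

theorem coe_jBar_int :
    ((jBar N : modularFunctionFieldBar N) : LaurentSeries (AlgebraicClosure ℚ)) =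
    coeffMap A.subtype (jqModC A) := by
  rw [coeffMap_jqModC]
  exact coeffMap_jqModC (algebraMap ℚ (AlgebraicClosure ℚ))

theorem ModularConstRed.jBar_mem : jBar N ∈ M.C.O :=
  (M.mem_O_iff _).mpr ⟨jqModC A, 1, by rw [map_one]; exact one_ne_zero,
    by rw [map_one, mul_one, coe_jBar_int]⟩

/-- The reduction of a function with `A`-integral `q`-expansion. -/
theorem ModularConstRed.res_of_integral {f : M.C.O} {y : LaurentSeries A}
    (h : ((f : modularFunctionFieldBar N) : LaurentSeries (AlgebraicClosure ℚ)) =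
      coeffMap A.subtype y) : (M.C.res f : LaurentSeries k) = coeffMap π y := by
  have := M.res_eq f y 1 (by rw [map_one]; exact one_ne_zero) (by rw [map_one, mul_one, h])
  rwa [map_one, mul_one] at this

theorem ModularConstRed.coeff_res {f : M.C.O}
    (h : ∀ n, ((f : modularFunctionFieldBar N) : LaurentSeries (AlgebraicClosure ℚ)).coeff n ∈ A)
    (n : ℤ) : (M.C.res f : LaurentSeries k).coeff n = π ⟨_, h n⟩ := by
  rw [M.res_of_integral (coeffMap_liftA A _ h).symm]
  rfl

theorem ModularConstRed.res_jBar : M.C.res ⟨jBar N, M.jBar_mem⟩ = jRed k N := by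
  apply Subtype.ext
  rw [M.res_of_integral (f := ⟨jBar N, M.jBar_mem⟩) (y := jqModC A) coe_jBar_int, coeffMap_jqModC]
  rfl

variable {M}

/-- **Integral `q`-expansions**: elements of the Gauss ring which are regular outside the poles of
`j` have `A`-integral `q`-expansions. -/
theorem ModularConstRed.coeff_mem (hπ : Function.Surjective π) (hdeg : DegreeInput N k) {ℓ : ℕ}
    (hℓ : ℓ.Prime) (hA : A.LiesOverPrime ℓ) {f : modularFunctionFieldBar N} (hf : f ∈ M.C.O)
    (h : ∀ v : Place (AlgebraicClosure ℚ) (modularFunctionFieldBar N),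
      jBar N ∈ v.toValuationSubring → f ∈ v.toValuationSubring) (n : ℤ) :
    (f : LaurentSeries (AlgebraicClosure ℚ)).coeff n ∈ A := by
  have := hdeg.functionField
  have := hdeg.1
  obtain ⟨m, hm⟩ := Descent.exists_mem_riemannRochSpace (K := AlgebraicClosure ℚ) (x := jBar N)
    (f := f) h
  have hX : FunField.MinpolyJ.XInt (AlgebraicClosure ℚ) (jBar N) m f :=
    IntRed.xInt_of_mem (transcendental_jBar N) hm
  have htr : Transcendental k (M.C.res ⟨jBar N, M.jBar_mem⟩) := by
    rw [M.res_jBar]
    exact transcendental_jRed k N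
  have hd : Module.finrank (AlgebraicClosure ℚ)⟮jBar N⟯ (modularFunctionFieldBar N) ≤
      Module.finrank k⟮M.C.res ⟨jBar N, M.jBar_mem⟩⟯ (modularFunctionFieldFullC k N) := by
    rw [M.res_jBar]
    exact hdeg.2
  obtain ⟨d, P, hd0, -, hrel⟩ :=
    FunField.GaussInt.exists_relation M.C M.jBar_mem hπ htr hd hf hX
  have hjint : ((jBar N : modularFunctionFieldBar N) : LaurentSeries (AlgebraicClosure ℚ)) ∈
      integralSeries A := ⟨jqModC A, coe_jBar_int.symm⟩
  have hP : ∀ i, ((aeval (jBar N) ((P i).map A.subtype) : modularFunctionFieldBar N) :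
      LaurentSeries (AlgebraicClosure ℚ)) ∈ integralSeries A := by
    intro i
    rw [aeval_eq_sum_range]
    push_cast
    refine sum_mem fun j _ => ?_
    rw [Algebra.smul_def]
    refine mul_mem ?_ (pow_mem hjint _)
    rw [coeff_map]
    exact ⟨HahnSeries.C ((P i).coeff j), by
      rw [coeffMap_const, ← algebraMap_eq_C]⟩
  obtain ⟨a, b, hb, hab⟩ := (M.mem_O_iff f).mp hf
  have hb0 : coeffMap A.subtype b ≠ 0 := by
    intro h0
    apply hb
    rw [show b = 0 from coeffMap_injective Subtype.val_injective (by rw [h0, map_zero]), map_zero]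
  refine mem_integralSeries.mp (mem_integralSeries_of_isIntegral (fun c hc d hd =>
    exists_pow_not_mem A hℓ hA hc hd) (b := coeffMap A.subtype b) ⟨b, rfl⟩ hb0 ⟨a, hab.symm⟩ ?_) n
  apply IntRed.isIntegral_of_sum' (n := d) (fun i => ⟨_, hP (d - i)⟩)
  have h2 := congrArg (fun x : modularFunctionFieldBar N =>
    (x : LaurentSeries (AlgebraicClosure ℚ))) hrel
  rw [IntRed.sum_Icc_flip'] at h2
  push_cast at h2
  rw [← h2]
  congr 1
  refine Finset.sum_congr rfl fun i hi => ?_
  rw [Finset.mem_range] at hi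
  rw [show d - (d - i) = i by omega]
  rfl

open Fermat.Agent.RR in
/-- `q`-expansion of the reduction, for functions regular outside `∞`. -/
theorem ModularConstRed.coeff_mem_of_holo (hπ : Function.Surjective π) (hdeg : DegreeInput N k)
    {ℓ : ℕ} (hℓ : ℓ.Prime) (hA : A.LiesOverPrime ℓ) {f : modularFunctionFieldBar N}
    (hf : f ∈ M.C.O) (h : f ∈ holo (cuspPlace N)) (n : ℤ) :
    (f : LaurentSeries (AlgebraicClosure ℚ)).coeff n ∈ A := by
  refine M.coeff_mem hπ hdeg hℓ hA hf (fun v hv => h v ?_) n
  rintro rfl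
  have h1 := ord_nonneg_of_mem _ hv
  rw [ord_cuspPlace, coe_jBar, order_jqModC] at h1
  omega

open Fermat.Agent.RR in
/-- **The cusp `∞` reduces to the cusp `∞`.** -/
theorem ModularConstRed.placeMap_cusp (hπ : Function.Surjective π) (hdeg : DegreeInput N k)
    (hg : GoodReduction N k) {ℓ : ℕ} (hℓ : ℓ.Prime) (hA : A.LiesOverPrime ℓ)
    {r : Place (AlgebraicClosure ℚ) (modularFunctionFieldBar N) →
      Place k (modularFunctionFieldFullC k N)} (hr : M.C.IsPlaceMap r) :
    r (cuspPlace N) = cuspPlaceC k N := by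
  classical
  have := isAlgClosed_of_surjective hπ
  have := hdeg.functionField
  have := hdeg.functionField'
  -- some pole of `j` reduces to `∞`
  obtain ⟨P₁, hP₁, hord⟩ : ∃ P₁, r P₁ = cuspPlaceC k N ∧ P₁.ord (jBar N) < 0 := by
    by_contra hcon
    push Not at hcon
    have h1 := hr ⟨jBar N, M.jBar_mem⟩ (by
      rw [M.res_jBar]
      rintro h0
      exact transcendental_jRed k N (by rw [h0]; exact isAlgebraic_zero))
      (divOf (K := AlgebraicClosure ℚ) (jBar N)) (fun P => divOf_apply _ _) (cuspPlaceC k N)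
    rw [M.res_jBar, ord_cuspPlaceC] at h1
    have h2 : ((jRed k N : modularFunctionFieldFullC k N) : LaurentSeries k).order = -1 :=
      order_jqModC k
    rw [h2, Finsupp.mapDomain, Finsupp.sum, Finsupp.finsetSum_apply] at h1
    have h3 : 0 ≤ ∑ P ∈ (divOf (K := AlgebraicClosure ℚ) (jBar N)).support,
        (Finsupp.single (r P) (divOf (K := AlgebraicClosure ℚ) (jBar N) P) :
          Divisor k (modularFunctionFieldFullC k N)) (cuspPlaceC k N) := by
      refine Finset.sum_nonneg fun P _ => ?_
      rw [Finsupp.single_apply]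
      split_ifs with hP
      · rw [divOf_apply]
        exact hcon P hP
      · exact le_rfl
    omega
  by_contra hne
  have hne' : P₁ ≠ cuspPlace N := by
    rintro rfl
    exact hne hP₁
  set g := genusFF (AlgebraicClosure ℚ) (modularFunctionFieldBar N) with hgdef
  obtain ⟨u, hu, hu0, huord⟩ := mem_poleSet_of_le (P := cuspPlaceC k N) (n := 2 * g + 1) (by
    rw [hgdef, hg]
    omega)
  obtain ⟨w, hw, hwO, hwu⟩ := M.C.exists_lift hπ hr hg
    (D := Finsupp.single P₁ ((2 * g + 1 : ℕ) : ℤ)) (by
      rw [degree_single_one]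
      push_cast
      omega) (u := u) (by
      rw [Finsupp.mapDomain_single, hP₁, mem_riemannRochSpace_single_iff]
      exact ⟨hu, Or.inr huord.ge⟩)
  have hcoeff : ∀ n, (w : LaurentSeries (AlgebraicClosure ℚ)).coeff n ∈ A := by
    refine M.coeff_mem hπ hdeg hℓ hA hwO fun v hv => ?_
    refine mem_holo_of_mem_riemannRochSpace hw v ?_
    rintro rfl
    have := ord_nonneg_of_mem _ hv
    omega
  have hw0 : w ≠ 0 := by
    rintro rfl
    apply hu0
    rw [← hwu]
    exact map_zero _
  have hreg : 0 ≤ (w : LaurentSeries (AlgebraicClosure ℚ)).order := by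
    rw [← ord_cuspPlace]
    exact mem_holo.mp (mem_holo_of_mem_riemannRochSpace hw) _ (Ne.symm hne')
  have h1 : ((u : modularFunctionFieldFullC k N) : LaurentSeries k).order =
      -((2 * g + 1 : ℕ) : ℤ) := by
    rw [← ord_cuspPlaceC]
    exact huord
  have hu0' : (u : LaurentSeries k) ≠ 0 := fun h0 => hu0 (Subtype.ext h0)
  have h2 : (u : LaurentSeries k).coeff (u : LaurentSeries k).order ≠ 0 := by
    rw [Ne, HahnSeries.coeff_order_eq_zero]
    exact hu0'
  apply h2
  rw [← hwu, M.coeff_res (f := ⟨w, hwO⟩) hcoeff, hwu, h1]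
  have h3 : (w : LaurentSeries (AlgebraicClosure ℚ)).coeff (-((2 * g + 1 : ℕ) : ℤ)) = 0 := by
    apply HahnSeries.coeff_eq_zero_of_lt_order
    refine lt_of_lt_of_le ?_ hreg
    push_cast
    omega
  rw [show (⟨(w : LaurentSeries (AlgebraicClosure ℚ)).coeff (-((2 * g + 1 : ℕ) : ℤ)),
    hcoeff _⟩ : A) = 0 from Subtype.ext h3, map_zero]

open Fermat.Agent.RR in
/-- The reduction maps `L(n ∞)` to `L(n ∞)`. -/
theorem ModularConstRed.res_mem_riemannRochSpace (hπ : Function.Surjective π)
    (hdeg : DegreeInput N k) (hg : GoodReduction N k) {ℓ : ℕ} (hℓ : ℓ.Prime)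
    (hA : A.LiesOverPrime ℓ) {f : M.C.O} {n : ℤ}
    (h : (f : modularFunctionFieldBar N) ∈
      riemannRochSpace (Finsupp.single (cuspPlace N) n : Divisor _ _)) :
    M.C.res f ∈ riemannRochSpace (Finsupp.single (cuspPlaceC k N) n : Divisor _ _) := by
  classical
  have := isAlgClosed_of_surjective hπ
  have := hdeg.functionField
  have := hdeg.functionField'
  obtain ⟨r, hr⟩ := M.exists_isPlaceMap hπ hdeg hg
  have h1 := mem_of_red (M.C.placeRed hr) h ⟨f.2, rfl⟩
  rwa [Finsupp.mapDomain_single, M.placeMap_cusp hπ hdeg hg hℓ hA hr] at h1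

open Fermat.Agent.RR in
theorem ModularConstRed.res_mem_holo (hπ : Function.Surjective π)
    (hdeg : DegreeInput N k) (hg : GoodReduction N k) {ℓ : ℕ} (hℓ : ℓ.Prime)
    (hA : A.LiesOverPrime ℓ) {f : M.C.O}
    (h : (f : modularFunctionFieldBar N) ∈ holo (cuspPlace N)) :
    M.C.res f ∈ holo (cuspPlaceC k N) := by
  have h1 : (f : modularFunctionFieldBar N) ∈ riemannRochSpace
      (Finsupp.single (cuspPlace N) (-(cuspPlace N).ord (f : modularFunctionFieldBar N)) :
        Divisor _ _) := by
    rw [mem_riemannRochSpace_single_iff]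
    exact ⟨h, Or.inr (by rw [neg_neg])⟩
  exact mem_holo_of_mem_riemannRochSpace (M.res_mem_riemannRochSpace hπ hdeg hg hℓ hA h1)

open Fermat.Agent.RR in
/-- Lifting functions with poles at the cusp `∞` only. -/
theorem ModularConstRed.exists_lift_cusp (hπ : Function.Surjective π)
    (hdeg : DegreeInput N k) (hg : GoodReduction N k) {ℓ : ℕ} (hℓ : ℓ.Prime)
    (hA : A.LiesOverPrime ℓ) {n : ℤ}
    (hn : 2 * (genusFF (AlgebraicClosure ℚ) (modularFunctionFieldBar N) : ℤ) - 2 < n)
    {u : modularFunctionFieldFullC k N}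
    (h : u ∈ riemannRochSpace (Finsupp.single (cuspPlaceC k N) n : Divisor _ _)) :
    ∃ w ∈ riemannRochSpace (Finsupp.single (cuspPlace N) n : Divisor _ _), ∃ h : w ∈ M.C.O,
      M.C.res ⟨w, h⟩ = u := by
  classical
  have := isAlgClosed_of_surjective hπ
  have := hdeg.functionField
  have := hdeg.functionField'
  obtain ⟨r, hr⟩ := M.exists_isPlaceMap hπ hdeg hg
  refine M.C.exists_lift hπ hr hg (by rwa [degree_single_one]) ?_
  rwa [Finsupp.mapDomain_single, M.placeMap_cusp hπ hdeg hg hℓ hA hr]

end Modular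

end Fermat.Agent.JRED
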