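import Fermat.Agent.JRED.ModularPlace
import Fermat.Prelude.Def_EllipticCurve_FrobeniusTrace

set_option autoImplicit false

/-!
# S18, conditional on `DegreeInput` and `GoodReduction`
-/

noncomputable section

open HahnSeries ModularCurve AlgebraicCurve IntermediateField

namespace Fermat.Agent.JRED

theorem natCast_ne_zero_of_not_dvd {k : Type*} [Field k] {ℓ m : ℕ} (hℓ : ℓ.Prime)
    (h0 : (ℓ : k) = 0) (hm : ¬ ℓ ∣ m) : (m : k) ≠ 0 := by
  intro hm0
  have h1 : Nat.Coprime ℓ m := (Nat.Prime.coprime_iff_not_dvd hℓ).mpr hm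
  have h2 : IsCoprime ((ℓ : ℤ)) (m : ℤ) := Nat.isCoprime_iff_coprime.mpr h1
  have h3 := h2.map (Int.castRingHom k)
  simp only [eq_intCast, Int.cast_natCast, h0, hm0] at h3
  exact not_isCoprime_zero_zero h3

theorem natCast_eq_zero_of_liesOverPrime {K : Type*} [Field K] {A : ValuationSubring K} {ℓ : ℕ}
    (hA : A.LiesOverPrime ℓ) {k : Type*} [Field k] {π : A →+* k} (hπ : Function.Surjective π) :
    (ℓ : k) = 0 := by
  by_contra h0
  obtain ⟨b, hb⟩ := hπ (ℓ : k)⁻¹
  have hker : RingHom.ker π = IsLocalRing.maximalIdeal A := by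
    have : (RingHom.ker π).IsMaximal := RingHom.ker_isMaximal_of_surjective π hπ
    exact IsLocalRing.eq_maximalIdeal this
  have h1 : (ℓ : A) ∈ IsLocalRing.maximalIdeal A := by
    rw [IsLocalRing.mem_maximalIdeal, mem_nonunits_iff]
    intro hu
    have h2 : ((ℓ : A) : K) ∈ A.nonunits := by exact_mod_cast hA
    rw [ValuationSubring.mem_nonunits_iff] at h2
    have h3 := (ValuationSubring.valuation_eq_one_iff A (ℓ : A)).mp hu
    exact absurd h3 h2.ne
  rw [← hker, RingHom.mem_ker, map_natCast] at h1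
  exact h0 h1

/-- **S18**, conditional on the degree input and good reduction. -/
theorem s18_of_inputs (N : ℕ) {ℓ : ℕ} [hℓ : Fact ℓ.Prime]
    (A : ValuationSubring (AlgebraicClosure ℚ)) (hA : A.LiesOverPrime ℓ)
    (hdeg : DegreeInput N (IsLocalRing.ResidueField A))
    (hgood : GoodReduction N (IsLocalRing.ResidueField A))
    (h : ModularCurve.ReductionInputsModL A N) (m : ℕ) (hm : ¬ ℓ ∣ m) (z : ModularCurve.JZero N)
    (hmz : m • z = 0) (hz : ModularCurve.reductionModL A N z = 0) :
    z = 0 :=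
  eq_zero_of_reductionAlong (π := IsLocalRing.residue A) IsLocalRing.residue_surjective hdeg hgood
    h (natCast_ne_zero_of_not_dvd hℓ.out
      (natCast_eq_zero_of_liesOverPrime hA (π := IsLocalRing.residue A)
        IsLocalRing.residue_surjective) hm) z hmz hz

end Fermat.Agent.JRED
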