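import Fermat.Agent.JRED.DescentSpace

/-!
# Descent of genus equality, part B2: the pencil argument

`L((m+1)D) = L(mD) + x L(mD)` for `m ≫ 0`, `D = (x)_∞`; hence a family of subspaces `W m` stable
under inclusion and multiplication by `x`, which absorbs `L(m₁ D)` both ways, contains `L(mD)` for
large `m`.
-/

set_option autoImplicit false
set_option linter.unusedSectionVars false

noncomputable section

open AlgebraicCurve IntermediateField

namespace Fermat.Agent.JRED.DescentB

variable {K F : Type*} [Field K] [Field F] [Algebra K F] [IsAlgClosed K] [RR.FunctionField K F]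

theorem mem_nsmul_polesOf_iff {x f : F} (hf : f ≠ 0) (m : ℕ) :
    f ∈ riemannRochSpace (m • RR.polesOf (K := K) x) ↔
      ∀ v : Place K F, -(m * max (-v.ord x) 0) ≤ v.ord f := by
  rw [mem_riemannRochSpace_iff]
  refine forall_congr' fun v => ?_
  rw [or_iff_right hf, Finsupp.smul_apply, RR.polesOf_apply, nsmul_eq_mul]

theorem mul_mem_succ {x f : F} {m : ℕ}
    (hf : f ∈ riemannRochSpace (m • RR.polesOf (K := K) x)) :
    x * f ∈ riemannRochSpace ((m + 1) • RR.polesOf (K := K) x) := by
  rcases eq_or_ne f 0 with rfl | hf0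
  · rw [mul_zero]; exact zero_mem _
  rcases eq_or_ne x 0 with rfl | hx0
  · rw [zero_mul]; exact zero_mem _
  rw [mem_nsmul_polesOf_iff hf0] at hf
  rw [mem_nsmul_polesOf_iff (mul_ne_zero hx0 hf0)]
  intro v
  rw [v.ord_mul hx0 hf0]
  have h1 := hf v
  have h2 := le_max_left (-v.ord x) 0
  push_cast
  linarith

theorem mem_succ {x f : F} {m : ℕ}
    (hf : f ∈ riemannRochSpace (m • RR.polesOf (K := K) x)) :
    f ∈ riemannRochSpace ((m + 1) • RR.polesOf (K := K) x) := by
  refine RR.riemannRochSpace_mono ?_ hf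
  rw [succ_nsmul]
  exact le_add_of_nonneg_right (RR.polesOf_nonneg x)

theorem mul_mem_iff {x f : F} (hx0 : x ≠ 0) {m : ℕ} :
    (f ∈ riemannRochSpace ((m + 1) • RR.polesOf (K := K) x) ∧
      x * f ∈ riemannRochSpace ((m + 1) • RR.polesOf (K := K) x)) ↔
      f ∈ riemannRochSpace (m • RR.polesOf (K := K) x) := by
  constructor
  · rintro ⟨h1, h2⟩
    rcases eq_or_ne f 0 with rfl | hf0
    · exact zero_mem _
    rw [mem_nsmul_polesOf_iff hf0] at h1 ⊢
    rw [mem_nsmul_polesOf_iff (mul_ne_zero hx0 hf0)] at h2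
    intro v
    have h1 := h1 v
    have h2 := h2 v
    rw [v.ord_mul hx0 hf0] at h2
    push_cast at h1 h2
    rcases le_total 0 (-v.ord x) with h | h
    · rw [max_eq_left h] at h1 h2 ⊢
      linarith
    · rw [max_eq_right h] at h1 h2 ⊢
      linarith
  · intro hf
    exact ⟨mem_succ hf, mul_mem_succ hf⟩

/-- **Base point free pencil**: `L((m+2)D) = L((m+1)D) + x L((m+1)D)` for `m ≫ 0`. -/
theorem pencil {x : F} (hx : Transcendental K x) {m : ℕ} (hm : 2 * genusFF K F ≤ m) :
    riemannRochSpace ((m + 2) • RR.polesOf (K := K) x) ≤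
      riemannRochSpace ((m + 1) • RR.polesOf (K := K) x) ⊔
        (riemannRochSpace ((m + 1) • RR.polesOf (K := K) x)).map (LinearMap.mulLeft K x) := by
  have hx0 : x ≠ 0 := by
    rintro rfl
    exact hx isAlgebraic_zero
  have hfin := finiteDimensional_adjoin hx
  have hpos : 0 < Divisor.degree (RR.polesOf (K := K) x) := by
    rw [degree_polesOf hx]
    exact_mod_cast Module.finrank_pos
  set d := Divisor.degree (RR.polesOf (K := K) x) with hd
  have hdim : ∀ j : ℕ, m ≤ j →
      (Module.finrank K (riemannRochSpace (j • RR.polesOf (K := K) x)) : ℤ) =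
        j * d + 1 - genusFF K F := by
    intro j hj
    rw [RR.finrank_riemannRochSpace_eq, map_nsmul, nsmul_eq_mul]
    rw [map_nsmul, nsmul_eq_mul]
    have h1 : (2 * (genusFF K F : ℤ)) ≤ j := by exact_mod_cast hm.trans hj
    have h2 : (0 : ℤ) ≤ j := Int.natCast_nonneg j
    nlinarith
  set L := riemannRochSpace ((m + 1) • RR.polesOf (K := K) x) with hL
  have hinj : Function.Injective (LinearMap.mulLeft K x) := mul_right_injective₀ hx0
  have hinf : L ⊓ L.map (LinearMap.mulLeft K x) =
      (riemannRochSpace (m • RR.polesOf (K := K) x)).map (LinearMap.mulLeft K x) := by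
    ext f
    simp only [Submodule.mem_inf, Submodule.mem_map, LinearMap.mulLeft_apply]
    constructor
    · rintro ⟨h1, g, hg, rfl⟩
      exact ⟨g, (mul_mem_iff hx0).mp ⟨hg, h1⟩, rfl⟩
    · rintro ⟨g, hg, rfl⟩
      have := (mul_mem_iff (m := m) hx0).mpr hg
      exact ⟨this.2, g, this.1, rfl⟩
  have h1 := Submodule.finrank_sup_add_finrank_inf_eq L (L.map (LinearMap.mulLeft K x))
  rw [hinf, ← (Submodule.equivMapOfInjective _ hinj L).finrank_eq,
    ← (Submodule.equivMapOfInjective _ hinj
      (riemannRochSpace (m • RR.polesOf (K := K) x))).finrank_eq] at h1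
  have h2 : L ⊔ L.map (LinearMap.mulLeft K x) ≤
      riemannRochSpace ((m + 2) • RR.polesOf (K := K) x) := by
    refine sup_le (fun f hf => mem_succ hf) ?_
    rintro _ ⟨f, hf, rfl⟩
    exact mul_mem_succ hf
  refine (Submodule.eq_of_le_of_finrank_eq h2 ?_).ge
  have h3 := hdim (m + 2) (by omega)
  have h4 := hdim (m + 1) (by omega)
  have h5 := hdim m le_rfl
  have h6 : ((Module.finrank K ↥(L ⊔ L.map (LinearMap.mulLeft K x)) : ℤ)) +
      Module.finrank K (riemannRochSpace (m • RR.polesOf (K := K) x)) =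
      Module.finrank K L + Module.finrank K L := by exact_mod_cast h1
  rw [← hL] at h4
  push_cast at h3 h4 h5
  have h7 : ((Module.finrank K ↥(L ⊔ L.map (LinearMap.mulLeft K x)) : ℤ)) =
      Module.finrank K (riemannRochSpace ((m + 2) • RR.polesOf (K := K) x)) := by
    rw [h3]
    rw [h4, h5] at h6
    linarith
  exact_mod_cast h7

/-- The absorption argument. -/
theorem le_of_absorb {x : F} (hx : Transcendental K x) {W : ℕ → Submodule K F}
    (hmono : ∀ m, W m ≤ W (m + 1)) (hmul : ∀ m, ∀ g ∈ W m, x * g ∈ W (m + 1))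
    (h1 : ∀ m : ℕ, ∀ g ∈ riemannRochSpace (m • RR.polesOf (K := K) x), ∃ M : ℕ, g ∈ W M)
    (h2 : ∀ m : ℕ, ∀ g ∈ riemannRochSpace (m • RR.polesOf (K := K) x),
      ∃ M : ℕ, x ^ M * g ∈ W (m + M)) :
    ∃ m₀ : ℕ, ∀ m : ℕ, m₀ ≤ m → riemannRochSpace (m • RR.polesOf (K := K) x) ≤ W m := by
  have hmono' : ∀ m n, m ≤ n → W m ≤ W n := fun m n h => monotone_nat_of_le_succ hmono h
  have hmul' : ∀ (i m : ℕ), ∀ g ∈ W m, x ^ i * g ∈ W (m + i) := by
    intro i
    induction i with
    | zero => intro m g hg; simpa using hg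
    | succ i ih =>
      intro m g hg
      rw [pow_succ', mul_assoc]
      exact hmul _ _ (ih m g hg)
  set m₁ : ℕ := 2 * genusFF K F + 1 with hm₁
  set L := riemannRochSpace (m₁ • RR.polesOf (K := K) x) with hL
  have hfin : Module.Finite K L := RR.finite_riemannRochSpace _
  -- uniform absorption
  obtain ⟨a, ha1, ha2⟩ : ∃ a : ℕ, (∀ g ∈ L, g ∈ W (m₁ + a)) ∧ (∀ g ∈ L, x ^ a * g ∈ W (m₁ + a)) := by
    have hfg : L.FG := Module.Finite.iff_fg.mp hfin
    obtain ⟨s, hs⟩ := hfg
    have h1' : ∀ g ∈ L, ∃ M, g ∈ W (m₁ + M) ∧ x ^ M * g ∈ W (m₁ + M) := by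
      intro g hg
      obtain ⟨M, hM⟩ := h1 _ g hg
      obtain ⟨M', hM'⟩ := h2 _ g hg
      refine ⟨M + M', hmono' _ _ (by omega) hM, ?_⟩
      have := hmul' M _ _ hM'
      rw [← mul_assoc, ← pow_add] at this
      exact hmono' _ _ (by omega) this
    have hsL : ∀ g ∈ s, g ∈ L := fun g hg => hs ▸ Submodule.subset_span hg
    have h1'' : ∀ g : F, ∃ M : ℕ, g ∈ s → g ∈ W (m₁ + M) ∧ x ^ M * g ∈ W (m₁ + M) := by
      intro g
      by_cases hg : g ∈ s
      · obtain ⟨M, hM⟩ := h1' g (hsL g hg)
        exact ⟨M, fun _ => hM⟩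
      · exact ⟨0, fun h => absurd h hg⟩
    choose M hM using h1''
    refine ⟨s.sup M, fun g hg => ?_, fun g hg => ?_⟩
    · have : L ≤ W (m₁ + s.sup M) := by
        rw [← hs, Submodule.span_le]
        intro g hg
        have h3 : M g ≤ s.sup M := Finset.le_sup hg
        exact hmono' _ _ (by omega) (hM g hg).1
      exact this hg
    · have : L ≤ (W (m₁ + s.sup M)).comap (LinearMap.mulLeft K (x ^ s.sup M)) := by
        rw [← hs, Submodule.span_le]
        intro g hg
        have h3 : M g ≤ s.sup M := Finset.le_sup hg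
        show x ^ s.sup M * g ∈ W (m₁ + s.sup M)
        have h4 := hmul' (s.sup M - M g) _ _ (hM g hg).2
        rw [← mul_assoc, ← pow_add, Nat.sub_add_cancel h3] at h4
        exact hmono' _ _ (by omega) h4
      exact this hg
  -- `L((m₁ + j) D)` is contained in any subspace containing all `x ^ i * L`, `i ≤ j`
  have key : ∀ (j : ℕ) (U : Submodule K F), (∀ i ≤ j, ∀ g ∈ L, x ^ i * g ∈ U) →
      riemannRochSpace ((m₁ + j) • RR.polesOf (K := K) x) ≤ U := by
    intro j
    induction j with
    | zero =>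
      intro U hU g hg
      have := hU 0 le_rfl g hg
      simpa using this
    | succ j ih =>
      intro U hU
      have h3 := pencil (K := K) hx (m := 2 * genusFF K F + j) (by omega)
      have h4 : 2 * genusFF K F + j + 1 = m₁ + j := by omega
      have h5 : 2 * genusFF K F + j + 2 = m₁ + (j + 1) := by omega
      rw [h4, h5] at h3
      refine h3.trans (sup_le ?_ ?_)
      · exact ih U fun i hi => hU i (by omega)
      · rw [Submodule.map_le_iff_le_comap]
        refine ih _ fun i hi g hg => ?_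
        show x * (x ^ i * g) ∈ U
        rw [← mul_assoc, ← pow_succ']
        exact hU (i + 1) (by omega) g hg
  refine ⟨m₁ + 2 * a, fun m hm => ?_⟩
  obtain ⟨j, rfl⟩ : ∃ j, m = m₁ + j := ⟨m - m₁, by omega⟩
  refine key j _ fun i hi g hg => ?_
  by_cases hia : a ≤ i
  · have h4 := hmul' (i - a) _ _ (ha2 g hg)
    rw [← mul_assoc, ← pow_add, Nat.sub_add_cancel hia] at h4
    exact hmono' _ _ (by omega) h4
  · exact hmono' _ _ (by omega) (hmul' i _ _ (ha1 g hg))

end Fermat.Agent.JRED.DescentB
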