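import Fermat.Agent.JRED.DescentKey
import Fermat.Agent.JRED.DescentPencil
import Fermat.Agent.FF.RelGlobal

/-!
# Descent of genus equality: the main theorem

`C₁` a constant reduction of `F₁` extending the constant reduction `C` of `F`,
`[F₁ : F] = [F₁' : F']`.  If the genus is preserved for `F₁` then it is preserved for `F`.
-/

set_option autoImplicit false
set_option linter.unusedSectionVars false

noncomputable section

open AlgebraicCurve IntermediateField

namespace Fermat.Agent.JRED.DescentB

open Fermat.Agent.JRED.Descent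

section Ortho

variable {K k : Type*} [Field K] [Field k] {A : ValuationSubring K} {π : A →+* k}
  {F F' : Type*} [Field F] [Field F'] [Algebra K F] [Algebra k F'] (C : ConstRed A π F F')

theorem constRed_red_surj : ∀ u : F', ∃ w, C.toRedDatum.Red w u := by
  intro u
  obtain ⟨f, rfl⟩ := C.res_surjective u
  exact ⟨f, f.2, rfl⟩

theorem constRed_hasOrtho (hπ : Function.Surjective π) (W : Submodule K F)
    (hW : FiniteDimensional K W) : C.toRedDatum.HasOrtho W := by
  obtain ⟨b, hbW, hbO, hb⟩ := C.exists_basis W hW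
  have h1 : C.toRedDatum.IsOrtho b (fun i => C.res ⟨b i, hbO i⟩) :=
    ⟨fun i => ⟨hbO i, rfl⟩, hb⟩
  refine ⟨_, b, _, h1, ?_⟩
  have h2 := h1.linearIndependent hπ
  refine Submodule.eq_of_le_of_finrank_eq (Submodule.span_le.mpr ?_) ?_
  · rintro _ ⟨i, rfl⟩
    exact hbW i
  · rw [finrank_span_eq_card h2, Fintype.card_fin]

end Ortho

section Poles

variable {K F F₁ : Type*} [Field K] [Field F] [Field F₁] [Algebra K F] [Algebra K F₁]
  [Algebra F F₁] [IsScalarTower K F F₁] [FiniteDimensional F F₁] [IsAlgClosed K]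
  [RR.FunctionField K F] [RR.FunctionField K F₁]

theorem polesOf_algebraMap (x : F) :
    RR.polesOf (K := K) (algebraMap F F₁ x) = Divisor.pullback F₁ (RR.polesOf (K := K) x) := by
  ext w
  rw [Divisor.pullback_apply, RR.polesOf_apply, RR.polesOf_apply, w.ord_restrict x,
    mul_max_of_nonneg _ _ (Int.natCast_nonneg _), mul_zero, mul_neg]

theorem degree_polesOf_algebraMap (x : F) :
    Divisor.degree (RR.polesOf (K := K) (algebraMap F F₁ x)) =
      Module.finrank F F₁ * Divisor.degree (RR.polesOf (K := K) x) := by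
  have h1 := Descent.isFF1_of_functionField (K := K) (F := F)
  have h2 : FundamentalIdentity K F F₁ := Fermat.FF.Rel.fundamentalIdentity K F F₁
  rw [polesOf_algebraMap, Divisor.degree_pullback]

end Poles

section Main

variable {K k : Type*} [Field K] [Field k]
variable {A : ValuationSubring K} {π : A →+* k} {F F' F₁ F₁' : Type*} [Field F] [Field F']
    [Algebra K F] [Algebra k F'] [Field F₁] [Field F₁'] [Algebra K F₁] [Algebra k F₁']
    [Algebra F F₁] [Algebra F' F₁'] [IsScalarTower K F F₁] [IsScalarTower k F' F₁']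
    [FiniteDimensional F F₁] [FiniteDimensional F' F₁']
    [IsAlgClosed K] [IsAlgClosed k] [RR.FunctionField K F] [RR.FunctionField k F']
    [RR.FunctionField K F₁] [RR.FunctionField k F₁']
    {C : ConstRed A π F F'} {C₁ : ConstRed A π F₁ F₁'}

/-- Functions regular off the poles of `x̄` lift, if the genus upstairs is preserved. -/
theorem lift_of_genus (hπ : Function.Surjective π) (E : Ext C C₁)
    (hn : Module.finrank F F₁ = Module.finrank F' F₁') (x : C.O)
    (hx : Transcendental k (C.res x))
    (hd : Divisor.degree (RR.polesOf (K := K) (x : F)) ≤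
      Divisor.degree (RR.polesOf (K := k) (C.res x)))
    (hg : genusFF K F₁ = genusFF k F₁') :
    ∀ g ∈ regOff k (C.res x), ∃ f : C.O, (f : F) ∈ regOff K (x : F) ∧ C.res f = g := by
  have hxR : C.toRedDatum.Red (x : F) (C.res x) := ⟨x.2, rfl⟩
  have hxK : Transcendental K (x : F) := transcendental_of_res C x hx
  have hd' := degree_polesOf_le (R := C.toRedDatum) hπ (constRed_red_surj C) hxR hx
  refine exists_lift_regOff hπ E hn x hx ?_ ?_ ?_
  · have h1 := hd'
    rw [degree_polesOf hx, degree_polesOf hxK] at h1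
    exact_mod_cast h1
  · -- lifting upstairs
    intro h' hh'
    have hx1R : C₁.toRedDatum.Red (algebraMap F F₁ (x : F)) (algebraMap F' F₁' (C.res x)) :=
      ⟨E.mem x, E.res x⟩
    have hx1 : Transcendental k (algebraMap F' F₁' (C.res x)) := by
      rwa [Transcendental, isAlgebraic_algebraMap_iff (algebraMap F' F₁').injective]
    obtain ⟨m₀, hm₀⟩ := redSub_eq_of_genus (R := C₁.toRedDatum) hπ (constRed_red_surj C₁)
      (fun W hW => constRed_hasOrtho C₁ hπ W hW) hx1R hx1 (by
        rw [degree_polesOf_algebraMap, degree_polesOf_algebraMap, hn]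
        exact mul_le_mul_of_nonneg_left hd (Int.natCast_nonneg _)) hg
    obtain ⟨m, hm⟩ := Descent.exists_mem_riemannRochSpace hh'
    have h1 : h' ∈ riemannRochSpace ((m₀ + m) • RR.polesOf (K := k)
        (algebraMap F' F₁' (C.res x))) :=
      Descent.riemannRochSpace_nsmul_mono _ (Nat.le_add_left _ _) hm
    rw [← hm₀ (m₀ + m) (Nat.le_add_right _ _)] at h1
    obtain ⟨f, hf, hfO, rfl⟩ := h1
    exact ⟨⟨f, hfO⟩, Descent.riemannRochSpace_nsmul_le_regOff _ _ hf, rfl⟩
  · intro m f hf
    exact redSub_le (R := C.toRedDatum) hπ (constRed_red_surj C) hxR hd m ⟨f, hf, f.2, rfl⟩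

theorem polesOf_inv_apply {F : Type*} [Field F] [Algebra K F] [RR.FunctionField K F] (x : F)
    (v : Place K F) : RR.polesOf (K := K) x⁻¹ v = max (v.ord x) 0 := by
  rw [RR.polesOf_apply, v.ord_inv, neg_neg]

theorem degree_polesOf_inv {F : Type*} [Field F] [Algebra K F] [RR.FunctionField K F] {x : F}
    (hx : Transcendental K x) :
    Divisor.degree (RR.polesOf (K := K) x⁻¹) = Divisor.degree (RR.polesOf (K := K) x) := by
  have h1 : RR.polesOf (K := K) x⁻¹ - RR.polesOf (K := K) x = RR.divOf x := by
    ext v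
    rw [Finsupp.sub_apply, polesOf_inv_apply, RR.polesOf_apply, RR.divOf_apply]
    omega
  have h2 := congrArg Divisor.degree h1
  rw [map_sub, RR.degree_divOf] at h2
  omega

/-- **Descent of good reduction** (genus form). -/
theorem genusFF_eq_of_ext (hπ : Function.Surjective π) (E : Ext C C₁)
    (hn : Module.finrank F F₁ = Module.finrank F' F₁') (x : C.O)
    (hx : Transcendental k (C.res x))
    (hd : Module.finrank K⟮(x : F)⟯ F ≤ Module.finrank k⟮C.res x⟯ F')
    (hg : genusFF K F₁ = genusFF k F₁') :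
    genusFF K F = genusFF k F' := by
  have hxK : Transcendental K (x : F) := transcendental_of_res C x hx
  have hx0 : (x : F) ≠ 0 := by
    intro h0
    rw [h0] at hxK
    exact hxK isAlgebraic_zero
  have hx0' : C.res x ≠ 0 := by
    intro h0
    rw [h0] at hx
    exact hx isAlgebraic_zero
  have hdd : Divisor.degree (RR.polesOf (K := K) (x : F)) ≤
      Divisor.degree (RR.polesOf (K := k) (C.res x)) := by
    rw [degree_polesOf hx, degree_polesOf hxK]
    exact_mod_cast hd
  have hxR : C.toRedDatum.Red (x : F) (C.res x) := ⟨x.2, rfl⟩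
  -- the inverse of `x`
  have hyR : C.toRedDatum.Red (x : F)⁻¹ (C.res x)⁻¹ := RedDatum.inv hπ hxR hx0'
  obtain ⟨hyO, hyres⟩ := hyR
  set y : C.O := ⟨(x : F)⁻¹, hyO⟩ with hy
  have hytr : Transcendental k (C.res y) := by
    rw [hyres]
    intro h
    apply hx
    have h2 := h.inv
    rwa [inv_inv] at h2
  have hyd : Divisor.degree (RR.polesOf (K := K) (y : F)) ≤
      Divisor.degree (RR.polesOf (K := k) (C.res y)) := by
    rw [hyres, degree_polesOf_inv hx]
    change Divisor.degree (RR.polesOf (K := K) (x : F)⁻¹) ≤ _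
    rw [degree_polesOf_inv hxK]
    exact hdd
  have lift1 := lift_of_genus hπ E hn x hx hdd hg
  have lift2 := lift_of_genus hπ E hn y hytr hyd hg
  refine genus_eq_of_redSub_eq (R := C.toRedDatum) hπ (constRed_red_surj C)
    (fun W hW => constRed_hasOrtho C hπ W hW) hxR hx hdd ?_
  refine le_of_absorb hx (W := fun m => C.toRedDatum.redSub hπ
    (riemannRochSpace (m • RR.polesOf (K := K) (x : F)))) ?_ ?_ ?_ ?_
  · intro m
    exact RedDatum.redSub_mono fun f hf => mem_succ hf
  · rintro m g ⟨f, hf, hfg⟩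
    exact ⟨(x : F) * f, mul_mem_succ hf, C.toRedDatum.mul hxR hfg⟩
  · intro m g hg
    obtain ⟨f, hf, rfl⟩ := lift1 g (Descent.riemannRochSpace_nsmul_le_regOff _ _ hg)
    obtain ⟨M, hM⟩ := Descent.exists_mem_riemannRochSpace hf
    exact ⟨M, f, hM, f.2, rfl⟩
  · intro m g hg
    -- `x̄ ^ (-m) * g` is regular off the zeros of `x̄`
    have h1 : (C.res x)⁻¹ ^ m * g ∈ regOff k (C.res y) := by
      intro v hv
      rw [hyres] at hv
      by_cases hg0 : g = 0
      · rw [hg0, mul_zero]; exact zero_mem _
      apply RR.mem_of_ord_nonneg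
      have h2 := (mem_nsmul_polesOf_iff hg0 m).mp hg v
      have h3 := RR.ord_nonneg_of_mem v hv
      rw [v.ord_inv] at h3
      rw [v.ord_mul (pow_ne_zero _ (inv_ne_zero hx0')) hg0, RR.ord_pow, v.ord_inv]
      rw [max_eq_left h3] at h2
      linarith
    obtain ⟨f, hf, hfres⟩ := lift2 _ h1
    obtain ⟨M, hM⟩ := Descent.exists_mem_riemannRochSpace hf
    refine ⟨M, (x : F) ^ (M + m) * f, ?_, ?_⟩
    · by_cases hf0 : (f : F) = 0
      · rw [hf0, mul_zero]; exact zero_mem _
      rw [mem_nsmul_polesOf_iff hf0] at hM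
      rw [mem_nsmul_polesOf_iff (mul_ne_zero (pow_ne_zero _ hx0) hf0)]
      intro v
      have h2 := hM v
      have h2' : (y : F) = (x : F)⁻¹ := rfl
      rw [h2', v.ord_inv, neg_neg] at h2
      rw [v.ord_mul (pow_ne_zero _ hx0) hf0, RR.ord_pow]
      push_cast
      have hM0 : (0 : ℤ) ≤ M := Int.natCast_nonneg M
      have hm0 : (0 : ℤ) ≤ m := Int.natCast_nonneg m
      rcases le_total 0 (v.ord (x : F)) with h | h
      · rw [max_eq_left h] at h2
        rw [max_eq_right (by omega)]
        nlinarith
      · rw [max_eq_right h] at h2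
        rw [max_eq_left (by omega)]
        nlinarith
    · have h3 : C.res x ^ M * g = C.res x ^ (M + m) * ((C.res x)⁻¹ ^ m * g) := by
        rw [pow_add, inv_pow]
        field_simp
      rw [h3, ← hfres]
      exact C.toRedDatum.mul (RedDatum.pow hxR _) ⟨f.2, rfl⟩

end Main

end Fermat.Agent.JRED.DescentB
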