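import Fermat.Agent.JRED.OrthoBasis

set_option autoImplicit false

/-!
# Degree inequality and orthonormal bases from a residually transcendental element

* `finrank_adjoin_le`: `[Fk : k(xbar)] ≤ [F : K(x)]` when `x` reduces to a transcendental `xbar`.
* `hasOrtho_of_finrank`: if equality holds for one such `x`, then every finite dimensional
  `K`-subspace of `F` has an orthonormal basis.
-/

noncomputable section

open AlgebraicCurve Polynomial IntermediateField

namespace Fermat.Agent.JRED

theorem linearIndependent_pow_of_transcendental {k E : Type*} [Field k] [Field E] [Algebra k E]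
    {x : E} (hx : Transcendental k x) : LinearIndependent k (fun n : ℕ => x ^ n) := by
  have h1 : LinearIndependent k (fun n : ℕ => (X : k[X]) ^ n) := by
    have := (Polynomial.basisMonomials k).linearIndependent
    convert this using 1
    ext1 n
    simp [Polynomial.X_pow_eq_monomial]
  have h2 := h1.map' (Polynomial.aeval x).toLinearMap
    (LinearMap.ker_eq_bot.mpr (transcendental_iff_injective.mp hx))
  have h3 : (fun n : ℕ => x ^ n) = (Polynomial.aeval x).toLinearMap ∘ fun n : ℕ => (X : k[X]) ^ n := by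
    ext1 n
    simp
  rw [h3]
  exact h2

theorem transcendental_of_linearIndependent_pow {k E : Type*} [Field k] [Field E] [Algebra k E]
    {x : E} (hx : LinearIndependent k (fun n : ℕ => x ^ n)) : Transcendental k x := by
  rw [transcendental_iff]
  intro p hp
  rw [Polynomial.aeval_eq_sum_range] at hp
  ext n
  by_cases hn : n ∈ Finset.range (p.natDegree + 1)
  · simpa using (linearIndependent_iff'.mp hx) _ _ hp n hn
  · rw [Finset.mem_range, not_lt] at hn
    simpa using Polynomial.coeff_eq_zero_of_natDegree_lt (by omega)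

/-- If `(x^j e_i)` is linearly independent over `K` then `(e_i)` is linearly independent over
`K(x)`. -/
theorem linearIndependent_adjoin {K F : Type*} [Field K] [Field F] [Algebra K F] {x : F}
    {ι : Type*} {e : ι → F}
    (h : LinearIndependent K (fun p : ℕ × ι => x ^ p.1 * e p.2)) :
    LinearIndependent K⟮x⟯ e := by
  classical
  open scoped IntermediateField.algebraAdjoinAdjoin in
  rw [← LinearIndependent.iff_fractionRing (Algebra.adjoin K {x}) K⟮x⟯, linearIndependent_iff']
  intro s r hr i hi
  have hP : ∀ j, ∃ P : K[X], aeval x P = (r j : F) := by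
    intro j
    have h0 : (r j : F) ∈ (Polynomial.aeval (R := K) x).range := by
      rw [← Algebra.adjoin_singleton_eq_range_aeval]
      exact (r j).2
    exact h0
  choose P hP using hP
  set N := s.sup (fun j => (P j).natDegree) + 1 with hN
  have hdeg : ∀ j ∈ s, (P j).natDegree < N := fun j hj =>
    Nat.lt_succ_of_le (Finset.le_sup (f := fun j => (P j).natDegree) hj)
  have h1 : ∑ p ∈ Finset.range N ×ˢ s, (P p.2).coeff p.1 • (x ^ p.1 * e p.2) = 0 := by
    rw [Finset.sum_product_right, ← hr]
    refine Finset.sum_congr rfl fun j hj => ?_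
    have h2 : r j • e j = (r j : F) * e j := rfl
    rw [h2, ← hP j, Polynomial.aeval_eq_sum_range' (hdeg j hj), Finset.sum_mul]
    exact Finset.sum_congr rfl fun n _ => by rw [smul_mul_assoc]
  have h2 := (linearIndependent_iff'.mp h) _ (fun p => (P p.2).coeff p.1) h1
  have h3 : P i = 0 := by
    ext n
    by_cases hn : n < N
    · exact h2 (n, i) (Finset.mem_product.mpr ⟨Finset.mem_range.mpr hn, hi⟩)
    · rw [coeff_zero]
      exact Polynomial.coeff_eq_zero_of_natDegree_lt (lt_of_lt_of_le (hdeg i hi) (not_lt.mp hn))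
  apply Subtype.ext
  rw [← hP i, h3, map_zero]
  rfl

variable {K F k Fk : Type*} [Field K] [Field F] [Algebra K F] [Field k] [Field Fk] [Algebra k Fk]
variable {A : ValuationSubring K} {π : A →+* k}

namespace RedDatum

variable {R : RedDatum K F k Fk A π}

theorem isOrtho_pow_mul {x : F} {xbar : Fk} (hx : R.Red x xbar) (htr : Transcendental k xbar)
    {ι : Type*} {e : ι → F} {ebar : ι → Fk} (he : ∀ i, R.Red (e i) (ebar i))
    (hli : LinearIndependent k⟮xbar⟯ ebar) :
    R.IsOrtho (fun p : ℕ × ι => x ^ p.1 * e p.2) (fun p : ℕ × ι => xbar ^ p.1 * ebar p.2) := by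
  refine ⟨fun p => R.mul (RedDatum.pow hx p.1) (he p.2), ?_⟩
  have h1 : Transcendental k (AdjoinSimple.gen k xbar) := by
    intro h
    apply htr
    have h0 := h.algebraMap (A := Fk)
    simpa using h0
  have h2 := linearIndependent_smul (linearIndependent_pow_of_transcendental h1) hli
  convert h2 using 1
  ext1 p
  show xbar ^ p.1 * ebar p.2 = (AdjoinSimple.gen k xbar ^ p.1) • ebar p.2
  rw [Algebra.smul_def, map_pow, AdjoinSimple.algebraMap_gen]

theorem transcendental_of_red (hπ : Function.Surjective π) {x : F} {xbar : Fk}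
    (hx : R.Red x xbar) (htr : Transcendental k xbar) : Transcendental K x := by
  have h1 : R.IsOrtho (fun n : ℕ => x ^ n) (fun n : ℕ => xbar ^ n) :=
    ⟨fun n => RedDatum.pow hx n, linearIndependent_pow_of_transcendental htr⟩
  exact transcendental_of_linearIndependent_pow (h1.linearIndependent hπ)

theorem linearIndependent_lift (hπ : Function.Surjective π) {x : F} {xbar : Fk}
    (hx : R.Red x xbar) (htr : Transcendental k xbar) {ι : Type*} {e : ι → F} {ebar : ι → Fk}
    (he : ∀ i, R.Red (e i) (ebar i)) (hli : LinearIndependent k⟮xbar⟯ ebar) :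
    LinearIndependent K⟮x⟯ e :=
  linearIndependent_adjoin ((isOrtho_pow_mul hx htr he hli).linearIndependent hπ)

theorem rank_adjoin_le (hπ : Function.Surjective π) (hsurj : ∀ u : Fk, ∃ w, R.Red w u)
    {x : F} {xbar : Fk} (hx : R.Red x xbar) (htr : Transcendental k xbar)
    [FiniteDimensional K⟮x⟯ F] :
    FiniteDimensional k⟮xbar⟯ Fk ∧ Module.finrank k⟮xbar⟯ Fk ≤ Module.finrank K⟮x⟯ F := by
  have key : ∀ (n : ℕ) (ebar : Fin n → Fk), LinearIndependent k⟮xbar⟯ ebar →
      n ≤ Module.finrank K⟮x⟯ F := by
    intro n ebar hli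
    choose e he using fun i => hsurj (ebar i)
    have h1 := linearIndependent_lift hπ hx htr he hli
    simpa using h1.fintype_card_le_finrank
  have hfin : FiniteDimensional k⟮xbar⟯ Fk := by
    by_contra hinf
    have hinf' : Module.rank k⟮xbar⟯ Fk ≥ Cardinal.aleph0 := by
      rw [ge_iff_le, ← not_lt]
      intro h
      exact hinf (Module.rank_lt_aleph0_iff.mp h)
    obtain ⟨s, hs, hli⟩ := exists_finset_linearIndependent_of_le_rank
      (R := k⟮xbar⟯) (M := Fk) (n := Module.finrank K⟮x⟯ F + 1)
      ((Cardinal.natCast_lt_aleph0.le).trans hinf')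
    have h2 := hli.comp (s.equivFin.symm) (s.equivFin.symm.injective)
    have h3 := key _ _ h2
    omega
  refine ⟨hfin, ?_⟩
  exact key _ _ (Module.finBasis k⟮xbar⟯ Fk).linearIndependent

theorem finrank_adjoin_le (hπ : Function.Surjective π) (hsurj : ∀ u : Fk, ∃ w, R.Red w u)
    {x : F} {xbar : Fk} (hx : R.Red x xbar) (htr : Transcendental k xbar)
    [FiniteDimensional K⟮x⟯ F] :
    Module.finrank k⟮xbar⟯ Fk ≤ Module.finrank K⟮x⟯ F :=
  (rank_adjoin_le hπ hsurj hx htr).2

/-- Multiplication by a nonzero element preserves the existence of orthonormal bases. -/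
theorem HasOrtho.of_mul {W W' : Submodule K F} {q : F} (hq : q ≠ 0)
    (h : R.HasOrtho W') (hW : W' = W.map (LinearMap.mulLeft K q)) : R.HasOrtho W := by
  obtain ⟨n, b, bbar, hb, hspan⟩ := h
  obtain ⟨c, hc, u, hu, hred⟩ := R.normalize q⁻¹ (inv_ne_zero hq)
  refine ⟨n, fun i => (algebraMap K F c * q⁻¹) * b i, fun i => u * bbar i,
    ⟨fun i => R.mul hred (hb.red i), ?_⟩, ?_⟩
  · have h1 := hb.li.map' (LinearMap.mulLeft k u)
      (LinearMap.ker_eq_bot.mpr (mul_right_injective₀ hu))
    exact h1
  · have h1 : (fun i => (algebraMap K F c * q⁻¹) * b i) =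
        (LinearMap.mulLeft K (algebraMap K F c * q⁻¹)) ∘ b := rfl
    rw [h1, Set.range_comp, Submodule.span_image, hspan, hW, ← Submodule.map_comp]
    have h2 : (LinearMap.mulLeft K (algebraMap K F c * q⁻¹)) ∘ₗ (LinearMap.mulLeft K q) =
        c • (LinearMap.id : F →ₗ[K] F) := by
      refine LinearMap.ext fun z => ?_
      simp only [LinearMap.comp_apply, LinearMap.mulLeft_apply, LinearMap.smul_apply,
        LinearMap.id_apply]
      rw [Algebra.smul_def]
      field_simp
    rw [h2, Submodule.map_smul _ _ _ hc, Submodule.map_id]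

/-- If `[Fk : k(xbar)] ≥ [F : K(x)]` for some residually transcendental `x`, all finite dimensional
subspaces have orthonormal bases. -/
theorem hasOrtho_of_finrank (hπ : Function.Surjective π) (hsurj : ∀ u : Fk, ∃ w, R.Red w u)
    {x : F} {xbar : Fk} (hx : R.Red x xbar) (htr : Transcendental k xbar)
    [FiniteDimensional K⟮x⟯ F] (hdeg : Module.finrank K⟮x⟯ F ≤ Module.finrank k⟮xbar⟯ Fk)
    (W : Submodule K F) [FiniteDimensional K W] : R.HasOrtho W := by
  classical
  obtain ⟨hfin, hle⟩ := rank_adjoin_le hπ hsurj hx htr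
  set n := Module.finrank k⟮xbar⟯ Fk with hn
  have hn' : n = Module.finrank K⟮x⟯ F := le_antisymm hle hdeg
  let ebar := Module.finBasis k⟮xbar⟯ Fk
  choose e he using fun i => hsurj (ebar i)
  have hli := linearIndependent_lift hπ hx htr he ebar.linearIndependent
  have horth := isOrtho_pow_mul hx htr he ebar.linearIndependent
  have hspan : ⊤ ≤ Submodule.span K⟮x⟯ (Set.range e) := by
    have h1 := hli.span_eq_top_of_card_eq_finrank' (by rw [Fintype.card_fin]; exact hn')
    rw [h1]
  -- the span is stable under `K[x]`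
  set U := Submodule.span K (Set.range (fun p : ℕ × Fin n => x ^ p.1 * e p.2)) with hU
  have hxU : ∀ z ∈ U, x * z ∈ U := by
    intro z hz
    have : U ≤ U.comap (LinearMap.mulLeft K x) := by
      rw [hU, Submodule.span_le]
      rintro _ ⟨p, rfl⟩
      have h0 : x * (x ^ p.1 * e p.2) ∈
          Submodule.span K (Set.range (fun p : ℕ × Fin n => x ^ p.1 * e p.2)) := by
        refine Submodule.subset_span ⟨(p.1 + 1, p.2), ?_⟩
        simp only
        ring
      exact h0
    exact this hz
  have hqU : ∀ q ∈ Algebra.adjoin K {x}, ∀ z ∈ U, q * z ∈ U := by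
    intro q hq z hz
    rw [Algebra.adjoin_singleton_eq_range_aeval] at hq
    obtain ⟨P, rfl⟩ := hq
    induction P using Polynomial.induction_on' with
    | add P Q hP hQ =>
      have : (aeval x (P + Q) : F) * z = aeval x P * z + aeval x Q * z := by
        rw [map_add, add_mul]
      show (aeval x (P + Q) : F) * z ∈ U
      rw [this]
      exact U.add_mem hP hQ
    | monomial m a =>
      show (aeval x (monomial m a) : F) * z ∈ U
      have h1 : ∀ m : ℕ, x ^ m * z ∈ U := by
        intro m
        induction m with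
        | zero => simpa using hz
        | succ m ih => rw [pow_succ', mul_assoc]; exact hxU _ ih
      rw [aeval_monomial, mul_assoc, ← Algebra.smul_def]
      exact U.smul_mem _ (h1 m)
  -- a denominator for every element
  have key : ∀ w : F, ∃ q : F, q ≠ 0 ∧ q ∈ Algebra.adjoin K {x} ∧ q * w ∈ U := by
    have heU : ∀ i, e i ∈ U := fun i => Submodule.subset_span ⟨(0, i), by simp⟩
    intro w
    have hw : w ∈ Submodule.span K⟮x⟯ (Set.range e) :=
      hspan (Submodule.mem_top : w ∈ (⊤ : Submodule K⟮x⟯ F))
    induction hw using Submodule.span_induction with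
    | mem z hz =>
      obtain ⟨i, rfl⟩ := hz
      exact ⟨1, one_ne_zero, one_mem _, by rw [one_mul]; exact heU i⟩
    | zero => exact ⟨1, one_ne_zero, one_mem _, by simp⟩
    | add z z' _ _ hz hz' =>
      obtain ⟨q, hq, hq1, h1⟩ := hz
      obtain ⟨q', hq', hq1', h1'⟩ := hz'
      refine ⟨q * q', mul_ne_zero hq hq', mul_mem hq1 hq1', ?_⟩
      have : q * q' * (z + z') = q' * (q * z) + q * (q' * z') := by ring
      rw [this]
      exact U.add_mem (hqU _ hq1' _ h1) (hqU _ hq1 _ h1')
    | smul a z _ hz =>
      obtain ⟨q, hq, hq1, h1⟩ := hz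
      obtain ⟨r', s', hrs⟩ := (IntermediateField.mem_adjoin_simple_iff K (a : F)).mp a.2
      set r : F := aeval x r' with hr'
      set s : F := aeval x s' with hs'
      have hr : r ∈ Algebra.adjoin K {x} := by
        rw [Algebra.adjoin_singleton_eq_range_aeval]; exact ⟨r', rfl⟩
      have hs : s ∈ Algebra.adjoin K {x} := by
        rw [Algebra.adjoin_singleton_eq_range_aeval]; exact ⟨s', rfl⟩
      by_cases hs0 : s = 0
      · refine ⟨1, one_ne_zero, one_mem _, ?_⟩
        have : (a : F) = 0 := by rw [hrs, hs0, div_zero]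
        have h2 : a • z = 0 := by
          rw [Algebra.smul_def]
          show (a : F) * z = 0
          rw [this, zero_mul]
        rw [h2, mul_zero]
        exact U.zero_mem
      · refine ⟨s * q, mul_ne_zero hs0 hq, mul_mem hs hq1, ?_⟩
        have h2 : s * q * (a • z) = r * (q * z) := by
          rw [Algebra.smul_def]
          show s * q * ((a : F) * z) = r * (q * z)
          rw [hrs]
          field_simp
        rw [h2]
        exact hqU _ hr _ h1
  -- common denominator for W
  have key2 : ∃ q : F, q ≠ 0 ∧ q ∈ Algebra.adjoin K {x} ∧ ∀ w ∈ W, q * w ∈ U := by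
    refine Submodule.fg_induction
      (motive := fun W _ => ∃ q : F, q ≠ 0 ∧ q ∈ Algebra.adjoin K {x} ∧ ∀ w ∈ W, q * w ∈ U)
      ?_ ?_ W (Module.Finite.iff_fg.mp inferInstance)
    · intro w
      obtain ⟨q, hq, hq1, h1⟩ := key w
      refine ⟨q, hq, hq1, fun z hz => ?_⟩
      obtain ⟨c, rfl⟩ := Submodule.mem_span_singleton.mp hz
      rw [mul_smul_comm]
      exact U.smul_mem _ h1
    · rintro W₁ W₂ - - ⟨q, hq, hq1, h1⟩ ⟨q', hq', hq1', h1'⟩
      refine ⟨q * q', mul_ne_zero hq hq', mul_mem hq1 hq1', fun z hz => ?_⟩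
      obtain ⟨y, hy, y', hy', rfl⟩ := Submodule.mem_sup.mp hz
      have : q * q' * (y + y') = q' * (q * y) + q * (q' * y') := by ring
      rw [this]
      exact U.add_mem (hqU _ hq1' _ (h1 _ hy)) (hqU _ hq1 _ (h1' _ hy'))
  obtain ⟨q, hq, -, hqW'⟩ := key2
  have hqW : W.map (LinearMap.mulLeft K q) ≤ U := by
    rintro _ ⟨w, hw, rfl⟩
    exact hqW' w hw
  have h3 : R.HasOrtho (W.map (LinearMap.mulLeft K q)) :=
    hasOrtho_of_le_span hπ horth _ _ rfl hqW
  exact HasOrtho.of_mul hq h3 rfl

end RedDatum

end Fermat.Agent.JRED
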