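import Fermat.Agent.JRED.GaussRing
import Fermat.Agent.JRED.DegreeLe
import Fermat.Agent.JRED.Interface

set_option autoImplicit false

/-!
# The Gauss reduction of the modular function field `F_N`
-/

noncomputable section

open HahnSeries ModularCurve AlgebraicCurve IntermediateField

namespace Fermat.Agent.JRED

section JExpansions

variable {L : Type*} [Field L] [Algebra ℚ L]

/-- `j(q^d)` over `ℤ`. -/
def jZ (d : ℕ) [NeZero d] : LaurentSeries ℤ := qExpand ℤ d (jqModC ℤ)

theorem coeffMap_jZ (R : Type*) [CommRing R] (d : ℕ) [NeZero d] :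
    coeffMap (Int.castRingHom R) (jZ d) = qExpand R d (jqModC R) := by
  rw [jZ, coeffMap_qExpand, coeffMap_jqModC]

variable (L) in
theorem coeffEmb_qExpand_jq (d : ℕ) [NeZero d] :
    coeffEmb L (qExpand ℚ d jq) = coeffMap (Int.castRingHom L) (jZ d) := by
  have h1 : qExpand ℚ d jq = coeffMap (Int.castRingHom ℚ) (jZ d) := by
    rw [coeffMap_jZ]; rfl
  rw [h1, coeffEmb, coeffMap_coeffMap]
  exact coeffMap_congr (RingHom.ext_int _ _) _

theorem coeffEmb_algebraMap (c : ℚ) : coeffEmb L (algebraMap ℚ (LaurentSeries ℚ) c) =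
    algebraMap L (LaurentSeries L) (algebraMap ℚ L c) := by
  rw [algebraMap_laurentSeries_eq_single, algebraMap_laurentSeries_eq_single, coeffEmb,
    coeffMap_single]

/-- Elements of `F_N` are quotients of series with finitely generated coefficient group. -/
theorem mem_fgField_of_mem (N : ℕ) {x : LaurentSeries L}
    (hx : x ∈ laurentBaseChange L (modularFunctionFieldFull N)) : x ∈ fgField L := by
  rw [mem_laurentBaseChange_iff] at hx
  have hle : Subfield.closure (Set.range (algebraMap L (LaurentSeries L)) ∪
      (⇑(coeffEmb L) '' (modularFunctionFieldFull N : Set (LaurentSeries ℚ)))) ≤ fgField L := by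
    rw [Subfield.closure_le]
    rintro _ (⟨c, rfl⟩ | ⟨z, hz, rfl⟩)
    · exact (FGCoeff.const c).mem_fgField
    · have hle2 : Subfield.closure (Set.range (algebraMap ℚ (LaurentSeries ℚ)) ∪
          divisorExpansions N) ≤ (fgField L).comap (coeffEmb L) := by
        rw [Subfield.closure_le]
        rintro _ (⟨c, rfl⟩ | ⟨d, hd0, hd, rfl⟩)
        · show coeffEmb L _ ∈ fgField L
          rw [coeffEmb_algebraMap]
          exact (FGCoeff.const _).mem_fgField
        · show coeffEmb L _ ∈ fgField L
          rw [coeffEmb_qExpand_jq]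
          exact (FGCoeff.of_int _).mem_fgField
      exact hle2 hz
  exact hle hx

theorem coeff_algebraMap_mul {k : Type*} [Field k] (c : k) (f : LaurentSeries k) (n : ℤ) :
    (algebraMap k (LaurentSeries k) c * f).coeff n = c * f.coeff n := by
  rw [algebraMap_laurentSeries_eq_single, HahnSeries.coeff_single_zero_mul]

/-- `j̄` is transcendental over any field. -/
theorem transcendental_jqModC (k : Type*) [Field k] : Transcendental k (jqModC k) := by
  classical
  rw [transcendental_iff]
  intro p hp
  by_contra hp0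
  rw [Polynomial.aeval_def, Polynomial.eval₂_eq_sum_range] at hp
  have h1 := congrArg (fun f : LaurentSeries k => HahnSeries.coeff f (-(p.natDegree : ℤ))) hp
  simp only [HahnSeries.coeff_zero, HahnSeries.coeff_sum] at h1
  rw [Finset.sum_eq_single_of_mem p.natDegree (Finset.self_mem_range_succ _)] at h1
  · rw [coeff_algebraMap_mul, coeff_jqModC_pow_self, mul_one] at h1
    exact hp0 (Polynomial.leadingCoeff_eq_zero.mp h1)
  · intro i hi hne
    have h2 : i < p.natDegree + 1 := Finset.mem_range.mp hi
    rw [coeff_algebraMap_mul, coeff_jqModC_pow_of_lt k (by omega), mul_zero]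

end JExpansions

section AbstractResidue

variable {K F k E : Type*} [Field K] [Field F] [Algebra K F] [Field k] [Field E] [Algebra k E]
variable {A : ValuationSubring K} {π : A →+* k}

theorem linearIndependent_intermediate {F' : IntermediateField k E} {t : E} {ht : t ∈ F'}
    (htr : Transcendental k t) {ι : Type*} {e : ι → F'}
    (he : LinearIndependent k⟮(⟨t, ht⟩ : F')⟯ e) :
    LinearIndependent k⟮t⟯ (fun i => ((e i : F') : E)) := by
  have h1 : Transcendental k (AdjoinSimple.gen k (⟨t, ht⟩ : F')) := by
    intro h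
    apply htr
    have h0 := h.algebraMap (A := F')
    have h00 := h0.algebraMap (A := E)
    simpa using h00
  have h2 := linearIndependent_smul (linearIndependent_pow_of_transcendental h1) he
  have h3 := h2.map' F'.val.toLinearMap (LinearMap.ker_eq_bot.mpr F'.val.injective)
  apply linearIndependent_adjoin
  have h4 : (fun p : ℕ × ι => t ^ p.1 * ((e p.2 : F') : E)) = ⇑F'.val.toLinearMap ∘
      fun p : ℕ × ι => (AdjoinSimple.gen k (⟨t, ht⟩ : F') ^ p.1) • e p.2 := by
    funext p
    show _ = F'.val ((AdjoinSimple.gen k (⟨t, ht⟩ : F') ^ p.1) • e p.2)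
    rw [Algebra.smul_def, map_pow, AdjoinSimple.algebraMap_gen, map_mul, map_pow]
    rfl
  rw [h4]
  exact h3

/-- The residue field of `F` is not bigger than `F'` if the degree does not drop. -/
theorem mem_of_red_of_degree (hπ : Function.Surjective π) (R : RedDatum K F k E A π)
    (F' : IntermediateField k E) (hF' : ∀ u ∈ F', ∃ f, R.Red f u) {x : F} {t : E} (ht : t ∈ F')
    (hx : R.Red x t) (htr : Transcendental k t) [FiniteDimensional K⟮x⟯ F]
    (hdeg : Module.finrank K⟮x⟯ F ≤ Module.finrank k⟮(⟨t, ht⟩ : F')⟯ F')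
    {f : F} {u : E} (hu : R.Red f u) : u ∈ F' := by
  have hpos : 0 < Module.finrank K⟮x⟯ F := Module.finrank_pos
  have hfin : FiniteDimensional k⟮(⟨t, ht⟩ : F')⟯ F' :=
    Module.finite_of_finrank_pos (lt_of_lt_of_le hpos hdeg)
  by_contra hnot
  set n := Module.finrank k⟮(⟨t, ht⟩ : F')⟯ F' with hn
  let e := Module.finBasis k⟮(⟨t, ht⟩ : F')⟯ F'
  have h5 : LinearIndependent k⟮t⟯ (fun i : Fin n => ((e i : F') : E)) :=
    linearIndependent_intermediate htr e.linearIndependent
  have h6 : LinearIndependent k⟮t⟯ (Fin.cons u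
      (fun i : Fin n => ((e i : F') : E)) : Fin (n + 1) → E) := by
    rw [linearIndependent_finCons]
    refine ⟨h5, fun hspan => hnot ?_⟩
    have h7 : ∀ z ∈ Submodule.span k⟮t⟯ (Set.range (fun i : Fin n => ((e i : F') : E))),
        z ∈ F' := by
      intro z hz
      induction hz using Submodule.span_induction with
      | mem y hy => obtain ⟨i, rfl⟩ := hy; exact (e i).2
      | zero => exact zero_mem _
      | add y z _ _ hy hz => exact add_mem hy hz
      | smul c y _ hy =>
        have hc : (c : E) ∈ F' := by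
          have : k⟮t⟯ ≤ F' := by
            rw [IntermediateField.adjoin_simple_le_iff]
            exact ht
          exact this c.2
        exact mul_mem hc hy
    exact h7 u hspan
  have hlift : ∀ i, ∃ f, R.Red f ((Fin.cons u
      (fun i : Fin n => ((e i : F') : E)) : Fin (n + 1) → E) i) := by
    intro i
    refine Fin.cases ?_ (fun i => ?_) i
    · exact ⟨f, hu⟩
    · exact hF' _ (e i).2
  choose g hg using hlift
  have h8 := RedDatum.linearIndependent_lift hπ hx htr hg h6
  have h9 := h8.fintype_card_le_finrank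
  rw [Fintype.card_fin] at h9
  omega

/-- Restricting the values of a reduction datum to a subfield. -/
def RedDatum.restrict (R : RedDatum K F k E A π) (F' : IntermediateField k E)
    (h : ∀ f u, R.Red f u → u ∈ F') : RedDatum K F k F' A π where
  Red f u := R.Red f u
  add h h' := R.add h h'
  mul h h' := R.mul h h'
  const a := R.const a
  unique h h' := Subtype.ext (R.unique h h')
  normalize w hw := by
    obtain ⟨c, hc, u, hu, h'⟩ := R.normalize w hw
    exact ⟨c, hc, ⟨u, h _ _ h'⟩, fun h0 => hu (congrArg Subtype.val h0), h'⟩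

/-- The residue field of a reduction datum. -/
def RedDatum.resField (R : RedDatum K F k E A π) (hπ : Function.Surjective π) :
    IntermediateField k E where
  carrier := {u | ∃ f, R.Red f u}
  mul_mem' := by
    rintro u u' ⟨f, h⟩ ⟨f', h'⟩
    exact ⟨f * f', R.mul h h'⟩
  add_mem' := by
    rintro u u' ⟨f, h⟩ ⟨f', h'⟩
    exact ⟨f + f', R.add h h'⟩
  algebraMap_mem' := by
    intro c
    obtain ⟨a, rfl⟩ := hπ c
    exact ⟨_, R.const a⟩
  inv_mem' := by
    rintro u ⟨f, h⟩
    rcases eq_or_ne u 0 with rfl | hu
    · exact ⟨f, by rwa [inv_zero]⟩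
    · exact ⟨f⁻¹, RedDatum.inv hπ h hu⟩

/-- Build a `ConstRed` from a surjective reduction datum with good bases. -/
def RedDatum.toConstRed (R : RedDatum K F k E A π) (hπ : Function.Surjective π)
    (hsurj : ∀ u, ∃ w, R.Red w u)
    (hortho : ∀ W : Submodule K F, Module.Finite K W → R.HasOrtho W) : ConstRed A π F E where
  O :=
    { carrier := {w | ∃ u, R.Red w u}
      mul_mem' := by
        rintro w w' ⟨u, h⟩ ⟨u', h'⟩
        exact ⟨_, R.mul h h'⟩
      one_mem' := ⟨1, R.one⟩
      add_mem' := by
        rintro w w' ⟨u, h⟩ ⟨u', h'⟩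
        exact ⟨_, R.add h h'⟩
      zero_mem' := ⟨0, R.zero⟩
      neg_mem' := by
        rintro w ⟨u, h⟩
        exact ⟨_, RedDatum.neg h⟩
      mem_or_inv_mem' := by
        intro w
        rcases RedDatum.red_or_inv (R := R) hπ w with h | h
        · exact Or.inl h
        · exact Or.inr ⟨0, h⟩ }
  res :=
    { toFun := fun w => w.2.choose
      map_one' := R.unique (Exists.choose_spec (⟨1, R.one⟩ : ∃ u, R.Red 1 u)) R.one
      map_mul' := fun w w' => R.unique (Exists.choose_spec (w * w').2)
        (R.mul w.2.choose_spec w'.2.choose_spec)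
      map_zero' := R.unique (Exists.choose_spec (⟨0, R.zero⟩ : ∃ u, R.Red 0 u)) R.zero
      map_add' := fun w w' => R.unique (Exists.choose_spec (w + w').2)
        (R.add w.2.choose_spec w'.2.choose_spec) }
  res_surjective u := by
    obtain ⟨w, hw⟩ := hsurj u
    exact ⟨⟨w, u, hw⟩, R.unique (Exists.choose_spec (⟨u, hw⟩ : ∃ u, R.Red w u)) hw⟩
  algebraMap_mem a := ⟨_, R.const a⟩
  res_algebraMap a := R.unique (Exists.choose_spec (⟨_, R.const a⟩ : ∃ u, R.Red _ u)) (R.const a)
  exists_unit f hf := by
    obtain ⟨c, hc, u, hu, h⟩ := R.normalize f hf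
    refine ⟨c, hc, ⟨u, h⟩, ?_⟩
    have h1 : R.Red (algebraMap K F c * f) _ := Exists.choose_spec (⟨u, h⟩ : ∃ u, R.Red _ u)
    intro h0
    exact hu (R.unique h (by convert h1; exact h0.symm))
  exists_basis V hV := by
    obtain ⟨n, b, bbar, hb, hspan⟩ := hortho V hV
    have hn : Module.finrank K V = n := by
      rw [← hspan, finrank_span_eq_card (hb.linearIndependent hπ), Fintype.card_fin]
    subst hn
    refine ⟨b, fun i => ?_, fun i => ⟨_, hb.red i⟩, ?_⟩
    · have h0 : b i ∈ Submodule.span K (Set.range b) := Submodule.subset_span ⟨i, rfl⟩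
      rwa [hspan] at h0
    · have h1 : (fun i => (Exists.choose (⟨_, hb.red i⟩ : ∃ u, R.Red (b i) u))) = bbar := by
        funext i
        exact R.unique (Exists.choose_spec (⟨_, hb.red i⟩ : ∃ u, R.Red (b i) u)) (hb.red i)
      show LinearIndependent k (fun i => (Exists.choose (⟨_, hb.red i⟩ : ∃ u, R.Red (b i) u)))
      rw [h1]
      exact hb.li

end AbstractResidue

section Residue

variable {L k : Type*} [Field L] [Algebra ℚ L] [Field k] {A : ValuationSubring L} (π : A →+* k)
  (N : ℕ)

/-- The reduction datum of `F_N` with values in all Laurent series. -/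
def redL : RedDatum L (laurentBaseChange L (modularFunctionFieldFull N)) k (LaurentSeries k) A π
    where
  Red f u := GRed π (f : LaurentSeries L) u
  add h h' := h.add h'
  mul h h' := h.mul h'
  const a := GRed.const a
  unique h h' := h.unique h'
  normalize w hw := by
    obtain ⟨c, hc, u, hu, h⟩ := exists_normalize_of_mem_fgField π (mem_fgField_of_mem N w.2)
      (fun h0 => hw (Subtype.ext h0))
    exact ⟨c, hc, u, hu, h⟩

/-- the element `j` of `F_N` over any field. -/
def jL (L : Type*) [Field L] [Algebra ℚ L] (N : ℕ) :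
    laurentBaseChange L (modularFunctionFieldFull N) :=
  ⟨coeffEmb L jq, coeffEmb_mem_laurentBaseChange _ (by
    simpa [qExpand_one_apply] using jqd_mem_full N (one_dvd N))⟩

theorem redL_jd {d : ℕ} [NeZero d] (hd : d ∣ N) :
    ∃ f : laurentBaseChange L (modularFunctionFieldFull N),
      (redL π N).Red f (qExpand k d (jqModC k)) := by
  refine ⟨⟨coeffEmb L (qExpand ℚ d jq), coeffEmb_mem_laurentBaseChange _ (jqd_mem_full N hd)⟩, ?_⟩
  show GRed π (coeffEmb L (qExpand ℚ d jq)) _
  rw [coeffEmb_qExpand_jq, ← coeffMap_jZ]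
  exact GRed.of_int _

theorem redL_j : (redL π N).Red (jL L N) (jqModC k) := by
  show GRed π (coeffEmb L jq) _
  have h := GRed.of_int (π := π) (jZ 1)
  rw [← coeffEmb_qExpand_jq, coeffMap_jZ, qExpand_one_apply, qExpand_one_apply] at h
  exact h

variable {π}

/-- Everything in `F̄_N` is a reduction. -/
theorem exists_red_of_mem_full (hπ : Function.Surjective π) {u : LaurentSeries k}
    (hu : u ∈ modularFunctionFieldFullC k N) : ∃ f, (redL π N).Red f u := by
  have hle : modularFunctionFieldFullC k N ≤ (redL π N).resField hπ := by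
    rw [modularFunctionFieldFullC, IntermediateField.adjoin_le_iff]
    rintro _ ⟨d, hd0, hd, rfl⟩
    exact redL_jd π N hd
  exact hle hu

/-- Reductions lie in `F̄_N` if the degree over `k(j)` does not drop. -/
theorem mem_full_of_red (hπ : Function.Surjective π)
    [FiniteDimensional L⟮jL L N⟯ (laurentBaseChange L (modularFunctionFieldFull N))]
    (hdeg : Module.finrank L⟮jL L N⟯ (laurentBaseChange L (modularFunctionFieldFull N)) ≤
      Module.finrank k⟮jRed k N⟯ (modularFunctionFieldFullC k N))
    {f : laurentBaseChange L (modularFunctionFieldFull N)} {u : LaurentSeries k}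
    (h : (redL π N).Red f u) : u ∈ modularFunctionFieldFullC k N :=
  mem_of_red_of_degree hπ (redL π N) (modularFunctionFieldFullC k N)
    (fun _ hu => exists_red_of_mem_full N hπ hu) (jqModC_mem_full k N) (redL_j π N)
    (transcendental_jqModC k) hdeg h

end Residue

end Fermat.Agent.JRED
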