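import Fermat.Agent.JRED.GenusBound
import Fermat.Agent.RR.Riemann
import Fermat.Agent.RR.Poles
import Fermat.Agent.RR.Instance
import Fermat.Agent.RR.Corollaries
import Fermat.Agent.FF.Basic
import Fermat.Agent.FF.Line

/-!
# The genus is at least the dimension of a space of regular differentials (any characteristic)
-/

set_option autoImplicit false
set_option linter.unusedSectionVars false

noncomputable section

open Polynomial Module AlgebraicCurve IntermediateField
open scoped IntermediateField

namespace Fermat.Agent.JRED.GenusBound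

section Residue

variable {k K R₁ : Type*} [Field k] [Field K] [Algebra k K] [CommRing R₁] [IsDomain R₁]
  [Algebra k R₁] [Algebra R₁ K] [IsFractionRing R₁ K] [IsScalarTower k R₁ K]

/-- the expansion `K → k((T))`. -/
def expand (e₁ : k[X] ≃ₐ[k] R₁) : K →+* LaurentSeries k :=
  IsFractionRing.lift (A := R₁) (K := K)
    (g := ((HahnSeries.ofPowerSeries ℤ k).comp (Polynomial.coeToPowerSeries.ringHom)).comp
      (e₁.symm : R₁ →+* k[X])) (by
    intro a b hab
    simp only [RingHom.comp_apply] at hab
    have h1 := HahnSeries.ofPowerSeries_injective hab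
    have h2 : (e₁.symm : R₁ →+* k[X]) a = (e₁.symm : R₁ →+* k[X]) b :=
      Polynomial.coe_injective k h1
    exact e₁.symm.injective h2)

theorem expand_algebraMap (e₁ : k[X] ≃ₐ[k] R₁) (r : R₁) :
    expand (K := K) e₁ (algebraMap R₁ K r) =
      HahnSeries.ofPowerSeries ℤ k ((e₁.symm r : k[X]) : PowerSeries k) := by
  rw [expand, IsFractionRing.lift_algebraMap]
  rfl

theorem expand_const (e₁ : k[X] ≃ₐ[k] R₁) (c : k) :
    expand (K := K) e₁ (algebraMap k K c) = HahnSeries.C c := by
  rw [IsScalarTower.algebraMap_apply k R₁ K, expand_algebraMap, AlgEquiv.commutes,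
    Polynomial.algebraMap_eq, Polynomial.coe_C, HahnSeries.ofPowerSeries_C]

theorem coeff_of_one_lt (e₁ : k[X] ≃ₐ[k] R₁) (r u : R₁)
    (hu : ¬ e₁ X ∣ u) :
    (expand (K := K) e₁ (algebraMap R₁ K ((e₁ X) ^ 2 * r) / algebraMap R₁ K u)).coeff 1 = 0 := by
  -- `u` is invertible in the power series ring
  have hu0 : PowerSeries.constantCoeff ((e₁.symm u : k[X]) : PowerSeries k) ≠ 0 := by
    rw [← PowerSeries.coeff_zero_eq_constantCoeff_apply, Polynomial.coeff_coe]
    intro h0
    apply hu
    have : X ∣ e₁.symm u := X_dvd_iff.mpr h0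
    have h1 := map_dvd e₁ this
    rwa [AlgEquiv.apply_symm_apply] at h1
  set U : PowerSeries k := ((e₁.symm u : k[X]) : PowerSeries k) with hU
  have hUinv : U * U⁻¹ = 1 := PowerSeries.mul_inv_cancel U hu0
  have h1 : expand (K := K) e₁ (algebraMap R₁ K ((e₁ X) ^ 2 * r) / algebraMap R₁ K u) =
      HahnSeries.ofPowerSeries ℤ k (PowerSeries.X ^ 2 *
        (((e₁.symm r : k[X]) : PowerSeries k) * U⁻¹)) := by
    rw [map_div₀, expand_algebraMap, expand_algebraMap, ← hU, div_eq_iff, ← map_mul]
    · congr 1
      rw [map_mul, map_pow, AlgEquiv.symm_apply_apply, Polynomial.coe_mul, Polynomial.coe_pow,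
        Polynomial.coe_X]
      rw [mul_assoc, mul_assoc, mul_comm U⁻¹ U, hUinv, mul_one]
    · intro h0
      apply hu0
      have : U = 0 := HahnSeries.ofPowerSeries_injective (by rw [h0, map_zero])
      rw [this, map_zero]
  rw [h1]
  have h2 := HahnSeries.ofPowerSeries_apply_coeff (Γ := ℤ) (R := k) (PowerSeries.X ^ 2 *
        (((e₁.symm r : k[X]) : PowerSeries k) * U⁻¹)) 1
  rw [Nat.cast_one] at h2
  rw [h2, PowerSeries.coeff_X_pow_mul']
  simp

/-- construction of the residue functional. -/
def mkResid {R₀ : Type*} [CommRing R₀] [Algebra k R₀] [Algebra R₀ K] [IsScalarTower k R₀ K]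
    (e₀ : k[X] ≃ₐ[k] R₀) (e₁ : k[X] ≃ₐ[k] R₁)
    (h : algebraMap R₀ K (e₀ X) * algebraMap R₁ K (e₁ X) = 1) :
    Resid k (K := K) R₀ (e₁ X) where
  res :=
    { toFun := fun x => (expand (K := K) e₁ x).coeff 1
      map_add' := fun x y => by rw [map_add, HahnSeries.coeff_add]
      map_smul' := fun c x => by
        rw [Algebra.smul_def, map_mul, expand_const, HahnSeries.C_mul_eq_smul,
          HahnSeries.coeff_smul, RingHom.id_apply] }
  res_R₀ := fun r => by
    show (expand (K := K) e₁ (algebraMap R₀ K r)).coeff 1 = 0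
    obtain ⟨p, rfl⟩ := e₀.surjective r
    -- the expansion of `x`
    have hx : expand (K := K) e₁ (algebraMap R₀ K (e₀ X)) = HahnSeries.single (-1 : ℤ) 1 := by
      have h1 := congrArg (expand (K := K) e₁) h
      rw [map_mul, map_one, expand_algebraMap, AlgEquiv.symm_apply_apply, Polynomial.coe_X,
        HahnSeries.ofPowerSeries_X] at h1
      have h2 : HahnSeries.single (1 : ℤ) (1 : k) * HahnSeries.single (-1 : ℤ) 1 = 1 := by
        rw [HahnSeries.single_mul_single]; simp
      calc expand (K := K) e₁ (algebraMap R₀ K (e₀ X))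
          = expand (K := K) e₁ (algebraMap R₀ K (e₀ X)) *
            (HahnSeries.single (1 : ℤ) (1 : k) * HahnSeries.single (-1 : ℤ) 1) := by
              rw [h2, mul_one]
        _ = _ := by rw [← mul_assoc, h1, one_mul]
    induction p using Polynomial.induction_on' with
    | add p q hp hq =>
      rw [map_add, map_add, map_add, HahnSeries.coeff_add, hp, hq, add_zero]
    | monomial n a =>
      rw [← Polynomial.C_mul_X_pow_eq_monomial, map_mul, map_mul, map_mul, map_pow, map_pow,
        map_pow, hx]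
      rw [← Polynomial.algebraMap_eq, AlgEquiv.commutes, ← IsScalarTower.algebraMap_apply k R₀ K,
        expand_const, HahnSeries.single_pow, one_pow, HahnSeries.C_mul_eq_smul,
        HahnSeries.coeff_smul, HahnSeries.coeff_single_of_ne, smul_zero]
      simp only [smul_neg, nsmul_eq_mul, mul_one]
      omega
  res_T := by
    show (expand (K := K) e₁ (algebraMap R₁ K (e₁ X))).coeff 1 = 1
    rw [expand_algebraMap, AlgEquiv.symm_apply_apply, Polynomial.coe_X,
      HahnSeries.ofPowerSeries_X, HahnSeries.coeff_single_same]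
  res_sq := fun r u hu => coeff_of_one_lt e₁ r u hu

end Residue

section Places

variable {k F : Type*} [Field k] [Field F] [Algebra k F]

/-- An element lying in all valuation rings of places containing `R` is integral over `R`. -/
theorem isIntegral_of_forall_place {R K : Type*} [CommRing R] [IsDomain R]
    [IsPrincipalIdealRing R] [Field K] [Algebra k R] [Algebra R K] [IsFractionRing R K]
    [Algebra R F] [IsScalarTower k R F]
    [Algebra K F] [IsScalarTower R K F] [FiniteDimensional K F] [Algebra.IsSeparable K F] {f : F}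
    (h : ∀ v : Place k F, (∀ r : R, algebraMap R F r ∈ v.toValuationSubring) →
      f ∈ v.toValuationSubring) : IsIntegral R f := by
  have h2 : IsDedekindDomain (integralClosure R F) := integralClosure.isDedekindDomain R K F
  have h3 : IsFractionRing (integralClosure R F) F :=
    integralClosure.isFractionRing_of_finite_extension (A := R) K F
  obtain ⟨b, hb⟩ := IsDedekindDomain.HeightOneSpectrum.mem_integers_of_valuation_le_one
    (R := integralClosure R F) F f (fun w => by
      have h4 := h (Place.ofHeightOneSpectrum (K := k) w) (fun r => by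
        rw [Place.ofHeightOneSpectrum_toValuationSubring, Valuation.mem_valuationSubring_iff,
          IsScalarTower.algebraMap_apply R (integralClosure R F) F]
        exact w.valuation_le_one _)
      rwa [Place.ofHeightOneSpectrum_toValuationSubring,
        Valuation.mem_valuationSubring_iff] at h4)
  rw [← hb]
  exact b.2

/-- conversely. -/
theorem mem_place_of_isIntegral {R : Type*} [CommRing R] [Algebra R F] {f : F}
    (hf : IsIntegral R f) (v : Place k F) (h : ∀ r : R, algebraMap R F r ∈ v.toValuationSubring) :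
    f ∈ v.toValuationSubring := by
  have := Fermat.FF.integralClosure_le_of_le h ⟨f, hf⟩
  exact this

theorem adjoin_le_place {x : F} (v : Place k F) (hx : x ∈ v.toValuationSubring) :
    ∀ r : Algebra.adjoin k {x}, algebraMap (Algebra.adjoin k {x}) F r ∈ v.toValuationSubring := by
  have h2 : Algebra.adjoin k {x} ≤
      { v.toValuationSubring.toSubring.toSubsemiring with
        algebraMap_mem' := v.algebraMap_mem' } := by
    apply Algebra.adjoin_le
    rintro _ rfl
    exact hx
  exact fun r => h2 r.2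

end Places

section Concrete

variable {k F : Type*} [Field k] [Field F] [Algebra k F]

open IntermediateField.algebraAdjoinAdjoin

/-- `y dx` is regular at the places where `x` is finite (weak form). -/
def RegFinX (k : Type*) {F : Type*} [Field k] [Field F] [Algebra k F] (x y : F) : Prop :=
  ∃ (m : ℕ) (c : k[X]), m ≠ 0 ∧ (∀ a : k, ¬ (X - C a) ^ m ∣ c) ∧
    IsIntegral (Algebra.adjoin k {x}) (aeval x c * y ^ m)

/-- `y dx` is regular at the poles of `x` (weak form). -/
def RegInfX (k : Type*) {F : Type*} [Field k] [Field F] [Algebra k F] (x y : F) : Prop :=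
  ∃ (m : ℕ) (u : k[X]), m ≠ 0 ∧ u.coeff 0 ≠ 0 ∧
    IsIntegral (Algebra.adjoin k {x⁻¹}) (aeval x⁻¹ u * (y ^ m * x ^ (m + 1)))

theorem adjoin_inv_le (x : F) :
    Algebra.adjoin k {x⁻¹} ≤ k⟮x⟯.toSubalgebra := by
  rw [Algebra.adjoin_le_iff]
  rintro _ rfl
  exact k⟮x⟯.inv_mem (mem_adjoin_simple_self k x)

/-- the algebra structure of `k(x)` over `k[1/x]`. -/
abbrev invAlgebra (k : Type*) {F : Type*} [Field k] [Field F] [Algebra k F] (x : F) :
    Algebra (Algebra.adjoin k {x⁻¹}) k⟮x⟯ :=
  (Subalgebra.inclusion (adjoin_inv_le (k := k) x)).toRingHom.toAlgebra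

theorem isFractionRing_inv (x : F) :
    letI := invAlgebra k x
    IsFractionRing (Algebra.adjoin k {x⁻¹}) k⟮x⟯ := by
  let := invAlgebra k x
  let e : k⟮x⁻¹⟯ ≃ₐ[Algebra.adjoin k {x⁻¹}] k⟮x⟯ :=
    AlgEquiv.ofRingEquiv (f := (IntermediateField.equivOfEq (RR.adjoin_inv (K := k) x)).toRingEquiv)
      (fun r => rfl)
  exact IsLocalization.isLocalization_of_algEquiv _ e

variable [IsAlgClosed k] [RR.FunctionField k F]

theorem transcendental_inv {x : F} (hx : Transcendental k x) : Transcendental k x⁻¹ := by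
  intro h
  exact hx (by simpa using h.inv)

theorem adjoinEquiv_coe {x : F} (hx : Transcendental k x) (p : k[X]) :
    algebraMap (Algebra.adjoin k {x}) F (RR.adjoinEquiv hx p) = aeval x p := rfl

/-- primes of `k[x]`. -/
theorem prime_pow_not_dvd {x : F} (hx : Transcendental k x) {c : k[X]} {m : ℕ}
    (hc : ∀ a : k, ¬ (X - C a) ^ m ∣ c) (t : Algebra.adjoin k {x}) (ht : Prime t) :
    ¬ t ^ m ∣ RR.adjoinEquiv hx c := by
  obtain ⟨p, rfl⟩ := (RR.adjoinEquiv hx).surjective t
  have hp : Irreducible p := (MulEquiv.irreducible_iff (RR.adjoinEquiv hx)).mp ht.irreducible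
  obtain ⟨a, ha⟩ := IsAlgClosed.exists_root p (degree_pos_of_irreducible hp).ne'
  intro hdvd
  rw [← map_pow] at hdvd
  have h1 : p ^ m ∣ c := (map_dvd_iff (RR.adjoinEquiv hx)).mp hdvd
  exact hc a ((pow_dvd_pow_of_dvd (dvd_iff_isRoot.mpr ha) m).trans h1)

theorem finrank_le_genusFF {x : F} (hx : Transcendental k x) [FiniteDimensional k⟮x⟯ F]
    [Algebra.IsSeparable k⟮x⟯ F] (W : Submodule k F) [FiniteDimensional k W]
    (h0 : ∀ y ∈ W, RegFinX k x y) (h1 : ∀ y ∈ W, RegInfX k x y) :
    finrank k W ≤ genusFF k F := by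
  let := invAlgebra k x
  have := isFractionRing_inv (k := k) x
  have : IsScalarTower (Algebra.adjoin k {x⁻¹}) k⟮x⟯ F := IsScalarTower.of_algebraMap_eq fun r => rfl
  have : IsScalarTower k (Algebra.adjoin k {x⁻¹}) k⟮x⟯ :=
    IsScalarTower.of_algebraMap_eq fun r => rfl
  have hx0 : x ≠ 0 := by
    rintro rfl
    exact hx isAlgebraic_zero
  have hx' := transcendental_inv hx
  have := RR.isPrincipalIdealRing_adjoin hx
  have := RR.isPrincipalIdealRing_adjoin hx'
  set e₀ := RR.adjoinEquiv hx with he₀
  set e₁ := RR.adjoinEquiv hx' with he₁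
  have hprod : algebraMap (Algebra.adjoin k {x}) k⟮x⟯ (e₀ X) *
      algebraMap (Algebra.adjoin k {x⁻¹}) k⟮x⟯ (e₁ X) = 1 := by
    apply (algebraMap k⟮x⟯ F).injective
    rw [map_mul, ← IsScalarTower.algebraMap_apply, ← IsScalarTower.algebraMap_apply,
      adjoinEquiv_coe, adjoinEquiv_coe, aeval_X, aeval_X, mul_inv_cancel₀ hx0, map_one]
  let δ := mkResid (K := k⟮x⟯) e₀ e₁ hprod
  have hT : Prime (e₁ X) := (MulEquiv.prime_iff e₁).mpr Polynomial.prime_X
  have hres : ∀ r : Algebra.adjoin k {x⁻¹}, ∃ c : k, e₁ X ∣ r - algebraMap k _ c := by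
    intro r
    obtain ⟨p, rfl⟩ := e₁.surjective r
    refine ⟨p.coeff 0, ?_⟩
    rw [← e₁.commutes, ← map_sub]
    apply _root_.map_dvd
    rw [X_dvd_iff, coeff_sub, Polynomial.algebraMap_eq, coeff_C_zero, sub_self]
  have hplace : ∀ v : Place k F, x ∈ v.toValuationSubring ∨ x⁻¹ ∈ v.toValuationSubring :=
    fun v => v.toValuationSubring.mem_or_inv_mem x
  have hconst : intSpace k F (Algebra.adjoin k {x}) ⊓ intSpace k F (Algebra.adjoin k {x⁻¹}) ≤
      Submodule.span k {(1 : F)} := by
    rintro h ⟨h2, h3⟩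
    obtain ⟨c, rfl⟩ := RR.exists_const_of_forall_ord_nonneg (K := k) (f := h) (fun v => by
      apply RR.ord_nonneg_of_mem
      rcases hplace v with hv | hv
      · exact mem_place_of_isIntegral h2 v (adjoin_le_place v hv)
      · exact mem_place_of_isIntegral h3 v (adjoin_le_place v hv))
    rw [Submodule.mem_span_singleton]
    exact ⟨c, by rw [Algebra.algebraMap_eq_smul_one]⟩
  obtain ⟨n₀, hn₀⟩ := finrank_add_finrank_le (k := k) (K := k⟮x⟯) (F := F)
    (R₀ := Algebra.adjoin k {x}) (R₁ := Algebra.adjoin k {x⁻¹}) hT hres δ hconst W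
    (by
      intro y hy
      obtain ⟨m, c, hm, hc, hint⟩ := h0 y hy
      exact ⟨m, e₀ c, hm, by rwa [adjoinEquiv_coe], fun t ht => prime_pow_not_dvd hx hc t ht⟩)
    (by
      intro y hy
      obtain ⟨m, u, hm, hu, hint⟩ := h1 y hy
      refine ⟨m, e₁ u, _, hm, ?_, hint, ?_⟩
      · rw [map_dvd_iff e₁, X_dvd_iff]
        exact hu
      · rw [adjoinEquiv_coe, ← map_pow, adjoinEquiv_coe, map_pow, aeval_X]
        have : x ^ (m + 1) ≠ 0 := pow_ne_zero _ hx0
        rw [inv_pow]
        field_simp)
  obtain ⟨hfin, hle⟩ := hn₀ n₀ le_rfl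
  -- the Riemann-Roch space of `n₀` times the poles of `x`
  have hsub : riemannRochSpace (n₀ • RR.polesOf (K := k) x) ≤
      intSpace k F (Algebra.adjoin k {x}) ⊓ poleSpace k F (e₁ X) n₀ := by
    intro f hf
    rw [mem_riemannRochSpace_iff] at hf
    have hpol : ∀ v : Place k F, (n₀ • RR.polesOf (K := k) x) v = n₀ * max (-v.ord x) 0 := by
      intro v
      rw [Finsupp.smul_apply, RR.polesOf_apply, nsmul_eq_mul]
    constructor
    · refine isIntegral_of_forall_place (k := k) (K := k⟮x⟯) fun v hv => ?_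
      have hxv : x ∈ v.toValuationSubring := by
        have := hv (e₀ X)
        rwa [adjoinEquiv_coe, aeval_X] at this
      have hord := RR.ord_nonneg_of_mem v hxv
      rw [RR.mem_iff_ord]
      rcases hf v with h | h
      · exact Or.inl h
      · right
        rw [hpol, max_eq_right (by omega), mul_zero, neg_zero] at h
        exact h
    · show IsIntegral (Algebra.adjoin k {x⁻¹}) (algebraMap (Algebra.adjoin k {x⁻¹}) F (e₁ X ^ n₀) * f)
      refine isIntegral_of_forall_place (k := k) (K := k⟮x⟯) fun v hv => ?_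
      have hxv : x⁻¹ ∈ v.toValuationSubring := by
        have := hv (e₁ X)
        rwa [adjoinEquiv_coe, aeval_X] at this
      have hord := RR.ord_nonneg_of_mem v hxv
      rw [v.ord_inv] at hord
      rw [← map_pow, adjoinEquiv_coe, map_pow, aeval_X, RR.mem_iff_ord]
      rcases eq_or_ne f 0 with hf0 | hf0
      · left; rw [hf0, mul_zero]
      · right
        rcases hf v with h | h
        · exact absurd h hf0
        · rw [hpol, max_eq_left (by omega)] at h
          rw [v.ord_mul (pow_ne_zero _ (inv_ne_zero hx0)) hf0, RR.ord_pow, v.ord_inv]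
          linarith
  have h2 := Submodule.finrank_mono hsub
  have h3 := RR.finrank_riemannRochSpace_ge (K := k) (n₀ • RR.polesOf (K := k) x)
  rw [map_nsmul, RR.degree_polesOf hx, nsmul_eq_mul] at h3
  have h4 : ((finrank k (riemannRochSpace (n₀ • RR.polesOf (K := k) x)) : ℕ) : ℤ) + finrank k W ≤
      n₀ * finrank k⟮x⟯ F + 1 := by exact_mod_cast (by omega)
  have h5 : (finrank k W : ℤ) ≤ genusFF k F := by linarith
  exact_mod_cast h5

end Concrete

end Fermat.Agent.JRED.GenusBound
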