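import Mathlib
import Fermat.Agent.JRED.LevelTwo

/-!
# The Hauptmodul `t = (η(q)/η(q³))¹²` of `X₀(3)`, over any commutative ring
-/

set_option autoImplicit false

open ModularCurve Polynomial

noncomputable section

namespace Fermat.Agent.JRED.LevelThree

open Fermat.Agent.S28 Fermat.Agent.S28.ModPoly Fermat.Agent.JRED.TruncPS
open Fermat.Agent.JRED.DeltaRel
open Fermat.Agent.JRED.LevelTwo (dL eL rep_e L_e4)

instance fact_three : Fact (Nat.Prime 3) := ⟨Nat.prime_three⟩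

/-- `Δ(q³)` -/
def v3 : PowerSeries ℤ := VZ 3 dz

def zeta : ℂˣ := ((Complex.isPrimitiveRoot_exp 3 (by norm_num)).isUnit (by norm_num)).unit

theorem primRoot : IsPrimitiveRoot zeta 3 := by
  rw [← IsPrimitiveRoot.coe_units_iff]
  exact Complex.isPrimitiveRoot_exp 3 (by norm_num)

theorem eval₂_delta {S : Type*} [CommRing S] (f : ℤ[X] →+* S) (x : S) :
    eval₂ f x (deltaPoly 3) = x ^ 4 + f ((deltaPoly 3).coeff 3) * x ^ 3 +
      f ((deltaPoly 3).coeff 2) * x ^ 2 + f ((deltaPoly 3).coeff 1) * x +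
      f ((deltaPoly 3).coeff 0) := by
  have hd := deltaPoly_natDegree 3
  have h3 : (deltaPoly 3).coeff 4 = 1 := by
    have := (deltaPoly_monic 3).coeff_natDegree
    rwa [hd] at this
  rw [eval₂_eq_sum_range' f (n := 5) (by rw [hd]; norm_num), Finset.sum_range_succ,
    Finset.sum_range_succ, Finset.sum_range_succ, Finset.sum_range_succ, Finset.sum_range_one, h3,
    map_one]
  ring

theorem exists_coeffs : ∃ a b0 b1 g0 g1 g2 ε : ℤ, (ε = 1 ∨ ε = -1) ∧
    (deltaPoly 3).coeff 3 = C a ∧ (deltaPoly 3).coeff 2 = C b1 * X + C b0 ∧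
    (deltaPoly 3).coeff 1 = C g2 * X ^ 2 + C g1 * X + C g0 ∧
    (deltaPoly 3).coeff 0 = C (531441 * ε) := by
  have h3 := natDegree_le 3 primRoot 3 (by norm_num)
  have h2 := natDegree_le 3 primRoot 2 (by norm_num)
  have h1 := natDegree_le 3 primRoot 1 (by norm_num)
  obtain ⟨a, ha⟩ := natDegree_eq_zero.mp (by omega : ((deltaPoly 3).coeff 3).natDegree = 0)
  obtain ⟨b1, b0, hb⟩ := exists_eq_X_add_C_of_natDegree_le_one
    (by omega : ((deltaPoly 3).coeff 2).natDegree ≤ 1)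
  have hg := ((deltaPoly 3).coeff 1).as_sum_range' 3 (by omega)
  simp only [Finset.sum_range_succ, Finset.sum_range_zero, zero_add,
    ← C_mul_X_pow_eq_monomial] at hg
  have hg' : (deltaPoly 3).coeff 1 = C (((deltaPoly 3).coeff 1).coeff 2) * X ^ 2 +
      C (((deltaPoly 3).coeff 1).coeff 1) * X + C (((deltaPoly 3).coeff 1).coeff 0) := by
    conv_lhs => rw [hg]
    ring
  rcases deltaPoly_coeff_zero 3 with h0 | h0
  · exact ⟨a, b0, b1, _, _, _, 1, Or.inl rfl, ha.symm, hb, hg', by rw [h0]; norm_num⟩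
  · exact ⟨a, b0, b1, _, _, _, -1, Or.inr rfl, ha.symm, hb, hg', by rw [h0, ← C_neg]; norm_num⟩

theorem L_v3 (K : Type*) [CommRing K] : L K v3 = qExpand K 3 (L K dz) := L_VZ K 3 dz

theorem alg_relA {S : Type*} [CommRing S] (D d v J E a b0 b1 g0 g1 g2 ε : S)
    (h : D ^ 4 + a * D ^ 3 + (b1 * J + b0) * D ^ 2 + (g2 * J ^ 2 + g1 * J + g0) * D +
      531441 * ε = 0) (hD : D * d = 531441 * v) (hJ : J * d = E ^ 3) :
    531441 ^ 4 * v ^ 4 + a * 531441 ^ 3 * (v ^ 3 * d) + b0 * 531441 ^ 2 * (v ^ 2 * d ^ 2) +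
      b1 * 531441 ^ 2 * (v ^ 2 * d * E ^ 3) + g0 * 531441 * (v * d ^ 3) +
      g1 * 531441 * (v * d ^ 2 * E ^ 3) + g2 * 531441 * (v * d * (E ^ 3) ^ 2) +
      ε * 531441 * d ^ 4 = 0 := by
  have key : (D * d) ^ 4 + a * (D * d) ^ 3 * d + (b1 * (J * d) + b0 * d) * (D * d) ^ 2 * d +
      (g2 * (J * d) ^ 2 + g1 * (J * d) * d + g0 * d ^ 2) * (D * d) * d + 531441 * ε * d ^ 4 =
      (D ^ 4 + a * D ^ 3 + (b1 * J + b0) * D ^ 2 +
        (g2 * J ^ 2 + g1 * J + g0) * D + 531441 * ε) * d ^ 4 := by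
    ring
  rw [h, zero_mul, hD, hJ] at key
  linear_combination key

theorem relA (K : Type) [Field K] [CharZero K] {ζ : Kˣ} (hζ : IsPrimitiveRoot ζ 3)
    (a b0 b1 g0 g1 g2 ε : ℤ) (h3 : (deltaPoly 3).coeff 3 = C a)
    (h2 : (deltaPoly 3).coeff 2 = C b1 * X + C b0)
    (h1 : (deltaPoly 3).coeff 1 = C g2 * X ^ 2 + C g1 * X + C g0)
    (h0 : (deltaPoly 3).coeff 0 = C (531441 * ε)) :
    PowerSeries.C (531441 ^ 4 : ℤ) * v3 ^ 4 + PowerSeries.C (a * 531441 ^ 3) * (v3 ^ 3 * dz) +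
      PowerSeries.C (b0 * 531441 ^ 2) * (v3 ^ 2 * dz ^ 2) +
      PowerSeries.C (b1 * 531441 ^ 2) * (v3 ^ 2 * dz * eisenstein4 ^ 3) +
      PowerSeries.C (g0 * 531441) * (v3 * dz ^ 3) +
      PowerSeries.C (g1 * 531441) * (v3 * dz ^ 2 * eisenstein4 ^ 3) +
      PowerSeries.C (g2 * 531441) * (v3 * dz * (eisenstein4 ^ 3) ^ 2) +
      PowerSeries.C (ε * 531441) * dz ^ 4 = 0 := by
  apply L_injective (K := K)
  have h := eval_none 3 hζ
  rw [eval₂_delta, h3, h2, h1, h0] at h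
  simp only [map_add, map_mul, map_pow, evJ_C', evJ_X] at h
  have hD : (3 : LaurentSeries K) ^ 12 * qExpand K 3 (L K dz) * dInv K * L K dz =
      531441 * L K v3 := by
    rw [L_v3, mul_assoc, mul_comm (dInv K), L_dz_mul_dInv]
    ring
  have hJ := L_e4 K
  simp only [map_add, map_mul, map_pow, map_zero]
  simp only [L_C]
  rw [map_pow] at hJ
  push_cast at h ⊢
  exact alg_relA _ _ _ _ _ _ _ _ _ _ _ _ h hD hJ

def wL : List ℤ := expL 14 3 dL

theorem rep_v3 : Rep 14 v3 wL := rep_dz.exp 3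

theorem solve (a b0 b1 g0 g1 g2 ε : ℤ) (hε : ε = 1 ∨ ε = -1)
    (h : PowerSeries.C (531441 ^ 4 : ℤ) * v3 ^ 4 + PowerSeries.C (a * 531441 ^ 3) * (v3 ^ 3 * dz) +
      PowerSeries.C (b0 * 531441 ^ 2) * (v3 ^ 2 * dz ^ 2) +
      PowerSeries.C (b1 * 531441 ^ 2) * (v3 ^ 2 * dz * eisenstein4 ^ 3) +
      PowerSeries.C (g0 * 531441) * (v3 * dz ^ 3) +
      PowerSeries.C (g1 * 531441) * (v3 * dz ^ 2 * eisenstein4 ^ 3) +
      PowerSeries.C (g2 * 531441) * (v3 * dz * (eisenstein4 ^ 3) ^ 2) +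
      PowerSeries.C (ε * 531441) * dz ^ 4 = 0) :
    a = -756 ∧ b0 = 19926 ∧ b1 = 72 ∧ g0 = -177876 ∧ g1 = 1512 ∧ g2 = -1 ∧ ε = 1 := by
  have R0 : Rep 14 (v3 ^ 4) (powL 14 wL 4) := rep_v3.pow 4
  have R1 : Rep 14 (v3 ^ 3 * dz) (mulL 14 (powL 14 wL 3) dL) := (rep_v3.pow 3).mul rep_dz
  have R2 : Rep 14 (v3 ^ 2 * dz ^ 2) (mulL 14 (powL 14 wL 2) (powL 14 dL 2)) :=
    (rep_v3.pow 2).mul (rep_dz.pow 2)
  have R3 : Rep 14 (v3 ^ 2 * dz * eisenstein4 ^ 3) (mulL 14 (mulL 14 (powL 14 wL 2) dL) eL) :=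
    ((rep_v3.pow 2).mul rep_dz).mul rep_e
  have R4 : Rep 14 (v3 * dz ^ 3) (mulL 14 wL (powL 14 dL 3)) := rep_v3.mul (rep_dz.pow 3)
  have R5 : Rep 14 (v3 * dz ^ 2 * eisenstein4 ^ 3) (mulL 14 (mulL 14 wL (powL 14 dL 2)) eL) :=
    (rep_v3.mul (rep_dz.pow 2)).mul rep_e
  have R6 : Rep 14 (v3 * dz * (eisenstein4 ^ 3) ^ 2) (mulL 14 (mulL 14 wL dL) (powL 14 eL 2)) :=
    (rep_v3.mul rep_dz).mul (rep_e.pow 2)
  have R7 : Rep 14 (dz ^ 4) (powL 14 dL 4) := rep_dz.pow 4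
  have key : ∀ i < 14, 531441 ^ 4 * (powL 14 wL 4).getD i 0 +
      a * 531441 ^ 3 * (mulL 14 (powL 14 wL 3) dL).getD i 0 +
      b0 * 531441 ^ 2 * (mulL 14 (powL 14 wL 2) (powL 14 dL 2)).getD i 0 +
      b1 * 531441 ^ 2 * (mulL 14 (mulL 14 (powL 14 wL 2) dL) eL).getD i 0 +
      g0 * 531441 * (mulL 14 wL (powL 14 dL 3)).getD i 0 +
      g1 * 531441 * (mulL 14 (mulL 14 wL (powL 14 dL 2)) eL).getD i 0 +
      g2 * 531441 * (mulL 14 (mulL 14 wL dL) (powL 14 eL 2)).getD i 0 +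
      ε * 531441 * (powL 14 dL 4).getD i 0 = 0 := by
    intro i hi
    have := congrArg (PowerSeries.coeff i) h
    simp only [map_add, PowerSeries.coeff_C_mul, map_zero] at this
    rw [R0 i hi, R1 i hi, R2 i hi, R3 i hi, R4 i hi, R5 i hi, R6 i hi, R7 i hi] at this
    exact this
  have k4 := key 4 (by norm_num)
  have k5 := key 5 (by norm_num)
  have k6 := key 6 (by norm_num)
  have k7 := key 7 (by norm_num)
  have k8 := key 8 (by norm_num)
  have k10 := key 10 (by norm_num)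
  have k12 := key 12 (by norm_num)
  rw [show (powL 14 wL 4).getD 4 0 = 0 by decide +kernel] at k4
  rw [show (mulL 14 (powL 14 wL 3) dL).getD 4 0 = 0 by decide +kernel] at k4
  rw [show (mulL 14 (powL 14 wL 2) (powL 14 dL 2)).getD 4 0 = 0 by decide +kernel] at k4
  rw [show (mulL 14 (mulL 14 (powL 14 wL 2) dL) eL).getD 4 0 = 0 by decide +kernel] at k4
  rw [show (mulL 14 wL (powL 14 dL 3)).getD 4 0 = 0 by decide +kernel] at k4
  rw [show (mulL 14 (mulL 14 wL (powL 14 dL 2)) eL).getD 4 0 = 0 by decide +kernel] at k4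
  rw [show (mulL 14 (mulL 14 wL dL) (powL 14 eL 2)).getD 4 0 = 1 by decide +kernel] at k4
  rw [show (powL 14 dL 4).getD 4 0 = 1 by decide +kernel] at k4
  rw [show (powL 14 wL 4).getD 5 0 = 0 by decide +kernel] at k5
  rw [show (mulL 14 (powL 14 wL 3) dL).getD 5 0 = 0 by decide +kernel] at k5
  rw [show (mulL 14 (powL 14 wL 2) (powL 14 dL 2)).getD 5 0 = 0 by decide +kernel] at k5
  rw [show (mulL 14 (mulL 14 (powL 14 wL 2) dL) eL).getD 5 0 = 0 by decide +kernel] at k5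
  rw [show (mulL 14 wL (powL 14 dL 3)).getD 5 0 = 0 by decide +kernel] at k5
  rw [show (mulL 14 (mulL 14 wL (powL 14 dL 2)) eL).getD 5 0 = 1 by decide +kernel] at k5
  rw [show (mulL 14 (mulL 14 wL dL) (powL 14 eL 2)).getD 5 0 = 1416 by decide +kernel] at k5
  rw [show (powL 14 dL 4).getD 5 0 = -96 by decide +kernel] at k5
  rw [show (powL 14 wL 4).getD 6 0 = 0 by decide +kernel] at k6
  rw [show (mulL 14 (powL 14 wL 3) dL).getD 6 0 = 0 by decide +kernel] at k6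
  rw [show (mulL 14 (powL 14 wL 2) (powL 14 dL 2)).getD 6 0 = 0 by decide +kernel] at k6
  rw [show (mulL 14 (mulL 14 (powL 14 wL 2) dL) eL).getD 6 0 = 0 by decide +kernel] at k6
  rw [show (mulL 14 wL (powL 14 dL 3)).getD 6 0 = 1 by decide +kernel] at k6
  rw [show (mulL 14 (mulL 14 wL (powL 14 dL 2)) eL).getD 6 0 = 672 by decide +kernel] at k6
  rw [show (mulL 14 (mulL 14 wL dL) (powL 14 eL 2)).getD 6 0 = 842652 by decide +kernel] at k6
  rw [show (powL 14 dL 4).getD 6 0 = 4464 by decide +kernel] at k6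
  rw [show (powL 14 wL 4).getD 7 0 = 0 by decide +kernel] at k7
  rw [show (mulL 14 (powL 14 wL 3) dL).getD 7 0 = 0 by decide +kernel] at k7
  rw [show (mulL 14 (powL 14 wL 2) (powL 14 dL 2)).getD 7 0 = 0 by decide +kernel] at k7
  rw [show (mulL 14 (mulL 14 (powL 14 wL 2) dL) eL).getD 7 0 = 1 by decide +kernel] at k7
  rw [show (mulL 14 wL (powL 14 dL 3)).getD 7 0 = -72 by decide +kernel] at k7
  rw [show (mulL 14 (mulL 14 wL (powL 14 dL 2)) eL).getD 7 0 = 145800 by decide +kernel] at k7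
  rw [show (mulL 14 (mulL 14 wL dL) (powL 14 eL 2)).getD 7 0 = 271386664 by decide +kernel] at k7
  rw [show (powL 14 dL 4).getD 7 0 = -133760 by decide +kernel] at k7
  rw [show (powL 14 wL 4).getD 8 0 = 0 by decide +kernel] at k8
  rw [show (mulL 14 (powL 14 wL 3) dL).getD 8 0 = 0 by decide +kernel] at k8
  rw [show (mulL 14 (powL 14 wL 2) (powL 14 dL 2)).getD 8 0 = 1 by decide +kernel] at k8
  rw [show (mulL 14 (mulL 14 (powL 14 wL 2) dL) eL).getD 8 0 = 696 by decide +kernel] at k8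
  rw [show (mulL 14 wL (powL 14 dL 3)).getD 8 0 = 2484 by decide +kernel] at k8
  rw [show (mulL 14 (mulL 14 wL (powL 14 dL 2)) eL).getD 8 0 = 9111656 by decide +kernel] at k8
  rw [show (mulL 14 (mulL 14 wL dL) (powL 14 eL 2)).getD 8 0 = 50558942526 by decide +kernel] at k8
  rw [show (powL 14 dL 4).getD 8 0 = 2897880 by decide +kernel] at k8
  rw [show (powL 14 wL 4).getD 10 0 = 0 by decide +kernel] at k10
  rw [show (mulL 14 (powL 14 wL 3) dL).getD 10 0 = 1 by decide +kernel] at k10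
  rw [show (mulL 14 (powL 14 wL 2) (powL 14 dL 2)).getD 10 0 = 1080 by decide +kernel] at k10
  rw [show (mulL 14 (mulL 14 (powL 14 wL 2) dL) eL).getD 10 0 = 12831760 by decide +kernel] at k10
  rw [show (mulL 14 wL (powL 14 dL 3)).getD 10 0 = 854154 by decide +kernel] at k10
  rw [show (mulL 14 (mulL 14 wL (powL 14 dL 2)) eL).getD 10 0 = 1291718016 by decide +kernel] at k10
  rw [show (mulL 14 (mulL 14 wL dL) (powL 14 eL 2)).getD 10 0 = 290712990970196 by decide +kernel] at k10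
  rw [show (powL 14 dL 4).getD 10 0 = 641207744 by decide +kernel] at k10
  rw [show (powL 14 wL 4).getD 12 0 = 1 by decide +kernel] at k12
  rw [show (mulL 14 (powL 14 wL 3) dL).getD 12 0 = 252 by decide +kernel] at k12
  rw [show (mulL 14 (powL 14 wL 2) (powL 14 dL 2)).getD 12 0 = 146124 by decide +kernel] at k12
  rw [show (mulL 14 (mulL 14 (powL 14 wL 2) dL) eL).getD 12 0 = -890188704 by decide +kernel] at k12
  rw [show (mulL 14 wL (powL 14 dL 3)).getD 12 0 = 93698100 by decide +kernel] at k12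
  rw [show (mulL 14 (mulL 14 wL (powL 14 dL 2)) eL).getD 12 0 = -160602893856 by decide +kernel] at k12
  rw [show (mulL 14 (mulL 14 wL dL) (powL 14 eL 2)).getD 12 0 = 63514403001776133 by decide +kernel] at k12
  rw [show (powL 14 dL 4).getD 12 0 = 62452035180 by decide +kernel] at k12
  rcases hε with rfl | rfl
  · obtain rfl : g2 = -1 := by omega
    obtain rfl : g1 = 1512 := by omega
    obtain rfl : g0 = -177876 := by omega
    obtain rfl : b1 = 72 := by omega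
    obtain rfl : b0 = 19926 := by omega
    obtain rfl : a = -756 := by omega
    exact ⟨rfl, rfl, rfl, rfl, rfl, rfl, rfl⟩
  · exfalso
    obtain rfl : g2 = 1 := by omega
    obtain rfl : g1 = -1512 := by omega
    obtain rfl : g0 = 177876 := by omega
    obtain rfl : b1 = -72 := by omega
    obtain rfl : b0 = -19926 := by omega
    obtain rfl : a = 756 := by omega
    omega

theorem coeffs : (deltaPoly 3).coeff 3 = C (-756) ∧ (deltaPoly 3).coeff 2 = C 72 * X + C 19926 ∧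
    (deltaPoly 3).coeff 1 = C (-1) * X ^ 2 + C 1512 * X + C (-177876) ∧
    (deltaPoly 3).coeff 0 = C 531441 := by
  obtain ⟨a, b0, b1, g0, g1, g2, ε, hε, h3, h2, h1, h0⟩ := exists_coeffs
  obtain ⟨rfl, rfl, rfl, rfl, rfl, rfl, rfl⟩ := solve a b0 b1 g0 g1 g2 ε hε
    (relA ℂ primRoot a b0 b1 g0 g1 g2 ε h3 h2 h1 h0)
  exact ⟨h3, h2, h1, by simpa using h0⟩


theorem VZ_mul (p : ℕ) [NeZero p] (f g : PowerSeries ℤ) : VZ p (f * g) = VZ p f * VZ p g := by
  apply L_injective (K := ℚ)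
  rw [L_VZ, map_mul, map_mul, map_mul, L_VZ, L_VZ]

theorem VZ_pow (p : ℕ) [NeZero p] (f : PowerSeries ℤ) (n : ℕ) : VZ p (f ^ n) = VZ p f ^ n := by
  apply L_injective (K := ℚ)
  rw [L_VZ, map_pow, map_pow, map_pow, L_VZ]

theorem VZ_X (p : ℕ) [NeZero p] : VZ p PowerSeries.X = PowerSeries.X ^ p := by
  apply L_injective (K := ℚ)
  rw [L_VZ, L_X, qExpand_single, mul_one, map_pow, L_X, HahnSeries.single_pow, one_pow]
  simp

/-- `η¹²` without the factor `q^{1/2}` -/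
def y : PowerSeries ℤ := etaProd ^ 12

def y3 : PowerSeries ℤ := VZ 3 y

theorem dz_eq : dz = PowerSeries.X * y ^ 2 := by
  rw [dz, dedekindEtaUnit, y, ← pow_mul]

theorem v3_eq : v3 = PowerSeries.X ^ 3 * y3 ^ 2 := by
  rw [v3, dz_eq, VZ_mul, VZ_X, VZ_pow, y3]

theorem constantCoeff_y : PowerSeries.constantCoeff y = 1 := by
  rw [y, map_pow, constantCoeff_etaProd, one_pow]

theorem constantCoeff_VZ (p : ℕ) (f : PowerSeries ℤ) :
    PowerSeries.constantCoeff (VZ p f) = PowerSeries.constantCoeff f := by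
  rw [← PowerSeries.coeff_zero_eq_constantCoeff, VZ, PowerSeries.coeff_mk,
    if_pos (dvd_zero p), Nat.zero_div]

theorem constantCoeff_y3 : PowerSeries.constantCoeff y3 = 1 := by
  rw [y3, constantCoeff_VZ, constantCoeff_y]

theorem sq_alg {S : Type*} [CommRing S] [IsDomain S] {P Q : S} (h : P ^ 2 = Q ^ 2)
    (hne : P ≠ Q) : P + Q = 0 := by
  rcases sq_eq_sq_iff_eq_or_eq_neg.mp h with h | h
  · exact absurd h hne
  · rw [h]; ring

theorem relA'' : PowerSeries.C (531441 ^ 3 : ℤ) * v3 ^ 4 +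
      PowerSeries.C (-756 * 531441 ^ 2 : ℤ) * (v3 ^ 3 * dz) +
      PowerSeries.C (19926 * 531441 : ℤ) * (v3 ^ 2 * dz ^ 2) +
      PowerSeries.C (72 * 531441 : ℤ) * (v3 ^ 2 * dz * eisenstein4 ^ 3) +
      PowerSeries.C (-177876 : ℤ) * (v3 * dz ^ 3) +
      PowerSeries.C (1512 : ℤ) * (v3 * dz ^ 2 * eisenstein4 ^ 3) -
      v3 * dz * (eisenstein4 ^ 3) ^ 2 + dz ^ 4 = 0 := by
  have h := relA ℂ primRoot (-756) 19926 72 (-177876) 1512 (-1) 1 coeffs.1 coeffs.2.1 coeffs.2.2.1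
    (by simpa using coeffs.2.2.2)
  have hne : (PowerSeries.C (531441 : ℤ) : PowerSeries ℤ) ≠ 0 := by
    rw [Ne, map_eq_zero_iff _ (PowerSeries.C_injective)]
    norm_num
  apply mul_left_cancel₀ hne
  rw [mul_zero, ← h]
  simp only [map_mul, map_pow, map_neg, map_one]
  ring

/-- the square root of `relA` -/
theorem relA3 : 387420489 * (PowerSeries.X ^ 4 * y3 ^ 4) +
    196830 * (PowerSeries.X ^ 2 * y3 ^ 2 * y ^ 2) + y ^ 4 +
    y * y3 * (19131876 * (PowerSeries.X ^ 3 * y3 ^ 2) + 756 * (PowerSeries.X * y ^ 2) -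
      eisenstein4 ^ 3) = 0 := by
  apply sq_alg
  · have h := relA''
    simp only [map_mul, map_pow, map_neg, map_ofNat] at h
    rw [v3_eq, dz_eq] at h
    have hX : (PowerSeries.X : PowerSeries ℤ) ^ 4 ≠ 0 := pow_ne_zero 4 PowerSeries.X_ne_zero
    apply mul_left_cancel₀ hX
    linear_combination h
  · intro h
    have := congrArg (PowerSeries.constantCoeff (R := ℤ)) h
    simp only [map_add, map_mul, map_pow, map_sub, PowerSeries.constantCoeff_X,
      constantCoeff_y, constantCoeff_y3, constantCoeff_eisenstein4] at this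
    norm_num at this

theorem alg_relB {S : Type*} [CommRing S] (T d v J E : S)
    (h : T ^ 4 + -756 * T ^ 3 + (72 * J + 19926) * T ^ 2 +
      (-1 * J ^ 2 + 1512 * J + -177876) * T + 531441 = 0) (hT : T * v = d) (hJ : J * v = E) :
    d ^ 4 - 756 * (d ^ 3 * v) + (72 * E + 19926 * v) * (d ^ 2 * v) +
      (- E ^ 2 + 1512 * (E * v) - 177876 * v ^ 2) * (d * v) + 531441 * v ^ 4 = 0 := by
  subst hT hJ
  linear_combination v ^ 4 * h

theorem relB (K : Type) [Field K] [CharZero K] {ζ : Kˣ} (hζ : IsPrimitiveRoot ζ 3) :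
    dz ^ 4 - 756 * (dz ^ 3 * v3) +
      (72 * VZ 3 (eisenstein4 ^ 3) + 19926 * v3) * (dz ^ 2 * v3) +
      (- VZ 3 (eisenstein4 ^ 3) ^ 2 + 1512 * (VZ 3 (eisenstein4 ^ 3) * v3) -
        177876 * v3 ^ 2) * (dz * v3) + 531441 * v3 ^ 4 = 0 := by
  apply L_injective (K := K)
  have h := eval_some 3 hζ
  rw [eval₂_delta, coeffs.1, coeffs.2.1, coeffs.2.2.1, coeffs.2.2.2] at h
  simp only [map_add, map_mul, map_pow, evJ_C', evJ_X] at h
  have hT : L K dz * qExpand K 3 (dInv K) * L K v3 = L K dz := by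
    rw [L_v3, mul_assoc, ← map_mul, mul_comm (dInv K), L_dz_mul_dInv, map_one, mul_one]
  have hJ : qExpand K 3 (jqModC K) * L K v3 = L K (VZ 3 (eisenstein4 ^ 3)) := by
    rw [L_v3, ← map_mul, L_e4, L_VZ]
  simp only [map_add, map_sub, map_mul, map_zero, map_neg, map_ofNat]
  rw [map_pow, map_pow, map_pow, map_pow, map_pow, map_pow]
  push_cast at h
  exact alg_relB _ _ _ _ _ h hT hJ

theorem relB3 : y ^ 4 + 270 * (PowerSeries.X ^ 2 * y ^ 2 * y3 ^ 2) +
    729 * (PowerSeries.X ^ 4 * y3 ^ 4) +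
    y * y3 * (36 * (PowerSeries.X * y ^ 2) + 756 * (PowerSeries.X ^ 3 * y3 ^ 2) -
      VZ 3 (eisenstein4 ^ 3)) = 0 := by
  apply sq_alg
  · have h := relB ℂ primRoot
    rw [v3_eq, dz_eq] at h
    have hX : (PowerSeries.X : PowerSeries ℤ) ^ 4 ≠ 0 := pow_ne_zero 4 PowerSeries.X_ne_zero
    apply mul_left_cancel₀ hX
    linear_combination h
  · intro h
    have := congrArg (PowerSeries.constantCoeff (R := ℤ)) h
    simp only [map_add, map_mul, map_pow, map_sub, PowerSeries.constantCoeff_X,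
      constantCoeff_y, constantCoeff_y3, constantCoeff_VZ, constantCoeff_eisenstein4] at this
    norm_num at this

section Ring

variable (R : Type*) [CommRing R]

/-- inverse of `y` -/
def yInv : PowerSeries ℤ := y * dedekindEtaUnitInv

theorem y_mul_yInv : y * yInv = 1 := by
  rw [yInv, ← mul_assoc, ← pow_two, show y ^ 2 = dedekindEtaUnit by rw [y, ← pow_mul]; rfl,
    dedekindEtaUnit_mul_inv]

/-- the Hauptmodul `(η(q)/η(q³))¹² = q⁻¹ + …` of `X₀(3)` -/
def t3 : LaurentSeries R := HahnSeries.single (-1) 1 * L R y * qExpand R 3 (L R yInv)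

variable {R} in
theorem coeffMap_t3 {S : Type*} [CommRing S] (f : R →+* S) : coeffMap f (t3 R) = t3 S := by
  rw [t3, map_mul, map_mul, coeffMap_L, coeffMap_qExpand, coeffMap_L, coeffMap_single, map_one, t3]

theorem y3_mul : L R y3 * qExpand R 3 (L R yInv) = 1 := by
  rw [y3, L_VZ, ← map_mul, ← map_mul, y_mul_yInv, map_one, map_one]

theorem X_mul : L R PowerSeries.X * HahnSeries.single (-1) 1 = 1 := by
  rw [L_X, HahnSeries.single_mul_single, mul_one]
  rfl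

theorem algA {S : Type*} [CommRing S] (x xi y y3 w J E : S) (hx : x * xi = 1) (hy : y3 * w = 1)
    (hJ : J * (x * y ^ 2) = E)
    (h : 387420489 * (x ^ 4 * y3 ^ 4) + 196830 * (x ^ 2 * y3 ^ 2 * y ^ 2) + y ^ 4 +
      y * y3 * (19131876 * (x ^ 3 * y3 ^ 2) + 756 * (x * y ^ 2) - E) = 0) :
    J * (xi * y * w) ^ 3 = ((xi * y * w) + 27) * ((xi * y * w) + 243) ^ 3 := by
  subst hJ
  have key : (387420489 * (x ^ 4 * y3 ^ 4) + 196830 * (x ^ 2 * y3 ^ 2 * y ^ 2) + y ^ 4 +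
      y * y3 * (19131876 * (x ^ 3 * y3 ^ 2) + 756 * (x * y ^ 2) - J * (x * y ^ 2))) *
      (xi ^ 4 * w ^ 4) =
      387420489 * ((x * xi) ^ 4 * (y3 * w) ^ 4) +
        196830 * ((x * xi) ^ 2 * (y3 * w) ^ 2 * (xi * y * w) ^ 2) + (xi * y * w) ^ 4 +
        19131876 * ((x * xi) ^ 3 * (y3 * w) ^ 3 * (xi * y * w)) +
        756 * ((x * xi) * (y3 * w) * (xi * y * w) ^ 3) -
        J * ((x * xi) * (y3 * w) * (xi * y * w) ^ 3) := by
    ring
  rw [h, zero_mul, hx, hy] at key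
  linear_combination key

theorem algB {S : Type*} [CommRing S] (x xi y y3 w J E : S) (hx : x * xi = 1) (hy : y3 * w = 1)
    (hJ : J * (x ^ 3 * y3 ^ 2) = E)
    (h : y ^ 4 + 270 * (x ^ 2 * y ^ 2 * y3 ^ 2) + 729 * (x ^ 4 * y3 ^ 4) +
      y * y3 * (36 * (x * y ^ 2) + 756 * (x ^ 3 * y3 ^ 2) - E) = 0) :
    J * (xi * y * w) = ((xi * y * w) + 27) * ((xi * y * w) + 3) ^ 3 := by
  subst hJ
  have key : (y ^ 4 + 270 * (x ^ 2 * y ^ 2 * y3 ^ 2) + 729 * (x ^ 4 * y3 ^ 4) +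
      y * y3 * (36 * (x * y ^ 2) + 756 * (x ^ 3 * y3 ^ 2) - J * (x ^ 3 * y3 ^ 2))) *
      (xi ^ 4 * w ^ 4) =
      (xi * y * w) ^ 4 + 270 * ((x * xi) ^ 2 * (y3 * w) ^ 2 * (xi * y * w) ^ 2) +
        729 * ((x * xi) ^ 4 * (y3 * w) ^ 4) +
        36 * ((x * xi) * (y3 * w) * (xi * y * w) ^ 3) +
        756 * ((x * xi) ^ 3 * (y3 * w) ^ 3 * (xi * y * w)) -
        J * ((x * xi) ^ 3 * (y3 * w) ^ 3 * (xi * y * w)) := by
    ring
  rw [h, zero_mul, hx, hy] at key
  linear_combination key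

/-- `j t³ = (t + 27)(t + 243)³` -/
theorem jq_mul_t3 : jqModC R * t3 R ^ 3 = (t3 R + 27) * (t3 R + 243) ^ 3 := by
  have h := congrArg (L R) relA3
  simp only [map_add, map_sub, map_mul, map_zero, map_ofNat] at h
  simp only [map_pow] at h
  have hJ := L_e4 R
  rw [dz_eq, map_mul, map_pow, map_pow] at hJ
  exact algA _ _ _ _ _ _ _ (X_mul R) (y3_mul R) hJ h

/-- `j(q³) t = (t + 27)(t + 3)³` -/
theorem jq3_mul_t3 : qExpand R 3 (jqModC R) * t3 R = (t3 R + 27) * (t3 R + 3) ^ 3 := by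
  have h := congrArg (L R) relB3
  simp only [map_add, map_sub, map_mul, map_zero, map_ofNat] at h
  simp only [map_pow] at h
  have hJ : qExpand R 3 (jqModC R) * L R v3 = L R (VZ 3 (eisenstein4 ^ 3)) := by
    rw [L_v3, ← map_mul, L_e4, L_VZ]
  rw [v3_eq, map_mul, map_pow, map_pow] at hJ
  exact algB _ _ _ _ _ _ _ (X_mul R) (y3_mul R) hJ h

theorem coeff_zero_L (f : PowerSeries ℤ) (hf : PowerSeries.constantCoeff f = 1) :
    (L R f).coeff 0 = 1 := by
  have := L_coeff_nat R f 0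
  rw [Nat.cast_zero] at this
  rw [this, PowerSeries.coeff_zero_eq_constantCoeff, hf, Int.cast_one]

theorem constantCoeff_yInv : PowerSeries.constantCoeff yInv = 1 := by
  rw [yInv, map_mul, constantCoeff_y, constantCoeff_dedekindEtaUnitInv, mul_one]

theorem t3_eq : t3 R = HahnSeries.single (-1) 1 * L R (y * VZ 3 yInv) := by
  rw [t3, map_mul, L_VZ, mul_assoc]

theorem ge_t3 : Ge (-1) (t3 R) := by
  intro n hn
  rw [t3_eq, HahnSeries.coeff_single_mul, one_mul]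
  exact L_coeff_neg R _ (by omega)

theorem coeff_t3_neg_one : (t3 R).coeff (-1) = 1 := by
  rw [t3_eq, HahnSeries.coeff_single_mul, one_mul, sub_self]
  refine coeff_zero_L R _ ?_
  rw [map_mul, constantCoeff_VZ, constantCoeff_y, constantCoeff_yInv, mul_one]

end Ring

section Theta

open Fermat.Agent.FunField
open Fermat.Agent.JRED.LevelTwo (ne_zero_of_coeff coeff_intCast_neg_one thetaD_intCast)

theorem ge_intCast {R : Type*} [CommRing R] (c : ℤ) : Ge 0 (c : LaurentSeries R) := by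
  rw [← L_C]
  exact Ge.L _

theorem thetaD_t3_int : thetaD ℤ (t3 ℤ) ^ 6 = t3 ℤ ^ 3 * (t3 ℤ + 27) ^ 4 * L ℤ dz := by
  have h1 := jq_mul_t3 ℤ
  have h2 := congrArg (thetaD ℤ) h1
  have h27 : thetaD ℤ (27 : LaurentSeries ℤ) = 0 := by
    have := thetaD_intCast (R := ℤ) 27
    exact_mod_cast this
  have h243 : thetaD ℤ (243 : LaurentSeries ℤ) = 0 := by
    have := thetaD_intCast (R := ℤ) 243
    exact_mod_cast this
  rw [thetaD_mul, thetaD_mul, thetaD_pow, thetaD_pow, map_add, map_add, h27, h243] at h2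
  have h3 := thetaD_jqModC_pow ℤ
  have hc := coeff_t3_neg_one ℤ
  have n1 : t3 ℤ + 243 ≠ 0 := by
    apply ne_zero_of_coeff
    have := coeff_intCast_neg_one (R := ℤ) 243
    push_cast at this
    rw [HahnSeries.coeff_add, hc, this, add_zero]
  have n2 : t3 ℤ ^ 2 - 486 * t3 ℤ - 19683 ≠ 0 := by
    intro h0
    have e1 : (t3 ℤ ^ 2).coeff (-1 + -1) = 1 := by
      rw [pow_two, Ge.coeff_mul (ge_t3 ℤ) (ge_t3 ℤ), hc, one_mul]
    have e2 : (486 * t3 ℤ).coeff (-1 + -1) = 0 := by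
      have g486 : Ge 0 (486 : LaurentSeries ℤ) := by
        have := ge_intCast (R := ℤ) 486
        exact_mod_cast this
      exact (g486.mul (ge_t3 ℤ)) _ (by norm_num)
    have e3 : (19683 : LaurentSeries ℤ).coeff (-1 + -1) = 0 := by
      have := ge_intCast (R := ℤ) 19683
      have h' : Ge 0 (19683 : LaurentSeries ℤ) := by exact_mod_cast this
      exact h' _ (by norm_num)
    have := congrArg (fun z => HahnSeries.coeff z (-1 + -1)) h0
    simp only [HahnSeries.coeff_sub, e1, e2, e3, HahnSeries.coeff_zero] at this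
    norm_num at this
  have hΔ : deltaL ℤ = L ℤ dz := rfl
  rw [hΔ] at h3
  push_cast at h2
  simp only [add_zero] at h2
  set t := t3 ℤ
  set J := jqModC ℤ
  set Θ := thetaD ℤ t
  set ΘJ := thetaD ℤ J
  have h4 : ΘJ * t ^ 4 = Θ * (t + 243) ^ 2 * (t ^ 2 - 486 * t - 19683) := by
    linear_combination t * h2 - 3 * Θ * h1
  have h5 : (J - 1728) * t ^ 3 = (t ^ 2 - 486 * t - 19683) ^ 2 := by
    linear_combination h1
  apply mul_right_cancel₀ (mul_ne_zero (pow_ne_zero 12 n1) (pow_ne_zero 6 n2))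
  have ht : t ≠ 0 := ne_zero_of_coeff hc
  apply mul_right_cancel₀ (pow_ne_zero 3 ht)
  calc Θ ^ 6 * ((t + 243) ^ 12 * (t ^ 2 - 486 * t - 19683) ^ 6) * t ^ 3 =
        (Θ * (t + 243) ^ 2 * (t ^ 2 - 486 * t - 19683)) ^ 6 * t ^ 3 := by ring
    _ = ΘJ ^ 6 * t ^ 27 := by rw [← h4]; ring
    _ = (J * t ^ 3) ^ 4 * ((J - 1728) * t ^ 3) ^ 3 * t ^ 6 * L ℤ dz := by rw [h3]; ring
    _ = _ := by rw [h1, h5]; ring

/-- `(θ t)⁶ = t³ (t + 27)⁴ Δ` over any commutative ring -/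
theorem thetaD_t3_pow (R : Type*) [CommRing R] :
    thetaD R (t3 R) ^ 6 = t3 R ^ 3 * (t3 R + 27) ^ 4 * L R dz := by
  have h := congrArg (coeffMap (Int.castRingHom R)) thetaD_t3_int
  simp only [map_pow, map_mul, map_add, coeffMap_t3, coeffMap_L, ← thetaD_coeffMap,
    map_ofNat] at h
  exact h

end Theta

end Fermat.Agent.JRED.LevelThree
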