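import Mathlib
import Fermat.Agent.JRED.GenusBoundFF
import Fermat.Agent.JRED.LevelThree
import Fermat.Agent.FunField.Int

/-!
# Regularity of the differentials `(f/θx) dx`, `x = j, t₂, t₃`
-/

set_option autoImplicit false

open Polynomial ModularCurve

noncomputable section

namespace Fermat.Agent.JRED.BaseCheck

open Fermat.Agent.FunField.MinpolyJ Fermat.Agent.JRED.GenusBound

section Abstract

variable {k F : Type*} [Field k] [Field F] [Algebra k F]

theorem aeval_mul_pow_mem (S : Subalgebra k F) {j d e : F} (hd : d ∈ S) (he : e ∈ S)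
    (h : j * d = e) (P : k[X]) {r : ℕ} (hr : P.natDegree ≤ r) : aeval j P * d ^ r ∈ S := by
  rw [aeval_eq_sum_range, Finset.sum_mul]
  refine sum_mem fun i hi => ?_
  rw [Finset.mem_range] at hi
  rw [Algebra.smul_def, mul_assoc]
  refine mul_mem (S.algebraMap_mem _) ?_
  have : j ^ i * d ^ r = e ^ i * d ^ (r - i) := by
    rw [← h, mul_pow, mul_assoc, ← pow_add]
    congr 2
    omega
  rw [this]
  exact mul_mem (pow_mem he _) (pow_mem hd _)

theorem isIntegral_mul_pow (S : Subalgebra k F) {j d e y : F} {m : ℕ} (hd : d ∈ S) (he : e ∈ S)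
    (h : j * d = e) (hy : XInt k j m y) : IsIntegral S (y * d ^ m) := by
  obtain ⟨n, P, hn, hP, hrel⟩ := hy
  have hex : ∀ i, ∃ Q : S, i ∈ Finset.Icc 1 n → (Q : F) = aeval j (P i) * d ^ (m * i) := by
    intro i
    by_cases hi : i ∈ Finset.Icc 1 n
    · exact ⟨⟨_, aeval_mul_pow_mem S hd he h (P i) (hP i hi)⟩, fun _ => rfl⟩
    · exact ⟨0, fun h => absurd h hi⟩
  choose Q hQ using hex
  refine isIntegral_of_sum (n := n) (fun i => Q (n - i)) ?_
  have h1 : (y ^ n + ∑ i ∈ Finset.Icc 1 n, aeval j (P i) * y ^ (n - i)) * d ^ (m * n) = 0 := by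
    rw [hrel, zero_mul]
  rw [← h1, sum_Icc_flip, add_mul, Finset.sum_mul, mul_pow, ← pow_mul]
  congr 1
  refine Finset.sum_congr rfl fun i hi => ?_
  rw [Finset.mem_range] at hi
  rw [show n - (n - i) = i by omega]
  change (Q (n - i) : F) * _ = _
  have hmn : m * n = m * (n - i) + m * i := by
    rw [← mul_add]
    congr 1
    omega
  rw [hQ (n - i) (by rw [Finset.mem_Icc]; omega), mul_pow, ← pow_mul, hmn, pow_add]
  ring

theorem not_dvd {b : k} (hb : b ≠ 0) {e₁ e₂ m : ℕ} (h₁ : e₁ < m) (h₂ : e₂ < m) (a : k) :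
    ¬ (X - C a) ^ m ∣ X ^ e₁ * (X - C b) ^ e₂ := by
  classical
  have hne : (X ^ e₁ * (X - C b) ^ e₂ : k[X]) ≠ 0 :=
    mul_ne_zero (pow_ne_zero _ X_ne_zero) (pow_ne_zero _ (X_sub_C_ne_zero b))
  rw [← le_rootMultiplicity_iff hne, rootMultiplicity_mul hne, not_le]
  by_cases ha : a = 0
  · subst ha
    have h1 : rootMultiplicity 0 (X ^ e₁ : k[X]) = e₁ := by
      have := rootMultiplicity_X_sub_C_pow (0 : k) e₁
      simpa using this
    have h2 : rootMultiplicity 0 ((X - C b) ^ e₂ : k[X]) = 0 := by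
      apply rootMultiplicity_eq_zero
      simp only [IsRoot.def, eval_pow, eval_sub, eval_X, eval_C, zero_sub]
      exact pow_ne_zero _ (neg_ne_zero.mpr hb)
    rw [h1, h2, add_zero]
    exact h₁
  · have h1 : rootMultiplicity a (X ^ e₁ : k[X]) = 0 := by
      apply rootMultiplicity_eq_zero
      simp only [IsRoot.def, eval_pow, eval_X]
      exact pow_ne_zero _ ha
    by_cases hab : a = b
    · subst hab
      rw [h1, rootMultiplicity_X_sub_C_pow, zero_add]
      exact h₂
    · have h2 : rootMultiplicity a ((X - C b) ^ e₂ : k[X]) = 0 := by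
        apply rootMultiplicity_eq_zero
        simp only [IsRoot.def, eval_pow, eval_sub, eval_X, eval_C]
        exact pow_ne_zero _ (sub_ne_zero.mpr hab)
      rw [h1, h2]
      omega

variable {j x y g b : F} {n r : ℕ}

theorem regFin {B D : k[X]} (hj : j * x ^ r = aeval x B) (hy : y ^ 6 * aeval x D = g)
    (hn : 1 ≤ n) (hg : XInt k j (n - 1) (g ^ n))
    (hD : ∀ a : k, ¬ (X - C a) ^ (6 * n) ∣ D ^ n * X ^ (r * (n - 1))) : RegFinX k x y := by
  refine ⟨6 * n, D ^ n * X ^ (r * (n - 1)), by omega, hD, ?_⟩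
  have h := isIntegral_mul_pow (Algebra.adjoin k {x}) (d := x ^ r) (e := aeval x B)
    (pow_mem (Algebra.subset_adjoin (Set.mem_singleton x)) r) (aeval_mem_adjoin_singleton k x) hj hg
  rw [show aeval x (D ^ n * X ^ (r * (n - 1))) * y ^ (6 * n) = g ^ n * (x ^ r) ^ (n - 1) by
    rw [map_mul, map_pow, map_pow, aeval_X, ← hy, mul_pow, ← pow_mul, ← pow_mul]
    ring]
  exact h

theorem aeval_reverse (hx : x ≠ 0) (P : k[X]) :
    aeval x⁻¹ P.reverse * x ^ P.natDegree = aeval x P := by
  let : Invertible x := invertibleOfNonzero hx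
  have := eval₂_reverse_mul_pow (algebraMap k F) x P
  rwa [invOf_eq_inv] at this

theorem regInf {B D : k[X]} (hx : x ≠ 0) (hj : j * x ^ r = aeval x B) (hB : B.natDegree = r + 1)
    (hD7 : D.natDegree = 7) (hy : y ^ 6 * aeval x D = g)
    (hn : 1 ≤ n) (hg : XInt k j (n - 1) (g ^ n)) : RegInfX k x y := by
  have hD0 : D ≠ 0 := by
    rintro rfl
    simp at hD7
  refine ⟨6 * n, D.reverse ^ n, by omega, ?_, ?_⟩
  · rw [coeff_zero_eq_eval_zero, eval_pow, ← coeff_zero_eq_eval_zero, coeff_zero_reverse]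
    exact pow_ne_zero _ (leadingCoeff_ne_zero.mpr hD0)
  · have hj' : j * x⁻¹ = aeval x⁻¹ B.reverse := by
      have h1 := aeval_reverse hx B
      rw [hB, ← hj, pow_succ] at h1
      have h2 : aeval x⁻¹ B.reverse * x * x ^ r = j * x ^ r := by rw [← h1]; ring
      have h3 := mul_right_cancel₀ (pow_ne_zero r hx) h2
      rw [← h3, mul_assoc, mul_inv_cancel₀ hx, mul_one]
    have h := isIntegral_mul_pow (Algebra.adjoin k {x⁻¹}) (d := x⁻¹) (e := aeval x⁻¹ B.reverse)
      (Algebra.subset_adjoin (Set.mem_singleton _)) (aeval_mem_adjoin_singleton k _) hj' hg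
    rw [show aeval x⁻¹ (D.reverse ^ n) * (y ^ (6 * n) * x ^ (6 * n + 1)) =
        g ^ n * x⁻¹ ^ (n - 1) by
      have h1 := aeval_reverse hx D
      rw [hD7] at h1
      rw [inv_pow, eq_mul_inv_iff_mul_eq₀ (pow_ne_zero _ hx), map_pow, ← hy, ← h1]
      have h2 : 6 * n + 1 + (n - 1) = 7 * n := by omega
      calc aeval x⁻¹ D.reverse ^ n * (y ^ (6 * n) * x ^ (6 * n + 1)) * x ^ (n - 1) =
          aeval x⁻¹ D.reverse ^ n * y ^ (6 * n) * x ^ (6 * n + 1 + (n - 1)) := by
            rw [pow_add x (6 * n + 1)]; ring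
        _ = _ := by rw [h2]; ring]
    exact h

end Abstract

section Modular

open Fermat.Agent.FunField Fermat.Agent.JRED.LevelTwo Fermat.Agent.JRED.LevelThree

variable (N : ℕ) (k : Type) [Field k]

/-- a base function `x` on the curve mod `ℓ` which is good enough to prove the genus bound:
`c = dj/dx`, and if `y θ(j) = w` where `(w⁶/Δ)ⁿ` satisfies a relation of the kind
coming from cusp forms of weight two, then `(y c) dx` is "regular". -/
structure GoodBase where
  x : modularFunctionFieldFullC k N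
  c : modularFunctionFieldFullC k N
  c_ne : c ≠ 0
  transcendental : Transcendental k x
  jRed_mem : jRed k N ∈ IntermediateField.adjoin k {x}
  reg : ∀ (y : modularFunctionFieldFullC k N) (w : LaurentSeries k) (n : ℕ), 1 ≤ n →
    (y : LaurentSeries k) * thetaD k (jqModC k) = w →
    JInt k (n - 1) ((w ^ 6 / deltaL k) ^ n) →
    RegFinX k x (y * c) ∧ RegInfX k x (y * c)

variable {N k}

theorem deltaL_ne_zero' : deltaL k ≠ 0 := (isUnit_deltaL k).ne_zero

theorem transcendental_jRed' : Transcendental k (jRed k N) := jRed_transcendental k N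

/-- the main step, for a base `x` with `j x^r = B(x)` and `(c⁻¹ θ j)⁶ = D(x) Δ` -/
theorem reg_of (x c : modularFunctionFieldFullC k N) (hx : x ≠ 0) (θ : LaurentSeries k)
    (hc : (c : LaurentSeries k) * θ = thetaD k (jqModC k)) {r : ℕ} {B D : k[X]}
    (hj : jRed k N * x ^ r = aeval x B) (hB : B.natDegree = r + 1) (hD7 : D.natDegree = 7)
    (hθ : θ ^ 6 = aeval (x : LaurentSeries k) D * deltaL k)
    (hD : ∀ n : ℕ, 1 ≤ n → ∀ a : k, ¬ (X - C a) ^ (6 * n) ∣ D ^ n * X ^ (r * (n - 1)))
    (y : modularFunctionFieldFullC k N) (w : LaurentSeries k) (n : ℕ) (hn : 1 ≤ n)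
    (hw : (y : LaurentSeries k) * thetaD k (jqModC k) = w)
    (hJ : JInt k (n - 1) ((w ^ 6 / deltaL k) ^ n)) :
    RegFinX k x (y * c) ∧ RegInfX k x (y * c) := by
  have hval : ((aeval x D : modularFunctionFieldFullC k N) : LaurentSeries k) =
      aeval (x : LaurentSeries k) D :=
    (aeval_algHom_apply (modularFunctionFieldFullC k N).val x D).symm
  have hg : w ^ 6 / deltaL k =
      (((y * c) ^ 6 * aeval x D : modularFunctionFieldFullC k N) : LaurentSeries k) := by
    rw [div_eq_iff deltaL_ne_zero', ← hw, ← hc]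
    push_cast
    rw [hval]
    linear_combination (y : LaurentSeries k) ^ 6 * (c : LaurentSeries k) ^ 6 * hθ
  have hX : XInt k (jRed k N) (n - 1) (((y * c) ^ 6 * aeval x D) ^ n) := by
    rw [← xInt_map_iff (modularFunctionFieldFullC k N).val]
    rw [hg] at hJ
    exact hJ
  exact ⟨regFin hj rfl hn hX (hD n hn), regInf hx hj hB hD7 rfl hn hX⟩

theorem thetaJ_ne_zero : thetaD k (jqModC k) ≠ 0 := by
  intro h
  have h3 := thetaD_jqModC_pow k
  rw [h, zero_pow (by norm_num)] at h3
  have hj := jqModC_ne_zero_of_nontrivial k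
  have hj2 : jqModC k - 1728 ≠ 0 := by
    intro h0
    have hc := congrArg (fun z => HahnSeries.coeff z (-1)) h0
    have h1728 := coeff_intCast_neg_one (R := k) 1728
    push_cast at h1728
    simp only [HahnSeries.coeff_sub, h1728, coeff_jqModC_neg_one, HahnSeries.coeff_zero,
      sub_zero] at hc
    exact one_ne_zero hc
  exact mul_ne_zero (mul_ne_zero (pow_ne_zero _ hj) (pow_ne_zero _ hj2)) deltaL_ne_zero' h3.symm

/-- base `j`, characteristic `≠ 2, 3` -/
def goodBaseJ (h1728 : (1728 : k) ≠ 0) : GoodBase N k where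
  x := jRed k N
  c := 1
  c_ne := one_ne_zero
  transcendental := transcendental_jRed'
  jRed_mem := IntermediateField.mem_adjoin_simple_self k _
  reg := by
    intro y w n hn hw hJ
    refine reg_of (r := 0) (B := X) (D := X ^ 4 * (X - C 1728) ^ 3) (jRed k N) 1 ?_
      (thetaD k (jqModC k)) ?_ ?_ ?_ ?_ ?_ ?_ y w n hn hw hJ
    · intro h0
      exact jqModC_ne_zero_of_nontrivial k (congrArg Subtype.val h0)
    · simp
    · simp
    · simp
    · rw [natDegree_mul (pow_ne_zero _ X_ne_zero) (pow_ne_zero _ (X_sub_C_ne_zero _)),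
        natDegree_pow, natDegree_pow, natDegree_X, natDegree_X_sub_C]
    · rw [thetaD_jqModC_pow]
      congr 1
      simp only [map_mul, map_pow, map_sub, aeval_X, map_ofNat]
      rfl
    · intro n hn a
      rw [mul_pow, ← pow_mul, ← pow_mul, zero_mul, pow_zero, mul_one]
      exact not_dvd h1728 (by omega) (by omega) a

section Two

theorem t2_ne_zero : t2 k ≠ 0 := ne_zero_of_coeff (coeff_t2_neg_one k)

theorem three_eq_zero [CharP k 3] : (3 : LaurentSeries k) = 0 := by
  have h : (3 : k) = 0 := by exact_mod_cast CharP.cast_eq_zero k 3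
  have := congrArg (algebraMap k (LaurentSeries k)) h
  rwa [map_ofNat, map_zero] at this

theorem t2_mem [CharP k 3] (hN : 2 ∣ N) : t2 k ∈ modularFunctionFieldFullC k N := by
  have h3 := three_eq_zero (k := k)
  have h1 := jq_mul_t2_sq k
  have h2 := jq2_mul_t2 k
  have ht := t2_ne_zero (k := k)
  have hj := jqModC_ne_zero_of_nontrivial k
  have h4 : (t2 k + 256) ^ 3 = (t2 k + 16) ^ 3 := by
    linear_combination (80 * ((t2 k + 256) ^ 2 + (t2 k + 256) * (t2 k + 16) + (t2 k + 16) ^ 2)) * h3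
  have h5 : jqModC k * t2 k * t2 k = qExpand k 2 (jqModC k) * t2 k := by
    rw [h2, ← h4, ← h1]; ring
  have h6 : t2 k = qExpand k 2 (jqModC k) / jqModC k := by
    rw [eq_div_iff hj, mul_comm]
    exact mul_right_cancel₀ ht h5
  rw [h6]
  exact div_mem (jqModCd_mem_full k N hN) (jqModC_mem_full k N)

theorem transcendental_of_rel {F : Type*} [Field F] [Algebra k F] {x j : F} (hx : x ≠ 0)
    (hj : Transcendental k j) {r : ℕ} {B : k[X]} (h : j * x ^ r = aeval x B) :
    Transcendental k x ∧ j ∈ IntermediateField.adjoin k {x} := by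
  have hmem : j ∈ IntermediateField.adjoin k {x} := by
    have : j = aeval x B / x ^ r := by rw [eq_div_iff (pow_ne_zero _ hx), h]
    rw [this]
    have hxm := IntermediateField.mem_adjoin_simple_self k x
    exact div_mem (IntermediateField.algebra_adjoin_le_adjoin k {x} (aeval_mem_adjoin_singleton k x))
      (pow_mem hxm _)
  refine ⟨fun hx' => hj ?_, hmem⟩
  have hint : IsIntegral k x := hx'.isIntegral
  have : Algebra.IsAlgebraic k (IntermediateField.adjoin k {x}) :=
    (IntermediateField.isAlgebraic_adjoin_simple hint)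
  exact isAlgebraic_algebraMap_iff (algebraMap (IntermediateField.adjoin k {x}) F).injective |>.mpr
    (Algebra.IsAlgebraic.isAlgebraic (⟨j, hmem⟩ : IntermediateField.adjoin k {x}))

/-- assembling a base -/
theorem goodBase_of (x : modularFunctionFieldFullC k N) (hx : x ≠ 0) {r : ℕ} {B D : k[X]}
    (hj : jRed k N * x ^ r = aeval x B) (hB : B.natDegree = r + 1) (hD7 : D.natDegree = 7)
    (c : modularFunctionFieldFullC k N) (θ : LaurentSeries k)
    (hc : (c : LaurentSeries k) * θ = thetaD k (jqModC k))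
    (hθ : θ ^ 6 = aeval (x : LaurentSeries k) D * deltaL k)
    (hD : ∀ n : ℕ, 1 ≤ n → ∀ a : k, ¬ (X - C a) ^ (6 * n) ∣ D ^ n * X ^ (r * (n - 1))) :
    Nonempty (GoodBase N k) := by
  obtain ⟨h1, h2⟩ := transcendental_of_rel hx transcendental_jRed' hj
  refine ⟨⟨x, c, ?_, h1, h2, fun y w n hn hw hJ => reg_of x c hx θ hc hj hB hD7 hθ hD y w n hn hw hJ⟩⟩
  rintro rfl
  rw [ZeroMemClass.coe_zero, zero_mul] at hc
  exact thetaJ_ne_zero hc.symm

theorem coe_aeval (x : modularFunctionFieldFullC k N) (P : k[X]) :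
    ((aeval x P : modularFunctionFieldFullC k N) : LaurentSeries k) =
      aeval (x : LaurentSeries k) P :=
  (aeval_algHom_apply (modularFunctionFieldFullC k N).val x P).symm

/-- base `t₂`, characteristic `3`, even level -/
theorem nonempty_goodBase_two [CharP k 3] (hN : 2 ∣ N) : Nonempty (GoodBase N k) := by
  set x : modularFunctionFieldFullC k N := ⟨t2 k, t2_mem hN⟩ with hxdef
  have hxc : (x : LaurentSeries k) = t2 k := rfl
  have hx : x ≠ 0 := fun h => t2_ne_zero (k := k) (congrArg Subtype.val h)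
  have h1 := jq_mul_t2_sq k
  have h2 := congrArg (thetaD k) h1
  have h256 : thetaD k (256 : LaurentSeries k) = 0 := by
    have := thetaD_intCast (R := k) 256
    exact_mod_cast this
  rw [thetaD_mul, thetaD_pow, thetaD_pow, map_add, h256] at h2
  push_cast at h2
  simp only [pow_one, add_zero] at h2
  have h64 : (64 : k) ≠ 0 := by
    have h3 : (3 : k) = 0 := by exact_mod_cast CharP.cast_eq_zero k 3
    have : (64 : k) = 1 := by linear_combination 21 * h3
    rw [this]
    exact one_ne_zero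
  refine goodBase_of (r := 2) (B := (X + C 256) ^ 3) (D := X ^ 4 * (X - C (-64)) ^ 3) x hx ?_ ?_ ?_
    ((3 * (x + 256) ^ 2 - 2 * jRed k N * x) / x ^ 2) (thetaD k (t2 k)) ?_ ?_ ?_
  · apply Subtype.ext
    rw [coe_aeval]
    push_cast
    rw [hxc]
    simp only [map_pow, map_add, aeval_X, map_ofNat]
    exact h1
  · rw [natDegree_pow, natDegree_X_add_C]
  · rw [natDegree_mul (pow_ne_zero _ X_ne_zero) (pow_ne_zero _ (X_sub_C_ne_zero _)),
      natDegree_pow, natDegree_pow, natDegree_X, natDegree_X_sub_C]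
  · push_cast
    rw [hxc, div_mul_eq_mul_div, div_eq_iff (pow_ne_zero _ t2_ne_zero)]
    change (3 * (t2 k + 256) ^ 2 - 2 * jqModC k * t2 k) * thetaD k (t2 k) = _
    linear_combination -h2
  · rw [hxc, thetaD_t2_pow]
    congr 1
    simp only [map_mul, map_pow, map_add, map_neg, aeval_X, map_ofNat, sub_neg_eq_add]
  · intro n hn a
    rw [mul_pow, ← pow_mul, ← pow_mul, mul_right_comm, ← pow_add]
    exact not_dvd (neg_ne_zero.mpr h64) (by omega) (by omega) a

end Two

section Three

theorem t3_ne_zero : t3 k ≠ 0 := ne_zero_of_coeff (coeff_t3_neg_one k)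

theorem two_eq_zero [CharP k 2] : (2 : LaurentSeries k) = 0 := by
  have h : (2 : k) = 0 := by exact_mod_cast CharP.cast_eq_zero k 2
  have := congrArg (algebraMap k (LaurentSeries k)) h
  rwa [map_ofNat, map_zero] at this

theorem t3_mem [CharP k 2] (hN : 3 ∣ N) : t3 k ∈ modularFunctionFieldFullC k N := by
  have h2 := two_eq_zero (k := k)
  have h1 := jq_mul_t3 k
  have h3 := jq3_mul_t3 k
  have ht := t3_ne_zero (k := k)
  have hj := jqModC_ne_zero_of_nontrivial k
  have hj3 : qExpand k 3 (jqModC k) ≠ 0 := by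
    rw [Ne, map_eq_zero_iff _ (qExpand_injective 3)]
    exact hj
  set t := t3 k
  set J := jqModC k
  set J3 := qExpand k 3 (jqModC k)
  have e1 : (t + 27) * (t + 243) ^ 3 = t ^ 4 + 1 := by
    linear_combination (378 * t ^ 3 + 98415 * t ^ 2 + 9565938 * t + 193710244) * h2
  have e3 : (t + 27) * (t + 3) ^ 3 = t ^ 4 + 1 := by
    linear_combination (18 * t ^ 3 + 135 * t ^ 2 + 378 * t + 364) * h2
  rw [e1] at h1
  rw [e3] at h3
  have h5 : J * t ^ 2 * t = J3 * t := by rw [h3, ← h1]; ring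
  have h6 : t ^ 2 = J3 / J := by
    rw [eq_div_iff hj, mul_comm]
    exact mul_right_cancel₀ ht h5
  have h7 : t = ((J3 / J) ^ 2 + 1) / J3 := by
    rw [eq_div_iff hj3, ← h6, mul_comm, h3]
    ring
  rw [h7]
  have m3 : J3 ∈ modularFunctionFieldFullC k N := jqModCd_mem_full k N hN
  exact div_mem (add_mem (pow_mem (div_mem m3 (jqModC_mem_full k N)) 2) (one_mem _)) m3

/-- base `t₃`, characteristic `2`, level divisible by `3` -/
theorem nonempty_goodBase_three [CharP k 2] (hN : 3 ∣ N) : Nonempty (GoodBase N k) := by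
  set x : modularFunctionFieldFullC k N := ⟨t3 k, t3_mem hN⟩ with hxdef
  have hxc : (x : LaurentSeries k) = t3 k := rfl
  have hx : x ≠ 0 := fun h => t3_ne_zero (k := k) (congrArg Subtype.val h)
  have h1 := jq_mul_t3 k
  have h2 := congrArg (thetaD k) h1
  have h27 : thetaD k (27 : LaurentSeries k) = 0 := by
    have := thetaD_intCast (R := k) 27
    exact_mod_cast this
  have h243 : thetaD k (243 : LaurentSeries k) = 0 := by
    have := thetaD_intCast (R := k) 243
    exact_mod_cast this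
  rw [thetaD_mul, thetaD_mul, thetaD_pow, thetaD_pow, map_add, map_add, h27, h243] at h2
  push_cast at h2
  simp only [add_zero] at h2
  have h27' : (27 : k) ≠ 0 := by
    have h3 : (2 : k) = 0 := by exact_mod_cast CharP.cast_eq_zero k 2
    have : (27 : k) = 1 := by linear_combination 13 * h3
    rw [this]
    exact one_ne_zero
  refine goodBase_of (r := 3) (B := (X + C 27) * (X + C 243) ^ 3) (D := X ^ 3 * (X - C (-27)) ^ 4)
    x hx ?_ ?_ ?_
    (((x + 243) ^ 3 + 3 * (x + 27) * (x + 243) ^ 2 - 3 * jRed k N * x ^ 2) / x ^ 3)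
    (thetaD k (t3 k)) ?_ ?_ ?_
  · apply Subtype.ext
    rw [coe_aeval]
    push_cast
    rw [hxc]
    simp only [map_pow, map_add, map_mul, aeval_X, map_ofNat]
    exact h1
  · rw [natDegree_mul (X_add_C_ne_zero _) (pow_ne_zero _ (X_add_C_ne_zero _)), natDegree_pow,
      natDegree_X_add_C, natDegree_X_add_C]
  · rw [natDegree_mul (pow_ne_zero _ X_ne_zero) (pow_ne_zero _ (X_sub_C_ne_zero _)),
      natDegree_pow, natDegree_pow, natDegree_X, natDegree_X_sub_C]
  · push_cast
    rw [hxc, div_mul_eq_mul_div, div_eq_iff (pow_ne_zero _ t3_ne_zero)]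
    change ((t3 k + 243) ^ 3 + 3 * (t3 k + 27) * (t3 k + 243) ^ 2 - 3 * jqModC k * t3 k ^ 2) *
      thetaD k (t3 k) = _
    linear_combination -h2
  · rw [hxc, thetaD_t3_pow]
    congr 1
    simp only [map_mul, map_pow, map_add, map_neg, aeval_X, map_ofNat, sub_neg_eq_add]
  · intro n hn a
    rw [mul_pow, ← pow_mul, ← pow_mul, mul_right_comm, ← pow_add]
    exact not_dvd (neg_ne_zero.mpr h27') (by omega) (by omega) a

end Three

/-- **Main theorem**: a good base exists in characteristic `ℓ ≥ 5`, in characteristic `3` if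
`2 ∣ N`, in characteristic `2` if `3 ∣ N`. -/
theorem nonempty_goodBase (ℓ : ℕ) [CharP k ℓ] (hℓ : ℓ.Prime)
    (h : 5 ≤ ℓ ∨ (ℓ = 3 ∧ 2 ∣ N) ∨ (ℓ = 2 ∧ 3 ∣ N)) : Nonempty (GoodBase N k) := by
  rcases h with h | ⟨rfl, h⟩ | ⟨rfl, h⟩
  · refine ⟨goodBaseJ ?_⟩
    intro h0
    have h1 : ((1728 : ℕ) : k) = 0 := by exact_mod_cast h0
    rw [CharP.cast_eq_zero_iff k ℓ] at h1
    have h2 : (1728 : ℕ) = 2 ^ 6 * 3 ^ 3 := by norm_num
    rw [h2, hℓ.dvd_mul] at h1
    rcases h1 with h1 | h1
    · have := (Nat.prime_dvd_prime_iff_eq hℓ Nat.prime_two).mp (hℓ.dvd_of_dvd_pow h1)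
      omega
    · have := (Nat.prime_dvd_prime_iff_eq hℓ Nat.prime_three).mp (hℓ.dvd_of_dvd_pow h1)
      omega
  · exact nonempty_goodBase_two h
  · exact nonempty_goodBase_three h

end Modular

end Fermat.Agent.JRED.BaseCheck
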