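import Fermat.Agent.JRED.SeparableTheta
import Fermat.Agent.JRED.GenusBoundFF
import Fermat.Agent.JRED.ModularFF
import Fermat.Agent.FunField.ThetaD

/-!
# The genus bound for subfields of `k((q))` and spaces of `q`-expansions
-/

set_option autoImplicit false

noncomputable section

open IntermediateField AlgebraicCurve ModularCurve Module

namespace Fermat.Agent.JRED.GenusBound

open Fermat.Agent.JRED.SeparableTheta Fermat.Agent.FunField

/-- If `F/k(t)` is separable then every derivation is a multiple of `d/dt`. -/
theorem exists_smul_eq {k F M : Type*} [Field k] [Field F] [Algebra k F] [AddCommGroup M]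
    [Module F M] [Module k M] [IsScalarTower k F M] (D : Derivation k F M) (t : F)
    [Algebra.IsSeparable k⟮t⟯ F] (x : F) : ∃ f : F, D x = f • D t := by
  let Q := M ⧸ Submodule.span F {D t}
  let E : Derivation k F Q := (Submodule.span F {D t}).mkQ.compDer D
  have hE : E = 0 := by
    refine derivation_eq_zero E (t := t) ?_
    show (Submodule.span F {D t}).mkQ (D t) = 0
    rw [Submodule.mkQ_apply, Submodule.Quotient.mk_eq_zero]
    exact Submodule.mem_span_singleton_self _
  have h2 : E x = 0 := by rw [hE]; rfl
  have h3 : (Submodule.span F {D t}).mkQ (D x) = 0 := h2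
  rw [Submodule.mkQ_apply, Submodule.Quotient.mk_eq_zero, Submodule.mem_span_singleton] at h3
  obtain ⟨f, hf⟩ := h3
  exact ⟨f, hf.symm⟩

/-- the `HahnSeries` scalar multiplication on `k((q))` agrees with the algebra one -/
theorem hahn_smul_eq {k : Type*} [Field k] (c : k) (f : LaurentSeries k) :
    c • f = algebraMap k (LaurentSeries k) c * f := by
  ext n
  rw [algebraMap_mul_coeff, HahnSeries.coeff_smul, smul_eq_mul]

/-- `k((q))` (a copy, to avoid an instance diamond) -/
def LSeries (k : Type*) [Field k] : Type _ := LaurentSeries k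

instance (k : Type*) [Field k] : Field (LSeries k) := inferInstanceAs (Field (LaurentSeries k))

instance (k : Type*) [Field k] : Algebra k (LSeries k) :=
  inferInstanceAs (Algebra k (LaurentSeries k))

section Theta

variable {k : Type*} [Field k] (F : IntermediateField k (LaurentSeries k))

instance : Algebra F (LSeries k) := inferInstanceAs (Algebra F (LaurentSeries k))

instance : IsScalarTower k F (LSeries k) :=
  IsScalarTower.of_algebraMap_eq fun _ => rfl

/-- `θ = q d/dq` as a derivation `F → k((q))`. -/
def thetaDer : Derivation k F (LSeries k) where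
  toFun z := thetaD k (z : LaurentSeries k)
  map_add' a b := by
    show thetaD k ((a : LaurentSeries k) + b) = _
    rw [map_add]
    rfl
  map_smul' c a := by
    refine Eq.trans ?_ (Algebra.smul_def (A := LSeries k) c (thetaD k (a : LaurentSeries k))).symm
    show thetaD k (algebraMap k (LaurentSeries k) c * (a : LaurentSeries k)) = 
      algebraMap k (LaurentSeries k) c * thetaD k (a : LaurentSeries k)
    rw [thetaD_mul, thetaD_algebraMap, mul_zero, add_zero]
  map_one_eq_zero' := by
    show thetaD k (1 : LaurentSeries k) = 0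
    exact thetaD_one
  leibniz' a b := by
    show thetaD k ((a : LaurentSeries k) * b) = (a : LaurentSeries k) * _ + (b : LaurentSeries k) * _
    rw [thetaD_mul]
    rfl

theorem thetaDer_apply (x : F) : thetaDer F x = thetaD k (x : LaurentSeries k) := rfl

variable {F}

theorem transcendental_of_thetaD_ne_zero [IsAlgClosed k] {x : F}
    (hx : thetaD k (x : LaurentSeries k) ≠ 0) : Transcendental k x := by
  intro halg
  apply hx
  obtain ⟨c, hc⟩ := minpoly.mem_range_of_degree_eq_one k x
    (IsAlgClosed.degree_eq_one_of_irreducible k (minpoly.irreducible halg.isIntegral))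
  rw [← hc]
  exact thetaD_algebraMap c

theorem isSeparable_of_thetaD_ne_zero [PerfectField k] [Fermat.FF.IsFF1 k F] {x : F}
    (hx : thetaD k (x : LaurentSeries k) ≠ 0) : Algebra.IsSeparable k⟮x⟯ F :=
  isSeparable_of_derivation (thetaDer F) (x := x) hx

theorem thetaD_jqModC_ne_zero' (k : Type*) [Field k] : thetaD k (jqModC k) ≠ 0 := by
  intro h
  have h1 := congrArg (fun x : LaurentSeries k => x.coeff (-1)) h
  simp only [thetaD_coeff, coeff_jqModC_neg_one, HahnSeries.coeff_zero] at h1
  norm_num at h1

/-- if `f/θ(t) ∈ F` for one `t ∈ F` with `θ(t) ≠ 0` then for all. -/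
theorem exists_mul_thetaD [PerfectField k] [Fermat.FF.IsFF1 k F] {t x : F}
    (ht : thetaD k (t : LaurentSeries k) ≠ 0) (hx : thetaD k (x : LaurentSeries k) ≠ 0)
    {f : LaurentSeries k} (hf : ∃ y : F, f = (y : LaurentSeries k) * thetaD k (t : LaurentSeries k)) :
    ∃ y : F, f = (y : LaurentSeries k) * thetaD k (x : LaurentSeries k) := by
  have := isSeparable_of_thetaD_ne_zero ht
  obtain ⟨y, rfl⟩ := hf
  obtain ⟨g, hg⟩ := exists_smul_eq (thetaDer F) t x
  have hg' : thetaD k (x : LaurentSeries k) = (g : LaurentSeries k) * thetaD k (t : LaurentSeries k) :=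
    hg
  have hg0 : (g : LaurentSeries k) ≠ 0 := by
    intro h0
    rw [h0, zero_mul] at hg'
    exact hx hg'
  refine ⟨y * g⁻¹, ?_⟩
  rw [hg', show ((y * g⁻¹ : F) : LaurentSeries k) = (y : LaurentSeries k) * (g : LaurentSeries k)⁻¹
    from rfl]
  field_simp

/-- **Genus bound for a space of `q`-expansions of regular differentials.** -/
theorem finrank_le_genusFF_of_laurent [IsAlgClosed k] [Fermat.FF.IsFF1 k F] {t x : F}
    (ht : thetaD k (t : LaurentSeries k) ≠ 0) (hx : thetaD k (x : LaurentSeries k) ≠ 0)
    (W : Submodule k (LaurentSeries k)) [FiniteDimensional k W]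
    (hmem : ∀ f ∈ W, ∃ y : F, f = (y : LaurentSeries k) * thetaD k (t : LaurentSeries k))
    (h0 : ∀ f ∈ W, ∀ y : F, f = (y : LaurentSeries k) * thetaD k (x : LaurentSeries k) →
      RegFinX k x y)
    (h1 : ∀ f ∈ W, ∀ y : F, f = (y : LaurentSeries k) * thetaD k (x : LaurentSeries k) →
      RegInfX k x y) :
    finrank k W ≤ genusFF k F := by
  have hF : RR.FunctionField k F := functionField_of_isFF1 k F
  have htr : Transcendental k x := transcendental_of_thetaD_ne_zero hx
  have hfin : FiniteDimensional k⟮x⟯ F := Fermat.FF.IsFF1.finiteDimensional_adjoin htr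
  have hsep := isSeparable_of_thetaD_ne_zero hx
  let φ : F →ₗ[k] LaurentSeries k :=
    { toFun := fun y => (y : LaurentSeries k) * thetaD k (x : LaurentSeries k)
      map_add' := fun a b => by
        show ((a : LaurentSeries k) + b) * _ = _
        rw [add_mul]
      map_smul' := fun c a => by
        rw [RingHom.id_apply, hahn_smul_eq]
        show (algebraMap k (LaurentSeries k) c * a) * _ = _
        rw [mul_assoc] }
  have hφ : ∀ y : F, φ y = (y : LaurentSeries k) * thetaD k (x : LaurentSeries k) := fun y => rfl
  have hinj : Function.Injective φ := by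
    intro a b hab
    rw [hφ, hφ] at hab
    exact Subtype.ext (mul_right_cancel₀ hx hab)
  have hrange : W ≤ LinearMap.range φ := by
    intro f hf
    obtain ⟨y, hy⟩ := exists_mul_thetaD ht hx (hmem f hf)
    exact ⟨y, by rw [hφ, hy]⟩
  have e : (W.comap φ) ≃ₗ[k] W := by
    refine LinearEquiv.ofBijective (φ.restrict (p := W.comap φ) (q := W) fun y hy => hy) ⟨?_, ?_⟩
    · intro a b hab
      have := congrArg Subtype.val hab
      exact Subtype.ext (hinj this)
    · rintro ⟨f, hf⟩
      obtain ⟨y, hy⟩ := hrange hf
      exact ⟨⟨y, by show φ y ∈ W; rw [hy]; exact hf⟩, Subtype.ext hy⟩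
  have hfd : FiniteDimensional k (W.comap φ) := LinearEquiv.finiteDimensional e.symm
  rw [← e.finrank_eq]
  exact finrank_le_genusFF htr (W.comap φ) (fun y hy => h0 _ hy y rfl) (fun y hy => h1 _ hy y rfl)

end Theta

end Fermat.Agent.JRED.GenusBound
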