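import Mathlib
import Fermat.Agent.HeckeDualityB
import Fermat.Agent.FunField.Quot
import Fermat.Agent.IntStr.Main
import Fermat.Agent.JRED.ModularRedExists

/-!
# Reduction of the integral lattice of weight two cusp forms

* `cuspSpace k N ≤ k((q))`: span of the reductions of integral weight two cusp forms on `Γ₀(N)`.
* `finrank_cuspSpace`: its dimension is `dim S₂(Γ₀(N))`, for every field `k` of prime
  characteristic.
* `exists_lift`: elements of `cuspSpace k N` are reductions of `A`-integral `q`-expansions of forms.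
* `div_theta_mem`: `w / θ(j̄) ∈ F̄_N` for `w ∈ cuspSpace k N`.
-/

set_option autoImplicit false
set_option linter.unusedSectionVars false

noncomputable section

open HahnSeries ModularCurve AlgebraicCurve CongruenceSubgroup ModularFormClass
open Fermat.Agent.HeckeDuality Fermat.Agent.FunField Fermat.Agent.MFF Fermat.Agent.IntStr

namespace Fermat.Agent.JRED.CuspLattice

variable {N : ℕ}

/-- The Laurent `q`-expansion over `ℤ` of an integral form. -/
def intL (f : CuspForm.intLattice N 2) : LaurentSeries ℤ :=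
  HahnSeries.ofPowerSeries ℤ ℤ (PowerSeries.mk fun n => intCoeff f n)

theorem intL_coeff (f : CuspForm.intLattice N 2) (n : ℕ) : (intL f).coeff (n : ℤ) = intCoeff f n := by
  rw [intL, HahnSeries.ofPowerSeries_apply_coeff, PowerSeries.coeff_mk]

theorem intL_coeff_neg (f : CuspForm.intLattice N 2) {n : ℤ} (hn : n < 0) :
    (intL f).coeff n = 0 :=
  ofPowerSeries_coeff_of_neg _ hn

theorem intL_add (f g : CuspForm.intLattice N 2) : intL (f + g) = intL f + intL g := by
  rw [intL, intL, intL, ← map_add]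
  congr 1
  ext n
  rw [map_add, PowerSeries.coeff_mk, PowerSeries.coeff_mk, PowerSeries.coeff_mk, intCoeff_add]

theorem coeffMap_intL_complex (f : CuspForm.intLattice N 2) :
    coeffMap (Int.castRingHom ℂ) (intL f) = LQ (f : CuspForm (Gamma0 N) 2) := by
  rw [intL, coeffMap_ofPowerSeries, LQ]
  congr 1
  ext n
  rw [PowerSeries.coeff_map, PowerSeries.coeff_mk]
  exact coe_intCoeff f n

section Space

variable (k : Type*) [Field k] (N)

/-- The reduction of an integral form in `k((q))`. -/
def redF (f : CuspForm.intLattice N 2) : LaurentSeries k := coeffMap (Int.castRingHom k) (intL f)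

/-- The space of reductions of integral weight two cusp forms. -/
def cuspSpace : Submodule k (LaurentSeries k) := Submodule.span k (Set.range (redF N k))

variable {N k}

theorem redF_coeff (f : CuspForm.intLattice N 2) (n : ℕ) :
    (redF N k f).coeff (n : ℤ) = (intCoeff f n : k) := by
  rw [redF, coeffMap_coeff, intL_coeff]
  rfl

theorem redF_add (f g : CuspForm.intLattice N 2) : redF N k (f + g) = redF N k f + redF N k g := by
  rw [redF, intL_add, map_add]; rfl

variable (N k) in
/-- `redF` as an additive map. -/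
def redFHom : CuspForm.intLattice N 2 →+ LaurentSeries k :=
  AddMonoidHom.mk' (redF N k) redF_add

end Space

/-- Saturation of the integral lattice. -/
theorem exists_eq_smul_of_dvd [NeZero N] {ℓ : ℕ} (hℓ : ℓ ≠ 0) (f : CuspForm.intLattice N 2)
    (h : ∀ n, (ℓ : ℤ) ∣ intCoeff f n) : ∃ g : CuspForm.intLattice N 2, f = (ℓ : ℤ) • g := by
  have hℓ' : (ℓ : ℂ) ≠ 0 := by exact_mod_cast hℓ
  have hmem : ((ℓ : ℂ)⁻¹ • (f : CuspForm (Gamma0 N) 2)) ∈ CuspForm.intLattice N 2 := by
    rw [mem_intLattice_iff]
    intro n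
    obtain ⟨m, hm⟩ := h n
    refine ⟨m, ?_⟩
    rw [qc_smul, ← coe_intCoeff f n, hm]
    push_cast
    field_simp
  refine ⟨⟨_, hmem⟩, Subtype.ext ?_⟩
  show (f : CuspForm (Gamma0 N) 2) = (ℓ : ℤ) • ((ℓ : ℂ)⁻¹ • (f : CuspForm (Gamma0 N) 2))
  rw [← Int.cast_smul_eq_zsmul ℂ, smul_smul]
  push_cast
  rw [mul_inv_cancel₀ hℓ', one_smul]

theorem intCoeff_sum {ι : Type*} (s : Finset ι) (g : ι → ℤ) (b : ι → CuspForm.intLattice N 2)
    (n : ℕ) : intCoeff (∑ i ∈ s, g i • b i) n = ∑ i ∈ s, g i * intCoeff (b i) n := by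
  rw [← intCoeffLin_apply, map_sum]
  refine Finset.sum_congr rfl fun i _ => ?_
  rw [map_smul, intCoeffLin_apply, smul_eq_mul]

/-- The reductions of a `ℤ`-basis of the integral lattice are linearly independent. -/
theorem linearIndependent_redF [NeZero N] {k : Type*} [Field k] {ℓ : ℕ} (hℓ : ℓ.Prime)
    [CharP k ℓ] {ι : Type*} [Fintype ι] (b : Module.Basis ι ℤ (CuspForm.intLattice N 2)) :
    LinearIndependent k fun i => redF N k (b i) := by
  classical
  haveI : Fact ℓ.Prime := ⟨hℓ⟩
  letI : Algebra (ZMod ℓ) k := ZMod.algebra k ℓ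
  have key : ∀ g : ι → ZMod ℓ, (∀ n, ∑ i, g i * (intCoeff (b i) n : ZMod ℓ) = 0) →
      ∀ i, g i = 0 := by
    intro g hg
    choose G hG using fun i => ZMod.intCast_surjective (g i)
    have h1 : ∀ n, (ℓ : ℤ) ∣ intCoeff (∑ i, G i • b i) n := by
      intro n
      rw [← ZMod.intCast_zmod_eq_zero_iff_dvd, intCoeff_sum]
      push_cast
      simp only [hG]
      exact hg n
    obtain ⟨f, hf⟩ := exists_eq_smul_of_dvd hℓ.ne_zero _ h1
    intro i
    have h2 := congrArg (fun x => b.repr x i) hf
    simp only [map_sum, map_smul, Module.Basis.repr_self, Finsupp.coe_finsetSum, Finset.sum_apply,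
      Finsupp.smul_apply, Finsupp.single_apply, smul_eq_mul, mul_ite, mul_one, mul_zero,
      Finset.sum_ite_eq', Finset.mem_univ, if_true] at h2
    rw [← hG, h2]
    push_cast
    rw [ZMod.natCast_self, zero_mul]
  rw [Fintype.linearIndependent_iff]
  intro x hx i
  by_contra hne
  obtain ⟨φ, hφ⟩ : ∃ φ : Module.Dual (ZMod ℓ) k, φ (x i) ≠ 0 := by
    by_contra hcon
    push Not at hcon
    exact hne ((Module.forall_dual_apply_eq_zero_iff (ZMod ℓ) (x i)).mp hcon)
  apply hφ
  refine key (fun i => φ (x i)) (fun n => ?_) i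
  have h1 := congrArg (fun s : LaurentSeries k => s.coeff (n : ℤ)) hx
  simp only [HahnSeries.coeff_sum, HahnSeries.coeff_smul, redF_coeff, HahnSeries.coeff_zero,
    smul_eq_mul] at h1
  have h2 := congrArg φ h1
  rw [map_sum, map_zero] at h2
  rw [← h2]
  refine Finset.sum_congr rfl fun i _ => ?_
  have h3 : x i * ((intCoeff (b i) n : ℤ) : k) = ((intCoeff (b i) n : ℤ) : ZMod ℓ) • x i := by
    rw [Algebra.smul_def, map_intCast, mul_comm]
  rw [h3, map_smul, smul_eq_mul, mul_comm]

theorem cuspSpace_eq_span {k : Type*} [Field k] {ι : Type*} [Fintype ι]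
    (b : Module.Basis ι ℤ (CuspForm.intLattice N 2)) :
    cuspSpace N k = Submodule.span k (Set.range fun i => redF N k (b i)) := by
  apply le_antisymm
  · rw [cuspSpace, Submodule.span_le]
    rintro _ ⟨f, rfl⟩
    have h1 : redF N k f = ∑ i, (b.repr f i : k) • redF N k (b i) := by
      have h2 : redFHom N k f = redFHom N k (∑ i, b.repr f i • b i) := by rw [b.sum_repr]
      rw [map_sum] at h2
      refine h2.trans (Finset.sum_congr rfl fun i _ => ?_)
      rw [map_zsmul, ← Int.cast_smul_eq_zsmul k]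
      rfl
    rw [h1]
    exact Submodule.sum_mem _ fun i _ =>
      Submodule.smul_mem _ _ (Submodule.subset_span ⟨i, rfl⟩)
  · rw [Submodule.span_le]
    rintro _ ⟨i, rfl⟩
    exact Submodule.subset_span ⟨b i, rfl⟩

/-- Rank of the integral lattice. -/
theorem finrank_intLattice [NeZero N] :
    Module.finrank ℤ (CuspForm.intLattice N 2) = Module.finrank ℂ (CuspForm (Gamma0 N) 2) := by
  have hint : CuspForm.HasIntegralStructure N 2 := hasIntegralStructure N 2
  have := finite_intLattice (N := N)
  have := free_intLattice (N := N)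
  have := finiteDimensional_cuspForm (N := N) hint
  refine le_antisymm (finrank_intLattice_le hint) ?_
  let b := Module.Free.chooseBasis ℤ (CuspForm.intLattice N 2)
  have hspan : Submodule.span ℂ (Set.range fun i => ((b i : CuspForm.intLattice N 2) :
      CuspForm (Gamma0 N) 2)) = ⊤ := by
    rw [eq_top_iff, ← hint, Submodule.span_le]
    intro x hx
    have h1 : (x : CuspForm (Gamma0 N) 2) = ∑ i, (b.repr ⟨x, hx⟩ i) • (b i : CuspForm (Gamma0 N) 2) := by
      have h2 := congrArg Subtype.val (b.sum_repr ⟨x, hx⟩)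
      rw [AddSubmonoidClass.coe_finset_sum] at h2
      exact h2.symm
    rw [h1]
    refine Submodule.sum_mem _ fun i _ => ?_
    rw [← Int.cast_smul_eq_zsmul ℂ]
    exact Submodule.smul_mem _ _ (Submodule.subset_span ⟨i, rfl⟩)
  have h1 := finrank_range_le_card (R := ℂ) (fun i => ((b i : CuspForm.intLattice N 2) :
      CuspForm (Gamma0 N) 2))
  rw [Set.finrank, hspan, finrank_top] at h1
  rwa [← Module.finrank_eq_card_chooseBasisIndex] at h1

theorem finrank_cuspSpace [NeZero N] {k : Type*} [Field k] {ℓ : ℕ} (hℓ : ℓ.Prime) [CharP k ℓ] :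
    Module.finrank k (cuspSpace N k) = Module.finrank ℂ (CuspForm (Gamma0 N) 2) := by
  have := finite_intLattice (N := N)
  have := free_intLattice (N := N)
  let b := Module.Free.chooseBasis ℤ (CuspForm.intLattice N 2)
  rw [cuspSpace_eq_span b, finrank_span_eq_card (linearIndependent_redF hℓ b),
    ← finrank_intLattice, Module.finrank_eq_card_chooseBasisIndex]

instance finiteDimensional_cuspSpace [NeZero N] {k : Type*} [Field k] :
    FiniteDimensional k (cuspSpace N k) := by
  have := finite_intLattice (N := N)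
  have := free_intLattice (N := N)
  let b := Module.Free.chooseBasis ℤ (CuspForm.intLattice N 2)
  rw [cuspSpace_eq_span b]
  exact FiniteDimensional.span_of_finite _ (Set.finite_range _)

section Lift

variable {A : ValuationSubring (AlgebraicClosure ℚ)} {k : Type} [Field k] {π : A →+* k}
  [Algebra (AlgebraicClosure ℚ) ℂ]

/-- `F` is an `A`-integral `q`-expansion of the form `f`. -/
def IsExp (F : LaurentSeries A) (f : CuspForm (Gamma0 N) 2) : Prop :=
  emb (AlgebraicClosure ℚ) ℂ (coeffMap A.subtype F) = LQ f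

theorem coe_add_fun (f g : CuspForm (Gamma0 N) 2) : ((f + g : CuspForm (Gamma0 N) 2) : UpperHalfPlane → ℂ)
    = (f : UpperHalfPlane → ℂ) + g := rfl

theorem isMN_coe (f : CuspForm (Gamma0 N) 2) : IsMN N 2 (f : UpperHalfPlane → ℂ) :=
  IsCN.isMN ⟨f, rfl⟩

theorem LQ_add_form (f g : CuspForm (Gamma0 N) 2) :
    LQ ((f + g : CuspForm (Gamma0 N) 2) : UpperHalfPlane → ℂ) = LQ f + LQ g := by
  rw [coe_add_fun, LQ_add (isMN_coe f).anQ (isMN_coe g).anQ]

theorem LQ_smul_form (c : ℂ) (f : CuspForm (Gamma0 N) 2) :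
    LQ ((c • f : CuspForm (Gamma0 N) 2) : UpperHalfPlane → ℂ) =
      algebraMap ℂ (LaurentSeries ℂ) c * LQ f := by
  have h1 : ((c • f : CuspForm (Gamma0 N) 2) : UpperHalfPlane → ℂ) =
      c • (f : UpperHalfPlane → ℂ) := by
    ext z
    simp
  rw [h1, LQ_smul' c (isMN_coe f).anQ]

theorem coeffMap_intCast {R S : Type*} [CommRing R] [CommRing S] (f : R →+* S)
    (x : LaurentSeries ℤ) :
    coeffMap f (coeffMap (Int.castRingHom R) x) = coeffMap (Int.castRingHom S) x := by
  rw [coeffMap_coeffMap]
  exact coeffMap_congr (RingHom.ext_int _ _) x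

/-- Elements of `cuspSpace` lift to `A`-integral expansions of forms. -/
theorem exists_lift (hπ : Function.Surjective π) {w : LaurentSeries k} (hw : w ∈ cuspSpace N k) :
    ∃ (F : LaurentSeries A) (f : CuspForm (Gamma0 N) 2), coeffMap π F = w ∧ IsExp F f := by
  induction hw using Submodule.span_induction with
  | mem x hx =>
    obtain ⟨f, rfl⟩ := hx
    refine ⟨coeffMap (Int.castRingHom A) (intL f), f, coeffMap_intCast π _, ?_⟩
    rw [IsExp, coeffMap_intCast, emb, coeffMap_intCast, coeffMap_intL_complex]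
  | zero =>
    refine ⟨0, 0, map_zero _, ?_⟩
    rw [IsExp, map_zero, map_zero]
    exact LQ_zero.symm
  | add x y _ _ hx hy =>
    obtain ⟨F, f, h1, h2⟩ := hx
    obtain ⟨G, g, h3, h4⟩ := hy
    refine ⟨F + G, f + g, by rw [map_add, h1, h3], ?_⟩
    rw [IsExp, map_add, map_add, LQ_add_form, ← h2, ← h4]
  | smul c x _ hx =>
    obtain ⟨F, f, h1, h2⟩ := hx
    obtain ⟨a, rfl⟩ := hπ c
    refine ⟨HahnSeries.C a * F, (algebraMap (AlgebraicClosure ℚ) ℂ a) • f, ?_, ?_⟩
    · rw [map_mul, HahnSeries.C_apply, coeffMap_single, h1, ← HahnSeries.C_apply,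
        HahnSeries.C_mul_eq_smul]
    · rw [IsExp, map_mul, map_mul, LQ_smul_form, ← h2, HahnSeries.C_apply, coeffMap_single,
        emb, coeffMap_single, algebraMap_laurentSeries_eq_single]
      rfl

theorem thetaD_jqModC_ne_zero' (k : Type*) [Field k] : thetaD k (jqModC k) ≠ 0 := by
  intro h
  have h1 := congrArg (fun x : LaurentSeries k => x.coeff (-1)) h
  simp only [thetaD_coeff, coeff_jqModC_neg_one, HahnSeries.coeff_zero] at h1
  norm_num at h1

theorem coeffMap_thetaD_jqModC {R S : Type*} [CommRing R] [CommRing S] (f : R →+* S) :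
    coeffMap f (thetaD R (jqModC R)) = thetaD S (jqModC S) := by
  rw [← thetaD_coeffMap, coeffMap_jqModC]

/-- `F / θ(j) ∈ F_N` for an expansion `F` of a form. -/
theorem IsExp.div_theta_mem [NeZero N] {F : LaurentSeries A} {f : CuspForm (Gamma0 N) 2}
    (h : IsExp F f) :
    coeffMap A.subtype F / thetaD (AlgebraicClosure ℚ) (jqModC (AlgebraicClosure ℚ)) ∈
      modularFunctionFieldBar N := by
  rw [modularFunctionFieldBar_eq, ← emb_mem_full_iff (Ω := ℂ), map_div₀, h, emb,
    coeffMap_thetaD_jqModC, modularFunctionFieldFullC_eq]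
  exact weight_two_div_theta_mem (isMN_coe f)

/-- The reduction of `F / θ(j)`. -/
theorem IsExp.gred (F : LaurentSeries A) :
    GRed π (coeffMap A.subtype F /
        thetaD (AlgebraicClosure ℚ) (jqModC (AlgebraicClosure ℚ)))
      (coeffMap π F / thetaD k (jqModC k)) := by
  refine ⟨F, thetaD A (jqModC A), ?_, ?_, ?_⟩
  · rw [coeffMap_thetaD_jqModC]
    exact thetaD_jqModC_ne_zero' k
  · rw [coeffMap_thetaD_jqModC, div_mul_cancel₀ _ (thetaD_jqModC_ne_zero' _)]
  · rw [coeffMap_thetaD_jqModC, div_mul_cancel₀ _ (thetaD_jqModC_ne_zero' _)]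

/-- `w / θ(j̄) ∈ F̄_N` for `w` in the space of reductions of cusp forms. -/
theorem div_theta_mem [NeZero N] (hD : DegreeInput N k) (hπ : Function.Surjective π)
    {w : LaurentSeries k} (hw : w ∈ cuspSpace N k) :
    w / thetaD k (jqModC k) ∈ modularFunctionFieldFullC k N := by
  obtain ⟨F, f, rfl, hF⟩ := exists_lift hπ hw
  exact hD.mem_full hπ (f := ⟨_, hF.div_theta_mem⟩) (IsExp.gred F)

theorem coe_smul_full (c : k) (y : modularFunctionFieldFullC k N) :
    ((c • y : modularFunctionFieldFullC k N) : LaurentSeries k) =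
      HahnSeries.C c * (y : LaurentSeries k) := by
  rw [Algebra.smul_def, MulMemClass.coe_mul]
  congr 1
  exact algebraMap_laurentSeries_eq_single k c

variable (N k) in
/-- Multiplication by `θ(j̄)`, from `F̄_N` to Laurent series. -/
def mulTheta : modularFunctionFieldFullC k N →ₗ[k] LaurentSeries k where
  toFun y := (y : LaurentSeries k) * thetaD k (jqModC k)
  map_add' y z := by rw [AddMemClass.coe_add, add_mul]
  map_smul' c y := by
    rw [coe_smul_full, mul_assoc, HahnSeries.C_mul_eq_smul]
    rfl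

theorem mulTheta_injective : Function.Injective (mulTheta N k) := by
  intro y z h
  exact Subtype.ext (mul_right_cancel₀ (thetaD_jqModC_ne_zero' k) h)

variable (N k) in
/-- The space of `y ∈ F̄_N` with `y θ(j̄) ∈ cuspSpace`, i.e. `y dj̄` is the reduction of a
holomorphic differential. -/
def diffSpace : Submodule k (modularFunctionFieldFullC k N) :=
  (cuspSpace N k).comap (mulTheta N k)

theorem mem_diffSpace {y : modularFunctionFieldFullC k N} :
    y ∈ diffSpace N k ↔ (y : LaurentSeries k) * thetaD k (jqModC k) ∈ cuspSpace N k := Iff.rfl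

theorem map_diffSpace [NeZero N] (hD : DegreeInput N k) (hπ : Function.Surjective π) :
    (diffSpace N k).map (mulTheta N k) = cuspSpace N k := by
  rw [diffSpace, Submodule.map_comap_eq, inf_eq_right]
  intro w hw
  refine ⟨⟨w / thetaD k (jqModC k), div_theta_mem hD hπ hw⟩, ?_⟩
  exact div_mul_cancel₀ _ (thetaD_jqModC_ne_zero' k)

/-- `diffSpace ≃ cuspSpace`. -/
def diffEquiv [NeZero N] (hD : DegreeInput N k) (hπ : Function.Surjective π) :
    diffSpace N k ≃ₗ[k] cuspSpace N k :=
  (Submodule.equivMapOfInjective _ mulTheta_injective _).trans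
    (LinearEquiv.ofEq _ _ (map_diffSpace hD hπ))

theorem finrank_diffSpace [NeZero N] {ℓ : ℕ} (hℓ : ℓ.Prime) [CharP k ℓ] (hD : DegreeInput N k)
    (hπ : Function.Surjective π) :
    Module.finrank k (diffSpace N k) = Module.finrank ℂ (CuspForm (Gamma0 N) 2) :=
  (diffEquiv hD hπ).finrank_eq.trans (finrank_cuspSpace hℓ)

theorem finiteDimensional_diffSpace [NeZero N] (hD : DegreeInput N k)
    (hπ : Function.Surjective π) : FiniteDimensional k (diffSpace N k) :=
  LinearEquiv.finiteDimensional (diffEquiv hD hπ).symm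

/-- Lifts of elements of `diffSpace`. -/
theorem exists_lift_diff (hπ : Function.Surjective π) {y : modularFunctionFieldFullC k N}
    (hy : y ∈ diffSpace N k) :
    ∃ (F : LaurentSeries A) (f : CuspForm (Gamma0 N) 2),
      (y : LaurentSeries k) * thetaD k (jqModC k) = coeffMap π F ∧ IsExp F f := by
  obtain ⟨F, f, h1, h2⟩ := exists_lift hπ (mem_diffSpace.mp hy)
  exact ⟨F, f, h1.symm, h2⟩

end Lift

end Fermat.Agent.JRED.CuspLattice
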