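import Fermat.Agent.JRED.BaseCheck
import Fermat.Agent.JRED.GenusWrap
import Fermat.Agent.JRED.CuspLattice
import Fermat.Agent.JRED.GoodReductionFinal
import Fermat.Agent.FunField.Cusp

/-!
# The lower bound for the genus of the reduction of `X₀(N)`
-/

set_option autoImplicit false

noncomputable section

open ModularCurve AlgebraicCurve IntermediateField CongruenceSubgroup

namespace Fermat.Agent.JRED

open Fermat.Agent.FunField CuspLattice BaseCheck GenusBound Fermat.Agent.IntStr Fermat.Agent.MFF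

variable {N : ℕ} {A : ValuationSubring (AlgebraicClosure ℚ)} {k : Type} [Field k] {π : A →+* k}

/-- an embedding `ℚ̄ → ℂ` -/
@[instance_reducible]
def algQbarC : Algebra (AlgebraicClosure ℚ) ℂ :=
  (IsAlgClosed.lift : AlgebraicClosure ℚ →ₐ[ℚ] ℂ).toRingHom.toAlgebra

theorem IsExp.exists_hasA [Algebra (AlgebraicClosure ℚ) ℂ] {F : LaurentSeries A}
    {f : CuspForm (Gamma0 N) 2} (h : IsExp F f) :
    ∃ a : PowerSeries A, HahnSeries.ofPowerSeries ℤ A a = F ∧ HasA f a := by
  have hF : ∀ n < 0, F.coeff n = 0 := by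
    intro n hn
    have h1 := congrArg (fun z => HahnSeries.coeff z n) h
    have h2 : (LQ (f : UpperHalfPlane → ℂ)).coeff n = 0 := ofPowerSeries_coeff_of_neg _ hn
    simp only [h2] at h1
    have h3 : algebraMap (AlgebraicClosure ℚ) ℂ (F.coeff n : AlgebraicClosure ℚ) = 0 := h1
    rw [map_eq_zero] at h3
    exact Subtype.ext h3
  refine ⟨PowerSeries.mk fun n => F.coeff n, ?_, ?_⟩
  · ext n
    rcases lt_or_ge n 0 with hn | hn
    · rw [ofPowerSeries_coeff_of_neg _ hn, hF n hn]
    · lift n to ℕ using hn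
      rw [HahnSeries.ofPowerSeries_apply_coeff, PowerSeries.coeff_mk]
  · have : HahnSeries.ofPowerSeries ℤ A (PowerSeries.mk fun n => F.coeff n) = F := by
      ext n
      rcases lt_or_ge n 0 with hn | hn
      · rw [ofPowerSeries_coeff_of_neg _ hn, hF n hn]
      · lift n to ℕ using hn
        rw [HahnSeries.ofPowerSeries_apply_coeff, PowerSeries.coeff_mk]
    rw [HasA, this]
    exact h

/-- elements of `cuspSpace` satisfy the relation needed in `GoodBase` -/
theorem jInt_of_mem_cuspSpace [NeZero N] (hπ : Function.Surjective π) (hdeg : DegreeInput N k)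
    {w : LaurentSeries k} (hw : w ∈ cuspSpace N k) :
    JInt k (N - 1) ((w ^ 6 / deltaL k) ^ N) := by
  let := algQbarC
  obtain ⟨F, f, h1, h2⟩ := exists_lift hπ hw
  obtain ⟨a, ha, ha'⟩ := IsExp.exists_hasA h2
  have h3 := (cusp_red hπ hdeg f ha').2
  have h4 : HahnSeries.ofPowerSeries ℤ k (a.map π) = w := by
    rw [← h1, ← ha, ModularCurve.coeffMap_ofPowerSeries]
  rwa [h4] at h3

theorem thetaD_base_ne_zero (G : GoodBase N k) : thetaD k (G.x : LaurentSeries k) ≠ 0 := by
  intro h0
  have h1 : k⟮G.x⟯ ≤ SeparableTheta.derKer (thetaDer (modularFunctionFieldFullC k N)) := by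
    rw [adjoin_simple_le_iff]
    exact h0
  exact BaseCheck.thetaJ_ne_zero (h1 G.jRed_mem)

/-- **Lower bound for the genus of the reduction.** -/
theorem genusLowerBound_of_goodBase [NeZero N] (hπ : Function.Surjective π)
    (hdeg : DegreeInput N k) {ℓ : ℕ} [CharP k ℓ] (hℓ : ℓ.Prime) (G : GoodBase N k) :
    GenusLowerBound N k := by
  let := algQbarC
  have := isAlgClosed_of_surjective hπ
  have := hdeg.functionField'
  have hFF1 : Fermat.FF.IsFF1 k (modularFunctionFieldFullC k N) := DescentB.isFF1_of_functionField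
  have htr := G.transcendental
  have hfin : FiniteDimensional k⟮G.x⟯ (modularFunctionFieldFullC k N) :=
    Fermat.FF.IsFF1.finiteDimensional_adjoin htr
  have hsep := isSeparable_of_thetaD_ne_zero (F := modularFunctionFieldFullC k N)
    (thetaD_base_ne_zero G)
  have hinj : Function.Injective (LinearMap.mulRight k G.c) := by
    intro a b hab
    exact mul_right_cancel₀ G.c_ne hab
  have hfd := finiteDimensional_diffSpace hdeg hπ
  let e := Submodule.equivMapOfInjective (LinearMap.mulRight k G.c) hinj (diffSpace N k)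
  have hfd' : FiniteDimensional k ((diffSpace N k).map (LinearMap.mulRight k G.c)) :=
    LinearEquiv.finiteDimensional e
  have hN : 1 ≤ N := Nat.one_le_iff_ne_zero.mpr (NeZero.ne N)
  have hreg : ∀ y ∈ (diffSpace N k).map (LinearMap.mulRight k G.c),
      RegFinX k G.x y ∧ RegInfX k G.x y := by
    rintro _ ⟨y, hy, rfl⟩
    exact G.reg y _ N hN rfl (jInt_of_mem_cuspSpace hπ hdeg (mem_diffSpace.mp hy))
  have h := finrank_le_genusFF htr ((diffSpace N k).map (LinearMap.mulRight k G.c))
    (fun y hy => (hreg y hy).1) (fun y hy => (hreg y hy).2)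
  rw [← e.finrank_eq, finrank_diffSpace hℓ hdeg hπ] at h
  exact h

/-- **Lower bound** in characteristic `≥ 5`, characteristic `3` with `N` even, characteristic `2`
with `3 ∣ N`. -/
theorem genusLowerBound [NeZero N] (hπ : Function.Surjective π)
    (hdeg : DegreeInput N k) {ℓ : ℕ} [CharP k ℓ] (hℓ : ℓ.Prime)
    (h2 : ℓ = 2 → 3 ∣ N) (h3 : ℓ = 3 → 2 ∣ N) : GenusLowerBound N k := by
  have h : 5 ≤ ℓ ∨ (ℓ = 3 ∧ 2 ∣ N) ∨ (ℓ = 2 ∧ 3 ∣ N) := by
    by_cases h2' : ℓ = 2
    · exact Or.inr (Or.inr ⟨h2', h2 h2'⟩)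
    by_cases h3' : ℓ = 3
    · exact Or.inr (Or.inl ⟨h3', h3 h3'⟩)
    left
    have := hℓ.two_le
    by_contra hlt
    have h4 : ℓ = 4 := by omega
    rw [h4] at hℓ
    exact absurd hℓ (by norm_num)
  obtain ⟨G⟩ := nonempty_goodBase (N := N) (k := k) ℓ hℓ h
  exact genusLowerBound_of_goodBase hπ hdeg hℓ G

end Fermat.Agent.JRED
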