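import Mathlib

/-!
# Descent of good reduction, part 3: a character attached to a proper subalgebra of finite
codimension
-/

set_option autoImplicit false

noncomputable section

namespace Fermat.Agent.JRED.Descent

section

/-- A nonzero module, finite dimensional over an algebraically closed field, has a
one-dimensional quotient. -/
theorem exists_character_of_finite {k A Q : Type*} [Field k] [IsAlgClosed k] [CommRing A]
    [Algebra k A] [AddCommGroup Q] [Module k Q] [Module A Q] [IsScalarTower k A Q]
    [Module.Finite k Q] [Nontrivial Q] :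
    ∃ (χ : A →ₐ[k] k) (φ : Q →ₗ[k] k), Function.Surjective φ ∧
      ∀ (a : A) (q : Q), φ (a • q) = χ a * φ q := by
  have hQfin : Module.Finite A Q := Module.Finite.of_restrictScalars_finite k A _
  obtain ⟨M, hM⟩ : ∃ M : Submodule A Q, IsCoatom M := by
    obtain h | ⟨M, hM, -⟩ := eq_top_or_exists_le_coatom (⊥ : Submodule A Q)
    · exact absurd h bot_ne_top
    · exact ⟨M, hM⟩
  have hsimple : IsSimpleModule A (Q ⧸ M) := isSimpleModule_iff_isCoatom.mpr hM
  obtain ⟨I, hI, ⟨e⟩⟩ := isSimpleModule_iff_quot_maximal.mp hsimple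
  let _ : Field (A ⧸ I) := Ideal.Quotient.field I
  have hfinI : Module.Finite k (A ⧸ I) :=
    Module.Finite.equiv (e.restrictScalars k)
  have hbij : Function.Bijective (algebraMap k (A ⧸ I)) := by
    have : Algebra.IsIntegral k (A ⧸ I) := Algebra.IsIntegral.of_finite k _
    exact IsAlgClosed.algebraMap_bijective_of_isIntegral
  let E : k ≃ₐ[k] (A ⧸ I) := AlgEquiv.ofBijective (Algebra.ofId k (A ⧸ I)) hbij
  let χ : A →ₐ[k] k := (E.symm : (A ⧸ I) →ₐ[k] k).comp (Ideal.Quotient.mkₐ k I)
  let ψ : Q →ₗ[A] (A ⧸ I) := (e : _ →ₗ[A] _) ∘ₗ M.mkQ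
  let φ : Q →ₗ[k] k := (E.symm.toLinearEquiv : (A ⧸ I) →ₗ[k] k) ∘ₗ (ψ.restrictScalars k)
  have hφ : ∀ b, φ b = E.symm (ψ b) := fun b => rfl
  refine ⟨χ, φ, ?_, ?_⟩
  · exact E.symm.surjective.comp (e.surjective.comp (Submodule.mkQ_surjective M))
  · intro f b
    rw [hφ, hφ, map_smul]
    have h1 : f • ψ b = (Ideal.Quotient.mk I f) * ψ b := by
      rw [Algebra.smul_def]
      rfl
    rw [h1, map_mul]
    rfl

/-- A criterion for the finiteness of the dimension of `T/S`. -/
theorem finite_map_mkQ {k V : Type*} [Field k] [AddCommGroup V] [Module k V]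
    (S T : Submodule k V) (n : ℕ)
    (hfin : ∀ s : Finset V, (∀ x ∈ s, x ∈ T) → ∃ W : Submodule k V,
      Module.Finite k W ∧ (∀ x ∈ s, x ∈ W) ∧
      Module.finrank k W ≤ Module.finrank k (W ⊓ S : Submodule k V) + n) :
    Module.Finite k (T.map S.mkQ) := by
  classical
  have hrank : Module.rank k (T.map S.mkQ) ≤ n := by
    apply rank_le
    intro s hs
    have hex : ∀ x : (T.map S.mkQ), ∃ t ∈ T, S.mkQ t = x := fun x => x.2
    choose t htT ht using hex
    obtain ⟨W, hWf, hsW, hW⟩ := hfin (s.image t) (by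
      intro x hx
      obtain ⟨y, -, rfl⟩ := Finset.mem_image.mp hx
      exact htT y)
    let g : W →ₗ[k] V ⧸ S := S.mkQ ∘ₗ W.subtype
    have hker : Module.finrank k (LinearMap.ker g) =
        Module.finrank k (W ⊓ S : Submodule k V) := by
      have h1 : LinearMap.ker g = (W ⊓ S).comap W.subtype := by
        rw [LinearMap.ker_comp, Submodule.ker_mkQ, Submodule.comap_inf,
          Submodule.comap_subtype_self, top_inf_eq]
      rw [h1]
      exact (Submodule.comapSubtypeEquivOfLe inf_le_left).finrank_eq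
    have h2 := LinearMap.finrank_range_add_finrank_ker g
    have h3 : s.card ≤ Module.finrank k (LinearMap.range g) := by
      have hmem : ∀ x : s, ((x : (T.map S.mkQ)) : V ⧸ S) ∈ LinearMap.range g := by
        intro x
        exact ⟨⟨t x, hsW _ (Finset.mem_image_of_mem _ x.2)⟩, ht x⟩
      have hli : LinearIndependent k
          (fun x : s => (⟨_, hmem x⟩ : LinearMap.range g)) := by
        apply LinearIndependent.of_comp (LinearMap.range g).subtype
        exact hs.map' (T.map S.mkQ).subtype (Submodule.ker_subtype _)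
      have := hli.fintype_card_le_finrank
      simpa using this
    omega
  have : Module.rank k (T.map S.mkQ) < Cardinal.aleph0 :=
    hrank.trans_lt (Cardinal.natCast_lt_aleph0)
  exact Module.rank_lt_aleph0_iff.mp this

variable {k R : Type*} [Field k] [CommRing R] [Algebra k R]

set_option synthInstance.maxHeartbeats 200000 in
/-- A proper subalgebra `S` of `T`, of finite codimension, admits a character `χ` and a nonzero
functional `φ` on `T/S` which is `χ`-linear. -/
theorem exists_character [IsAlgClosed k] (S T : Subalgebra k R) (hST : S ≤ T) (hne : ¬ T ≤ S)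
    (n : ℕ) (hfin : ∀ s : Finset R, (∀ x ∈ s, x ∈ T) → ∃ W : Submodule k R,
      Module.Finite k W ∧ (∀ x ∈ s, x ∈ W) ∧
      Module.finrank k W ≤
        Module.finrank k (W ⊓ Subalgebra.toSubmodule S : Submodule k R) + n) :
    ∃ (χ : S →ₐ[k] k) (φ : T →ₗ[k] k), φ ≠ 0 ∧
      (∀ b : T, (b : R) ∈ S → φ b = 0) ∧
      ∀ (f : S) (b c : T), (c : R) = f * b → φ c = χ f * φ b := by
  let SS : Submodule S R := LinearMap.range (Algebra.linearMap S R)
  let TS : Submodule S R :=
    { carrier := T
      add_mem' := fun ha hb => T.add_mem ha hb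
      zero_mem' := T.zero_mem
      smul_mem' := fun c x hx => by
        rw [Algebra.smul_def]
        exact T.mul_mem (hST c.2) hx }
  have hSS : SS.restrictScalars k = Subalgebra.toSubmodule S := by
    ext x
    rw [Submodule.restrictScalars_mem, Subalgebra.mem_toSubmodule]
    constructor
    · rintro ⟨f, rfl⟩
      exact f.2
    · intro h
      exact ⟨⟨x, h⟩, rfl⟩
  have hmSS : ∀ x, x ∈ SS ↔ x ∈ S := by
    intro x
    rw [← Subalgebra.mem_toSubmodule, ← hSS, Submodule.restrictScalars_mem]
  let Q : Submodule S (R ⧸ SS) := TS.map SS.mkQ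
  have hfin1 := finite_map_mkQ (Subalgebra.toSubmodule S) (Subalgebra.toSubmodule T) n hfin
  have hQ1 : Module.Finite k (Q.restrictScalars k) := by
    let e : (R ⧸ (Subalgebra.toSubmodule S)) →ₗ[k] R ⧸ SS :=
      (Subalgebra.toSubmodule S).liftQ (SS.mkQ.restrictScalars k) (by
        intro x hx
        rw [LinearMap.mem_ker]
        change SS.mkQ x = 0
        rw [Submodule.mkQ_apply, Submodule.Quotient.mk_eq_zero, hmSS]
        exact hx)
    have h1 : Q.restrictScalars k =
        ((Subalgebra.toSubmodule T).map (Subalgebra.toSubmodule S).mkQ).map e := by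
      ext x
      rw [Submodule.restrictScalars_mem, ← Submodule.map_comp]
      exact Iff.rfl
    rw [h1]
    infer_instance
  have hQ : Module.Finite k Q := hQ1
  have hQnt : Nontrivial Q := by
    rw [Submodule.nontrivial_iff_ne_bot]
    intro h
    apply hne
    intro b hb
    have h1 : SS.mkQ b ∈ Q := ⟨b, hb, rfl⟩
    rw [h, Submodule.mem_bot, Submodule.mkQ_apply, Submodule.Quotient.mk_eq_zero, hmSS] at h1
    exact h1
  obtain ⟨χ, φ, hφ, hmul⟩ := exists_character_of_finite (k := k) (A := S) (Q := Q)
  let j : T →ₗ[k] Q :=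
    { toFun := fun b => ⟨SS.mkQ b, b, b.2, rfl⟩
      map_add' := fun a b => rfl
      map_smul' := fun a b => rfl }
  refine ⟨χ, φ ∘ₗ j, ?_, ?_, ?_⟩
  · intro h0
    obtain ⟨q, hq⟩ := hφ 1
    obtain ⟨b, hb, hbq⟩ := q.2
    have h1 : (φ ∘ₗ j) ⟨b, hb⟩ = 1 := by
      rw [← hq, LinearMap.comp_apply]
      exact congrArg φ (Subtype.ext hbq)
    rw [h0, LinearMap.zero_apply] at h1
    exact one_ne_zero h1.symm
  · intro b hb
    have h1 : j b = 0 := by
      apply Subtype.ext
      change SS.mkQ b = 0
      rw [Submodule.mkQ_apply, Submodule.Quotient.mk_eq_zero, hmSS]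
      exact hb
    rw [LinearMap.comp_apply, h1, map_zero]
  · intro f b c hc
    have h1 : j c = f • j b := by
      apply Subtype.ext
      change SS.mkQ c = f • SS.mkQ b
      rw [← map_smul]
      congr 1
    rw [LinearMap.comp_apply, LinearMap.comp_apply, h1, hmul]

end

end Fermat.Agent.JRED.Descent
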