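import Mathlib
import Fermat.Agent.JRED.DescentApprox
import Fermat.Agent.JRED.DescentNorm

/-!
# Descent of good reduction, part 4: the algebra of residues of regular functions has finite
codimension
-/

set_option autoImplicit false

noncomputable section

open AlgebraicCurve IsLocalRing IntermediateField WithZero

namespace Fermat.Agent.JRED.Descent

open Fermat.Agent.RR

variable {K k : Type*} [Field K] [Field k]
variable {A : ValuationSubring K} {π : A →+* k} {F F' : Type*} [Field F] [Field F']
    [Algebra K F] [Algebra k F'] (C : ConstRed A π F F')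

/-- The residues of the elements of `C.O` which are regular off the poles of `x`. -/
def resOff (hπ : Function.Surjective π) (x : F) : Subalgebra k F' where
  carrier := {g | ∃ f : C.O, (f : F) ∈ regOff K x ∧ C.res f = g}
  mul_mem' := by
    rintro _ _ ⟨f, hf, rfl⟩ ⟨g, hg, rfl⟩
    exact ⟨f * g, mul_mem hf hg, map_mul _ _ _⟩
  add_mem' := by
    rintro _ _ ⟨f, hf, rfl⟩ ⟨g, hg, rfl⟩
    exact ⟨f + g, add_mem hf hg, map_add _ _ _⟩
  algebraMap_mem' c := by
    obtain ⟨a, rfl⟩ := hπ c
    exact ⟨⟨_, C.algebraMap_mem a⟩, (regOff K x).algebraMap_mem a, C.res_algebraMap a⟩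

variable {C}

theorem mem_resOff {hπ : Function.Surjective π} {x : F} {g : F'} :
    g ∈ resOff C hπ x ↔ ∃ f : C.O, (f : F) ∈ regOff K x ∧ C.res f = g := Iff.rfl

theorem res_mem_resOff (hπ : Function.Surjective π) {x : F} {f : C.O}
    (hf : (f : F) ∈ regOff K x) : C.res f ∈ resOff C hπ x := ⟨f, hf, rfl⟩

variable [FunctionField K F] [FunctionField k F']

theorem resOff_le (hπ : Function.Surjective π) (x : C.O)
    (H2 : ∀ m : ℕ, ∀ f : C.O, (f : F) ∈ riemannRochSpace (m • polesOf (K := K) (x : F)) →
      C.res f ∈ riemannRochSpace (m • polesOf (K := k) (C.res x))) :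
    resOff C hπ (x : F) ≤ regOff k (C.res x) := by
  rintro _ ⟨f, hf, rfl⟩
  obtain ⟨m, hm⟩ := exists_mem_riemannRochSpace hf
  exact riemannRochSpace_nsmul_le_regOff _ m (H2 m f hm)

variable [IsAlgClosed K] [IsAlgClosed k]

theorem codim_resOff (hπ : Function.Surjective π) (x : C.O) (hxK : Transcendental K (x : F))
    (hxk : Transcendental k (C.res x))
    (hd : Module.finrank k⟮C.res x⟯ F' ≤ Module.finrank K⟮(x : F)⟯ F)
    (H2 : ∀ m : ℕ, ∀ f : C.O, (f : F) ∈ riemannRochSpace (m • polesOf (K := K) (x : F)) →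
      C.res f ∈ riemannRochSpace (m • polesOf (K := k) (C.res x)))
    (s : Finset F') (hs : ∀ y ∈ s, y ∈ regOff k (C.res x)) :
    ∃ W : Submodule k F', Module.Finite k W ∧ (∀ y ∈ s, y ∈ W) ∧
      Module.finrank k W ≤
        Module.finrank k (W ⊓ Subalgebra.toSubmodule (resOff C hπ (x : F)) : Submodule k F') +
          genusFF K F := by
  classical
  have := finiteDimensional_of_transcendental (K := K) hxK
  have := finiteDimensional_of_transcendental (K := k) hxk
  have hex : ∀ y : F', ∃ m : ℕ, y ∈ s → y ∈ riemannRochSpace (m • polesOf (K := k) (C.res x)) := by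
    intro y
    by_cases hy : y ∈ s
    · obtain ⟨m, hm⟩ := exists_mem_riemannRochSpace (hs y hy)
      exact ⟨m, fun _ => hm⟩
    · exact ⟨0, fun h => absurd h hy⟩
  choose m hm using hex
  set M := s.sup m with hM
  refine ⟨riemannRochSpace (M • polesOf (K := k) (C.res x)), inferInstance, fun y hy => ?_, ?_⟩
  · exact riemannRochSpace_nsmul_mono _ (Finset.le_sup hy) (hm y hy)
  have h1 : (Module.finrank k (riemannRochSpace (M • polesOf (K := k) (C.res x))) : ℤ) ≤
      M * (Module.finrank k⟮C.res x⟯ F' : ℤ) + 1 := by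
    have h := finrank_le_of_nonneg (K := k) (F := F') (D := M • polesOf (K := k) (C.res x))
      (nsmul_nonneg (polesOf_nonneg _) _)
    rwa [map_nsmul, nsmul_eq_mul, degree_polesOf hxk] at h
  have h2 : (M : ℤ) * (Module.finrank K⟮(x : F)⟯ F : ℤ) + 1 - genusFF K F ≤
      (Module.finrank K (riemannRochSpace (M • polesOf (K := K) (x : F))) : ℤ) := by
    have h := finrank_riemannRochSpace_ge (K := K) (F := F) (M • polesOf (K := K) (x : F))
    rwa [map_nsmul, nsmul_eq_mul, degree_polesOf hxK] at h
  obtain ⟨b, hbV, hbO, hli⟩ := C.exists_basis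
    (riemannRochSpace (M • polesOf (K := K) (x : F))) inferInstance
  have h3 : Module.finrank K (riemannRochSpace (M • polesOf (K := K) (x : F))) ≤
      Module.finrank k (riemannRochSpace (M • polesOf (K := k) (C.res x)) ⊓
        Subalgebra.toSubmodule (resOff C hπ (x : F)) : Submodule k F') := by
    have hmem : ∀ i, C.res ⟨b i, hbO i⟩ ∈ (riemannRochSpace (M • polesOf (K := k) (C.res x)) ⊓
        Subalgebra.toSubmodule (resOff C hπ (x : F)) : Submodule k F') := by
      intro i
      refine ⟨H2 M ⟨b i, hbO i⟩ (hbV i), ?_⟩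
      exact res_mem_resOff hπ (riemannRochSpace_nsmul_le_regOff _ M (hbV i))
    have hli' : LinearIndependent k (fun i => (⟨_, hmem i⟩ :
        (riemannRochSpace (M • polesOf (K := k) (C.res x)) ⊓
        Subalgebra.toSubmodule (resOff C hπ (x : F)) : Submodule k F'))) := by
      apply LinearIndependent.of_comp (Submodule.subtype _)
      exact hli
    have : Module.Finite k (riemannRochSpace (M • polesOf (K := k) (C.res x)) ⊓
        Subalgebra.toSubmodule (resOff C hπ (x : F)) : Submodule k F') :=
      Submodule.finiteDimensional_inf_left _ _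
    have := hli'.fintype_card_le_finrank
    simpa using this
  have h4 : (M : ℤ) * (Module.finrank k⟮C.res x⟯ F' : ℤ) ≤
      M * (Module.finrank K⟮(x : F)⟯ F : ℤ) := by
    have : (Module.finrank k⟮C.res x⟯ F' : ℤ) ≤ (Module.finrank K⟮(x : F)⟯ F : ℤ) := by
      exact_mod_cast hd
    exact mul_le_mul_of_nonneg_left this (Int.natCast_nonneg _)
  omega

end Fermat.Agent.JRED.Descent
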