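import Mathlib
import Fermat.Agent.JRED.DescentApprox
import Fermat.Agent.JRED.DescentChar

/-!
# Descent of good reduction, part 5: a subalgebra of finite codimension of the ring of functions
regular off the poles of `x` which separates points and tangent vectors is everything
-/

set_option autoImplicit false

noncomputable section

open AlgebraicCurve IsLocalRing IntermediateField WithZero

namespace Fermat.Agent.JRED.Descent

open Fermat.Agent.RR

section Van

variable {k F : Type*} [Field k] [Field F] [Algebra k F]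

/-- `f` vanishes at `v` to order at least `n`. -/
def Van (v : Place k F) (n : ℤ) (f : F) : Prop := f = 0 ∨ n ≤ v.ord f

variable {v : Place k F} {m n : ℤ} {f g : F}

theorem Van.zero : Van v n (0 : F) := Or.inl rfl

theorem Van.add (hf : Van v n f) (hg : Van v n g) : Van v n (f + g) := by
  by_cases hz : f + g = 0
  · exact Or.inl hz
  right
  rcases hf with rfl | hf
  · rw [zero_add] at hz ⊢; exact hg.resolve_left hz
  rcases hg with rfl | hg
  · rw [add_zero] at hz ⊢; exact hf
  exact (le_min hf hg).trans (ord_add v hz)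

theorem Van.neg (hf : Van v n f) : Van v n (-f) := by
  rcases hf with rfl | hf
  · rw [neg_zero]; exact Van.zero
  · right; rwa [ord_neg]

theorem Van.sub (hf : Van v n f) (hg : Van v n g) : Van v n (f - g) := by
  rw [sub_eq_add_neg]; exact hf.add hg.neg

theorem Van.mul (hf : Van v m f) (hg : Van v n g) : Van v (m + n) (f * g) := by
  by_cases h0 : f = 0
  · rw [h0, zero_mul]; exact Van.zero
  by_cases h1 : g = 0
  · rw [h1, mul_zero]; exact Van.zero
  right
  rw [v.ord_mul h0 h1]
  exact add_le_add (hf.resolve_left h0) (hg.resolve_left h1)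

theorem Van.sum {ι : Type*} {s : Finset ι} {f : ι → F} (h : ∀ i ∈ s, Van v n (f i)) :
    Van v n (∑ i ∈ s, f i) := ord_sum_ge v s f n h

theorem Van.mono (hf : Van v n f) (h : m ≤ n) : Van v m f := hf.imp_right h.trans

theorem van_zero_iff : Van v 0 f ↔ f ∈ v.toValuationSubring := (mem_iff_ord v).symm

theorem Van.div {u : F} (hu : u ≠ 0) (hf : Van v (v.ord u) f) : f / u ∈ v.toValuationSubring := by
  rw [← van_zero_iff]
  rcases hf with rfl | hf
  · rw [zero_div]; exact Van.zero
  by_cases h0 : f = 0
  · rw [h0, zero_div]; exact Van.zero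
  right
  rw [ord_div v h0 hu]
  omega

end Van

variable {k F : Type*} [Field k] [Field F] [Algebra k F] [IsAlgClosed k] [FunctionField k F]

theorem regOff_le_of_separates {x : F} (hx : Transcendental k x) (B : Subalgebra k F)
    (hxB : x ∈ B) (hB : B ≤ regOff k x) (n : ℕ)
    (hfin : ∀ s : Finset F, (∀ y ∈ s, y ∈ regOff k x) → ∃ W : Submodule k F,
      Module.Finite k W ∧ (∀ y ∈ s, y ∈ W) ∧
      Module.finrank k W ≤
        Module.finrank k (W ⊓ Subalgebra.toSubmodule B : Submodule k F) + n)
    (hsep : ∀ (T : Finset (Place k F)) (w₀ : Place k F), w₀ ∈ T →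
      (∀ w ∈ T, x ∈ w.toValuationSubring) →
      ∃ u ∈ B, w₀.ord u = 1 ∧ ∀ w ∈ T, w ≠ w₀ → w.ord u = 0) :
    regOff k x ≤ B := by
  classical
  by_contra hne
  obtain ⟨χ, φ, hφ0, hφB, hφmul⟩ := exists_character B (regOff k x) hB hne n hfin
  -- the places at which the kernel of `χ` vanishes
  let W : Set (Place k F) :=
    {w | x ∈ w.toValuationSubring ∧ ∀ f : B, χ f = 0 → Van w 1 (f : F)}
  have hu0B : x - algebraMap k F (χ ⟨x, hxB⟩) ∈ B := sub_mem hxB (B.algebraMap_mem _)
  have hχu0 : χ ⟨_, hu0B⟩ = 0 := by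
    have h1 : (⟨_, hu0B⟩ : B) = ⟨x, hxB⟩ - algebraMap k B (χ ⟨x, hxB⟩) := rfl
    rw [h1, map_sub, AlgHom.commutes]
    simp
  have hu0 : x - algebraMap k F (χ ⟨x, hxB⟩) ≠ 0 := by
    intro h
    apply hx
    rw [sub_eq_zero] at h
    rw [h]
    exact isAlgebraic_algebraMap _
  have hWfin : W.Finite := by
    refine (zeros_finite (K := k) (x - algebraMap k F (χ ⟨x, hxB⟩))).subset fun w hw => ?_
    have := (hw.2 ⟨_, hu0B⟩ hχu0).resolve_left hu0
    exact lt_of_lt_of_le one_pos this
  -- a local parameter in the kernel of `χ`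
  obtain ⟨u, hχu, hu, hWu⟩ : ∃ u : B, χ u = 0 ∧ (u : F) ≠ 0 ∧
      ((∀ w ∈ W, w.ord (u : F) = 1) ∧ W.Subsingleton) := by
    rcases W.eq_empty_or_nonempty with hW | ⟨w₀, hw₀⟩
    · refine ⟨⟨_, hu0B⟩, hχu0, hu0, ?_, ?_⟩
      · intro w hw
        rw [hW] at hw
        exact absurd hw (Set.notMem_empty w)
      · rw [hW]; exact Set.subsingleton_empty
    · obtain ⟨u, huB, h1, h2⟩ := hsep hWfin.toFinset w₀ (hWfin.mem_toFinset.mpr hw₀)
        (fun w hw => (hWfin.mem_toFinset.mp hw).1)
      have hu : u ≠ 0 := by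
        rintro rfl
        simp at h1
      have hχu : χ ⟨u, huB⟩ = 0 := by
        by_contra hc
        have h3 : χ (⟨u, huB⟩ - algebraMap k B (χ ⟨u, huB⟩)) = 0 := by
          rw [map_sub, AlgHom.commutes]
          simp
        have h4 : Van w₀ 1 (u - algebraMap k F (χ ⟨u, huB⟩)) := hw₀.2 _ h3
        have h5 : Van w₀ 1 (algebraMap k F (χ ⟨u, huB⟩)) := by
          have h6 : Van w₀ 1 u := Or.inr h1.ge
          have := h6.sub h4
          rwa [sub_sub_cancel] at this
        rcases h5 with h5 | h5
        · rw [map_eq_zero] at h5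
          exact hc h5
        · rw [ord_algebraMap] at h5
          omega
      have hWsub : ∀ w ∈ W, w = w₀ := by
        intro w hw
        by_contra hne'
        have h3 := h2 w (hWfin.mem_toFinset.mpr hw) hne'
        have h4 := (hw.2 ⟨u, huB⟩ hχu).resolve_left hu
        change 1 ≤ w.ord u at h4
        omega
      refine ⟨⟨u, huB⟩, hχu, hu, fun w hw => ?_, fun w hw w' hw' => ?_⟩
      · rw [hWsub w hw]; exact h1
      · rw [hWsub w hw, hWsub w' hw']
  -- the other zeros of `u`
  let Zs : Set (Place k F) := {w | x ∈ w.toValuationSubring ∧ 0 < w.ord (u : F) ∧ w ∉ W}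
  have hZfin : Zs.Finite := (zeros_finite (K := k) (u : F)).subset fun w hw => hw.2.1
  set Z := hZfin.toFinset with hZ
  have hZmem : ∀ w, w ∈ Z ↔ x ∈ w.toValuationSubring ∧ 0 < w.ord (u : F) ∧ w ∉ W := fun w =>
    hZfin.mem_toFinset
  have hex : ∀ w : Place k F, ∃ f : B, w ∈ Z → χ f = 0 ∧ (f : F) ≠ 0 ∧ w.ord (f : F) = 0 := by
    intro w
    by_cases hw : w ∈ Z
    · rw [hZmem] at hw
      obtain ⟨h1, h2, h3⟩ := hw
      have h4 : ¬ ∀ f : B, χ f = 0 → Van w 1 (f : F) := fun h => h3 ⟨h1, h⟩
      push Not at h4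
      obtain ⟨f, hf, hv⟩ := h4
      refine ⟨f, fun _ => ⟨hf, fun h => hv (Or.inl h), ?_⟩⟩
      have h5 : 0 ≤ w.ord (f : F) := ord_nonneg_of_mem w (hB f.2 w h1)
      have h6 : ¬ (1 ≤ w.ord (f : F)) := fun h => hv (Or.inr h)
      omega
    · exact ⟨0, fun h => absurd h hw⟩
  choose fw hfw using hex
  -- main claim
  have main : ∀ b : regOff k x, (∀ w ∈ W, Van w 1 (b : F)) → φ b = 0 := by
    intro b hb
    set N : ℕ := ∑ w ∈ Z, (w.ord (u : F)).toNat with hN
    have hNle : ∀ w ∈ Z, w.ord (u : F) ≤ N := by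
      intro w hw
      have h1 := Finset.single_le_sum (f := fun w : Place k F => (w.ord (u : F)).toNat)
          (fun _ _ => Nat.zero_le _) hw
      have h2 := Int.self_le_toNat (w.ord (u : F))
      have h3 : ((w.ord (u : F)).toNat : ℤ) ≤ N := by exact_mod_cast h1
      exact h2.trans h3
    have hg : ∀ w : Place k F, ∃ g : F, w ∈ Z →
        g ∈ regOff k x ∧ Van w N (g - (b : F) / fw w) ∧ ∀ w' ∈ Z, w' ≠ w → Van w' N g := by
      intro w
      by_cases hw : w ∈ Z
      · obtain ⟨g, h1, h2⟩ := exists_approx hx Z (fun v hv => ((hZmem v).mp hv).1)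
          (fun v => if v = w then (b : F) / fw w else 0) N
        refine ⟨g, fun _ => ⟨?_, ?_, ?_⟩⟩
        · intro v hv
          by_cases hvZ : v ∈ Z
          · have h3 : Van v N (g - if v = w then (b : F) / fw w else 0) := h1 v hvZ
            have h4 : (if v = w then (b : F) / fw w else 0) ∈ v.toValuationSubring := by
              split_ifs with hvw
              · subst hvw
                obtain ⟨-, h5, h6⟩ := hfw v hw
                apply Van.div h5
                rw [h6, van_zero_iff]
                exact b.2 v hv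
              · exact zero_mem _
            have h5 := (h3.mono (Int.natCast_nonneg N)).add (van_zero_iff.mpr h4)
            rw [sub_add_cancel] at h5
            exact van_zero_iff.mp h5
          · exact h2 v hvZ hv
        · have h3 := h1 w hw
          simp only [if_true] at h3
          exact h3
        · intro w' hw' hne'
          have h3 := h1 w' hw'
          rw [if_neg hne', sub_zero] at h3
          exact h3
      · exact ⟨0, fun h => absurd h hw⟩
    choose gw hgw using hg
    set num : F := (b : F) - ∑ w ∈ Z, (fw w : F) * gw w with hnum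
    have hh : num / u ∈ regOff k x := by
      intro v hv
      apply Van.div hu
      by_cases hvW : v ∈ W
      · rw [hWu.1 v hvW]
        refine (hb v hvW).sub (Van.sum fun w hw => ?_)
        have h1 : Van v 1 (fw w : F) := hvW.2 _ (hfw w hw).1
        have h2 : Van v 0 (gw w) := van_zero_iff.mpr ((hgw w hw).1 v hv)
        exact h1.mul h2
      by_cases hvZ : v ∈ Z
      · refine Van.mono (n := N) ?_ (hNle v hvZ)
        rw [hnum, ← Finset.add_sum_erase Z _ hvZ, ← sub_sub]
        refine Van.sub ?_ (Van.sum fun w hw => ?_)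
        · obtain ⟨-, h5, h6⟩ := hfw v hvZ
          have h1 : (b : F) - fw v * gw v = -(fw v * (gw v - b / fw v)) := by
            field_simp
            ring
          rw [h1]
          have h2 : Van v 0 (fw v : F) := Or.inr h6.ge
          have h3 := h2.mul (hgw v hvZ).2.1
          rw [zero_add] at h3
          exact h3.neg
        · rw [Finset.mem_erase] at hw
          have h2 : Van v 0 (fw w : F) := van_zero_iff.mpr (hB (fw w).2 v hv)
          have h3 := h2.mul ((hgw w hw.2).2.2 v hvZ hw.1.symm)
          rwa [zero_add] at h3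
      · have h1 : v.ord (u : F) = 0 := by
          have h2 := ord_nonneg_of_mem v (hB u.2 v hv)
          have h3 : ¬ 0 < v.ord (u : F) := fun h => hvZ ((hZmem v).mpr ⟨hv, h, hvW⟩)
          omega
        rw [h1, van_zero_iff]
        refine sub_mem (b.2 v hv) (sum_mem fun w hw => ?_)
        exact mul_mem (hB (fw w).2 v hv) ((hgw w hw).1 v hv)
    -- conclude
    have hgwmem : ∀ w ∈ Z, gw w ∈ regOff k x := fun w hw => (hgw w hw).1
    let gw' : Place k F → regOff k x := fun w => if h : w ∈ Z then ⟨gw w, hgwmem w h⟩ else 0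
    have hgw' : ∀ w ∈ Z, (gw' w : F) = gw w := fun w hw => by
      simp only [gw', dif_pos hw]
    let P : Place k F → regOff k x := fun w => ⟨fw w * gw' w, mul_mem (hB (fw w).2) (gw' w).2⟩
    have hP : ∀ w, φ (P w) = χ (fw w) * φ (gw' w) := fun w => hφmul (fw w) (gw' w) (P w) rfl
    let Q : regOff k x := ⟨u * (num / u), mul_mem (hB u.2) hh⟩
    have hQ : φ Q = 0 := by
      rw [hφmul u ⟨num / u, hh⟩ Q rfl, hχu, zero_mul]
    have hb' : b = Q + ∑ w ∈ Z, P w := by
      apply Subtype.ext
      push_cast
      have h1 : ∑ w ∈ Z, (P w : F) = ∑ w ∈ Z, (fw w : F) * gw w :=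
        Finset.sum_congr rfl fun w hw => by
          change (fw w : F) * (gw' w : F) = _
          rw [hgw' w hw]
      rw [h1]
      change (b : F) = (u : F) * (num / u) + _
      rw [mul_div_cancel₀ _ hu, hnum]
      ring
    rw [hb', map_add, hQ, map_sum, zero_add]
    refine Finset.sum_eq_zero fun w hw => ?_
    rw [hP, (hfw w hw).1, zero_mul]
  apply hφ0
  ext b
  rw [LinearMap.zero_apply]
  rcases W.eq_empty_or_nonempty with hW | ⟨w₀, hw₀⟩
  · apply main
    intro w hw
    rw [hW] at hw
    exact absurd hw (Set.notMem_empty w)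
  · obtain ⟨c, hc⟩ := exists_const_of_mem w₀ (b.2 w₀ hw₀.1)
    have h1 : φ (b - algebraMap k _ c) = 0 := by
      apply main
      intro w hw
      rw [hWu.2 hw hw₀]
      rcases hc with hc | hc
      · exact Or.inl hc
      · exact Or.inr hc
    rw [map_sub, hφB (algebraMap k _ c) (B.algebraMap_mem c), sub_zero] at h1
    exact h1

end Fermat.Agent.JRED.Descent
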