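import Mathlib
import Fermat.Agent.JRED.DescentCodim
import Fermat.Agent.JRED.DescentSep
import Fermat.Agent.FF.RelGlobal

/-!
# Descent of good reduction, part 6: the key statement

If good reduction is known upstairs (regular functions off the poles of `x̄` lift), it is known
downstairs, by taking norms.
-/

set_option autoImplicit false

noncomputable section

open AlgebraicCurve IsLocalRing IntermediateField WithZero

namespace Fermat.Agent.JRED.Descent

open Fermat.Agent.RR

section Transcendental

variable {K k : Type*} [Field K] [Field k]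
variable {A : ValuationSubring K} {π : A →+* k} {F F' : Type*} [Field F] [Field F']
    [Algebra K F] [Algebra k F'] (C : ConstRed A π F F')

/-- A residually transcendental element is transcendental. -/
theorem transcendental_of_res (x : C.O) (hx : Transcendental k (C.res x)) :
    Transcendental K (x : F) := by
  intro halg
  obtain ⟨P, hP0, hP⟩ := halg
  let n := P.natDegree + 1
  let a : Fin n → K := fun i => P.coeff i
  have ha : a ≠ 0 := by
    intro h
    apply hP0
    rw [← Polynomial.leadingCoeff_eq_zero]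
    exact congrFun h ⟨P.natDegree, Nat.lt_succ_self _⟩
  obtain ⟨i₀, h0, hi⟩ := exists_normalize A a ha
  let c : Fin n → A := fun i => ⟨a i / a i₀, hi i⟩
  have h1 : ∑ i, (⟨algebraMap K F (c i), C.algebraMap_mem (c i)⟩ : C.O) * x ^ (i : ℕ) = 0 := by
    apply Subtype.ext
    push_cast
    have h2 : ∑ i : Fin n, algebraMap K F (P.coeff i) * (x : F) ^ (i : ℕ) = 0 := by
      rw [Fin.sum_univ_eq_sum_range (fun i => algebraMap K F (P.coeff i) * (x : F) ^ i) n]
      rw [Polynomial.aeval_eq_sum_range] at hP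
      rw [← hP]
      exact Finset.sum_congr rfl fun i _ => (Algebra.smul_def _ _).symm
    have h3 : ∀ i : Fin n, algebraMap K F (c i : K) * (x : F) ^ (i : ℕ) =
        (algebraMap K F (a i₀))⁻¹ * (algebraMap K F (P.coeff i) * (x : F) ^ (i : ℕ)) := by
      intro i
      change algebraMap K F (P.coeff i / a i₀) * _ = _
      rw [map_div₀, div_eq_mul_inv]
      ring
    rw [Finset.sum_congr rfl fun i _ => h3 i, ← Finset.mul_sum, h2, mul_zero]
  have h2 := congrArg C.res h1
  rw [map_sum, map_zero] at h2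
  apply hx
  refine ⟨∑ i : Fin n, Polynomial.monomial (i : ℕ) (π (c i)), ?_, ?_⟩
  · intro h3
    have h4 := congrArg (fun Q => Polynomial.coeff Q (i₀ : ℕ)) h3
    simp only [Polynomial.finsetSum_coeff, Polynomial.coeff_monomial, Polynomial.coeff_zero]
      at h4
    rw [Finset.sum_eq_single i₀] at h4
    · rw [if_pos rfl] at h4
      have h5 : c i₀ = 1 := Subtype.ext (div_self h0)
      rw [h5, map_one] at h4
      exact one_ne_zero h4
    · intro j _ hj
      rw [if_neg (fun h => hj (Fin.ext h))]
    · intro h; exact absurd (Finset.mem_univ _) h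
  · rw [map_sum, ← h2]
    refine Finset.sum_congr rfl fun i _ => ?_
    rw [Polynomial.aeval_monomial, map_mul, map_pow, C.res_algebraMap]

end Transcendental

section Norm

variable {k F F₁ : Type*} [Field k] [Field F] [Field F₁] [Algebra k F] [Algebra k F₁]
  [Algebra F F₁] [IsScalarTower k F F₁] [FiniteDimensional F F₁] [Fermat.FF.IsFF1 k F]

theorem norm_mem_regOff {x : F} {h : F₁} (hh : h ∈ regOff k (algebraMap F F₁ x)) :
    Algebra.norm F h ∈ regOff k x := by
  intro v hv
  have := Fermat.FF.Rel.finiteAt k F F₁ v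
  by_cases h0 : h = 0
  · rw [h0, Algebra.norm_zero]
    exact zero_mem _
  apply mem_of_ord_nonneg
  rw [← Fermat.FF.Rel.sum_ord_mul_inertiaDeg v h0]
  refine Finset.sum_nonneg fun w hw => mul_nonneg ?_ (Int.natCast_nonneg _)
  apply ord_nonneg_of_mem
  apply hh w
  have hw' : w.restrict F = v := (Fermat.FF.Rel.fiber_finite F₁ v).mem_toFinset.mp hw
  rw [← hw'] at hv
  exact hv

theorem fiber_nonempty (v : Place k F) : ∃ w : Place k F₁, w.restrict F = v := by
  have := Fermat.FF.Rel.finiteAt k F F₁ v
  by_contra hne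
  push Not at hne
  have h1 := Fermat.FF.Rel.sum_ramificationIndex_mul_inertiaDeg (F' := F₁) v
  have h2 : (Fermat.FF.Rel.fiber_finite F₁ v).toFinset = ∅ := by
    rw [Finset.eq_empty_iff_forall_notMem]
    intro w hw
    exact hne w ((Fermat.FF.Rel.fiber_finite F₁ v).mem_toFinset.mp hw)
  rw [h2, Finset.sum_empty] at h1
  have h3 : 0 < Module.finrank F F₁ := Module.finrank_pos
  omega

omit [Fermat.FF.IsFF1 k F] in
theorem inertiaDeg_eq_one [IsAlgClosed k] [FunctionField k F] [FunctionField k F₁]
    (w : Place k F₁) : w.inertiaDeg F = 1 := by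
  have h1 := w.deg_restrict_mul_inertiaDeg (F := F)
  rwa [deg_eq_one, deg_eq_one, one_mul] at h1

end Norm

variable {K k : Type*} [Field K] [Field k]
variable {A : ValuationSubring K} {π : A →+* k} {F F' F₁ F₁' : Type*} [Field F] [Field F']
    [Algebra K F] [Algebra k F'] [Field F₁] [Field F₁'] [Algebra K F₁] [Algebra k F₁']
    [Algebra F F₁] [Algebra F' F₁'] [IsScalarTower K F F₁] [IsScalarTower k F' F₁']
    [FiniteDimensional F F₁] [FiniteDimensional F' F₁']
    [IsAlgClosed K] [IsAlgClosed k] [FunctionField K F] [FunctionField k F']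
    [FunctionField k F₁']
    {C : ConstRed A π F F'} {C₁ : ConstRed A π F₁ F₁'}

omit [IsAlgClosed K] in
/-- The algebra of residues separates points and tangent vectors. -/
theorem resOff_separates (hπ : Function.Surjective π) (E : Ext C C₁)
    (hn : Module.finrank F F₁ = Module.finrank F' F₁') (x : C.O)
    (hx : Transcendental k (C.res x))
    (H1 : ∀ h' ∈ regOff k (algebraMap F' F₁' (C.res x)),
      ∃ h : C₁.O, (h : F₁) ∈ regOff K (algebraMap F F₁ (x : F)) ∧ C₁.res h = h')
    (T : Finset (Place k F')) (w₀ : Place k F') (hw₀ : w₀ ∈ T)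
    (hT : ∀ w ∈ T, C.res x ∈ w.toValuationSubring) :
    ∃ u ∈ resOff C hπ (x : F), w₀.ord u = 1 ∧ ∀ w ∈ T, w ≠ w₀ → w.ord u = 0 := by
  classical
  have hK1 := isFF1_of_functionField (K := K) (F := F)
  have hk1 := isFF1_of_functionField (K := k) (F := F')
  have hfa : ∀ v : Place k F', Fermat.FF.Rel.FiniteAt F₁' v :=
    fun v => Fermat.FF.Rel.finiteAt k F' F₁' v
  have hx1 : Transcendental k (algebraMap F' F₁' (C.res x)) := by
    rwa [Transcendental, isAlgebraic_algebraMap_iff (algebraMap F' F₁').injective]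
  -- places above `T`
  have hTfin : {s : Place k F₁' | s.restrict F' ∈ T}.Finite := by
    have h1 : {s : Place k F₁' | s.restrict F' ∈ T} =
        ⋃ w ∈ T, {s : Place k F₁' | s.restrict F' = w} := by
      ext s
      simp
    rw [h1]
    exact T.finite_toSet.biUnion fun w _ => Fermat.FF.Rel.fiber_finite F₁' w
  set S := hTfin.toFinset with hS
  have hSmem : ∀ s, s ∈ S ↔ s.restrict F' ∈ T := fun s => hTfin.mem_toFinset
  obtain ⟨s₀, hs₀⟩ := fiber_nonempty (F₁ := F₁') w₀
  have hs₀S : s₀ ∈ S := (hSmem s₀).mpr (hs₀ ▸ hw₀)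
  obtain ⟨t, ht⟩ := exists_ord_eq_one s₀
  have ht0 : t ≠ 0 := by
    rintro rfl
    simp at ht
  have hSx : ∀ s ∈ S, algebraMap F' F₁' (C.res x) ∈ s.toValuationSubring := by
    intro s hs
    exact hT _ ((hSmem s).mp hs)
  obtain ⟨g, hg1, hg2⟩ := exists_approx (K := k) hx1 S hSx (fun s => if s = s₀ then t else 1) 2
  have hzord : ∀ s ∈ S, s.ord (if s = s₀ then t else (1 : F₁')) = if s = s₀ then 1 else 0 := by
    intro s _
    split_ifs with h
    · rw [h, ht]
    · exact s.ord_one
  have hz0 : ∀ s, (if s = s₀ then t else (1 : F₁')) ≠ 0 := by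
    intro s
    split_ifs
    · exact ht0
    · exact one_ne_zero
  have hgord : ∀ s ∈ S, s.ord g = if s = s₀ then 1 else 0 := by
    intro s hs
    rw [← hzord s hs]
    have h1 := ord_add_eq_of_lt s (f := if s = s₀ then t else (1 : F₁'))
      (g := g - if s = s₀ then t else (1 : F₁')) (hz0 s) ?_
    · rwa [add_sub_cancel] at h1
    · rcases hg1 s hs with h | h
      · exact Or.inl h
      · right
        rw [hzord s hs]
        have h2 : ((2 : ℕ) : ℤ) = 2 := rfl
        simp only [h2] at h
        split_ifs <;> split_ifs at h <;> omega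
  have hg0 : g ≠ 0 := by
    rintro rfl
    have := hgord s₀ hs₀S
    rw [if_pos rfl, Place.ord_zero] at this
    omega
  have hgreg : g ∈ regOff k (algebraMap F' F₁' (C.res x)) := by
    intro s hs
    by_cases hsS : s ∈ S
    · apply mem_of_ord_nonneg
      rw [hgord s hsS]
      split_ifs <;> omega
    · exact hg2 s hsS hs
  obtain ⟨h, hh, hres⟩ := H1 g hgreg
  obtain ⟨hN, hNres⟩ := E.norm hn h
  rw [hres] at hNres
  refine ⟨Algebra.norm F' g, ⟨⟨_, hN⟩, norm_mem_regOff hh, hNres⟩, ?_, ?_⟩
  · have := hfa w₀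
    rw [← Fermat.FF.Rel.sum_ord_mul_inertiaDeg w₀ hg0, Finset.sum_eq_single s₀]
    · rw [hgord s₀ hs₀S, if_pos rfl, inertiaDeg_eq_one]
      rfl
    · intro s hs hne
      have hs' := (Fermat.FF.Rel.fiber_finite F₁' w₀).mem_toFinset.mp hs
      have hs'' : s.restrict F' = w₀ := hs'
      rw [hgord s ((hSmem s).mpr (hs'' ▸ hw₀)), if_neg hne, zero_mul]
    · intro h1
      exact absurd ((Fermat.FF.Rel.fiber_finite F₁' w₀).mem_toFinset.mpr hs₀) h1
  · intro w hw hne
    have := hfa w
    rw [← Fermat.FF.Rel.sum_ord_mul_inertiaDeg w hg0]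
    refine Finset.sum_eq_zero fun s hs => ?_
    have hs' := (Fermat.FF.Rel.fiber_finite F₁' w).mem_toFinset.mp hs
    have hs'' : s.restrict F' = w := hs'
    have hss : s ≠ s₀ := by
      rintro rfl
      exact hne (hs''.symm.trans hs₀)
    rw [hgord s ((hSmem s).mpr (hs'' ▸ hw)), if_neg hss, zero_mul]

/-- **Descent**: functions regular off the poles of `x̄` lift, if they do upstairs. -/
theorem exists_lift_regOff (hπ : Function.Surjective π) (E : Ext C C₁)
    (hn : Module.finrank F F₁ = Module.finrank F' F₁') (x : C.O)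
    (hx : Transcendental k (C.res x))
    (hd : Module.finrank k⟮C.res x⟯ F' ≤ Module.finrank K⟮(x : F)⟯ F)
    (H1 : ∀ h' ∈ regOff k (algebraMap F' F₁' (C.res x)),
      ∃ h : C₁.O, (h : F₁) ∈ regOff K (algebraMap F F₁ (x : F)) ∧ C₁.res h = h')
    (H2 : ∀ m : ℕ, ∀ f : C.O, (f : F) ∈ riemannRochSpace (m • polesOf (K := K) (x : F)) →
      C.res f ∈ riemannRochSpace (m • polesOf (K := k) (C.res x))) :
    ∀ g ∈ regOff k (C.res x), ∃ f : C.O, (f : F) ∈ regOff K (x : F) ∧ C.res f = g := by
  intro g hg
  exact regOff_le_of_separates hx (resOff C hπ (x : F)) (res_mem_resOff hπ (self_mem_regOff _))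
    (resOff_le hπ x H2) (genusFF K F)
    (fun s hs => codim_resOff hπ x (transcendental_of_res C x hx) hx hd H2 s hs)
    (fun T w₀ hw₀ hT => resOff_separates hπ E hn x hx H1 T w₀ hw₀ hT) hg

end Fermat.Agent.JRED.Descent
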