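import Fermat.Agent.RR.Riemann

/-!
# Rigidity of bounded additive maps on divisors

If `e : Div F → ℤ` is additive, bounded on places and kills principal divisors, then `e` takes the
same value at all places (Riemann's theorem: `m • x + g • P₀` is effective up to equivalence).
Consequence: two effective-preserving maps `Div F → ⨁ ℤ` which agree on principal divisors agree.
-/

set_option autoImplicit false

noncomputable section

open AlgebraicCurve

namespace Fermat.Agent.JRED.ES

open Fermat.Agent.RR

variable {K F : Type*} [Field K] [Field F] [Algebra K F] [IsAlgClosed K] [FunctionField K F]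

/-- A divisor of degree at least `g` is linearly equivalent to an effective one. -/
theorem exists_effective (D : Divisor K F) (h : (genusFF K F : ℤ) ≤ Divisor.degree D) :
    ∃ f : F, f ≠ 0 ∧ 0 ≤ D + divOf f := by
  have h1 := finrank_riemannRochSpace_ge D
  have h2 : 0 < Module.finrank K (riemannRochSpace D) := by
    have : (0 : ℤ) < (Module.finrank K (riemannRochSpace D) : ℤ) := by linarith
    exact_mod_cast this
  have : Nontrivial (riemannRochSpace D) := Module.nontrivial_of_finrank_pos (R := K) h2
  obtain ⟨f, hf⟩ := exists_ne (0 : riemannRochSpace D)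
  have hf0 : (f : F) ≠ 0 := fun h => hf (Subtype.ext h)
  refine ⟨f, hf0, fun v => ?_⟩
  have := (mem_riemannRochSpace_iff.mp f.2 v).resolve_left hf0
  simp only [Finsupp.coe_zero, Pi.zero_apply, Finsupp.coe_add, Pi.add_apply, divOf_apply]
  linarith

/-- bound on effective divisors -/
theorem abs_le_of_effective (e : Divisor K F →+ ℤ) (B : ℤ)
    (hB : ∀ P : Place K F, |e (Finsupp.single P 1)| ≤ B) (D : Divisor K F) (hD : 0 ≤ D) :
    |e D| ≤ Divisor.degree D * B := by
  refine effective_induction (P := fun D => |e D| ≤ Divisor.degree D * B) 0 (by simp) ?_ D hD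
  intro D' v _ ih
  rw [map_add, map_add, degree_single_one, add_mul, one_mul]
  exact (abs_add_le _ _).trans (add_le_add ih (hB v))

/-- **Rigidity.** -/
theorem int_rigid (e : Divisor K F →+ ℤ) (he : ∀ f : F, f ≠ 0 → e (divOf f) = 0) (B : ℤ)
    (hB : ∀ P : Place K F, |e (Finsupp.single P 1)| ≤ B) (P P' : Place K F) :
    e (Finsupp.single P 1) = e (Finsupp.single P' 1) := by
  by_contra hne
  set x : Divisor K F := Finsupp.single P 1 - Finsupp.single P' 1 with hx
  have hB0 : 0 ≤ B := (abs_nonneg _).trans (hB P)
  have hex : e x ≠ 0 := by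
    rw [hx, map_sub]
    exact sub_ne_zero.mpr hne
  set g : ℤ := (genusFF K F : ℤ) with hg
  have hg0 : 0 ≤ g := Int.natCast_nonneg _
  set m : ℤ := 2 * g * B + 1 with hm
  have hm0 : 0 < m := by positivity
  have hdeg : Divisor.degree (m • x + g • Finsupp.single P' 1) = g := by
    rw [map_add, map_zsmul, map_zsmul, hx, map_sub, degree_single_one, degree_single_one]
    simp
  obtain ⟨f, hf, heff⟩ := exists_effective (m • x + g • Finsupp.single P' 1) (by rw [hdeg])
  have h1 := abs_le_of_effective e B hB _ heff
  rw [map_add, map_add (Divisor.degree), he f hf, add_zero, hdeg, degree_divOf, add_zero, map_add,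
    map_zsmul, map_zsmul, smul_eq_mul, smul_eq_mul] at h1
  have h2 : |m * e x| ≤ 2 * g * B := by
    have h3 : m * e x = (m * e x + g * e (Finsupp.single P' 1)) - g * e (Finsupp.single P' 1) := by
      ring
    rw [h3]
    refine (abs_sub _ _).trans ?_
    have h4 : |g * e (Finsupp.single P' 1)| ≤ g * B := by
      rw [abs_mul, abs_of_nonneg hg0]
      exact mul_le_mul_of_nonneg_left (hB P') hg0
    linarith
  have h5 : (1 : ℤ) ≤ |e x| := Int.one_le_abs hex
  have h6 : m ≤ |m * e x| := by
    rw [abs_mul, abs_of_pos hm0]
    nlinarith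
  linarith

/-- the sum of the coefficients -/
def total {ι : Type*} : (ι →₀ ℤ) →+ ℤ := Finsupp.liftAddHom fun _ => AddMonoidHom.id ℤ

@[simp]
theorem total_single {ι : Type*} (i : ι) (n : ℤ) : total (Finsupp.single i n) = n := by
  simp [total]

theorem total_apply {ι : Type*} (D : ι →₀ ℤ) : total D = ∑ i ∈ D.support, D i := by
  simp [total, Finsupp.liftAddHom_apply, Finsupp.sum]

theorem apply_le_total {ι : Type*} {D : ι →₀ ℤ} (hD : 0 ≤ D) (i : ι) : D i ≤ total D := by
  rw [total_apply]
  by_cases hi : i ∈ D.support
  · exact Finset.single_le_sum (f := fun i => D i) (fun j _ => hD j) hi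
  · rw [Finsupp.notMem_support_iff.mp hi]
    exact Finset.sum_nonneg fun j _ => hD j

theorem eq_zero_of_total_eq_zero {ι : Type*} {D : ι →₀ ℤ} (hD : 0 ≤ D) (h : total D = 0) :
    D = 0 := by
  ext i
  have h1 := apply_le_total hD i
  have h2 : 0 ≤ D i := hD i
  rw [h] at h1
  simpa using le_antisymm h1 h2

theorem total_mapDomain {ι κ : Type*} (r : ι → κ) (D : ι →₀ ℤ) :
    total (Finsupp.mapDomain r D) = total D := by
  induction D using Finsupp.induction with
  | zero => simp
  | single_add i n D _ _ ih =>
    rw [Finsupp.mapDomain_add, map_add, map_add, ih, Finsupp.mapDomain_single, total_single,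
      total_single]

theorem degree_eq_total (D : Divisor K F) : Divisor.degree D = total D := by
  rw [degree_eq_sum, total_apply]
  rfl

/-- **Agreement on principal divisors implies agreement.** -/
theorem eq_of_agree_on_principal {ι : Type*} (a b : Divisor K F →+ (ι →₀ ℤ)) (n : ℤ)
    (hab : ∀ f : F, f ≠ 0 → a (divOf f) = b (divOf f))
    (ha : ∀ P : Place K F, 0 ≤ a (Finsupp.single P 1))
    (hb : ∀ P : Place K F, 0 ≤ b (Finsupp.single P 1))
    (hta : ∀ P : Place K F, total (a (Finsupp.single P 1)) = n)
    (htb : ∀ P : Place K F, total (b (Finsupp.single P 1)) = n)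
    (havoid : ∀ Z : Finset ι, ∃ P : Place K F, ∀ i ∈ Z, b (Finsupp.single P 1) i = 0) :
    a = b := by
  have hconst : ∀ P P' : Place K F, (a - b) (Finsupp.single P 1) = (a - b) (Finsupp.single P' 1) := by
    intro P P'
    ext i
    let e : Divisor K F →+ ℤ := (Finsupp.applyAddHom i).comp (a - b)
    have he : ∀ D, e D = a D i - b D i := fun D => rfl
    have h := int_rigid e (fun f hf => by rw [he, hab f hf, sub_self]) n (fun P => ?_) P P'
    · exact h
    · rw [he, abs_le]
      have h1 := apply_le_total (ha P) i
      have h2 := apply_le_total (hb P) i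
      have h3 : 0 ≤ a (Finsupp.single P 1) i := ha P i
      have h4 : 0 ≤ b (Finsupp.single P 1) i := hb P i
      rw [hta] at h1
      rw [htb] at h2
      constructor <;> linarith
  have hzero : ∀ P₀ : Place K F, (a - b) (Finsupp.single P₀ 1) = 0 := by
    intro P₀
    set E := (a - b) (Finsupp.single P₀ 1) with hE
    obtain ⟨P, hP⟩ := havoid E.support
    have hEP : (a - b) (Finsupp.single P 1) = E := hconst P P₀
    apply eq_zero_of_total_eq_zero
    · intro i
      by_cases hi : i ∈ E.support
      · rw [← hEP, AddMonoidHom.sub_apply, Finsupp.sub_apply, hP i hi, sub_zero]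
        exact ha P i
      · rw [Finsupp.notMem_support_iff.mp hi]
        exact le_rfl
    · rw [hE, AddMonoidHom.sub_apply, map_sub, hta, htb, sub_self]
  ext P i
  have h := hzero P
  rw [AddMonoidHom.sub_apply, sub_eq_zero] at h
  simp only [AddMonoidHom.coe_comp, Function.comp_apply, Finsupp.singleAddHom_apply]
  rw [h]

end Fermat.Agent.JRED.ES
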