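import Fermat.Agent.JRED.Interface
import Fermat.Agent.JRED.ESRigid

/-!
# Place maps commute with Galois and Hecke operators

`C : ConstRed A π F F'` a constant reduction, `r` a place map of `C`. Using the rigidity of
`ESRigid.lean` we show that `r_*` commutes with semilinear automorphisms compatible with `C`, and
the divisor form of the Eichler-Shimura relation `r_* T_ℓ = φ r_* + ℓ φ⁻¹ r_*`.
-/

set_option autoImplicit false

noncomputable section

open AlgebraicCurve

namespace Fermat.Agent.JRED.ES

open Fermat.Agent.RR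

section Basic

variable {K F : Type*} [Field K] [Field F] [Algebra K F]

theorem divOf_algebraMap_mul [HasPrincipalDivisors K F] {c : K} (hc : c ≠ 0) (f : F) :
    divOf (K := K) (algebraMap K F c * f) = divOf f := by
  ext v
  rw [divOf_apply, divOf_apply, ← Algebra.smul_def, ord_smul v hc]

theorem divOf_pow [HasPrincipalDivisors K F] (f : F) (n : ℕ) :
    divOf (K := K) (f ^ n) = n • divOf f := by
  ext v
  rw [divOf_apply, ord_pow, Finsupp.smul_apply, divOf_apply, nsmul_eq_mul]

theorem divOf_smul [HasPrincipalDivisors K F] (g : SemilinearAut K F) (f : F) :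
    divOf (K := K) (g • f) = g • divOf (K := K) f := by
  ext v
  rw [divOf_apply, SemilinearAut.divisor_smul_apply, divOf_apply]
  have h := SemilinearAut.ord_smul g (g⁻¹ • v) f
  rw [smul_inv_smul] at h
  exact h

theorem exists_zero_of_transcendental [IsAlgClosed K] [FunctionField K F] {y : F}
    (hy : Transcendental K y) (c : K) : ∃ Q : Place K F, 0 < Q.ord (y - algebraMap K F c) := by
  by_contra hcon
  push Not at hcon
  have hne : y - algebraMap K F c ≠ 0 := fun h =>
    hy (by rw [sub_eq_zero.mp h]; exact isAlgebraic_algebraMap c)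
  have hmem : (y - algebraMap K F c)⁻¹ ∈ riemannRochSpace (0 : Divisor K F) := by
    rw [mem_riemannRochSpace_iff]
    intro v
    right
    rw [v.ord_inv]
    simpa using hcon v
  rw [riemannRochSpace_zero, Submodule.mem_span_singleton] at hmem
  obtain ⟨a, ha⟩ := hmem
  apply hy
  have h1 : y = algebraMap K F (c + a⁻¹) := by
    have h2 : y - algebraMap K F c = algebraMap K F a⁻¹ := by
      rw [map_inv₀, ← inv_inv (y - algebraMap K F c), ← ha, Algebra.smul_def, mul_one]
    rw [map_add, ← h2]
    ring
  rw [h1]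
  exact isAlgebraic_algebraMap _

end Basic

section Red

variable {K k : Type*} [Field K] [Field k] {A : ValuationSubring K} {π : A →+* k}
  {F F' : Type*} [Field F] [Field F'] [Algebra K F] [Algebra k F']
  (C : ConstRed A π F F') {r : Place K F → Place k F'}

theorem exists_normalized (f : F) (hf : f ≠ 0) :
    ∃ c : K, c ≠ 0 ∧ ∃ h : C.O, C.res h ≠ 0 ∧ (h : F) = algebraMap K F c * f := by
  obtain ⟨c, hc, h, hres⟩ := C.exists_unit f hf
  exact ⟨c, hc, ⟨_, h⟩, hres, rfl⟩

variable {C}

theorem mapDomain_divOf [HasPrincipalDivisors K F] [HasPrincipalDivisors k F']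
    (hr : C.IsPlaceMap r) (h : C.O) (h0 : C.res h ≠ 0) :
    Finsupp.mapDomain r (divOf (K := K) (h : F)) = divOf (K := k) (C.res h) := by
  ext Q
  rw [hr h h0 (divOf (h : F)) (fun P => divOf_apply _ P) Q, divOf_apply]

theorem exists_not_mem [IsAlgClosed k] [FunctionField k F'] [HasPrincipalDivisors K F]
    (hr : C.IsPlaceMap r) (Z : Finset (Place k F')) : ∃ P : Place K F, r P ∉ Z := by
  by_contra hcon
  push Not at hcon
  obtain ⟨y, hy, -⟩ := FunctionField.exists_finite (K := k) (F := F')
  choose Q hQ using exists_zero_of_transcendental hy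
  have hmem : ∀ c, Q c ∈ Z := by
    intro c
    obtain ⟨h, hh⟩ := C.res_surjective (y - algebraMap k F' c)
    have hne : C.res h ≠ 0 := by
      rw [hh]
      intro h0
      have := hQ c
      rw [h0, Place.ord_zero] at this
      exact lt_irrefl _ this
    have h1 : Finsupp.mapDomain r (divOf (K := K) (h : F)) (Q c) ≠ 0 := by
      rw [mapDomain_divOf hr h hne, divOf_apply, hh]
      exact (hQ c).ne'
    have h2 : Q c ∈ (Finsupp.mapDomain r (divOf (K := K) (h : F))).support :=
      Finsupp.mem_support_iff.mpr h1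
    classical
    obtain ⟨P, -, hP⟩ := Finset.mem_image.mp (Finsupp.mapDomain_support h2)
    rw [← hP]
    exact hcon P
  have hinj : Function.Injective Q := by
    intro c d hcd
    by_contra hne
    have h1 := hQ c
    have h2 := hQ d
    rw [← hcd] at h2
    have h3 : (y - algebraMap k F' d) - (y - algebraMap k F' c) = algebraMap k F' (c - d) := by
      rw [map_sub]; ring
    have h4 : (y - algebraMap k F' d) - (y - algebraMap k F' c) ≠ 0 := by
      rw [h3]
      exact (map_ne_zero _).mpr (sub_ne_zero.mpr hne)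
    have h5 := ord_sub (Q c) h4
    rw [h3, ord_algebraMap] at h5
    have h6 := lt_min h2 h1
    rcases min_le_iff.mp h5 with h | h <;> linarith
  have : Infinite k := IsAlgClosed.instInfinite
  exact Set.infinite_univ (α := k)
    ((Finset.finite_toSet Z).preimage hinj.injOn |>.subset fun c _ => hmem c)

/-- **Galois equivariance of the place map.** -/
theorem mapDomain_smul [IsAlgClosed K] [FunctionField K F] [IsAlgClosed k] [FunctionField k F']
    (hr : C.IsPlaceMap r) (g : SemilinearAut K F) (g' : SemilinearAut k F')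
    (hg : ∀ h : C.O, ∃ hm : g • (h : F) ∈ C.O, C.res ⟨g • (h : F), hm⟩ = g' • C.res h)
    (D : Divisor K F) :
    Finsupp.mapDomain r (g • D) = g' • Finsupp.mapDomain r D := by
  let a : Divisor K F →+ Divisor k F' :=
    (Finsupp.mapDomain.addMonoidHom r).comp (DistribSMul.toAddMonoidHom (Divisor K F) g)
  let b : Divisor K F →+ Divisor k F' :=
    (DistribSMul.toAddMonoidHom (Divisor k F') g').comp (Finsupp.mapDomain.addMonoidHom r)
  have ha : ∀ D, a D = Finsupp.mapDomain r (g • D) := fun _ => rfl
  have hb : ∀ D, b D = g' • Finsupp.mapDomain r D := fun _ => rfl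
  have ha1 : ∀ P, a (Finsupp.single P 1) = Finsupp.single (r (g • P)) 1 := by
    intro P
    rw [ha, SemilinearAut.smul_single, Finsupp.mapDomain_single]
  have hb1 : ∀ P, b (Finsupp.single P 1) = Finsupp.single (g' • r P) 1 := by
    intro P
    rw [hb, Finsupp.mapDomain_single, SemilinearAut.smul_single]
  have key : a = b := by
    apply eq_of_agree_on_principal a b 1
    · intro f hf
      obtain ⟨c, hc, h, hres, hcf⟩ := exists_normalized C f hf
      have h1 : divOf (K := K) f = divOf (h : F) := by
        rw [hcf, divOf_algebraMap_mul hc]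
      obtain ⟨hm, hgm⟩ := hg h
      rw [ha, hb, h1, mapDomain_divOf hr h hres, ← divOf_smul, ← divOf_smul, ← hgm]
      refine mapDomain_divOf hr ⟨g • (h : F), hm⟩ ?_
      rw [hgm]
      exact (smul_ne_zero_iff_ne g').mpr hres
    · intro P
      rw [ha1]
      exact Finsupp.single_nonneg.mpr zero_le_one
    · intro P
      rw [hb1]
      exact Finsupp.single_nonneg.mpr zero_le_one
    · intro P
      rw [ha1, total_single]
    · intro P
      rw [hb1, total_single]
    · intro Z
      classical
      obtain ⟨P, hP⟩ := exists_not_mem hr (Z.image (g'⁻¹ • ·))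
      refine ⟨P, fun i hi => ?_⟩
      rw [hb1, Finsupp.single_apply, if_neg]
      rintro rfl
      exact hP (Finset.mem_image.mpr ⟨_, hi, by rw [inv_smul_smul]⟩)
  rw [← ha, key, hb]

/-- **The Eichler-Shimura relation on divisors.** -/
theorem mapDomain_hecke [IsAlgClosed K] [FunctionField K F] [IsAlgClosed k] [FunctionField k F']
    (hr : C.IsPlaceMap r) (T : Divisor K F →+ Divisor K F) (N : F → F) (ℓ : ℕ)
    (φ : SemilinearAut k F')
    (hTN : ∀ f : F, f ≠ 0 → T (divOf f) = divOf (N f))
    (hT0 : ∀ P : Place K F, 0 ≤ T (Finsupp.single P 1))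
    (hTdeg : ∀ P : Place K F, Divisor.degree (T (Finsupp.single P 1)) = ℓ + 1)
    (hN : ∀ h : C.O, C.res h ≠ 0 → ∃ hm : N (h : F) ∈ C.O,
      C.res ⟨N (h : F), hm⟩ = (φ • C.res h) * (φ⁻¹ • C.res h) ^ ℓ)
    (D : Divisor K F) :
    Finsupp.mapDomain r (T D) =
      φ • Finsupp.mapDomain r D + ℓ • (φ⁻¹ • Finsupp.mapDomain r D) := by
  let a : Divisor K F →+ Divisor k F' := (Finsupp.mapDomain.addMonoidHom r).comp T
  let b : Divisor K F →+ Divisor k F' :=
    (DistribSMul.toAddMonoidHom (Divisor k F') φ).comp (Finsupp.mapDomain.addMonoidHom r) +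
      ℓ • (DistribSMul.toAddMonoidHom (Divisor k F') φ⁻¹).comp (Finsupp.mapDomain.addMonoidHom r)
  have ha : ∀ D, a D = Finsupp.mapDomain r (T D) := fun _ => rfl
  have hb : ∀ D, b D = φ • Finsupp.mapDomain r D + ℓ • (φ⁻¹ • Finsupp.mapDomain r D) :=
    fun _ => rfl
  have hb1 : ∀ P, b (Finsupp.single P 1) =
      Finsupp.single (φ • r P) 1 + ℓ • Finsupp.single (φ⁻¹ • r P) 1 := by
    intro P
    rw [hb, Finsupp.mapDomain_single, SemilinearAut.smul_single, SemilinearAut.smul_single]
  have key : a = b := by
    apply eq_of_agree_on_principal a b (ℓ + 1)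
    · intro f hf
      obtain ⟨c, hc, h, hres, hcf⟩ := exists_normalized C f hf
      have h1 : divOf (K := K) f = divOf (h : F) := by
        rw [hcf, divOf_algebraMap_mul hc]
      have hh0 : (h : F) ≠ 0 := by
        rw [hcf]
        exact mul_ne_zero (by simpa using hc) hf
      obtain ⟨hm, hgm⟩ := hN h hres
      have hφ1 : φ • C.res h ≠ 0 := (smul_ne_zero_iff_ne φ).mpr hres
      have hφ2 : (φ⁻¹ • C.res h) ^ ℓ ≠ 0 := pow_ne_zero _ ((smul_ne_zero_iff_ne φ⁻¹).mpr hres)
      rw [ha, hb, h1, hTN _ hh0, mapDomain_divOf hr h hres, ← divOf_smul, ← divOf_smul,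
        ← divOf_pow, ← divOf_mul hφ1 hφ2, ← hgm]
      refine mapDomain_divOf hr ⟨N (h : F), hm⟩ ?_
      rw [hgm]
      exact mul_ne_zero hφ1 hφ2
    · intro P Q
      rw [ha]
      have h0 : ∀ D : Divisor K F, 0 ≤ D → 0 ≤ Finsupp.mapDomain r D := by
        intro D hD
        rw [Finsupp.mapDomain, Finsupp.sum]
        exact Finset.sum_nonneg fun P _ => Finsupp.single_nonneg.mpr (hD P)
      exact h0 _ (hT0 P) Q
    · intro P
      rw [hb1]
      exact add_nonneg (Finsupp.single_nonneg.mpr zero_le_one)
        (nsmul_nonneg (Finsupp.single_nonneg.mpr zero_le_one) _)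
    · intro P
      rw [ha, total_mapDomain, ← degree_eq_total, hTdeg]
    · intro P
      rw [hb1, map_add, map_nsmul, total_single, total_single, nsmul_eq_mul, mul_one, add_comm]
    · intro Z
      classical
      obtain ⟨P, hP⟩ := exists_not_mem hr (Z.image (φ⁻¹ • ·) ∪ Z.image (φ • ·))
      refine ⟨P, fun i hi => ?_⟩
      rw [Finset.mem_union, not_or] at hP
      rw [hb1, Finsupp.add_apply, Finsupp.smul_apply, Finsupp.single_apply, Finsupp.single_apply,
        if_neg, if_neg]
      · simp
      · rintro rfl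
        exact hP.2 (Finset.mem_image.mpr ⟨_, hi, by rw [smul_inv_smul]⟩)
      · rintro rfl
        exact hP.1 (Finset.mem_image.mpr ⟨_, hi, by rw [inv_smul_smul]⟩)
  rw [← ha, key, hb]

end Red

end Fermat.Agent.JRED.ES
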