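import Mathlib

/-!
# Traces of "almost integral" elements

`R` a principal ideal domain with fraction field `K`, `F/K` finite separable.  If `z ∈ F` and
`c ∈ R` are such that `c * z ^ m` is integral over `R` and no prime `t` satisfies `t ^ m ∣ c`, then
`Tr_{F/K} z` lies in `R`.
-/

set_option autoImplicit false

noncomputable section

open Polynomial

namespace Fermat.Agent.JRED.TraceIntegral

variable {R K F : Type*} [CommRing R] [IsDomain R] [Field K] [Algebra R K] [IsFractionRing R K]
  [Field F] [Algebra K F] [Algebra R F] [IsScalarTower R K F]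

/-- If `w` is integral, and `w ^ m` is `t` times an integral element, then `t ∣ Tr w`, for a prime
`t`. -/
theorem prime_dvd_trace [IsIntegrallyClosed R] [FiniteDimensional K F] [Algebra.IsSeparable K F]
    {t : R} (ht : Prime t) {w b : F} {m : ℕ} (hw : IsIntegral R w) (hb : IsIntegral R b)
    (h : w ^ m = algebraMap R F t * b) :
    ∃ r : R, Algebra.trace K F w = algebraMap R K (t * r) := by
  classical
  -- the trace is in `R`
  obtain ⟨s, hs⟩ : ∃ s : R, algebraMap R K s = Algebra.trace K F w :=
    IsIntegrallyClosed.isIntegral_iff.mp (Algebra.isIntegral_trace (L := K) hw)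
  obtain ⟨E, instE, instAlg, instRE, instTower, instClosed⟩ :
      ∃ (E : Type _) (_ : Field E) (_ : Algebra K E) (_ : Algebra R E) (_ : IsScalarTower R K E),
        IsAlgClosed E :=
    ⟨AlgebraicClosure K, inferInstance, inferInstance, inferInstance, inferInstance, inferInstance⟩
  have htr : algebraMap K E (Algebra.trace K F w) = ∑ σ : F →ₐ[K] E, σ w :=
    trace_eq_sum_embeddings E
  have hint : ∀ (σ : F →ₐ[K] E) (x : F), IsIntegral R x → IsIntegral R (σ x) := by
    intro σ x hx
    exact hx.map (σ.restrictScalars R)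
  -- the ideal generated by `t` in the integral closure
  let B := integralClosure R E
  let T : B := algebraMap R B t
  let W : (F →ₐ[K] E) → B := fun σ => ⟨σ w, hint σ w hw⟩
  have hW : ∀ σ, W σ ^ m ∈ Ideal.span {T} := by
    intro σ
    rw [Ideal.mem_span_singleton]
    refine ⟨⟨σ b, hint σ b hb⟩, Subtype.ext ?_⟩
    show (σ w) ^ m = algebraMap R E t * σ b
    rw [← map_pow, h, map_mul]
    congr 1
    rw [IsScalarTower.algebraMap_apply R K F, AlgHom.commutes, ← IsScalarTower.algebraMap_apply R K E]
  have hsum : (∑ σ, W σ) ∈ (Ideal.span {T}).radical :=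
    Ideal.sum_mem _ fun σ _ => ⟨m, hW σ⟩
  obtain ⟨n, hn⟩ := hsum
  have hs' : algebraMap R B s = ∑ σ, W σ := by
    apply Subtype.ext
    rw [AddSubmonoidClass.coe_finsetSum]
    show algebraMap R E s = ∑ σ : F →ₐ[K] E, σ w
    rw [IsScalarTower.algebraMap_apply R K E, hs, htr]
  rw [← hs', ← map_pow, Ideal.mem_span_singleton] at hn
  obtain ⟨⟨c, hc⟩, hc'⟩ := hn
  have hc'' : algebraMap R E (s ^ n) = algebraMap R E t * c := congrArg Subtype.val hc'
  have htK : algebraMap R K t ≠ 0 := by
    rw [Ne, FaithfulSMul.algebraMap_eq_zero_iff]; exact ht.ne_zero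
  have htE : algebraMap R E t ≠ 0 := by
    rw [IsScalarTower.algebraMap_apply R K E, Ne, map_eq_zero]; exact htK
  have hcK : c = algebraMap K E (algebraMap R K (s ^ n) / algebraMap R K t) := by
    rw [map_div₀, ← IsScalarTower.algebraMap_apply R K E, ← IsScalarTower.algebraMap_apply R K E,
      hc'']
    field_simp
  have hint2 : IsIntegral R (algebraMap R K (s ^ n) / algebraMap R K t) := by
    rw [hcK] at hc
    exact (isIntegral_algebraMap_iff (algebraMap K E).injective).mp hc
  obtain ⟨u, hu⟩ := IsIntegrallyClosed.isIntegral_iff.mp hint2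
  have hdvd : t ∣ s ^ n := by
    refine ⟨u, ?_⟩
    apply IsFractionRing.injective R K
    rw [map_mul, hu]
    field_simp
  obtain ⟨r, rfl⟩ := ht.dvd_of_dvd_pow hdvd
  exact ⟨r, hs.symm⟩

/-- An element of `K` whose "denominator ideal" is contained in no `(t)`, `t` prime, lies in `R`. -/
theorem mem_of_forall_prime [IsPrincipalIdealRing R] {x : K}
    (h : ∀ t : R, Prime t → ∃ c r : R, ¬ t ∣ c ∧ algebraMap R K c * x = algebraMap R K r) :
    ∃ r : R, x = algebraMap R K r := by
  let I : Ideal R :=
    { carrier := {c | ∃ r : R, algebraMap R K c * x = algebraMap R K r}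
      zero_mem' := ⟨0, by simp⟩
      add_mem' := by
        rintro a b ⟨r, hr⟩ ⟨s, hs⟩
        exact ⟨r + s, by rw [map_add, add_mul, hr, hs, map_add]⟩
      smul_mem' := by
        rintro a b ⟨r, hr⟩
        exact ⟨a * r, by rw [smul_eq_mul, map_mul, mul_assoc, hr, map_mul]⟩ }
  obtain ⟨g, hg⟩ := (IsPrincipalIdealRing.principal I).principal
  have hgI : g ∈ I := by rw [hg]; exact Submodule.mem_span_singleton_self g
  by_cases hu : IsUnit g
  · have h1 : (1 : R) ∈ I := by
      rw [(Ideal.eq_top_of_isUnit_mem I hgI hu)]; trivial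
    obtain ⟨r, hr⟩ := h1
    exact ⟨r, by rw [← hr, map_one, one_mul]⟩
  · exfalso
    have hI0 : g ≠ 0 := by
      rintro rfl
      obtain ⟨a, b, hb, hx⟩ := IsFractionRing.div_surjective (A := R) x
      have hb0 : b ≠ 0 := nonZeroDivisors.ne_zero hb
      have hbI : b ∈ I := by
        refine ⟨a, ?_⟩
        rw [← hx]
        have : algebraMap R K b ≠ 0 := by
          rw [Ne, FaithfulSMul.algebraMap_eq_zero_iff]; exact hb0
        field_simp
      rw [hg] at hbI
      obtain ⟨y, hy⟩ := Submodule.mem_span_singleton.mp hbI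
      exact hb0 (by rw [← hy, smul_zero])
    obtain ⟨t, ht, htg⟩ := WfDvdMonoid.exists_irreducible_factor hu hI0
    obtain ⟨c, r, hc, hcr⟩ := h t ht.prime
    have hcI : c ∈ I := ⟨r, hcr⟩
    rw [hg] at hcI
    obtain ⟨y, hy⟩ := Submodule.mem_span_singleton.mp hcI
    exact hc (htg.trans ⟨y, by rw [← hy, smul_eq_mul, mul_comm]⟩)

/-- **Trace lemma**: if `c * z ^ m` is integral over the principal ideal domain `R` and `c` is not
divisible by `t ^ m` for any prime `t`, then the trace of `z` lies in `R`. -/
theorem trace_mem [IsPrincipalIdealRing R] [FiniteDimensional K F] [Algebra.IsSeparable K F]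
    {z : F} {c : R} {m : ℕ} (hm : m ≠ 0) (hz : IsIntegral R (algebraMap R F c * z ^ m))
    (hc : ∀ t : R, Prime t → ¬ t ^ m ∣ c) :
    ∃ r : R, Algebra.trace K F z = algebraMap R K r := by
  apply mem_of_forall_prime
  intro t ht
  -- write `c = t ^ s * c'`
  have hfin : FiniteMultiplicity t c := by
    by_contra hinf
    exact hc t ht (FiniteMultiplicity.not_iff_forall.mp hinf m)
  obtain ⟨c', hc', htc'⟩ := hfin.exists_eq_pow_mul_and_not_dvd
  set s := multiplicity t c with hs
  have hsm : s < m := by
    by_contra hsm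
    push Not at hsm
    exact hc t ht ((pow_dvd_pow t hsm).trans ⟨c', hc'⟩)
  have hpow : (algebraMap R F (t * c') * z) ^ m =
      algebraMap R F t * (algebraMap R F (t ^ (m - s - 1) * c' ^ (m - 1)) *
        (algebraMap R F c * z ^ m)) := by
    rw [mul_pow, ← map_pow, ← mul_assoc, ← mul_assoc, ← map_mul, ← map_mul]
    congr 2
    rw [mul_pow]
    conv_rhs => rw [hc']
    have h1 : m = 1 + (m - s - 1) + s := by omega
    have h2 : m = (m - 1) + 1 := by omega
    calc t ^ m * c' ^ m = t ^ (1 + (m - s - 1) + s) * c' ^ ((m - 1) + 1) := by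
          rw [← h1, ← h2]
      _ = _ := by ring
  have hbint : IsIntegral R (algebraMap R F (t ^ (m - s - 1) * c' ^ (m - 1)) *
        (algebraMap R F c * z ^ m)) := isIntegral_algebraMap.mul hz
  have hwint : IsIntegral R (algebraMap R F (t * c') * z) := by
    refine IsIntegral.of_pow (Nat.pos_of_ne_zero hm) ?_
    rw [hpow]
    exact isIntegral_algebraMap.mul hbint
  obtain ⟨r, hr⟩ := prime_dvd_trace (K := K) ht hwint hbint hpow
  refine ⟨c', r, htc', ?_⟩
  have h3 : Algebra.trace K F (algebraMap R F (t * c') * z) =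
      algebraMap R K (t * c') * Algebra.trace K F z := by
    rw [IsScalarTower.algebraMap_apply R K F, ← Algebra.smul_def, map_smul, smul_eq_mul]
  rw [h3, map_mul, map_mul, mul_assoc] at hr
  have htK : algebraMap R K t ≠ 0 := by
    rw [Ne, FaithfulSMul.algebraMap_eq_zero_iff]; exact ht.ne_zero
  exact mul_left_cancel₀ htK hr

end Fermat.Agent.JRED.TraceIntegral
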