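import Mathlib
import Fermat.Agent.JRED.TraceIntegral

/-!
# A lower bound for the genus by "regular differentials", in arbitrary characteristic

Let `F` be a finite separable extension of `K = k(x)`, `k` algebraically closed.  Let `W ⊆ F` be a
finite dimensional `k`-space of elements `y` such that the differential `y dx` is "regular at all
finite places" in the weak sense that `c * y ^ m` is integral over `k[x]` for some `m`-th power free
`c`, and "regular at infinity" in a similar sense.  Then
`dim {h | h integral over k[x], h / x ^ n integral over k[1/x]} + dim W ≤ n [F : K] + 1`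
for all large `n`.
-/

set_option autoImplicit false
set_option linter.unusedSectionVars false

noncomputable section

open Polynomial Module

namespace Fermat.Agent.JRED.GenusBound

/-- A residue functional on `K`, relative to the "finite" ring `R₀` and the "infinite" ring `R₁`
with parameter `T`. -/
structure Resid (k : Type*) {K : Type*} [Field k] [Field K] [Algebra k K] (R₀ : Type*) {R₁ : Type*}
    [CommRing R₀] [CommRing R₁] [Algebra R₀ K] [Algebra R₁ K] (T : R₁) where
  res : K →ₗ[k] k
  res_R₀ : ∀ r : R₀, res (algebraMap R₀ K r) = 0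
  res_T : res (algebraMap R₁ K T) = 1
  res_sq : ∀ r u : R₁, ¬ T ∣ u → res (algebraMap R₁ K (T ^ 2 * r) / algebraMap R₁ K u) = 0

section Abstract

variable {k K F R₀ R₁ : Type*} [Field k] [Field K] [Field F] [Algebra k K] [Algebra k F]
  [Algebra K F] [IsScalarTower k K F] [FiniteDimensional K F] [Algebra.IsSeparable K F]
  [CommRing R₀] [IsDomain R₀] [IsPrincipalIdealRing R₀] [Algebra R₀ K] [IsFractionRing R₀ K]
  [Algebra R₀ F] [IsScalarTower R₀ K F] [Algebra k R₀] [IsScalarTower k R₀ F]
  [CommRing R₁] [IsDomain R₁] [IsPrincipalIdealRing R₁] [Algebra R₁ K] [IsFractionRing R₁ K]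
  [Algebra R₁ F] [IsScalarTower R₁ K F] [Algebra k R₁] [IsScalarTower k R₁ F]
  [IsScalarTower k R₁ K]

variable (k R₁ F) in
/-- elements of `F` integral over `R₁`, as a `k`-subspace. -/
def intSpace : Submodule k F where
  carrier := {h | IsIntegral R₁ h}
  zero_mem' := isIntegral_zero
  add_mem' := fun ha hb => ha.add hb
  smul_mem' := fun c x hx => by
    have : c • x = algebraMap R₁ F (algebraMap k R₁ c) * x := by
      rw [← IsScalarTower.algebraMap_apply k R₁ F, Algebra.smul_def]
    show IsIntegral R₁ (c • x)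
    rw [this]
    exact isIntegral_algebraMap.mul hx

variable (k F) in
/-- elements `h` of `F` with `T ^ n * h` integral over `R₁`, as a `k`-subspace. -/
def poleSpace (T : R₁) (n : ℕ) : Submodule k F where
  carrier := {h | IsIntegral R₁ (algebraMap R₁ F (T ^ n) * h)}
  zero_mem' := by
    show IsIntegral R₁ (algebraMap R₁ F (T ^ n) * 0)
    rw [mul_zero]; exact isIntegral_zero
  add_mem' := fun {a b} ha hb => by
    show IsIntegral R₁ (algebraMap R₁ F (T ^ n) * (a + b))
    rw [mul_add]; exact IsIntegral.add ha hb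
  smul_mem' := fun c x hx => by
    show IsIntegral R₁ (algebraMap R₁ F (T ^ n) * (c • x))
    have : algebraMap R₁ F (T ^ n) * (c • x) =
        algebraMap R₁ F (algebraMap k R₁ c) * (algebraMap R₁ F (T ^ n) * x) := by
      rw [← IsScalarTower.algebraMap_apply k R₁ F, Algebra.smul_def]
      ring
    rw [this]
    exact isIntegral_algebraMap.mul hx

omit [FiniteDimensional K F] [Algebra.IsSeparable K F] [IsDomain R₁] [IsPrincipalIdealRing R₁]
  [IsFractionRing R₁ K] [Algebra k K] [IsScalarTower k K F] [Algebra K F] [Field K]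
  [Algebra R₁ K] [IsScalarTower R₁ K F] [IsScalarTower k R₁ K] in
theorem mem_intSpace {h : F} : h ∈ intSpace k F R₁ ↔ IsIntegral R₁ h := Iff.rfl

theorem mem_poleSpace {T : R₁} {n : ℕ} {h : F} :
    h ∈ poleSpace k F T n ↔ IsIntegral R₁ (algebraMap R₁ F (T ^ n) * h) := Iff.rfl

theorem intSpace_le_poleSpace (T : R₁) (n : ℕ) : intSpace k F R₁ ≤ poleSpace k F T n :=
  fun _ h => isIntegral_algebraMap.mul h

theorem poleSpace_mono (T : R₁) {m n : ℕ} (hmn : m ≤ n) :
    poleSpace k F T m ≤ poleSpace k F T n := by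
  intro h hh
  rw [mem_poleSpace] at hh ⊢
  obtain ⟨c, rfl⟩ := Nat.exists_eq_add_of_le' hmn
  rw [pow_add, map_mul, mul_assoc]
  exact isIntegral_algebraMap.mul hh

variable (k F) in
/-- the quotient of pole spaces is spanned by `n * [F : K]` elements. -/
theorem exists_span (T : R₁) (hT : T ≠ 0) (hres : ∀ r : R₁, ∃ c : k, T ∣ r - algebraMap k R₁ c)
    (n : ℕ) : ∃ v : Fin n × Fin (finrank K F) → F,
      poleSpace k F T n ≤ Submodule.span k (Set.range v) ⊔ intSpace k F R₁ := by
  have hfaith : FaithfulSMul R₁ F := by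
    rw [faithfulSMul_iff_algebraMap_injective, IsScalarTower.algebraMap_eq R₁ K F]
    exact (algebraMap K F).injective.comp (IsFractionRing.injective R₁ K)
  have htf : Module.IsTorsionFree R₁ F := inferInstance
  have hfree : Module.Free R₁ (integralClosure R₁ F) :=
    IsIntegralClosure.module_free R₁ K F (integralClosure R₁ F)
  have hfin : Module.Finite R₁ (integralClosure R₁ F) :=
    IsIntegralClosure.finite R₁ K F (integralClosure R₁ F)
  have hrank : finrank R₁ (integralClosure R₁ F) = finrank K F :=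
    IsIntegralClosure.rank R₁ K F (integralClosure R₁ F)
  let b : Basis (Fin (finrank K F)) R₁ (integralClosure R₁ F) :=
    (Module.finBasis R₁ (integralClosure R₁ F)).reindex (finCongr hrank)
  have hT0 : algebraMap R₁ F T ≠ 0 := by
    rw [Ne, FaithfulSMul.algebraMap_eq_zero_iff]; exact hT
  -- expansion of elements of `R₁` modulo `T ^ n`
  have hexp : ∀ (n : ℕ) (r : R₁), ∃ (c : Fin n → k) (r' : R₁),
      r = ∑ i, algebraMap k R₁ (c i) * T ^ (i : ℕ) + T ^ n * r' := by
    intro n
    induction n with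
    | zero => intro r; exact ⟨fun _ => 0, r, by simp⟩
    | succ n ih =>
      intro r
      obtain ⟨c, r', hr⟩ := ih r
      obtain ⟨c', r'', hr'⟩ := hres r'
      refine ⟨Fin.snoc c c', r'', ?_⟩
      rw [Fin.sum_univ_castSucc]
      simp only [Fin.snoc_castSucc, Fin.val_castSucc, Fin.snoc_last, Fin.val_last]
      rw [sub_eq_iff_eq_add] at hr'
      rw [hr, hr']
      ring
  refine ⟨fun ij => ((b ij.2 : integralClosure R₁ F) : F) / algebraMap R₁ F T ^ (n - (ij.1 : ℕ)), ?_⟩
  intro h hh
  rw [mem_poleSpace] at hh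
  let h' : integralClosure R₁ F := ⟨_, hh⟩
  have hrepr := b.sum_repr h'
  choose c r' hc using fun j => hexp n (b.repr h' j)
  have hh' : algebraMap R₁ F (T ^ n) * h = ∑ j, algebraMap R₁ F (b.repr h' j) * (b j : F) := by
    have := congrArg (Subtype.val) hrepr
    rw [AddSubmonoidClass.coe_finsetSum] at this
    rw [show algebraMap R₁ F (T ^ n) * h = (h' : F) from rfl, ← this]
    refine Finset.sum_congr rfl fun j _ => ?_
    rw [Subalgebra.coe_smul, Algebra.smul_def]
  have hTn : algebraMap R₁ F T ^ n ≠ 0 := pow_ne_zero _ hT0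
  have key : h = ∑ j, ∑ i, c j i • ((b j : F) / algebraMap R₁ F T ^ (n - (i : ℕ))) +
      ∑ j, algebraMap R₁ F (r' j) * (b j : F) := by
    rw [← mul_right_inj' hTn, ← map_pow, hh', mul_add, Finset.mul_sum, Finset.mul_sum,
      ← Finset.sum_add_distrib]
    refine Finset.sum_congr rfl fun j _ => ?_
    rw [hc j, map_add, map_sum, add_mul, Finset.sum_mul, Finset.mul_sum]
    congr 1
    · refine Finset.sum_congr rfl fun i _ => ?_
      rw [Algebra.smul_def, map_mul, ← IsScalarTower.algebraMap_apply k R₁ F, map_pow, map_pow]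
      have : algebraMap R₁ F T ^ n = algebraMap R₁ F T ^ (n - (i : ℕ)) * algebraMap R₁ F T ^ (i : ℕ) := by
        rw [← pow_add]; congr 1; omega
      rw [this]
      field_simp
    · rw [map_mul]; ring
  rw [key]
  refine Submodule.add_mem_sup (Submodule.sum_mem _ fun j _ => Submodule.sum_mem _ fun i _ =>
    Submodule.smul_mem _ _ (Submodule.subset_span ⟨(i, j), rfl⟩)) ?_
  refine Submodule.sum_mem _ fun j _ => ?_
  rw [mem_intSpace]
  exact isIntegral_algebraMap.mul (b j).2

variable {T : R₁}

/-- the pairing `(h, y) ↦ res (Tr (h y))`, linear in `h` -/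
def pairing (δ : Resid k (K := K) R₀ T) (y : F) : F →ₗ[k] k :=
  δ.res ∘ₗ ((Algebra.trace K F).restrictScalars k) ∘ₗ (LinearMap.mulRight k y)

theorem pairing_apply (δ : Resid k (K := K) R₀ T) (y h : F) :
    pairing δ y h = δ.res (Algebra.trace K F (h * y)) := rfl

/-- "regular at finite places" in the weak sense -/
def RegFin (R₀ : Type*) {F : Type*} [CommRing R₀] [Field F] [Algebra R₀ F] (y : F) : Prop :=
  ∃ (m : ℕ) (c : R₀), m ≠ 0 ∧ IsIntegral R₀ (algebraMap R₀ F c * y ^ m) ∧
    ∀ t : R₀, Prime t → ¬ t ^ m ∣ c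

/-- "regular at the infinite places" in the weak sense -/
def RegInf {R₁ : Type*} {F : Type*} [CommRing R₁] [Field F] [Algebra R₁ F] (T : R₁) (y : F) :
    Prop :=
  ∃ (m : ℕ) (u : R₁) (b : F), m ≠ 0 ∧ ¬ T ∣ u ∧ IsIntegral R₁ b ∧
    algebraMap R₁ F u * y ^ m = algebraMap R₁ F (T ^ (m + 1)) * b

theorem pairing_eq_zero_of_regFin (δ : Resid k (K := K) R₀ T) {y : F} (hy : RegFin R₀ y) {h : F}
    (hh : IsIntegral R₀ h) : pairing δ y h = 0 := by
  obtain ⟨m, c, hm, hint, hc⟩ := hy
  obtain ⟨r, hr⟩ := TraceIntegral.trace_mem (K := K) (z := h * y) (c := c) hm (by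
    rw [mul_pow, mul_left_comm]
    exact (hh.pow m).mul hint) hc
  rw [pairing_apply, hr, δ.res_R₀]

theorem pairing_eq_zero_of_regInf (hT : Prime T) (δ : Resid k (K := K) R₀ T) {y : F}
    (hy : RegInf T y) {h : F} (hh : IsIntegral R₁ h) : pairing δ y h = 0 := by
  have hfaith : FaithfulSMul R₁ F := by
    rw [faithfulSMul_iff_algebraMap_injective, IsScalarTower.algebraMap_eq R₁ K F]
    exact (algebraMap K F).injective.comp (IsFractionRing.injective R₁ K)
  obtain ⟨m, u, b, hm, hu, hb, huy⟩ := hy
  have hTF : algebraMap R₁ F T ≠ 0 := by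
    rw [Ne, FaithfulSMul.algebraMap_eq_zero_iff]; exact hT.ne_zero
  have hTK : algebraMap R₁ K T ≠ 0 := by
    rw [Ne, FaithfulSMul.algebraMap_eq_zero_iff]; exact hT.ne_zero
  have hu0 : u ≠ 0 := by rintro rfl; exact hu (dvd_zero T)
  have huK : algebraMap R₁ K u ≠ 0 := by
    rw [Ne, FaithfulSMul.algebraMap_eq_zero_iff]; exact hu0
  set w : F := algebraMap R₁ F u * h * y / algebraMap R₁ F T with hw
  obtain ⟨m', rfl⟩ : ∃ m', m = m' + 1 := ⟨m - 1, by omega⟩
  have hwm : w ^ (m' + 1) = algebraMap R₁ F T * (algebraMap R₁ F (u ^ m') * h ^ (m' + 1) * b) := by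
    rw [hw, div_pow, div_eq_iff (pow_ne_zero _ hTF)]
    calc (algebraMap R₁ F u * h * y) ^ (m' + 1)
        = algebraMap R₁ F u ^ m' * h ^ (m' + 1) * (algebraMap R₁ F u * y ^ (m' + 1)) := by ring
      _ = _ := by rw [huy]; simp only [map_pow]; ring
  have hbint : IsIntegral R₁ (algebraMap R₁ F (u ^ m') * h ^ (m' + 1) * b) :=
    (isIntegral_algebraMap.mul (hh.pow _)).mul hb
  have hwint : IsIntegral R₁ w := by
    refine IsIntegral.of_pow (Nat.succ_pos m') ?_
    rw [hwm]
    exact isIntegral_algebraMap.mul hbint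
  obtain ⟨r, hr⟩ := TraceIntegral.prime_dvd_trace (K := K) hT hwint hbint hwm
  have h1 : w = (algebraMap R₁ K u / algebraMap R₁ K T) • (h * y) := by
    rw [Algebra.smul_def, map_div₀, ← IsScalarTower.algebraMap_apply, ← IsScalarTower.algebraMap_apply,
      hw]
    ring
  rw [h1, map_smul, smul_eq_mul] at hr
  have h2 : Algebra.trace K F (h * y) = algebraMap R₁ K (T ^ 2 * r) / algebraMap R₁ K u := by
    rw [eq_div_iff huK]
    have : algebraMap R₁ K (T ^ 2 * r) = algebraMap R₁ K T * algebraMap R₁ K (T * r) := by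
      rw [← map_mul]; ring_nf
    rw [this, ← hr]
    field_simp
  rw [pairing_apply, h2, δ.res_sq _ _ hu]

theorem exists_pairing_ne_zero (hT : Prime T)
    (hres : ∀ r : R₁, ∃ c : k, T ∣ r - algebraMap k R₁ c)
    (δ : Resid k (K := K) R₀ T) {y : F} (hy : y ≠ 0) :
    ∃ (n : ℕ) (h : F), h ∈ poleSpace k F T n ∧ pairing δ y h ≠ 0 := by
  have hfaith : FaithfulSMul R₁ F := by
    rw [faithfulSMul_iff_algebraMap_injective, IsScalarTower.algebraMap_eq R₁ K F]
    exact (algebraMap K F).injective.comp (IsFractionRing.injective R₁ K)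
  obtain ⟨z, hz⟩ := Algebra.trace_surjective K F (algebraMap R₁ K T)
  have halg : IsAlgebraic R₁ (z / y) :=
    (IsFractionRing.isAlgebraic_iff R₁ K F).mpr (Algebra.IsAlgebraic.isAlgebraic _)
  obtain ⟨c, hc0, hcint⟩ := halg.exists_integral_multiple
  have hfin : FiniteMultiplicity T c := FiniteMultiplicity.of_prime_left hT hc0
  obtain ⟨u, hu, hTu⟩ := hfin.exists_eq_pow_mul_and_not_dvd
  set a := multiplicity T c with ha
  obtain ⟨c₀, u', hu'⟩ := hres u
  have hc₀ : c₀ ≠ 0 := by
    rintro rfl
    rw [map_zero, sub_zero] at hu'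
    exact hTu ⟨u', hu'⟩
  refine ⟨a, algebraMap R₁ F u * (z / y), ?_, ?_⟩
  · rw [mem_poleSpace, ← mul_assoc, ← map_mul, ← hu, ← Algebra.smul_def]
    exact hcint
  · rw [pairing_apply]
    have h1 : algebraMap R₁ F u * (z / y) * y = algebraMap R₁ K u • z := by
      rw [Algebra.smul_def, ← IsScalarTower.algebraMap_apply]
      field_simp
    rw [h1, map_smul, smul_eq_mul, hz, ← map_mul]
    have h2 : u * T = algebraMap k R₁ c₀ * T + T ^ 2 * u' := by
      rw [sub_eq_iff_eq_add] at hu'
      rw [hu']; ring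
    have h3 := δ.res_sq u' 1 hT.not_dvd_one
    rw [map_one, div_one] at h3
    rw [h2, map_add, map_add, h3, add_zero, map_mul, ← IsScalarTower.algebraMap_apply k R₁ K,
      ← Algebra.smul_def, map_smul, δ.res_T, smul_eq_mul, mul_one]
    exact hc₀

/-- The main bound, abstract form. -/
theorem finrank_add_finrank_le (hT : Prime T)
    (hres : ∀ r : R₁, ∃ c : k, T ∣ r - algebraMap k R₁ c)
    (δ : Resid k (K := K) R₀ T)
    (hconst : intSpace k F R₀ ⊓ intSpace k F R₁ ≤ Submodule.span k {(1 : F)})
    (W : Submodule k F) [FiniteDimensional k W]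
    (hW₀ : ∀ y ∈ W, RegFin R₀ y) (hW₁ : ∀ y ∈ W, RegInf T y) :
    ∃ n₀ : ℕ, ∀ n : ℕ, n₀ ≤ n →
      FiniteDimensional k ↥(intSpace k F R₀ ⊓ poleSpace k F T n) ∧
      finrank k ↥(intSpace k F R₀ ⊓ poleSpace k F T n) + finrank k W ≤ n * finrank K F + 1 := by
  classical
  -- the map `h ↦ (y ↦ pairing y h)`
  let Ψ : F →ₗ[k] (W →ₗ[k] k) :=
    { toFun := fun h =>
        { toFun := fun y => pairing δ (y : F) h
          map_add' := fun y y' => by
            simp only [pairing_apply, Submodule.coe_add, mul_add, map_add]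
          map_smul' := fun c y => by
            simp only [pairing_apply, Submodule.coe_smul, mul_smul_comm, RingHom.id_apply]
            rw [← map_smul, ← IsScalarTower.algebraMap_smul K c (h * (y : F)), map_smul,
              IsScalarTower.algebraMap_smul] }
      map_add' := fun h h' => by ext y; simp only [map_add]; rfl
      map_smul' := fun c h => by ext y; simp only [map_smul]; rfl }
  have hΨ : ∀ h (y : W), Ψ h y = pairing δ (y : F) h := fun _ _ => rfl
  set N := intSpace k F R₁ with hN
  have hΨN : N ≤ LinearMap.ker Ψ := by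
    intro h hh
    rw [LinearMap.mem_ker]
    ext y
    exact pairing_eq_zero_of_regInf hT δ (hW₁ y y.2) hh
  have hΨ0 : intSpace k F R₀ ≤ LinearMap.ker Ψ := by
    intro h hh
    rw [LinearMap.mem_ker]
    ext y
    exact pairing_eq_zero_of_regFin δ (hW₀ y y.2) hh
  -- surjectivity for large `n`
  have hsurj : ∃ n₀ : ℕ, ∀ n : ℕ, n₀ ≤ n → (poleSpace k F T n).map Ψ = ⊤ := by
    -- the union
    let U : Submodule k (W →ₗ[k] k) := ⨆ n, (poleSpace k F T n).map Ψ
    have hU : U = ⊤ := by
      by_contra hne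
      obtain ⟨f, hf, hfU⟩ := Submodule.exists_le_ker_of_lt_top U (lt_top_iff_ne_top.mpr hne)
      -- `f` is evaluation at some `y`
      obtain ⟨y, hy⟩ := (Module.evalEquiv k W).surjective f
      have hy0 : (y : F) ≠ 0 := by
        intro h0
        apply hf
        rw [← hy, show y = 0 from Subtype.ext h0, map_zero]
      obtain ⟨n, h, hh, hne'⟩ := exists_pairing_ne_zero hT hres δ hy0
      apply hne'
      have h1 : Ψ h ∈ U := Submodule.mem_iSup_of_mem n (Submodule.mem_map_of_mem hh)
      have h2 := hfU h1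
      rw [LinearMap.mem_ker, ← hy] at h2
      exact h2
    have hmono : Monotone fun n => (poleSpace k F T n).map Ψ :=
      fun m n hmn => Submodule.map_mono (poleSpace_mono T hmn)
    obtain ⟨n₀, hn₀⟩ := (monotone_stabilizes_iff_noetherian (R := k) (M := W →ₗ[k] k)).mpr
      inferInstance ⟨fun n => (poleSpace k F T n).map Ψ, hmono⟩
    refine ⟨n₀, fun n hn => ?_⟩
    rw [eq_top_iff, ← hU]
    refine iSup_le fun m => ?_
    rcases le_total n m with h | h
    · have h1 := hn₀ n hn
      have h2 := hn₀ m (hn.trans h)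
      exact (h2.symm.trans h1).le
    · exact hmono h
  obtain ⟨n₀, hn₀⟩ := hsurj
  refine ⟨n₀, fun n hn => ?_⟩
  set V := intSpace k F R₀ ⊓ poleSpace k F T n with hV
  obtain ⟨v, hv⟩ := exists_span (K := K) (k := k) (F := F) T hT.ne_zero hres n
  -- the quotient by `N`
  set π : F →ₗ[k] F ⧸ N := N.mkQ with hπ
  set P := (poleSpace k F T n).map π with hP
  have hPle : P ≤ Submodule.span k (Set.range (fun ij => π (v ij))) := by
    rw [hP, Submodule.map_le_iff_le_comap]
    refine hv.trans (sup_le ?_ ?_)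
    · rw [Submodule.span_le]
      rintro _ ⟨ij, rfl⟩
      exact Submodule.subset_span ⟨ij, rfl⟩
    · intro h hh
      rw [Submodule.mem_comap, hπ, Submodule.mkQ_apply, (Submodule.Quotient.mk_eq_zero N).mpr hh]
      exact Submodule.zero_mem _
  have hfinspan : FiniteDimensional k (Submodule.span k (Set.range (fun ij => π (v ij)))) :=
    FiniteDimensional.span_of_finite k (Set.finite_range _)
  have hPfin : FiniteDimensional k P := Submodule.finiteDimensional_of_le hPle
  have hPcard : finrank k P ≤ n * finrank K F := by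
    refine (Submodule.finrank_mono hPle).trans ((finrank_range_le_card _).trans ?_)
    rw [Fintype.card_prod, Fintype.card_fin, Fintype.card_fin]
  -- the induced map on the quotient
  let Ψ' : (F ⧸ N) →ₗ[k] (W →ₗ[k] k) := N.liftQ Ψ hΨN
  let f : P →ₗ[k] (W →ₗ[k] k) := Ψ'.domRestrict P
  have hfsurj : LinearMap.range f = ⊤ := by
    rw [eq_top_iff, ← hn₀ n hn]
    rintro _ ⟨h, hh, rfl⟩
    exact ⟨⟨π h, Submodule.mem_map_of_mem hh⟩, rfl⟩
  have hf1 := LinearMap.finrank_range_add_finrank_ker f
  rw [hfsurj, finrank_top, Module.finrank_linearMap_self] at hf1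
  -- the image of `V`
  have hVP : V.map π ≤ (LinearMap.ker f).map P.subtype := by
    rintro _ ⟨h, hh, rfl⟩
    have hmem : π h ∈ P := Submodule.mem_map_of_mem hh.2
    refine ⟨⟨π h, hmem⟩, ?_, rfl⟩
    have : Ψ h = 0 := hΨ0 hh.1
    exact this
  have hVPfin : FiniteDimensional k (V.map π) := Submodule.finiteDimensional_of_le hVP
  have hVPcard : finrank k (V.map π) ≤ finrank k (LinearMap.ker f) :=
    (Submodule.finrank_mono hVP).trans (Submodule.finrank_map_le _ _)
  have hker : V ⊓ LinearMap.ker π ≤ Submodule.span k {(1 : F)} := by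
    rw [hπ, Submodule.ker_mkQ]
    exact le_trans (inf_le_inf_right _ inf_le_left) hconst
  have hspan1 : FiniteDimensional k (Submodule.span k {(1 : F)}) :=
    FiniteDimensional.span_of_finite k (Set.finite_singleton _)
  have hkerfin : FiniteDimensional k ↥(V ⊓ LinearMap.ker π) :=
    Submodule.finiteDimensional_of_le hker
  have hkercard : finrank k ↥(V ⊓ LinearMap.ker π) ≤ 1 := by
    refine (Submodule.finrank_mono hker).trans ?_
    have h1 := finrank_span_le_card (R := k) ({(1 : F)} : Set F)
    simpa using h1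
  have hVfg : V.FG := Submodule.fg_of_fg_map_of_fg_inf_ker π
    (Module.Finite.iff_fg.mp hVPfin) (Module.Finite.iff_fg.mp hkerfin)
  have hVfin : FiniteDimensional k V := Module.Finite.iff_fg.mpr hVfg
  refine ⟨hVfin, ?_⟩
  let g : V →ₗ[k] F ⧸ N := π.domRestrict V
  have hg := LinearMap.finrank_range_add_finrank_ker g
  have hgr : LinearMap.range g = V.map π := by
    rw [LinearMap.range_domRestrict]
  have hgk : finrank k (LinearMap.ker g) = finrank k ↥(V ⊓ LinearMap.ker π) := by
    rw [LinearMap.ker_domRestrict]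
    have h1 : (Submodule.comap V.subtype (LinearMap.ker π)).map V.subtype = V ⊓ LinearMap.ker π :=
      Submodule.map_comap_subtype V _
    rw [← h1]
    exact (LinearEquiv.finrank_eq (Submodule.equivMapOfInjective V.subtype
      (Submodule.subtype_injective V) _))
  rw [hgr, hgk] at hg
  omega

end Abstract

end Fermat.Agent.JRED.GenusBound
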