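import Fermat.Agent.JRED.GenusWrap
import Fermat.Agent.JRED.CuspLattice
import Fermat.Agent.JRED.GoodReductionFinal
import Fermat.Agent.FunField.Cusp
import Fermat.Agent.QbarInst

/-!
# The lower bound for the genus of the reduction of `X₀(N)`, from local computations at a
function `x`
-/

set_option autoImplicit false

noncomputable section

open IntermediateField AlgebraicCurve ModularCurve Module CongruenceSubgroup UpperHalfPlane

namespace Fermat.Agent.JRED

open Fermat.Agent.FunField Fermat.Agent.JRED.CuspLattice Fermat.Agent.MFF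

variable {N : ℕ} {A : ValuationSubring (AlgebraicClosure ℚ)} {k : Type} [Field k] {π : A →+* k}

theorem DegreeInput.isFF1 (h : DegreeInput N k) : Fermat.FF.IsFF1 k (modularFunctionFieldFullC k N) :=
  ⟨jRed k N, transcendental_jRed k N, h.finiteDimensional⟩

/-- **Genus bound from a space of `q`-expansions of regular differentials.** -/
theorem finrank_le_genusFF_of_space (hπ : Function.Surjective π) (hdeg : DegreeInput N k)
    (W : Submodule k (LaurentSeries k)) [FiniteDimensional k W]
    (hmem : ∀ f ∈ W, ∃ y : modularFunctionFieldFullC k N,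
      f = (y : LaurentSeries k) * thetaD k (jqModC k))
    (x : modularFunctionFieldFullC k N) (hx : thetaD k (x : LaurentSeries k) ≠ 0)
    (h0 : ∀ f ∈ W, ∀ y : modularFunctionFieldFullC k N,
      f = (y : LaurentSeries k) * thetaD k (x : LaurentSeries k) → GenusBound.RegFinX k x y)
    (h1 : ∀ f ∈ W, ∀ y : modularFunctionFieldFullC k N,
      f = (y : LaurentSeries k) * thetaD k (x : LaurentSeries k) → GenusBound.RegInfX k x y) :
    finrank k W ≤ genusFF k (modularFunctionFieldFullC k N) := by
  have := isAlgClosed_of_surjective hπ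
  have := hdeg.isFF1
  exact GenusBound.finrank_le_genusFF_of_laurent (F := modularFunctionFieldFullC k N)
    (t := jRed k N) (x := x) (GenusBound.thetaD_jqModC_ne_zero' k) hx W hmem h0 h1

/-- Elements of `cuspSpace` are reductions of `A`-integral `q`-expansions of cusp forms. -/
theorem exists_hasA [NeZero N] (hπ : Function.Surjective π) {w : LaurentSeries k}
    (hw : w ∈ cuspSpace N k) [Algebra (AlgebraicClosure ℚ) ℂ] :
    ∃ (f : CuspForm (Gamma0 N) 2) (a : PowerSeries A), HasA (⇑f : ℍ → ℂ) a ∧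
      HahnSeries.ofPowerSeries ℤ k (a.map π) = w := by
  obtain ⟨F, f, rfl, hF⟩ := exists_lift hπ hw
  have hneg : ∀ n : ℤ, n < 0 → F.coeff n = 0 := by
    intro n hn
    have h1 := congrArg (fun G : LaurentSeries ℂ => G.coeff n) hF
    simp only [LQ, emb, coeffMap_coeff] at h1
    rw [ofPowerSeries_coeff_of_neg _ hn] at h1
    have h2 : ((F.coeff n : A) : AlgebraicClosure ℚ) = 0 :=
      (map_eq_zero_iff _ (algebraMap (AlgebraicClosure ℚ) ℂ).injective).mp h1
    exact Subtype.ext h2
  have hF' : HahnSeries.ofPowerSeries ℤ A (PowerSeries.mk fun n => F.coeff (n : ℤ)) = F := by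
    ext n
    rcases lt_or_ge n 0 with h | h
    · rw [ofPowerSeries_coeff_of_neg _ h, hneg n h]
    · obtain ⟨m, rfl⟩ := Int.eq_ofNat_of_zero_le h
      rw [HahnSeries.ofPowerSeries_apply_coeff, PowerSeries.coeff_mk]
  refine ⟨f, PowerSeries.mk fun n => F.coeff (n : ℤ), ?_, ?_⟩
  · rw [HasA, hF']
    exact hF
  · rw [← ModularCurve.coeffMap_ofPowerSeries, hF']

theorem cuspSpace_jInt [NeZero N] (hπ : Function.Surjective π) (hdeg : DegreeInput N k)
    {w : LaurentSeries k} (hw : w ∈ cuspSpace N k) :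
    JInt k (N - 1) ((w ^ 6 / deltaL k) ^ N) := by
  let _ : Algebra (AlgebraicClosure ℚ) ℂ :=
    (IsAlgClosed.lift (M := ℂ) (S := AlgebraicClosure ℚ) (R := ℚ)).toRingHom.toAlgebra
  obtain ⟨f, a, ha, rfl⟩ := exists_hasA hπ hw
  exact (cusp_red hπ hdeg f ha).2

/-- **The lower bound for the genus**, from local computations at `x`. -/
theorem genusLowerBound_of_base [NeZero N] (hπ : Function.Surjective π) (hdeg : DegreeInput N k)
    {ℓ : ℕ} (hℓ : ℓ.Prime) [CharP k ℓ]
    (x : modularFunctionFieldFullC k N) (hx : thetaD k (x : LaurentSeries k) ≠ 0)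
    (hbase : ∀ (w : LaurentSeries k) (n : ℕ), 1 ≤ n → JInt k (n - 1) ((w ^ 6 / deltaL k) ^ n) →
      ∀ y : modularFunctionFieldFullC k N, w = (y : LaurentSeries k) * thetaD k (x : LaurentSeries k) →
        GenusBound.RegFinX k x y ∧ GenusBound.RegInfX k x y) :
    GenusLowerBound N k := by
  have hN : 1 ≤ N := Nat.one_le_iff_ne_zero.mpr (NeZero.ne N)
  rw [GenusLowerBound, ← finrank_cuspSpace hℓ (k := k)]
  refine finrank_le_genusFF_of_space hπ hdeg (cuspSpace N k) (fun f hf => ?_) x hx
    (fun f hf y hy => (hbase f N hN (cuspSpace_jInt hπ hdeg hf) y hy).1)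
    (fun f hf y hy => (hbase f N hN (cuspSpace_jInt hπ hdeg hf) y hy).2)
  let _ : Algebra (AlgebraicClosure ℚ) ℂ :=
    (IsAlgClosed.lift (M := ℂ) (S := AlgebraicClosure ℚ) (R := ℚ)).toRingHom.toAlgebra
  refine ⟨⟨f / thetaD k (jqModC k), div_theta_mem hdeg hπ hf⟩, ?_⟩
  exact (div_mul_cancel₀ _ (GenusBound.thetaD_jqModC_ne_zero' k)).symm

end Fermat.Agent.JRED
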