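import Mathlib
import Fermat.Agent.JRED.XInt
import Fermat.Agent.JRED.DescentApprox
import Fermat.Agent.JRED.DescentSpace
import Fermat.Agent.JRED.ModularFF
import Fermat.Agent.JRED.ModularRedExists
import Fermat.Agent.FunField.Integral
import Fermat.Agent.RR.Instance

/-!
# Reduction of the integrality condition `JInt`

`y` satisfies `y ^ n + ∑ Pᵢ(x) y ^ (n - i) = 0` with `deg Pᵢ ≤ m i` if and only if
`y ∈ L(m (x)_∞)`; this condition is compatible with reduction.
-/

set_option autoImplicit false

noncomputable section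

open AlgebraicCurve IsLocalRing IntermediateField WithZero Polynomial IsDedekindDomain

namespace Fermat.Agent.JRED.IntRed

open Fermat.Agent.RR Fermat.Agent.JRED.Descent


section Modular

open ModularCurve

variable {N : ℕ}

theorem jInt_iff_xInt_bar {m : ℕ} {y : modularFunctionFieldBar N} :
    FunField.JInt (AlgebraicClosure ℚ) m (y : LaurentSeries (AlgebraicClosure ℚ)) ↔
      XInt (AlgebraicClosure ℚ) (jBar N) m y := by
  have key : ∀ (n : ℕ) (P : ℕ → (AlgebraicClosure ℚ)[X]),
      ((y ^ n + ∑ i ∈ Finset.Icc 1 n, aeval (jBar N) (P i) * y ^ (n - i) :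
        modularFunctionFieldBar N) : LaurentSeries (AlgebraicClosure ℚ)) =
      (y : LaurentSeries (AlgebraicClosure ℚ)) ^ n + ∑ i ∈ Finset.Icc 1 n,
        aeval (jqModC (AlgebraicClosure ℚ)) (P i) *
          (y : LaurentSeries (AlgebraicClosure ℚ)) ^ (n - i) := by
    intro n P
    push_cast
    congr 1
    refine Finset.sum_congr rfl fun i _ => ?_
    congr 1
    rw [← coe_jBar N]
    exact (aeval_algebraMap_apply (LaurentSeries (AlgebraicClosure ℚ)) (jBar N) (P i)).symm
  constructor
  · rintro ⟨n, P, hn, hP, h⟩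
    refine ⟨n, P, hn, hP, Subtype.ext ?_⟩
    rw [key]
    exact h
  · rintro ⟨n, P, hn, hP, h⟩
    refine ⟨n, P, hn, hP, ?_⟩
    rw [← key, h]
    rfl

theorem jInt_iff_xInt_red {k : Type*} [Field k] {m : ℕ} {y : modularFunctionFieldFullC k N} :
    FunField.JInt k m (y : LaurentSeries k) ↔ XInt k (jRed k N) m y := by
  have key : ∀ (n : ℕ) (P : ℕ → k[X]),
      ((y ^ n + ∑ i ∈ Finset.Icc 1 n, aeval (jRed k N) (P i) * y ^ (n - i) :
        modularFunctionFieldFullC k N) : LaurentSeries k) =
      (y : LaurentSeries k) ^ n + ∑ i ∈ Finset.Icc 1 n,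
        aeval (jqModC k) (P i) * (y : LaurentSeries k) ^ (n - i) := by
    intro n P
    push_cast
    congr 1
    refine Finset.sum_congr rfl fun i _ => ?_
    congr 1
    exact (aeval_algebraMap_apply (LaurentSeries k) (jRed k N) (P i)).symm
  constructor
  · rintro ⟨n, P, hn, hP, h⟩
    refine ⟨n, P, hn, hP, Subtype.ext ?_⟩
    rw [key]
    exact h
  · rintro ⟨n, P, hn, hP, h⟩
    refine ⟨n, P, hn, hP, ?_⟩
    rw [← key, h]
    rfl

variable {A : ValuationSubring (AlgebraicClosure ℚ)} {k : Type} [Field k] {π : A →+* k}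

/-- **Reduction of the integrality condition.** -/
theorem jInt_of_red (hπ : Function.Surjective π) (hdeg : DegreeInput N k) {m : ℕ}
    {y : modularFunctionFieldBar N} {u : modularFunctionFieldFullC k N}
    (hy : FunField.JInt (AlgebraicClosure ℚ) m (y : LaurentSeries (AlgebraicClosure ℚ)))
    (hred : GRed π (y : LaurentSeries (AlgebraicClosure ℚ)) (u : LaurentSeries k)) :
    FunField.JInt k m (u : LaurentSeries k) := by
  have := isAlgClosed_of_surjective hπ
  have := hdeg.functionField
  have := hdeg.functionField'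
  have := hdeg.1
  have := hdeg.finiteDimensional
  rw [jInt_iff_xInt_red]
  apply xInt_of_mem (Fermat.Agent.JRED.transcendental_jRed k N)
  have hj0 : jBar N ≠ 0 := by
    intro h
    apply transcendental_jBar N
    rw [h]
    exact isAlgebraic_zero
  have h1 := (jInt_iff_xInt_bar.mp hy).mem hj0
  have h2 := DescentB.redSub_le (R := hdeg.redDatum hπ) hπ (hdeg.redDatum_surjective hπ)
    (x := jBar N) (xbar := jRed k N) (redL_j π N) (by
      rw [DescentB.degree_polesOf (transcendental_jBar N),
        DescentB.degree_polesOf (Fermat.Agent.JRED.transcendental_jRed k N)]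
      exact_mod_cast hdeg.2) m
  exact h2 ⟨y, h1, hred⟩

theorem jInt_res (hπ : Function.Surjective π) (hdeg : DegreeInput N k) (M : ModularConstRed N π)
    {m : ℕ} (y : M.C.O)
    (hy : FunField.JInt (AlgebraicClosure ℚ) m
      ((y : modularFunctionFieldBar N) : LaurentSeries (AlgebraicClosure ℚ))) :
    FunField.JInt k m ((M.C.res y : modularFunctionFieldFullC k N) : LaurentSeries k) := by
  obtain ⟨a, b, hb, h1⟩ := (M.mem_O_iff y).mp y.2
  exact jInt_of_red hπ hdeg hy ⟨a, b, hb, h1, M.res_eq y a b hb h1⟩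

end Modular

end Fermat.Agent.JRED.IntRed
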