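import Fermat.Agent.JRED.DegreeLe
import Fermat.Prelude.Def_AlgebraicCurve_Repartitions

set_option autoImplicit false

/-!
# Deuring's reduction of places

Let `R` be a reduction datum between two function fields `F / K`, `Fk / k` of the same genus
(in the sense of Riemann's theorem), all of whose finite dimensional subspaces have orthonormal
bases.  Then there is a (unique) map `r : Place K F → Place k Fk` with
`r_* (div w) = div (red w)`; it is surjective, and `L(E)` reduces onto `L(r_* E)` for every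
divisor `E` of large degree.
-/

noncomputable section

open AlgebraicCurve IntermediateField

namespace Fermat.Agent.JRED

section Facts

variable (K F : Type*) [Field K] [Field F] [Algebra K F]

/-- The facts on a function field used in reduction theory (`g` is the genus). -/
structure CurveFacts (g : ℤ) : Prop where
  hpd : HasPrincipalDivisors K F
  deg_eq_one : ∀ v : Place K F, v.deg = 1
  nonempty : Nonempty (Place K F)
  finite_rr : ∀ D : Divisor K F, Module.Finite K (riemannRochSpace D)
  riemann : ∃ N₀ : ℤ, ∀ D : Divisor K F, N₀ ≤ Divisor.degree D →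
    (Module.finrank K (riemannRochSpace D) : ℤ) = Divisor.degree D + 1 - g
  transc : ∀ z : F, z ∉ Set.range (algebraMap K F) → Transcendental K z
  finite_adjoin : ∀ z : F, Transcendental K z → FiniteDimensional K⟮z⟯ F
  pole_degree : ∀ z : F, Transcendental K z → ∀ E : Divisor K F,
    (∀ v, E v = max 0 (-(v.ord z))) → Divisor.degree E = Module.finrank K⟮z⟯ F

end Facts

namespace CurveFacts

variable {K F : Type*} [Field K] [Field F] [Algebra K F] {g : ℤ}

theorem degree_eq_sum (h : CurveFacts K F g) (D : Divisor K F) :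
    Divisor.degree D = D.sum fun _ n => n := by
  rw [Divisor.degree, Finsupp.liftAddHom_apply]
  refine Finsupp.sum_congr fun v _ => ?_
  simp [h.deg_eq_one]

theorem degree_single_one (h : CurveFacts K F g) (v : Place K F) (n : ℤ) :
    Divisor.degree (Finsupp.single v n) = n := by
  rw [Divisor.degree_single, h.deg_eq_one]
  simp

theorem degree_nonneg (h : CurveFacts K F g) {D : Divisor K F} (hD : 0 ≤ D) :
    0 ≤ Divisor.degree D := by
  rw [h.degree_eq_sum]
  exact Finset.sum_nonneg fun v _ => hD v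

theorem degree_mono (h : CurveFacts K F g) {D E : Divisor K F} (hDE : D ≤ E) :
    Divisor.degree D ≤ Divisor.degree E := by
  have h1 : 0 ≤ E - D := by
    intro v
    have := hDE v
    simp only [Finsupp.coe_zero, Pi.zero_apply, Finsupp.coe_sub, Pi.sub_apply]
    omega
  have h2 := h.degree_nonneg h1
  rw [map_sub] at h2
  omega

theorem apply_le_degree (h : CurveFacts K F g) {D : Divisor K F} (hD : 0 ≤ D) (v : Place K F) :
    D v ≤ Divisor.degree D := by
  classical
  have h1 : Finsupp.single v (D v) ≤ D := by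
    intro w
    by_cases hw : w = v
    · subst hw; simp
    · rw [Finsupp.single_eq_of_ne hw]
      exact hD w
  have h2 := h.degree_mono h1
  rwa [h.degree_single_one] at h2

theorem eq_of_le_of_degree (h : CurveFacts K F g) {D E : Divisor K F} (hDE : D ≤ E)
    (hdeg : Divisor.degree E ≤ Divisor.degree D) : D = E := by
  have h1 : 0 ≤ E - D := by
    intro v
    have := hDE v
    simp only [Finsupp.coe_zero, Pi.zero_apply, Finsupp.coe_sub, Pi.sub_apply]
    omega
  ext v
  have h2 := h.apply_le_degree h1 v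
  have h3 := hDE v
  rw [map_sub] at h2
  simp only [Finsupp.coe_sub, Pi.sub_apply] at h2
  omega

theorem exists_divisor (h : CurveFacts K F g) {f : F} (hf : f ≠ 0) :
    ∃ D : Divisor K F, (∀ v : Place K F, D v = v.ord f) ∧ Divisor.degree D = 0 :=
  h.hpd.exists_divisor f hf

/-- an effective divisor of degree one is a place. -/
theorem exists_eq_single (h : CurveFacts K F g) {D : Divisor K F} (hD : 0 ≤ D)
    (hdeg : Divisor.degree D = 1) : ∃ v : Place K F, D = Finsupp.single v 1 := by
  classical
  have hne : D ≠ 0 := by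
    rintro rfl
    simp at hdeg
  obtain ⟨v, hv⟩ := Finsupp.ne_iff.mp hne
  refine ⟨v, ?_⟩
  have h0 := hD v
  have h1 : Finsupp.single v (1 : ℤ) ≤ D := by
    intro w
    by_cases hw : w = v
    · subst hw
      simp only [Finsupp.single_eq_same]
      simp only [Finsupp.coe_zero, Pi.zero_apply] at hv h0
      omega
    · rw [Finsupp.single_eq_of_ne hw]
      exact hD w
  exact (h.eq_of_le_of_degree h1 (by rw [h.degree_single_one]; omega)).symm

theorem exists_degree (h : CurveFacts K F g) (n : ℤ) :
    ∃ D : Divisor K F, Divisor.degree D = n := by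
  obtain ⟨v⟩ := h.nonempty
  exact ⟨Finsupp.single v n, h.degree_single_one v n⟩

end CurveFacts

section Pole

variable {k Fk : Type*} [Field k] [Field Fk] [Algebra k Fk]

/-- `B` is the pole divisor of the space `V`: `V ⊆ L(B)` and the bound is attained everywhere. -/
structure IsPole (V : Submodule k Fk) (B : Divisor k Fk) : Prop where
  le : V ≤ riemannRochSpace B
  attained : ∀ Q : Place k Fk, ∃ v ∈ V, v ≠ 0 ∧ Q.ord v = -B Q

theorem IsPole.le_ord {V : Submodule k Fk} {B : Divisor k Fk} (h : IsPole V B) {v : Fk}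
    (hv : v ∈ V) (hv0 : v ≠ 0) (Q : Place k Fk) : -B Q ≤ Q.ord v :=
  ((mem_riemannRochSpace_iff.mp (h.le hv)) Q).resolve_left hv0

theorem IsPole.unique {V : Submodule k Fk} {B B' : Divisor k Fk} (h : IsPole V B)
    (h' : IsPole V B') : B = B' := by
  ext Q
  obtain ⟨v, hv, hv0, h1⟩ := h.attained Q
  obtain ⟨v', hv', hv0', h1'⟩ := h'.attained Q
  have h2 := h'.le_ord hv hv0 Q
  have h3 := h.le_ord hv' hv0' Q
  omega

theorem IsPole.add_le {V V' V'' : Submodule k Fk} {B B' B'' : Divisor k Fk} (h : IsPole V B)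
    (h' : IsPole V' B') (h'' : IsPole V'' B'') (hmul : ∀ v ∈ V, ∀ v' ∈ V', v * v' ∈ V'') :
    B + B' ≤ B'' := by
  intro Q
  obtain ⟨v, hv, hv0, h1⟩ := h.attained Q
  obtain ⟨v', hv', hv0', h1'⟩ := h'.attained Q
  have h2 := h''.le_ord (hmul v hv v' hv') (mul_ne_zero hv0 hv0') Q
  rw [Q.ord_mul hv0 hv0'] at h2
  simp only [Finsupp.coe_add, Pi.add_apply]
  omega

theorem IsPole.ne_bot {V : Submodule k Fk} {B : Divisor k Fk} (h : IsPole V B)
    [hne : Nonempty (Place k Fk)] : V ≠ ⊥ := by
  obtain ⟨Q⟩ := hne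
  obtain ⟨v, hv, hv0, -⟩ := h.attained Q
  exact (Submodule.ne_bot_iff V).mpr ⟨v, hv, hv0⟩

theorem exists_isPole {g : ℤ} (hk : CurveFacts k Fk g) (V : Submodule k Fk) (hV : V.FG)
    (hne : V ≠ ⊥) : ∃ B, IsPole V B := by
  have key : V = ⊥ ∨ ∃ B, IsPole V B := by
    refine Submodule.fg_induction (motive := fun V _ => V = ⊥ ∨ ∃ B, IsPole V B) ?_ ?_ V hV
    · intro x
      rcases eq_or_ne x 0 with rfl | hx
      · left; simp
      · right
        obtain ⟨D, hD, -⟩ := hk.exists_divisor hx
        refine ⟨-D, ?_, fun Q => ⟨x, Submodule.mem_span_singleton_self x, hx, ?_⟩⟩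
        · rw [Submodule.span_singleton_le_iff_mem, mem_riemannRochSpace_iff]
          intro v
          right
          simp [hD v]
        · simp [hD Q]
    · rintro V₁ V₂ - - (rfl | ⟨B₁, h₁⟩) (rfl | ⟨B₂, h₂⟩)
      · left; simp
      · right; exact ⟨B₂, by simpa using h₂⟩
      · right; exact ⟨B₁, by simpa using h₁⟩
      · right
        refine ⟨B₁ ⊔ B₂, ?_, fun Q => ?_⟩
        · refine sup_le (h₁.le.trans ?_) (h₂.le.trans ?_)
          · intro f hf
            rw [mem_riemannRochSpace_iff] at hf ⊢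
            intro v
            refine (hf v).imp id fun h => ?_
            have : B₁ v ≤ (B₁ ⊔ B₂) v := (le_sup_left : B₁ ≤ B₁ ⊔ B₂) v
            omega
          · intro f hf
            rw [mem_riemannRochSpace_iff] at hf ⊢
            intro v
            refine (hf v).imp id fun h => ?_
            have : B₂ v ≤ (B₁ ⊔ B₂) v := (le_sup_right : B₂ ≤ B₁ ⊔ B₂) v
            omega
        · rw [Finsupp.sup_apply]
          rcases le_total (B₁ Q) (B₂ Q) with h | h
          · rw [sup_eq_right.mpr h]
            obtain ⟨v, hv, hv0, h1⟩ := h₂.attained Q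
            exact ⟨v, Submodule.mem_sup_right hv, hv0, h1⟩
          · rw [sup_eq_left.mpr h]
            obtain ⟨v, hv, hv0, h1⟩ := h₁.attained Q
            exact ⟨v, Submodule.mem_sup_left hv, hv0, h1⟩
  exact key.resolve_left hne

/-- A generic element of `V` has order `-B Q` at finitely many given places. -/
theorem IsPole.exists_generic [Infinite k] {V : Submodule k Fk} {B : Divisor k Fk}
    (h : IsPole V B) (S : Finset (Place k Fk)) (hne : V ≠ ⊥) :
    ∃ v ∈ V, v ≠ 0 ∧ ∀ Q ∈ S, Q.ord v = -B Q := by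
  classical
  rcases S.eq_empty_or_nonempty with rfl | hS
  · obtain ⟨v, hv, hv0⟩ := (Submodule.ne_bot_iff V).mp hne
    exact ⟨v, hv, hv0, by simp⟩
  -- the subspaces to avoid
  let T : Place k Fk → Subspace k V := fun Q =>
    (riemannRochSpace (B - Finsupp.single Q 1)).comap V.subtype
  have hT : ∀ Q, T Q ≠ ⊤ := by
    intro Q htop
    obtain ⟨v, hv, hv0, h1⟩ := h.attained Q
    have h2 : (⟨v, hv⟩ : V) ∈ T Q := htop ▸ Submodule.mem_top
    have h3 : v ∈ riemannRochSpace (B - Finsupp.single Q 1) := h2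
    have h4 := ((mem_riemannRochSpace_iff.mp h3) Q).resolve_left hv0
    simp only [Finsupp.coe_sub, Pi.sub_apply, Finsupp.single_eq_same] at h4
    omega
  have h1 : ⋃ p ∈ S.image T, (p : Set V) ≠ Set.univ := by
    refine Subspace.biUnion_ne_univ_of_top_notMem fun hmem => ?_
    obtain ⟨Q, -, hQ⟩ := Finset.mem_image.mp hmem
    exact hT Q hQ
  obtain ⟨v, hv⟩ := (Set.ne_univ_iff_exists_notMem _).mp h1
  simp only [Finset.mem_image, Set.iUnion_exists, Set.biUnion_and', Set.iUnion_iUnion_eq_right,
    Set.mem_iUnion, SetLike.mem_coe, exists_prop, not_exists, not_and] at hv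
  obtain ⟨Q₀, hQ₀⟩ := hS
  have hv0 : (v : Fk) ≠ 0 := by
    intro h0
    apply hv Q₀ hQ₀
    have : v = 0 := Subtype.ext h0
    rw [this]
    exact Submodule.zero_mem _
  refine ⟨v, v.2, hv0, fun Q hQ => ?_⟩
  have h2 := h.le_ord v.2 hv0 Q
  by_contra hcon
  apply hv Q hQ
  show (v : Fk) ∈ riemannRochSpace (B - Finsupp.single Q 1)
  rw [mem_riemannRochSpace_iff]
  intro Q'
  right
  simp only [Finsupp.coe_sub, Pi.sub_apply]
  by_cases hQ' : Q' = Q
  · subst hQ'
    rw [Finsupp.single_eq_same]
    omega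
  · rw [Finsupp.single_eq_of_ne hQ']
    have := h.le_ord v.2 hv0 Q'
    omega

end Pole

section Deuring

variable {K F k Fk : Type*} [Field K] [Field F] [Algebra K F] [Field k] [Field Fk] [Algebra k Fk]
variable {A : ValuationSubring K} {π : A →+* k}
variable {R : RedDatum K F k Fk A π} {g : ℤ}

/-- The hypotheses of Deuring's theorem. -/
structure DeuringHyp (R : RedDatum K F k Fk A π) (g : ℤ) : Prop where
  surj_res : Function.Surjective π
  surj_red : ∀ u : Fk, ∃ w, R.Red w u
  ortho : ∀ W : Submodule K F, FiniteDimensional K W → R.HasOrtho W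
  curve : CurveFacts K F g
  curve' : CurveFacts k Fk g
  infinite : Infinite k

namespace DeuringHyp

variable (h : DeuringHyp R g)

include h

/-- the reduction of `L(D)`. -/
def V (D : Divisor K F) : Submodule k Fk :=
  R.redSub h.surj_res (riemannRochSpace D)

theorem finrank_V (D : Divisor K F) :
    Module.finrank k (h.V D) = Module.finrank K (riemannRochSpace D) :=
  (h.ortho _ (h.curve.finite_rr D)).finrank_redSub h.surj_res

theorem finite_V (D : Divisor K F) : FiniteDimensional k (h.V D) :=
  (h.ortho _ (h.curve.finite_rr D)).finiteDimensional_redSub h.surj_res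

theorem mul_mem_V {D E : Divisor K F} {v v' : Fk} (hv : v ∈ h.V D) (hv' : v' ∈ h.V E) :
    v * v' ∈ h.V (D + E) := by
  obtain ⟨w, hw, hr⟩ := hv
  obtain ⟨w', hw', hr'⟩ := hv'
  refine ⟨w * w', ?_, R.mul hr hr'⟩
  rw [mem_riemannRochSpace_iff] at hw hw' ⊢
  intro P
  rcases hw P with rfl | h1
  · left; simp
  rcases hw' P with rfl | h2
  · left; simp
  by_cases hw0 : w = 0
  · left; simp [hw0]
  by_cases hw0' : w' = 0
  · left; simp [hw0']
  right
  rw [P.ord_mul hw0 hw0']
  simp only [Finsupp.coe_add, Pi.add_apply]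
  omega

theorem degree_nonneg_of_V_ne_bot {D : Divisor K F} (hne : h.V D ≠ ⊥) :
    0 ≤ Divisor.degree D := by
  obtain ⟨v, ⟨w, hw, hr⟩, hv0⟩ := (Submodule.ne_bot_iff _).mp hne
  have hw0 : w ≠ 0 := RedDatum.ne_zero_of_red hr hv0
  obtain ⟨E, hE, hE0⟩ := h.curve.exists_divisor hw0
  have h1 : 0 ≤ D + E := by
    intro P
    have := ((mem_riemannRochSpace_iff.mp hw) P).resolve_left hw0
    simp only [Finsupp.coe_zero, Pi.zero_apply, Finsupp.coe_add, Pi.add_apply, hE P]
    omega
  have h2 := h.curve.degree_nonneg h1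
  rw [map_add, hE0] at h2
  omega

/-- The pole divisor of the reduction of `L(D)` has degree at most `deg D`. -/
theorem degree_le {D : Divisor K F} {B : Divisor k Fk} (hB : IsPole (h.V D) B) :
    Divisor.degree B ≤ Divisor.degree D := by
  classical
  have := h.infinite
  have := h.curve'.nonempty
  have hne := hB.ne_bot
  obtain ⟨w, hwV, hw0⟩ := (Submodule.ne_bot_iff _).mp hne
  obtain ⟨Dw, hDw, hDw0⟩ := h.curve'.exists_divisor hw0
  set W := Dw + B with hW
  have hW0 : 0 ≤ W := by
    intro Q
    have := hB.le_ord hwV hw0 Q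
    simp only [Finsupp.coe_zero, Pi.zero_apply, hW, Finsupp.coe_add, Pi.add_apply, hDw Q]
    omega
  have hdegW : Divisor.degree W = Divisor.degree B := by rw [hW, map_add, hDw0, zero_add]
  by_cases hWz : W = 0
  · rw [← hdegW, hWz, map_zero]
    exact h.degree_nonneg_of_V_ne_bot hne
  obtain ⟨z, hzV, hz0, hz⟩ := hB.exists_generic W.support hne
  set u := z / w with hu
  have hordu : ∀ Q : Place k Fk, Q.ord u = Q.ord z - Q.ord w := by
    intro Q
    rw [hu, div_eq_mul_inv, Q.ord_mul hz0 (inv_ne_zero hw0), Q.ord_inv]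
    ring
  have hpole : ∀ Q : Place k Fk, W Q = max 0 (-(Q.ord u)) := by
    intro Q
    rw [hordu Q]
    have h1 : W Q = Q.ord w + B Q := by simp [hW, hDw Q]
    by_cases hQ : Q ∈ W.support
    · rw [hz Q hQ, h1]
      have h2 := hW0 Q
      rw [h1] at h2
      simp only [Finsupp.coe_zero, Pi.zero_apply] at h2
      rw [max_eq_right (by omega)]
      ring
    · rw [Finsupp.notMem_support_iff] at hQ
      rw [hQ]
      rw [hQ] at h1
      have h2 := hB.le_ord hzV hz0 Q
      rw [max_eq_left (by omega)]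
  have htr : Transcendental k u := by
    refine h.curve'.transc u ?_
    rintro ⟨a, ha⟩
    apply hWz
    ext Q
    rw [hpole Q, ← ha, Fermat.FF.ord_algebraMap]
    simp
  have h1 := h.curve'.pole_degree u htr W hpole
  -- lift
  obtain ⟨z', hz'L, hz'⟩ := hzV
  obtain ⟨w', hw'L, hw'⟩ := hwV
  have hu' : R.Red (z' / w') u := RedDatum.div h.surj_res hz' hw' hw0
  have htr' := RedDatum.transcendental_of_red h.surj_res hu' htr
  have hz'0 := RedDatum.ne_zero_of_red hz' hz0
  have hw'0 := RedDatum.ne_zero_of_red hw' hw0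
  have := h.curve.finite_adjoin _ htr'
  have h2 := RedDatum.finrank_adjoin_le h.surj_res h.surj_red hu' htr
  obtain ⟨Dz', hDz', -⟩ := h.curve.exists_divisor hz'0
  obtain ⟨Dw', hDw', hDw'0⟩ := h.curve.exists_divisor hw'0
  -- pole divisor of z'/w'
  set E : Divisor K F := (Dw' - Dz') ⊔ 0 with hE
  have hEp : ∀ P : Place K F, E P = max 0 (-(P.ord (z' / w'))) := by
    intro P
    rw [div_eq_mul_inv, P.ord_mul hz'0 (inv_ne_zero hw'0), P.ord_inv, hE, Finsupp.sup_apply]
    simp only [Finsupp.coe_sub, Pi.sub_apply, hDw' P, hDz' P, Finsupp.coe_zero, Pi.zero_apply]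
    rw [sup_comm]
    show max _ _ = max _ _
    congr 1
    ring
  have h3 := h.curve.pole_degree _ htr' E hEp
  have h4 : E ≤ Dw' + D := by
    intro P
    rw [hEp P, div_eq_mul_inv, P.ord_mul hz'0 (inv_ne_zero hw'0), P.ord_inv]
    have h5 := ((mem_riemannRochSpace_iff.mp hz'L) P).resolve_left hz'0
    have h6 := ((mem_riemannRochSpace_iff.mp hw'L) P).resolve_left hw'0
    simp only [Finsupp.coe_add, Pi.add_apply, hDw' P]
    refine max_le (by omega) (by omega)
  have h5 := h.curve.degree_mono h4
  rw [map_add, hDw'0, zero_add, h3] at h5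
  rw [← hdegW, h1]
  refine le_trans ?_ h5
  exact_mod_cast h2

/-- **Deuring**: for `deg D` large, `L(D)` reduces onto `L(B)` with `deg B = deg D`. -/
theorem exists_bound : ∃ N₀ : ℤ, 0 ≤ N₀ ∧ ∀ D : Divisor K F, N₀ ≤ Divisor.degree D →
    ∃ B : Divisor k Fk, IsPole (h.V D) B ∧ h.V D = riemannRochSpace B ∧
      Divisor.degree B = Divisor.degree D := by
  obtain ⟨N₁, hN₁⟩ := h.curve.riemann
  obtain ⟨N₂, hN₂⟩ := h.curve'.riemann
  obtain ⟨Q₀⟩ := h.curve'.nonempty
  set N : ℤ := max (max N₁ N₂) (max 0 g) with hN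
  have hNN₁ : N₁ ≤ N := (le_max_left _ _).trans (le_max_left _ _)
  have hNN₂ : N₂ ≤ N := (le_max_right _ _).trans (le_max_left _ _)
  have hN0 : 0 ≤ N := (le_max_left _ _).trans (le_max_right _ _)
  have hNg : g ≤ N := (le_max_right _ _).trans (le_max_right _ _)
  refine ⟨N + 1, by omega, fun D hD => ?_⟩
  have hfinD := h.finite_V D
  have hdimD : (Module.finrank k (h.V D) : ℤ) = Divisor.degree D + 1 - g := by
    rw [h.finrank_V D, hN₁ D (by omega)]
  have hne : h.V D ≠ ⊥ := by
    intro hbot
    rw [hbot, finrank_bot] at hdimD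
    push_cast at hdimD
    omega
  obtain ⟨B, hB⟩ := exists_isPole h.curve' (h.V D) (Module.Finite.iff_fg.mp hfinD) hne
  have hdeg := h.degree_le hB
  have hBN : N ≤ Divisor.degree B := by
    by_contra hlt
    push Not at hlt
    -- enlarge B to degree N
    set B' := B + Finsupp.single Q₀ (N - Divisor.degree B) with hB'
    have h1 : riemannRochSpace B ≤ riemannRochSpace B' := by
      intro f hf
      rw [mem_riemannRochSpace_iff] at hf ⊢
      intro Q
      refine (hf Q).imp id fun h2 => ?_
      have h3 : 0 ≤ (Finsupp.single Q₀ (N - Divisor.degree B)) Q := by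
        classical
        rw [Finsupp.single_apply]
        split_ifs <;> omega
      rw [hB', Finsupp.add_apply]
      omega
    have h2 : Divisor.degree B' = N := by
      rw [hB', map_add, h.curve'.degree_single_one]
      ring
    have h3 := hN₂ B' (by omega)
    have := h.curve'.finite_rr B'
    have h4 := Submodule.finrank_mono (hB.le.trans h1)
    rw [h2] at h3
    have h5 : (Module.finrank k (h.V D) : ℤ) ≤ Module.finrank k (riemannRochSpace B') := by
      exact_mod_cast h4
    omega
  have hdimB := hN₂ B (by omega)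
  have := h.curve'.finite_rr B
  have h6 : Module.finrank k (h.V D) ≤ Module.finrank k (riemannRochSpace B) :=
    Submodule.finrank_mono hB.le
  have h7 : (Module.finrank k (h.V D) : ℤ) ≤ Module.finrank k (riemannRochSpace B) := by
    exact_mod_cast h6
  have h8 : Divisor.degree B = Divisor.degree D := by omega
  refine ⟨B, hB, Submodule.eq_of_le_of_finrank_le hB.le ?_, h8⟩
  have h9 : (Module.finrank k (riemannRochSpace B) : ℤ) ≤ Module.finrank k (h.V D) := by omega
  exact_mod_cast h9

/-- The bound in Deuring's theorem. -/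
def N₀ : ℤ := h.exists_bound.choose

theorem N₀_nonneg : 0 ≤ h.N₀ := h.exists_bound.choose_spec.1

open Classical in
/-- The pole divisor of the reduction of `L(D)` (junk for small degree). -/
def B (D : Divisor K F) : Divisor k Fk :=
  if hD : h.N₀ ≤ Divisor.degree D then (h.exists_bound.choose_spec.2 D hD).choose else 0

theorem B_spec {D : Divisor K F} (hD : h.N₀ ≤ Divisor.degree D) :
    IsPole (h.V D) (h.B D) ∧ h.V D = riemannRochSpace (h.B D) ∧
      Divisor.degree (h.B D) = Divisor.degree D := by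
  have h1 : h.B D = (h.exists_bound.choose_spec.2 D hD).choose := dif_pos hD
  rw [h1]
  exact (h.exists_bound.choose_spec.2 D hD).choose_spec

theorem B_add {D E : Divisor K F} (hD : h.N₀ ≤ Divisor.degree D)
    (hE : h.N₀ ≤ Divisor.degree E) : h.B (D + E) = h.B D + h.B E := by
  have h0 := h.N₀_nonneg
  have hDE : h.N₀ ≤ Divisor.degree (D + E) := by rw [map_add]; omega
  obtain ⟨h1, -, h1'⟩ := h.B_spec hD
  obtain ⟨h2, -, h2'⟩ := h.B_spec hE
  obtain ⟨h3, -, h3'⟩ := h.B_spec hDE
  refine (h.curve'.eq_of_le_of_degree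
    (IsPole.add_le h1 h2 h3 fun v hv v' hv' => h.mul_mem_V hv hv') ?_).symm
  rw [h3', map_add, map_add, h1', h2']

theorem exists_large (E : Divisor K F) : ∃ D : Divisor K F, h.N₀ ≤ Divisor.degree D ∧
    h.N₀ ≤ Divisor.degree (E + D) := by
  obtain ⟨D, hD⟩ := h.curve.exists_degree (h.N₀ + |Divisor.degree E|)
  refine ⟨D, by rw [hD]; have := abs_nonneg (Divisor.degree E); omega, ?_⟩
  rw [map_add, hD]
  have := neg_abs_le (Divisor.degree E)
  omega

/-- the extension of `B` to all divisors. -/
def β₀ (E : Divisor K F) : Divisor k Fk :=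
  h.B (E + (h.exists_large E).choose) - h.B (h.exists_large E).choose

theorem β₀_eq {E D : Divisor K F} (hD : h.N₀ ≤ Divisor.degree D)
    (hED : h.N₀ ≤ Divisor.degree (E + D)) : h.β₀ E = h.B (E + D) - h.B D := by
  obtain ⟨h1, h2⟩ := (h.exists_large E).choose_spec
  set D' := (h.exists_large E).choose with hD'
  have h3 : h.β₀ E = h.B (E + D') - h.B D' := rfl
  rw [h3, sub_eq_sub_iff_add_eq_add, ← h.B_add h2 hD, ← h.B_add hED h1]
  congr 1
  abel

/-- `B` as a homomorphism of divisor groups. -/
def β : Divisor K F →+ Divisor k Fk :=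
  AddMonoidHom.mk' h.β₀ fun E E' => by
    obtain ⟨h1, h2⟩ := (h.exists_large E).choose_spec
    obtain ⟨h1', h2'⟩ := (h.exists_large E').choose_spec
    set D := (h.exists_large E).choose with hD
    set D' := (h.exists_large E').choose with hD'
    have h0 := h.N₀_nonneg
    have h3 : h.N₀ ≤ Divisor.degree (D + D') := by rw [map_add]; omega
    have h4 : E + E' + (D + D') = (E + D) + (E' + D') := by abel
    have h5 : h.N₀ ≤ Divisor.degree (E + E' + (D + D')) := by
      rw [h4, map_add]; omega
    rw [h.β₀_eq h3 h5, h.β₀_eq h1 h2, h.β₀_eq h1' h2', h4, h.B_add h2 h2', h.B_add h1 h1']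
    abel

theorem β_eq {E D : Divisor K F} (hD : h.N₀ ≤ Divisor.degree D)
    (hED : h.N₀ ≤ Divisor.degree (E + D)) : h.β E = h.B (E + D) - h.B D :=
  h.β₀_eq hD hED

theorem β_of_large {E : Divisor K F} (hE : h.N₀ ≤ Divisor.degree E) : h.β E = h.B E := by
  have h0 := h.N₀_nonneg
  rw [h.β_eq hE (by rw [map_add]; omega), h.B_add hE hE]
  abel

theorem B_mono {D E : Divisor K F} (hD : h.N₀ ≤ Divisor.degree D) (hDE : D ≤ E) :
    h.B D ≤ h.B E := by
  have hE : h.N₀ ≤ Divisor.degree E := hD.trans (h.curve.degree_mono hDE)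
  obtain ⟨h1, -, -⟩ := h.B_spec hD
  obtain ⟨h2, -, -⟩ := h.B_spec hE
  intro Q
  obtain ⟨v, hv, hv0, h3⟩ := h1.attained Q
  have h4 : v ∈ h.V E := by
    refine RedDatum.redSub_mono ?_ hv
    intro f hf
    rw [mem_riemannRochSpace_iff] at hf ⊢
    intro P
    refine (hf P).imp id fun h5 => ?_
    have := hDE P
    omega
  have h5 := h2.le_ord h4 hv0 Q
  omega

theorem β_single (P : Place K F) : ∃ Q : Place k Fk,
    h.β (Finsupp.single P 1) = Finsupp.single Q 1 := by
  obtain ⟨D, hD, hED⟩ := h.exists_large (Finsupp.single P 1)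
  have h1 : D ≤ Finsupp.single P 1 + D := by
    intro P'
    classical
    rw [Finsupp.add_apply, Finsupp.single_apply]
    split_ifs <;> omega
  rw [h.β_eq hD hED]
  refine h.curve'.exists_eq_single ?_ ?_
  · intro Q
    have := h.B_mono hD h1 Q
    simp only [Finsupp.coe_zero, Pi.zero_apply, Finsupp.coe_sub, Pi.sub_apply]
    omega
  · rw [map_sub, (h.B_spec hD).2.2, (h.B_spec hED).2.2, map_add, h.curve.degree_single_one]
    ring

/-- the reduction of places. -/
def r (P : Place K F) : Place k Fk := (h.β_single P).choose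

theorem β_single_one (P : Place K F) :
    h.β (Finsupp.single P 1) = Finsupp.single (h.r P) 1 := (h.β_single P).choose_spec

theorem β_eq_mapDomain (E : Divisor K F) : h.β E = Finsupp.mapDomain h.r E := by
  have h1 : h.β = Finsupp.mapDomain.addMonoidHom h.r := by
    refine Finsupp.addHom_ext' fun P => ?_
    refine AddMonoidHom.ext_int ?_
    simp only [AddMonoidHom.comp_apply, Finsupp.singleAddHom_apply,
      Finsupp.mapDomain.addMonoidHom_apply, Finsupp.mapDomain_single]
    exact h.β_single_one P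
  rw [h1, Finsupp.mapDomain.addMonoidHom_apply]

/-- `L(E)` reduces onto `L(r_* E)`. -/
theorem exists_lift {E : Divisor K F} (hE : h.N₀ ≤ Divisor.degree E) {v : Fk}
    (hv : v ∈ riemannRochSpace (Finsupp.mapDomain h.r E)) :
    ∃ w ∈ riemannRochSpace E, R.Red w v := by
  rw [← h.β_eq_mapDomain, h.β_of_large hE, ← (h.B_spec hE).2.1] at hv
  exact hv

/-- Compatibility of the reduction of places with divisors of functions. -/
theorem placeRed : PlaceRed R h.r := by
  intro w u hwu hu D hD Q
  have hw0 : w ≠ 0 := RedDatum.ne_zero_of_red hwu hu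
  obtain ⟨Du, hDu, -⟩ := h.curve'.exists_divisor hu
  have hD0 : Divisor.degree D = 0 := by
    obtain ⟨D', hD', hD'0⟩ := h.curve.exists_divisor hw0
    have : D = D' := Finsupp.ext fun P => by rw [hD P, hD' P]
    rw [this, hD'0]
  obtain ⟨C, hC, -⟩ := h.exists_large 0
  have hC' : h.N₀ ≤ Divisor.degree (-D + C) := by rw [map_add, map_neg, hD0]; omega
  -- `B (C - D) = B C - div u`
  have key : h.B (-D + C) = h.B C - Du := by
    obtain ⟨h1, -, -⟩ := h.B_spec hC
    obtain ⟨h2, -, -⟩ := h.B_spec hC'
    refine h2.unique ⟨?_, fun Q => ?_⟩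
    · rintro v ⟨f, hf, hfv⟩
      by_cases hv0 : v = 0
      · rw [hv0]; exact Submodule.zero_mem _
      have hf0 : f ≠ 0 := RedDatum.ne_zero_of_red hfv hv0
      have h3 : v / u ∈ h.V C := by
        refine ⟨f / w, ?_, RedDatum.div h.surj_res hfv hwu hu⟩
        rw [mem_riemannRochSpace_iff]
        intro P
        right
        have h4 := ((mem_riemannRochSpace_iff.mp hf) P).resolve_left hf0
        simp only [Finsupp.coe_add, Finsupp.coe_neg, Pi.add_apply, Pi.neg_apply, hD P] at h4
        rw [div_eq_mul_inv, P.ord_mul hf0 (inv_ne_zero hw0), P.ord_inv]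
        omega
      rw [mem_riemannRochSpace_iff]
      intro Q'
      right
      have h4 := h1.le_ord h3 (div_ne_zero hv0 hu) Q'
      rw [div_eq_mul_inv, Q'.ord_mul hv0 (inv_ne_zero hu), Q'.ord_inv] at h4
      simp only [Finsupp.coe_sub, Pi.sub_apply, hDu Q']
      omega
    · obtain ⟨v, ⟨f, hf, hfv⟩, hv0, h3⟩ := h1.attained Q
      have hf0 : f ≠ 0 := RedDatum.ne_zero_of_red hfv hv0
      refine ⟨v * u, ⟨f * w, ?_, R.mul hfv hwu⟩, mul_ne_zero hv0 hu, ?_⟩
      · rw [mem_riemannRochSpace_iff]
        intro P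
        right
        have h4 := ((mem_riemannRochSpace_iff.mp hf) P).resolve_left hf0
        simp only [Finsupp.coe_add, Finsupp.coe_neg, Pi.add_apply, Pi.neg_apply, hD P]
        rw [P.ord_mul hf0 hw0]
        omega
      · rw [Q.ord_mul hv0 hu, h3]
        simp only [Finsupp.coe_sub, Pi.sub_apply, hDu Q]
        omega
  have h5 : h.β (-D) = -Du := by
    rw [h.β_eq hC hC', key]
    abel
  rw [map_neg, neg_inj, h.β_eq_mapDomain] at h5
  rw [h5, hDu Q]

end DeuringHyp

/-- `PlaceRed` determines the degree: a place reduction is surjective. -/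
theorem PlaceRed.surjective {r : Place K F → Place k Fk} (hr : PlaceRed R r)
    (hpd : ∀ w : F, w ≠ 0 → ∃ D : Divisor K F, ∀ P, D P = P.ord w)
    (hsurj : ∀ u : Fk, ∃ w, R.Red w u) : Function.Surjective r := by
  intro Q
  obtain ⟨u, hu⟩ := Fermat.FF.exists_ord_eq_one Q
  have hu0 : u ≠ 0 := Fermat.FF.ne_zero_of_ord_ne_zero Q (by omega)
  obtain ⟨w, hw⟩ := hsurj u
  obtain ⟨D, hD⟩ := hpd w (RedDatum.ne_zero_of_red hw hu0)
  by_contra hcon
  have h1 := hr w u hw hu0 D hD Q
  rw [Finsupp.mapDomain_of_notMem_range _ _ (by simpa using hcon), hu] at h1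
  exact zero_ne_one h1

/-- A place reduction is unique. -/
theorem DeuringHyp.placeRed_unique (h : DeuringHyp R g) {r : Place K F → Place k Fk}
    (hr : PlaceRed R r) : r = h.r := by
  classical
  funext P
  by_contra hne
  -- a large multiple of P
  set n : ℤ := h.N₀ + 1 with hn
  have h0 := h.N₀_nonneg
  set E : Divisor K F := Finsupp.single P n with hE
  have hdegE : h.N₀ ≤ Divisor.degree E := by
    rw [hE, h.curve.degree_single_one]
    omega
  obtain ⟨h1, h2, -⟩ := h.B_spec hdegE
  have hB : h.B E = Finsupp.single (h.r P) n := by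
    rw [← h.β_of_large hdegE, h.β_eq_mapDomain, hE, Finsupp.mapDomain_single]
  obtain ⟨v, ⟨w, hw, hwv⟩, hv0, hord⟩ := h1.attained (h.r P)
  rw [hB, Finsupp.single_eq_same] at hord
  have hw0 := RedDatum.ne_zero_of_red hwv hv0
  obtain ⟨D, hD, -⟩ := h.curve.exists_divisor hw0
  have h3 := hr w v hwv hv0 D hD (h.r P)
  rw [hord] at h3
  -- but `r_* D ≥ 0` at `h.r P`
  have h4 : 0 ≤ D + E := by
    intro P'
    have := ((mem_riemannRochSpace_iff.mp hw) P').resolve_left hw0
    simp only [Finsupp.coe_zero, Pi.zero_apply, Finsupp.coe_add, Pi.add_apply, hD P']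
    omega
  have h5 : 0 ≤ Finsupp.mapDomain r (D + E) (h.r P) := by
    have : ∀ (C : Divisor K F), 0 ≤ C → ∀ Q, 0 ≤ Finsupp.mapDomain r C Q := by
      intro C hC Q
      rw [Finsupp.mapDomain, Finsupp.sum_apply, Finsupp.sum]
      refine Finset.sum_nonneg fun P' _ => ?_
      rw [Finsupp.single_apply]
      have := hC P'
      simp only [Finsupp.coe_zero, Pi.zero_apply] at this
      split_ifs <;> omega
    exact this _ h4 _
  rw [Finsupp.mapDomain_add, Finsupp.add_apply, h3, hE, Finsupp.mapDomain_single,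
    Finsupp.single_eq_of_ne (Ne.symm hne)] at h5
  omega

/-- Summary: existence, surjectivity of the place reduction and lifting of sections. -/
theorem DeuringHyp.exists_placeRed (h : DeuringHyp R g) :
    ∃ r : Place K F → Place k Fk, PlaceRed R r ∧ Function.Surjective r ∧
      (∀ P, (r P).deg = P.deg) ∧
      (∀ r', PlaceRed R r' → r' = r) ∧
      ∃ N : ℤ, ∀ E : Divisor K F, N ≤ Divisor.degree E →
        ∀ v ∈ riemannRochSpace (Finsupp.mapDomain r E), ∃ w ∈ riemannRochSpace E, R.Red w v :=
  ⟨h.r, h.placeRed,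
    PlaceRed.surjective h.placeRed
      (fun _ hw => (h.curve.exists_divisor hw).imp fun _ hD => hD.1) h.surj_red,
    fun P => by rw [h.curve.deg_eq_one, h.curve'.deg_eq_one],
    fun _ hr' => h.placeRed_unique hr',
    h.N₀, fun _ hE _ hv => h.exists_lift hE hv⟩

end Deuring

end Fermat.Agent.JRED
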