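import Mathlib
import Fermat.Agent.FF.Line

/-!
# Separability of `F / k(x)` from a derivation not killing `x`
-/

set_option autoImplicit false

noncomputable section

open IntermediateField KaehlerDifferential

namespace Fermat.Agent.JRED.SeparableTheta

variable {k F : Type*} [Field k] [Field F] [Algebra k F]

/-- The kernel of a derivation is an intermediate field. -/
def derKer {M : Type*} [AddCommGroup M] [Module F M] [Module k M]
    [IsScalarTower k F M] (D : Derivation k F M) : IntermediateField k F where
  carrier := {z | D z = 0}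
  mul_mem' := fun {a b} ha hb => by
    show D (a * b) = 0
    rw [Derivation.leibniz, show D a = 0 from ha, show D b = 0 from hb, smul_zero, smul_zero, add_zero]
  add_mem' := fun {a b} ha hb => by
    show D (a + b) = 0
    rw [map_add, show D a = 0 from ha, show D b = 0 from hb, add_zero]
  algebraMap_mem' := fun r => D.map_algebraMap r
  inv_mem' := fun a ha => by
    show D a⁻¹ = 0
    rw [Derivation.leibniz_inv, show D a = 0 from ha, smul_zero]

theorem mem_derKer {M : Type*} [AddCommGroup M] [Module F M] [Module k M]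
    [IsScalarTower k F M] (D : Derivation k F M) (z : F) : z ∈ derKer D ↔ D z = 0 := Iff.rfl

theorem derivation_eq_zero {M : Type*} [AddCommGroup M] [Module F M] [Module k M]
    [IsScalarTower k F M] (D : Derivation k F M) {t : F} (ht : D t = 0)
    [Algebra.IsSeparable k⟮t⟯ F] : D = 0 := by
  have hle : k⟮t⟯ ≤ derKer D := by
    rw [adjoin_simple_le_iff]
    exact ht
  let D' : Derivation k⟮t⟯ F M :=
    { toLinearMap :=
        { toFun := D
          map_add' := map_add D
          map_smul' := fun a b => by
            show D (a • b) = (algebraMap k⟮t⟯ F a) • D b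
            rw [Algebra.smul_def, Derivation.leibniz, show D (algebraMap k⟮t⟯ F a) = 0 from hle a.2,
              smul_zero, add_zero] }
      map_one_eq_zero' := D.map_one_eq_zero
      leibniz' := D.leibniz }
  have hunr : Algebra.FormallyUnramified k⟮t⟯ F := Algebra.FormallyUnramified.of_isSeparable _ _
  have hD' : D' = 0 := by
    ext z
    have h1 := Derivation.liftKaehlerDifferential_comp_D D' z
    rw [← h1, Subsingleton.elim (KaehlerDifferential.D k⟮t⟯ F z) 0, map_zero]
    rfl
  ext z
  have := congrArg (fun E : Derivation k⟮t⟯ F M => E z) hD'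
  exact this

variable [PerfectField k]

theorem exists_separating [h : Fermat.FF.IsFF1 k F] :
    ∃ t : F, Algebra.IsSeparable k⟮t⟯ F := by
  have h1 := Fermat.FF.IsFF1.essFiniteType k F
  obtain ⟨s, hs, hsep⟩ := exists_isTranscendenceBasis_and_isSeparable_of_perfectField k F
  have h2 := hs.lift_cardinalMk_eq_trdeg
  rw [Fermat.FF.IsFF1.trdeg_eq_one k F] at h2
  have h3 : s.card = 1 := by
    simpa using h2
  obtain ⟨t, rfl⟩ := Finset.card_eq_one.mp h3
  rw [Finset.coe_singleton] at hsep
  exact ⟨t, hsep⟩

/-- Let `F/k` be a function field of one variable over a perfect field and `D` a derivation with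
`D x ≠ 0`.  Then `F/k(x)` is separable. -/
theorem isSeparable_of_derivation [Fermat.FF.IsFF1 k F] {M : Type*} [AddCommGroup M] [Module F M]
    [Module k M] [IsScalarTower k F M] (D₀ : Derivation k F M) {x : F} (hx : D₀ x ≠ 0) :
    Algebra.IsSeparable k⟮x⟯ F := by
  obtain ⟨t, ht⟩ := exists_separating (k := k) (F := F)
  -- `Ω` is spanned by `dt`
  have hspan : Submodule.span F {D k F t} = ⊤ := by
    let Q := Ω[F⁄k] ⧸ Submodule.span F {D k F t}
    let E : Derivation k F Q := (Submodule.span F {D k F t}).mkQ.compDer (D k F)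
    have hE : E = 0 := by
      refine derivation_eq_zero E (t := t) ?_
      show (Submodule.span F {D k F t}).mkQ (D k F t) = 0
      rw [Submodule.mkQ_apply, Submodule.Quotient.mk_eq_zero]
      exact Submodule.mem_span_singleton_self _
    rw [eq_top_iff, ← KaehlerDifferential.span_range_derivation k F, Submodule.span_le]
    rintro _ ⟨z, rfl⟩
    have h2 : E z = 0 := by rw [hE]; rfl
    have h3 : (Submodule.span F {D k F t}).mkQ (D k F z) = 0 := h2
    rw [Submodule.mkQ_apply, Submodule.Quotient.mk_eq_zero] at h3
    exact h3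
  have hdx : D k F x ≠ 0 := by
    intro h0
    apply hx
    rw [← Derivation.liftKaehlerDifferential_comp_D D₀ x, h0, map_zero]
  -- `Ω` is spanned by `dx`
  have hspan' : ∀ ω : Ω[F⁄k], ∃ f : F, f • D k F x = ω := by
    intro ω
    obtain ⟨g, hg⟩ := Submodule.mem_span_singleton.mp (hspan ▸ Submodule.mem_top : D k F x ∈ _)
    obtain ⟨f, hf⟩ := Submodule.mem_span_singleton.mp (hspan ▸ Submodule.mem_top : ω ∈ _)
    have hg0 : g ≠ 0 := by
      rintro rfl
      exact hdx (by rw [← hg, zero_smul])
    exact ⟨f * g⁻¹, by rw [← hg, smul_smul, mul_assoc, inv_mul_cancel₀ hg0, mul_one, hf]⟩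
  have hsub : Subsingleton Ω[F⁄k⟮x⟯] := by
    have key : ∀ ω : Ω[F⁄k⟮x⟯], ω = 0 := by
      intro ω
      obtain ⟨η, rfl⟩ := KaehlerDifferential.map_surjective k k⟮x⟯ F ω
      obtain ⟨f, hf⟩ := hspan' η
      rw [← hf, map_smul, KaehlerDifferential.map_D]
      have h1 : D k⟮x⟯ F (algebraMap F F x) = 0 :=
        Derivation.map_algebraMap (D k⟮x⟯ F) (AdjoinSimple.gen k x)
      rw [h1, smul_zero]
    exact ⟨fun a b => by rw [key a, key b]⟩
  have h1 : Algebra.FormallyUnramified k⟮x⟯ F := ⟨hsub⟩
  have h3 := Fermat.FF.IsFF1.essFiniteType k F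
  have h2 : Algebra.EssFiniteType k⟮x⟯ F := Algebra.EssFiniteType.of_comp k k⟮x⟯ F
  exact Algebra.FormallyUnramified.isSeparable k⟮x⟯ F

end Fermat.Agent.JRED.SeparableTheta
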